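import Fermat.Agent.S42.Cyclo
import Fermat.Agent.S31.Cyclo

/-!
# RT-K7F / FL-TW — the character of the twist (helper81)

`c_M = S42.cycloChar M : G_ℚ →* (ℤ/M)ˣ` is the cyclotomic character mod `M`
(`σ ζ = ζ ^ c_M(σ)` for `ζ ∈ μ_M`, `S42.cycloChar_spec`), and the character of the twist is
`χ = k7ftwChar M e = c_M ^ e`.

* `k7ftw_natCast_not_mem_nonunits` : `n` is a unit at a valuation subring over a prime `ℓ ∤ n`;
* `k7ftw_cyc_frob`, `k7ftw_cyc_frob_unit`, `k7ftw_char_frob` : `c_M(τ) = ℓ`, `χ(τ) = ℓ ^ e` for a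
  Frobenius `τ` at a valuation subring over a prime `ℓ ∤ M`;
* `k7ftw_cyc_inertia`, `k7ftw_char_inertia` : `c_M` and `χ` are trivial on the inertia groups at
  the primes `ℓ ∤ M`;
* `k7ftw_cyc_openKer`, `k7ftw_char_openKer` : `c_M` and `χ` are trivial on `Gal(ℚ̄ / ℚ(ζ_M))`.
-/

set_option autoImplicit false

noncomputable section

namespace Fermat.Agent.RT.K7F

open Fermat.Agent.ES Fermat.Agent.S42

/-- a natural number prime to the residue characteristic is a unit of the valuation ring -/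
theorem k7ftw_natCast_not_mem_nonunits (A : ValuationSubring (AlgebraicClosure ℚ)) {n ℓ : ℕ}
    (hℓ : ℓ.Prime) (hn : ¬ ℓ ∣ n) (hA : A.LiesOverPrime ℓ) :
    ((n : ℕ) : AlgebraicClosure ℚ) ∉ A.nonunits := by
  intro h
  have hcop : Nat.Coprime n ℓ := ((Nat.Prime.coprime_iff_not_dvd hℓ).mpr hn).symm
  obtain ⟨u, v, huv⟩ := Nat.Coprime.isCoprime hcop
  have h1 : ((u : AlgebraicClosure ℚ) * ((n : ℕ) : AlgebraicClosure ℚ)
      + (v : AlgebraicClosure ℚ) * (ℓ : AlgebraicClosure ℚ)) = 1 := by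
    have := congrArg (fun z : ℤ => (z : AlgebraicClosure ℚ)) huv
    simpa using this
  have hu : (u : AlgebraicClosure ℚ) ∈ A := intCast_mem A u
  have hv : (v : AlgebraicClosure ℚ) ∈ A := intCast_mem A v
  have hℓA : (ℓ : AlgebraicClosure ℚ) ∈ A.nonunits := hA
  have h2 : ((u : AlgebraicClosure ℚ) * ((n : ℕ) : AlgebraicClosure ℚ)
      + (v : AlgebraicClosure ℚ) * (ℓ : AlgebraicClosure ℚ)) ∈ A.nonunits := by
    rw [ValuationSubring.mem_nonunits_iff] at h hℓA ⊢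
    apply Valuation.map_add_lt
    · rw [map_mul]
      calc A.valuation (u : AlgebraicClosure ℚ) * A.valuation ((n : ℕ) : AlgebraicClosure ℚ)
          ≤ 1 * A.valuation ((n : ℕ) : AlgebraicClosure ℚ) :=
            mul_le_mul_left ((A.valuation_le_one_iff _).mpr hu) _
        _ = A.valuation ((n : ℕ) : AlgebraicClosure ℚ) := one_mul _
        _ < 1 := h
    · rw [map_mul]
      calc A.valuation (v : AlgebraicClosure ℚ) * A.valuation (ℓ : AlgebraicClosure ℚ)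
          ≤ 1 * A.valuation (ℓ : AlgebraicClosure ℚ) :=
            mul_le_mul_left ((A.valuation_le_one_iff _).mpr hv) _
        _ = A.valuation (ℓ : AlgebraicClosure ℚ) := one_mul _
        _ < 1 := hℓA
  rw [h1, ValuationSubring.mem_nonunits_iff, map_one] at h2
  exact lt_irrefl _ h2

variable (M : ℕ) [NeZero M]

/-- **the character of the twist** `χ = c_M ^ e`, `c_M` the cyclotomic character mod `M` -/
def k7ftwChar (e : ℕ) : GQ →* (ZMod M)ˣ := cycloChar M ^ e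

theorem k7ftwChar_apply (e : ℕ) (σ : GQ) : k7ftwChar M e σ = cycloChar M σ ^ e := rfl

theorem k7ftwChar_eq_pow (e : ℕ) : k7ftwChar M e = cycloChar M ^ e := rfl

theorem k7ftwChar_one_eq : k7ftwChar M 1 = cycloChar M := by
  ext σ
  rw [k7ftwChar_apply, pow_one]

/-- `c_M(τ) = ℓ` for a Frobenius `τ` at a valuation subring over a prime `ℓ ∤ M` -/
theorem k7ftw_cyc_frob {ℓ : ℕ} (hℓ : ℓ.Prime) (hℓM : ¬ ℓ ∣ M)
    (A : ValuationSubring (AlgebraicClosure ℚ)) (hA : A.LiesOverPrime ℓ) (τ : GQ)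
    (hτ : A.IsFrobeniusAt τ ℓ) :
    ((cycloChar M τ : (ZMod M)ˣ) : ZMod M) = (ℓ : ZMod M) := by
  have : NeZero (M : AlgebraicClosure ℚ) := ⟨Nat.cast_ne_zero.mpr (NeZero.ne M)⟩
  obtain ⟨ζ, hζ⟩ := HasEnoughRootsOfUnity.exists_primitiveRoot (AlgebraicClosure ℚ) M
  have hfrob : τ ζ = ζ ^ ℓ :=
    Fermat.Agent.S31.frob_rootOfUnity A (k7ftw_natCast_not_mem_nonunits A hℓ hℓM hA)
      (NeZero.ne M) hτ hζ.pow_eq_one
  have hspec := cycloChar_spec M τ hζ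
  rw [hfrob] at hspec
  have hfo : IsOfFinOrder ζ :=
    isOfFinOrder_iff_pow_eq_one.mpr ⟨M, Nat.pos_of_ne_zero (NeZero.ne M), hζ.pow_eq_one⟩
  have hmod : ℓ ≡ ((cycloChar M τ : (ZMod M)ˣ) : ZMod M).val [MOD M] := by
    have := hfo.pow_eq_pow_iff_modEq (n := ℓ)
      (m := ((cycloChar M τ : (ZMod M)ˣ) : ZMod M).val)
    rw [← hζ.eq_orderOf] at this
    exact this.mp hspec
  have h3 := (ZMod.natCast_eq_natCast_iff _ _ _).mpr hmod
  rw [ZMod.natCast_zmod_val] at h3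
  exact h3.symm

/-- `c_M(τ) = c` for a Frobenius `τ` at a prime `ℓ ∤ M`, `c` the class of `ℓ` -/
theorem k7ftw_cyc_frob_unit {ℓ : ℕ} (hℓ : ℓ.Prime) (hℓM : ¬ ℓ ∣ M)
    (c : (ZMod M)ˣ) (hc : (c : ZMod M) = (ℓ : ZMod M))
    (A : ValuationSubring (AlgebraicClosure ℚ)) (hA : A.LiesOverPrime ℓ) (τ : GQ)
    (hτ : A.IsFrobeniusAt τ ℓ) : cycloChar M τ = c :=
  Units.ext ((k7ftw_cyc_frob M hℓ hℓM A hA τ hτ).trans hc.symm)

/-- `χ(τ) = c ^ e` for a Frobenius `τ` at a prime `ℓ ∤ M`, `c` the class of `ℓ` -/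
theorem k7ftw_char_frob (e : ℕ) {ℓ : ℕ} (hℓ : ℓ.Prime) (hℓM : ¬ ℓ ∣ M)
    (c : (ZMod M)ˣ) (hc : (c : ZMod M) = (ℓ : ZMod M))
    (A : ValuationSubring (AlgebraicClosure ℚ)) (hA : A.LiesOverPrime ℓ) (τ : GQ)
    (hτ : A.IsFrobeniusAt τ ℓ) : k7ftwChar M e τ = c ^ e := by
  rw [k7ftwChar_apply, k7ftw_cyc_frob_unit M hℓ hℓM c hc A hA τ hτ]

/-- `c_M` is trivial on the inertia groups at the primes `ℓ ∤ M` -/
theorem k7ftw_cyc_inertia {ℓ : ℕ} (hℓ : ℓ.Prime) (hℓM : ¬ ℓ ∣ M)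
    (A : ValuationSubring (AlgebraicClosure ℚ)) (hA : A.LiesOverPrime ℓ) (σ : GQ)
    (hσ : σ ∈ A.inertiaSubgroupIn ℚ) : cycloChar M σ = 1 := by
  have : NeZero (M : AlgebraicClosure ℚ) := ⟨Nat.cast_ne_zero.mpr (NeZero.ne M)⟩
  obtain ⟨ζ, hζ⟩ := HasEnoughRootsOfUnity.exists_primitiveRoot (AlgebraicClosure ℚ) M
  exact cycloChar_eq_one M σ hζ
    (Fermat.Agent.S31.inertia_rootOfUnity A (k7ftw_natCast_not_mem_nonunits A hℓ hℓM hA)
      (NeZero.ne M) hσ hζ.pow_eq_one)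

/-- `χ` is trivial on the inertia groups at the primes `ℓ ∤ M` -/
theorem k7ftw_char_inertia (e : ℕ) {ℓ : ℕ} (hℓ : ℓ.Prime) (hℓM : ¬ ℓ ∣ M)
    (A : ValuationSubring (AlgebraicClosure ℚ)) (hA : A.LiesOverPrime ℓ) (σ : GQ)
    (hσ : σ ∈ A.inertiaSubgroupIn ℚ) : k7ftwChar M e σ = 1 := by
  rw [k7ftwChar_apply, k7ftw_cyc_inertia M hℓ hℓM A hA σ hσ, one_pow]

/-- `c_M` has open kernel: it is trivial on `Gal(ℚ̄ / ℚ(ζ_M))` -/
theorem k7ftw_cyc_openKer :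
    ∃ E : IntermediateField ℚ (AlgebraicClosure ℚ), FiniteDimensional ℚ E ∧
      ∀ σ : GQ, (∀ a ∈ E, σ a = a) → cycloChar M σ = 1 := by
  have : NeZero (M : AlgebraicClosure ℚ) := ⟨Nat.cast_ne_zero.mpr (NeZero.ne M)⟩
  obtain ⟨ζ, hζ⟩ := HasEnoughRootsOfUnity.exists_primitiveRoot (AlgebraicClosure ℚ) M
  have hint : IsIntegral ℚ ζ :=
    (hζ.isIntegral (Nat.pos_of_ne_zero (NeZero.ne M))).tower_top
  refine ⟨IntermediateField.adjoin ℚ {ζ}, IntermediateField.adjoin.finiteDimensional hint,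
    fun σ hσ => ?_⟩
  exact cycloChar_eq_one M σ hζ (hσ ζ (IntermediateField.mem_adjoin_simple_self ℚ ζ))

/-- `χ` has open kernel -/
theorem k7ftw_char_openKer (e : ℕ) :
    ∃ E : IntermediateField ℚ (AlgebraicClosure ℚ), FiniteDimensional ℚ E ∧
      ∀ σ : GQ, (∀ a ∈ E, σ a = a) → k7ftwChar M e σ = 1 := by
  obtain ⟨E, hE, h⟩ := k7ftw_cyc_openKer M
  exact ⟨E, hE, fun σ hσ => by rw [k7ftwChar_apply, h σ hσ, one_pow]⟩

/-- the action of `σ` on `μ_M` is `ζ ↦ ζ ^ c_M(σ)` (all `M`-th roots of unity) -/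
theorem k7ftw_cyc_spec (σ : GQ) {ζ : AlgebraicClosure ℚ} (hζ : ζ ^ M = 1) :
    σ ζ = ζ ^ ((cycloChar M σ : (ZMod M)ˣ) : ZMod M).val := by
  have : NeZero (M : AlgebraicClosure ℚ) := ⟨Nat.cast_ne_zero.mpr (NeZero.ne M)⟩
  obtain ⟨ξ, hξ⟩ := HasEnoughRootsOfUnity.exists_primitiveRoot (AlgebraicClosure ℚ) M
  obtain ⟨i, -, rfl⟩ := hξ.eq_pow_of_pow_eq_one hζ
  rw [map_pow, cycloChar_spec M σ hξ, ← pow_mul, ← pow_mul, mul_comm]

end Fermat.Agent.RT.K7F
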