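import Fermat.Agent.RT.K7F.Plan
import Fermat.Agent.RT.K7F.TwChar

/-!
# RT-K7F / FL-TW — the twist by `χ = c_M ^ e` (helper81)

`χ = k7ftwChar M e = c_M ^ e` (`RT/K7F/TwChar.lean`), `JHtw L M H χ` the twisted module of
`RT/K7F/Plan.lean`.

* `k7ftw_isTwistChar`, `k7ftw_isTwistChar_of_level` : **`IsTwistChar A χ`** for `A` over a prime
  `p ∤ M` (inertia at `p` acts trivially on `μ_M`; `χ` is trivial on `Gal(ℚ̄ / ℚ(ζ_M))`);
* `k7ftw_isDiamondH_one`, `k7ftw_diamond_of_mem_pmH` : the diamond `⟨c⟩` of a class `c ∈ ±H` is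
  the identity of `J_H`;
* `k7ftw_diamond_pow` : `⟨c⟩ ^ n = ⟨c ^ n⟩`; `k7ftw_diamond_pow_eq` : `⟨c⟩ ^ n = 1` if
  `c ^ n ∈ ±H`;
* `k7ftw_smul_frob` : the twisted action of a Frobenius `τ` at `ℓ ∤ M`:
  `τ •_χ x = ⟨ℓ⟩ ^ e (τ • x)`;
* `k7ftw_smul_inertia` : the twisted action of the inertia groups at the primes `ℓ ∤ M` is the
  plain action;
* `k7ftw_smul_of_fixed` : the twisted action of `Gal(ℚ̄ / ℚ(ζ_M))` is the plain action;
* `k7ftw_frob_rel` : **the twisted Eichler–Shimura relation**, abstract form: if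
  `D (τ (τ x)) − T (τ x) + ℓ x = 0` (`D = ⟨ℓ⟩`), `D`, `T`, `τ` commute and `D ^ (2 e − 1) = 1`,
  `e ≥ 1`, then `τ' (τ' x) − T' (τ' x) + ℓ x = 0` for `τ' = D ^ e τ`, `T' = D ^ (e − 1) T`.
-/

set_option autoImplicit false
set_option linter.unusedSectionVars false

noncomputable section

namespace Fermat.Agent.RT.K7F

open AlgebraicCurve Module ModularCurve HahnSeries
open Fermat.Agent.ES Fermat.Agent.ES1 Fermat.Agent.ES1.G2 Fermat.Agent.S24 Fermat.Agent.S42

/-! ## `IsTwistChar` -/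

/-- **FL-TW (a)**: `χ = c_M ^ e` is a twist character at every valuation subring over a prime
`p ∤ M`. -/
theorem k7ftw_isTwistChar (M : ℕ) [NeZero M] (e : ℕ) {p : ℕ} (hp : p.Prime) (hpM : ¬ p ∣ M)
    (A : ValuationSubring Kb) (hA : A.LiesOverPrime p) : IsTwistChar A (k7ftwChar M e) where
  inertia := fun σ hσ => k7ftw_char_inertia M e hp hpM A hA σ hσ
  open_ker := k7ftw_char_openKer M e

theorem k7ftw_level_neZero {L M : ℕ} {H : Subgroup (ZMod M)ˣ} {p : ℕ}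
    (h : K7FLevel L M H p) : NeZero M :=
  ⟨fun h0 => by
    have hL0 : L = 0 := Nat.eq_zero_of_zero_dvd (h0 ▸ h.hML)
    have := h.hL
    omega⟩

theorem k7ftw_level_not_dvd {L M : ℕ} {H : Subgroup (ZMod M)ˣ} {p : ℕ}
    (h : K7FLevel L M H p) : ¬ p ∣ M :=
  fun hpM => h.hpL (hpM.trans h.hML)

/-- **FL-TW (a)** under the standing hypotheses of K7-FLAT. -/
theorem k7ftw_isTwistChar_of_level {L M : ℕ} [NeZero M] {H : Subgroup (ZMod M)ˣ} {p : ℕ}
    (h : K7FLevel L M H p) (e : ℕ) (A : ValuationSubring Kb) (hA : A.LiesOverPrime p) :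
    IsTwistChar A (k7ftwChar M e) :=
  k7ftw_isTwistChar M e h.hp (k7ftw_level_not_dvd h) A hA

/-! ## The diamonds of the classes in `±H` -/

section Diamond

variable {L M : ℕ} {H : Subgroup (ZMod M)ˣ}

/-- the identity is the diamond of every class in `±H` -/
theorem k7ftw_isDiamondH_one {c : (ZMod M)ˣ} (hc : c ∈ pmH H) :
    IsDiamondH L M H c (1 : fieldBar L M H ≃ₐ[QbH] fieldBar L M H) where
  fix_j := fun _ _ _ _ _ => rfl
  map_s := fun e _ a _ x hx => by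
    rw [es1f_sS_eq_of_inPM QbH (es1rc_inPM_mul_of_mem (H := H) a hc)]
    exact hx

/-- **the diamond of a class in `±H` is the identity of `J_H`** -/
theorem k7ftw_diamond_of_mem_pmH {c : (ZMod M)ˣ} (hc : c ∈ pmH H) (x : JH L M H) :
    es1Diamond L M H c x = x := by
  rw [es1Diamond_eq (k7ftw_isDiamondH_one hc), diamondJ_apply, map_one, one_smul]

/-- `⟨c⟩ ^ n = ⟨c ^ n⟩` -/
theorem k7ftw_diamond_pow (hL : L ≠ 0) (hML : M ∣ L) (c : (ZMod M)ˣ) (n : ℕ) (x : JH L M H) :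
    (es1Diamond L M H c)^[n] x = es1Diamond L M H (c ^ n) x := by
  induction n generalizing x with
  | zero => rw [Function.iterate_zero, id, pow_zero, diamb_diamond_one]
  | succ n ih =>
    rw [Function.iterate_succ_apply', ih, pow_succ', diamb_diamond_mul k7f_diamondBar hL hML]

/-- `⟨c⟩ ^ n = 1` if `c ^ n ∈ ±H` -/
theorem k7ftw_diamond_pow_eq (hL : L ≠ 0) (hML : M ∣ L) (c : (ZMod M)ˣ) (n : ℕ)
    (hc : c ^ n ∈ pmH H) (x : JH L M H) : (es1Diamond L M H c)^[n] x = x := by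
  rw [k7ftw_diamond_pow hL hML, k7ftw_diamond_of_mem_pmH hc]

/-- the diamonds commute -/
theorem k7ftw_diamond_comm (hL : L ≠ 0) (hML : M ∣ L) (c d : (ZMod M)ˣ) (x : JH L M H) :
    es1Diamond L M H c (es1Diamond L M H d x) = es1Diamond L M H d (es1Diamond L M H c x) := by
  rw [← diamb_diamond_mul k7f_diamondBar hL hML, ← diamb_diamond_mul k7f_diamondBar hL hML,
    mul_comm]

end Diamond

/-! ## The twisted action at Frobenius and inertia -/

section Action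

variable {L M : ℕ} [NeZero M] {H : Subgroup (ZMod M)ˣ}

/-- the twisted action of a Frobenius at `ℓ ∤ M`: `τ •_χ x = ⟨ℓ ^ e⟩ (τ • x)` -/
theorem k7ftw_smul_frob (hL : L ≠ 0) (hML : M ∣ L) (e : ℕ) {ℓ : ℕ} (hℓ : ℓ.Prime)
    (hℓM : ¬ ℓ ∣ M) (c : (ZMod M)ˣ) (hc : (c : ZMod M) = (ℓ : ZMod M))
    (A : ValuationSubring Kb) (hA : A.LiesOverPrime ℓ) (τ : K7GQ) (hτ : A.IsFrobeniusAt τ ℓ)
    (x : JHtw L M H (k7ftwChar M e)) :
    ofTw L M H (k7ftwChar M e) (τ • x)
      = es1Diamond L M H (c ^ e) (τ • ofTw L M H (k7ftwChar M e) x) := by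
  rw [tw_smul_eq L M H (k7ftwChar M e) hL hML, k7ftw_char_frob M e hℓ hℓM c hc A hA τ hτ]

/-- the twisted action of the inertia groups at the primes `ℓ ∤ M` is the plain action -/
theorem k7ftw_smul_inertia (e : ℕ) {ℓ : ℕ} (hℓ : ℓ.Prime) (hℓM : ¬ ℓ ∣ M)
    (A : ValuationSubring Kb) (hA : A.LiesOverPrime ℓ) (σ : K7GQ)
    (hσ : σ ∈ A.inertiaSubgroupIn ℚ) (x : JHtw L M H (k7ftwChar M e)) :
    ofTw L M H (k7ftwChar M e) (σ • x) = σ • ofTw L M H (k7ftwChar M e) x :=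
  tw_smul_eq_of_one L M H (k7ftwChar M e) (k7ftw_char_inertia M e hℓ hℓM A hA σ hσ) x

/-- there is a number field `E` such that the twisted action of `Gal(ℚ̄ / E)` is the plain
action -/
theorem k7ftw_smul_of_fixed (L : ℕ) (H : Subgroup (ZMod M)ˣ) (e : ℕ) :
    ∃ E : IntermediateField ℚ (AlgebraicClosure ℚ), FiniteDimensional ℚ E ∧
      ∀ σ : K7GQ, (∀ a ∈ E, σ a = a) → ∀ x : JHtw L M H (k7ftwChar M e),
        ofTw L M H (k7ftwChar M e) (σ • x) = σ • ofTw L M H (k7ftwChar M e) x := by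
  obtain ⟨E, hE, h⟩ := k7ftw_char_openKer M e
  exact ⟨E, hE, fun σ hσ x => tw_smul_eq_of_one L M H (k7ftwChar M e) (h σ hσ) x⟩

end Action

/-! ## The twisted Eichler–Shimura relation, abstract form -/

/-- **the twisted Eichler–Shimura relation** (abstract form): from `D τ² − T τ + ℓ = 0` at `x`
with commuting additive maps `D`, `T`, `τ` and `D ^ (2 e − 1) = 1`, `e ≥ 1`, the relation
`τ'² − T' τ' + ℓ = 0` at `x` for `τ' = D ^ e τ` and `T' = D ^ (e − 1) T`. -/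
theorem k7ftw_frob_rel {J : Type*} [AddCommGroup J] (D T τ : J →+ J)
    (hDτ : ∀ y, D (τ y) = τ (D y)) (hDT : ∀ y, D (T y) = T (D y)) (e : ℕ) (he : 1 ≤ e)
    (hD : ∀ y, D^[2 * e - 1] y = y) (ℓ : ℕ) (x : J)
    (hx : D (τ (τ x)) - T (τ x) + ℓ • x = 0) :
    D^[e] (τ (D^[e] (τ x))) - D^[e - 1] (T (D^[e] (τ x))) + ℓ • x = 0 := by
  have hDτn : ∀ (n : ℕ) (y : J), D^[n] (τ y) = τ (D^[n] y) := by
    intro n
    induction n with
    | zero => intro y; rfl
    | succ n ih =>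
      intro y
      rw [Function.iterate_succ_apply', ih, hDτ, ← Function.iterate_succ_apply' D n y]
  have hDTn : ∀ (n : ℕ) (y : J), D^[n] (T y) = T (D^[n] y) := by
    intro n
    induction n with
    | zero => intro y; rfl
    | succ n ih =>
      intro y
      rw [Function.iterate_succ_apply', ih, hDT, ← Function.iterate_succ_apply' D n y]
  have h1 : D^[e] (τ (D^[e] (τ x))) = D (τ (τ x)) := by
    rw [← hDτn e (τ x), ← Function.iterate_add_apply,
      show e + e = (2 * e - 1) + 1 by omega, Function.iterate_add_apply,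
      Function.iterate_one, hD]
  have h2 : D^[e - 1] (T (D^[e] (τ x))) = T (τ x) := by
    rw [← hDTn e (τ x), ← Function.iterate_add_apply,
      show e - 1 + e = 2 * e - 1 by omega, hD]
  rw [h1, h2, hx]

end Fermat.Agent.RT.K7F
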