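import Fermat.Agent.W1.PlanGeo4
import Fermat.Agent.W1.PlanGL
import Fermat.Agent.DEU.Main1
import Fermat.Agent.ES.M.Plan
import Fermat.Agent.ES1.G2.DiamBar
import Fermat.Agent.ES1.Conj

/-!
# RT-K7F — FLAT at `p` for the Taylor–Wiles levels: the interface (sub-captain helper34)

Piece table: `NOTES/RT-K7F.md`.  `K = ℚ̄`, `A ⊂ ℚ̄` a valuation ring over `p`, `k = kA A`,
`M ∣ L`, `p ∤ L`, `H ≤ (ℤ/M)ˣ`, `F_H = ES1.fieldBar L M H`, `F̄_H = ES1.fieldC k L M H`,
`J_H = ES1.JH L M H`, `Δ = (ℤ/M)ˣ/±H`, `d = |Δ|`.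

* `K7FLevel L M H p` : the standing hypotheses;
* `k7fGenus L d` : `1 + d (g₀ - 1)`, `g₀ = gN L`;
* `GaussRedH`, `GaussIntH`, `StmtRedFH` : Gauss valuation of `F_H`, fraction form (twins of
  `ES.M.GaussRed`, `GaussInt`, `StmtRedF`);
* `JHtw L M H χ` : `J_H` with the TWISTED Galois action `σ •_χ x = ⟨χ σ⟩ (σ • x)`
  (`χ : G_ℚ →* (ℤ/M)ˣ`), a `DistribMulAction` (**FL-TW**, proved here);
* `ModPRH` : the reduction package of `X_H(L; M)` at `A` (twin of `W1.ModPR`, with the extra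
  field `diam` for the diamonds);
* the Props of the pieces and the final statement `StmtFlatH`.
-/

set_option autoImplicit false
set_option linter.unusedSectionVars false
set_option synthInstance.maxHeartbeats 400000
set_option maxHeartbeats 1600000

noncomputable section

namespace Fermat.Agent.RT.K7F

open AlgebraicCurve Module ModularCurve HahnSeries
open Fermat.Agent.ES Fermat.Agent.ES.M Fermat.Agent.ES1 Fermat.Agent.ES1.G2 Fermat.Agent.W1
  Fermat.Agent.S24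

/-- `G_ℚ` -/
abbrev K7GQ : Type := AlgebraicClosure ℚ ≃ₐ[ℚ] AlgebraicClosure ℚ

/-! ## Standing hypotheses -/

/-- **The standing hypotheses of K7-FLAT**: `M ∣ L`, `p ∤ L` odd, `M` squarefree, `Δ` a
`p`-group, and `2 ∣ L` if `p = 3` (so that `X_H(L; M) → X₀(L)` is unramified). -/
structure K7FLevel (L M : ℕ) (H : Subgroup (ZMod M)ˣ) (p : ℕ) : Prop where
  hL : 2 ≤ L
  hML : M ∣ L
  hp : p.Prime
  hp2 : p ≠ 2
  hpL : ¬ p ∣ L
  h5 : 5 ≤ p ∨ (5 - p) ∣ L
  sqfree : Squarefree M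
  pgroup : ∀ (m : ℕ) (a : Fin (m + 1) → (ZMod M)ˣ), IsRepFam H a → ∃ k : ℕ, m + 1 = p ^ k

/-- the genus of `X_H(L; M)` when `X_H(L; M) → X₀(L)` is unramified of degree `d` -/
def k7fGenus (L d : ℕ) : ℕ := ((d : ℤ) * ((gN L : ℤ) - 1) + 1).toNat

/-! ## Gauss valuation of `F_H`, fraction form -/

section Gauss

variable (L M : ℕ) (H : Subgroup (ZMod M)ˣ) (A : ValuationSubring Kb)

/-- `x = Y₁ / Y₂` with `A`-integral `Y₁, Y₂ ∈ F_H`, `Ȳ₂ ≠ 0`, and `w = Ȳ₁ / Ȳ₂`. -/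
def GaussRedH (x : fieldBar L M H) (w : LaurentSeries (kA A)) : Prop :=
  ∃ Y₁ Y₂ : LaurentSeries A,
    kronIncl A Y₁ ∈ fieldBar L M H ∧ kronIncl A Y₂ ∈ fieldBar L M H ∧
      kronRed A Y₂ ≠ 0 ∧ (x : LaurentSeries Kb) * kronIncl A Y₂ = kronIncl A Y₁ ∧
        w * kronRed A Y₂ = kronRed A Y₁

/-- Gauss norm `≤ 1` -/
def GaussIntH (x : fieldBar L M H) : Prop := ∃ w : LaurentSeries (kA A), GaussRedH L M H A x w

/-- **(RedF_H)**: the reduction of an `A`-integral element of `F_H` lies in `F̄_H`. -/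
def StmtRedFH : Prop :=
  ∀ Y : LaurentSeries A, kronIncl A Y ∈ fieldBar L M H → kronRed A Y ∈ fieldC (kA A) L M H

/-- `P` is the cusp `∞` of `F_H`: its order function is the `q`-order. -/
def IsCuspInftyH (P : Place Kb (fieldBar L M H)) : Prop :=
  ∀ f : fieldBar L M H, f ≠ 0 → P.ord f = (f : LaurentSeries Kb).order

/-- `Q` is the cusp `∞` of `F̄_H`. -/
def IsCuspInftyHk (Q : Place (kA A) (fieldC (kA A) L M H)) : Prop :=
  ∀ f : fieldC (kA A) L M H, f ≠ 0 → Q.ord f = (f : LaurentSeries (kA A)).order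

end Gauss

/-! ## FL-TW: the twisted Galois action on `J_H` -/

section Twist

variable (L M : ℕ) (H : Subgroup (ZMod M)ˣ) (χ : K7GQ →* (ZMod M)ˣ)

/-- diamonds exist on `fieldBar` (on main) -/
theorem k7f_diamondBar : StmtDiamondBarH := stmtDiamondBarH_of_diamond stmtDiamondH

/-- **`J_H` with the `χ`-twisted Galois action** (a type synonym of `ES1.JH L M H`). -/
def JHtw (L M : ℕ) (H : Subgroup (ZMod M)ˣ) (_χ : K7GQ →* (ZMod M)ˣ) : Type := JH L M H

instance : AddCommGroup (JHtw L M H χ) := inferInstanceAs (AddCommGroup (JH L M H))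

/-- the identity `J_H → J_H^{tw}` -/
def toTw : JH L M H ≃+ JHtw L M H χ := AddEquiv.refl _

/-- the identity `J_H^{tw} → J_H` -/
def ofTw : JHtw L M H χ ≃+ JH L M H := AddEquiv.refl _

open Classical in
/-- the twisted action on the underlying group: `σ •_χ x = ⟨χ σ⟩ (σ • x)` (the plain action
if the level hypotheses `L ≠ 0`, `M ∣ L` fail) -/
def twSmul (σ : K7GQ) (x : JH L M H) : JH L M H :=
  if L ≠ 0 ∧ M ∣ L then es1Diamond L M H (χ σ) (σ • x) else σ • x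

variable {L M H χ}

theorem twSmul_eq (hL : L ≠ 0) (hML : M ∣ L) (σ : K7GQ) (x : JH L M H) :
    twSmul L M H χ σ x = es1Diamond L M H (χ σ) (σ • x) := by
  rw [twSmul, if_pos ⟨hL, hML⟩]

theorem twSmul_eq_of_not (h : ¬ (L ≠ 0 ∧ M ∣ L)) (σ : K7GQ) (x : JH L M H) :
    twSmul L M H χ σ x = σ • x := by
  rw [twSmul, if_neg h]

variable (L M H χ)

theorem twSmul_one (x : JH L M H) : twSmul L M H χ 1 x = x := by
  have h0 : (1 : K7GQ) • x = x := one_smul K7GQ x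
  by_cases h : L ≠ 0 ∧ M ∣ L
  · rw [twSmul_eq h.1 h.2, map_one, h0, diamb_diamond_one]
  · rw [twSmul_eq_of_not h, h0]

theorem twSmul_mul (σ τ : K7GQ) (x : JH L M H) :
    twSmul L M H χ (σ * τ) x = twSmul L M H χ σ (twSmul L M H χ τ x) := by
  have h0 : (σ * τ) • x = σ • τ • x := mul_smul (α := K7GQ) (β := JH L M H) σ τ x
  by_cases h : L ≠ 0 ∧ M ∣ L
  · rw [twSmul_eq h.1 h.2, twSmul_eq h.1 h.2, twSmul_eq h.1 h.2, map_mul, h0,
      diamb_diamond_mul k7f_diamondBar h.1 h.2,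
      diamb_galois_diamond k7f_diamondBar h.1 h.2 σ (χ τ)]
  · rw [twSmul_eq_of_not h, twSmul_eq_of_not h, twSmul_eq_of_not h, h0]

theorem twSmul_zero (σ : K7GQ) : twSmul L M H χ σ 0 = 0 := by
  have h0 : σ • (0 : JH L M H) = 0 := smul_zero (M := K7GQ) (A := JH L M H) σ
  by_cases h : L ≠ 0 ∧ M ∣ L
  · rw [twSmul_eq h.1 h.2, h0, map_zero]
  · rw [twSmul_eq_of_not h, h0]

theorem twSmul_add (σ : K7GQ) (x y : JH L M H) :
    twSmul L M H χ σ (x + y) = twSmul L M H χ σ x + twSmul L M H χ σ y := by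
  have h0 : σ • (x + y) = σ • x + σ • y := smul_add (M := K7GQ) (A := JH L M H) σ x y
  by_cases h : L ≠ 0 ∧ M ∣ L
  · rw [twSmul_eq h.1 h.2, twSmul_eq h.1 h.2, twSmul_eq h.1 h.2, h0, map_add]
  · rw [twSmul_eq_of_not h, twSmul_eq_of_not h, twSmul_eq_of_not h, h0]

instance : DistribMulAction K7GQ (JHtw L M H χ) where
  smul σ x := twSmul L M H χ σ x
  one_smul x := twSmul_one L M H χ x
  mul_smul σ τ x := twSmul_mul L M H χ σ τ x
  smul_zero σ := twSmul_zero L M H χ σ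
  smul_add σ x y := twSmul_add L M H χ σ x y

theorem tw_smul_def (σ : K7GQ) (x : JHtw L M H χ) :
    σ • x = toTw L M H χ (twSmul L M H χ σ (ofTw L M H χ x)) := rfl

/-- the twisted action in terms of the diamonds -/
theorem tw_smul_eq (hL : L ≠ 0) (hML : M ∣ L) (σ : K7GQ) (x : JHtw L M H χ) :
    ofTw L M H χ (σ • x) = es1Diamond L M H (χ σ) (σ • ofTw L M H χ x) :=
  twSmul_eq hL hML σ (ofTw L M H χ x)

/-- where `χ` is trivial the twisted action is the plain action -/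
theorem tw_smul_eq_of_one {σ : K7GQ} (hσ : χ σ = 1) (x : JHtw L M H χ) :
    ofTw L M H χ (σ • x) = σ • ofTw L M H χ x := by
  show twSmul L M H χ σ (ofTw L M H χ x) = _
  by_cases h : L ≠ 0 ∧ M ∣ L
  · rw [twSmul_eq h.1 h.2, hσ]; exact diamb_diamond_one _
  · rw [twSmul_eq_of_not h]

end Twist

/-- the hypotheses on the character of the twist: trivial on the inertia group of `A`, and with
open kernel -/
structure IsTwistChar {M : ℕ} (A : ValuationSubring Kb) (χ : K7GQ →* (ZMod M)ˣ) : Prop where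
  inertia : ∀ σ ∈ A.inertiaSubgroupIn ℚ, χ σ = 1
  open_ker : ∃ E : IntermediateField ℚ (AlgebraicClosure ℚ), FiniteDimensional ℚ E ∧
    ∀ σ : K7GQ, (∀ a ∈ E, σ a = a) → χ σ = 1

/-! ## The reduction package of `X_H(L; M)` -/

/-- **the reduction package of `X_H(L; M)` at `A`** (twin of `W1.ModPR`), with the
compatibility of the reduction of places with the diamonds. -/
structure ModPRH (L M : ℕ) (H : Subgroup (ZMod M)ˣ) (A : ValuationSubring Kb) (g : ℕ)
    (R : PRData Kb ↥(fieldBar L M H) (kA A) ↥(fieldC (kA A) L M H) A)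
    (t : ↥(fieldBar L M H)) : Prop where
  isPR : R.IsPR
  res_eq : R.res = IsLocalRing.residue A
  orth : R.Orth
  nice : IsNiceCurve Kb ↥(fieldBar L M H) g
  nice_k : IsNiceCurve (kA A) ↥(fieldC (kA A) L M H) g
  good : R.GoodFn t
  ram : ∀ ht : t ∈ R.O,
    {Q : Place (kA A) ↥(fieldC (kA A) L M H) |
      ¬ ∃ c : kA A, Q.ord (R.red ⟨t, ht⟩ - algebraMap _ _ c) = 1}.Finite
  t_fixed : ∀ σ : K7GQ, arithmeticGalois (fieldQ L M H) σ • t = t
  decomp : ∀ σ ∈ A.decompositionSubgroup ℚ,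
    ∃ σb : Place (kA A) ↥(fieldC (kA A) L M H) → Place (kA A) ↥(fieldC (kA A) L M H),
      (∀ P, R.r (arithmeticGalois (fieldQ L M H) σ • P) = σb (R.r P)) ∧
      ∀ E ∈ Divisor.principal (K := kA A) (F := ↥(fieldC (kA A) L M H)),
        Finsupp.mapDomain σb E ∈ Divisor.principal (K := kA A) (F := ↥(fieldC (kA A) L M H))
  inertia : ∀ σ ∈ A.inertiaSubgroupIn ℚ, ∀ P,
    R.r (arithmeticGalois (fieldQ L M H) σ • P) = R.r P
  diam : ∀ (c : (ZMod M)ˣ) (δ : fieldBar L M H ≃ₐ[Kb] fieldBar L M H), IsDiamondH L M H c δ →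
    ∃ δb : Place (kA A) ↥(fieldC (kA A) L M H) → Place (kA A) ↥(fieldC (kA A) L M H),
      (∀ P, R.r (SemilinearAut.ofAlgAut δ • P) = δb (R.r P)) ∧
      ∀ E ∈ Divisor.principal (K := kA A) (F := ↥(fieldC (kA A) L M H)),
        Finsupp.mapDomain δb E ∈ Divisor.principal (K := kA A) (F := ↥(fieldC (kA A) L M H))

/-- the package exists at `(L; M, H)` and `A` -/
def HasModPRH (L M : ℕ) (H : Subgroup (ZMod M)ˣ) (A : ValuationSubring Kb) : Prop :=
  ∃ (g : ℕ) (R : PRData Kb ↥(fieldBar L M H) (kA A) ↥(fieldC (kA A) L M H) A)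
    (t : ↥(fieldBar L M H)), ModPRH L M H A g R t

/-- the kernel chart for the twisted action exists at `(L; M, H)`, `A`, `χ` -/
def HasKernelChartH (L M : ℕ) (H : Subgroup (ZMod M)ˣ) (A : ValuationSubring Kb)
    (χ : K7GQ →* (ZMod M)ˣ) : Prop :=
  ∃ (J1 : AddSubgroup (JHtw L M H χ)) (g : ℕ) (z : JHtw L M H χ → Fin g → AlgebraicClosure ℚ),
    KernelChart A (JHtw L M H χ) J1 g z

/-! ## The statements of the pieces -/

/-- **FL-RH0** (characteristic `0`): Riemann's inequality for `F_H` with the sharp constant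
`g = 1 + d (g₀ - 1)`, and `(g : ℤ) = 1 + d (g₀ - 1)` (in particular `g₀ ≥ 1` or `d = 1`). -/
def StmtRiemannH : Prop :=
  ∀ (L M : ℕ) (H : Subgroup (ZMod M)ˣ) (p : ℕ), K7FLevel L M H p →
    ∀ (m : ℕ) (a : Fin (m + 1) → (ZMod M)ˣ), IsRepFam H a →
      ((k7fGenus L (m + 1) : ℕ) : ℤ) = ((m + 1 : ℕ) : ℤ) * ((gN L : ℤ) - 1) + 1 ∧
      ∀ 𝔞 : Divisor Kb ↥(fieldBar L M H),
        Divisor.degree 𝔞 + 1 - (k7fGenus L (m + 1) : ℤ)
          ≤ (finrank Kb ↥(riemannRochSpace 𝔞) : ℤ)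

/-- **FL-GAUSS / RedF_H** at all levels of K7-FLAT. -/
def StmtRedFHAll : Prop :=
  ∀ (L M : ℕ) (H : Subgroup (ZMod M)ˣ) (p : ℕ), K7FLevel L M H p →
    ∀ A : ValuationSubring Kb, A.LiesOverPrime p → StmtRedFH L M H A

/-- **FL-DIAM**: the diamonds are Gauss-integral and reduce to automorphisms `δ̄` of `F̄_H`
over `F̄₀ = modularFunctionFieldFullC k L` with `δ̄ (S̄_a(q^e)) = S̄_{ac}(q^e)`; and an element of
`F̄_H` fixed by all `δ̄_c` lies in `F̄₀`. -/
def StmtDiamInt : Prop :=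
  ∀ (L M : ℕ) (H : Subgroup (ZMod M)ˣ) (p : ℕ), K7FLevel L M H p →
    ∀ A : ValuationSubring Kb, A.LiesOverPrime p →
    ∀ (c : (ZMod M)ˣ) (δ : fieldBar L M H ≃ₐ[Kb] fieldBar L M H), IsDiamondH L M H c δ →
      ∃ δb : fieldC (kA A) L M H ≃ₐ[kA A] fieldC (kA A) L M H,
        (∀ f : fieldC (kA A) L M H,
          (f : LaurentSeries (kA A)) ∈ modularFunctionFieldFullC (kA A) L → δb f = f) ∧
        (∀ (e : ℕ) [NeZero e] (he : e * M ∣ L) (b : (ZMod M)ˣ),
          ((δb ⟨qExpand (kA A) e (sS (kA A) M H b), qExpand_sS_mem (kA A) L M H he b⟩ :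
            fieldC (kA A) L M H) : LaurentSeries (kA A))
              = qExpand (kA A) e (sS (kA A) M H (b * c))) ∧
        ∀ (x : fieldBar L M H) (w : LaurentSeries (kA A)) (hw : w ∈ fieldC (kA A) L M H),
          GaussRedH L M H A x w →
            GaussRedH L M H A (δ x) ((δb ⟨w, hw⟩ : fieldC (kA A) L M H) : LaurentSeries (kA A))

/-- **FL-DIAM, invariants**: an element of `F̄_H` fixed by all reduced diamonds lies in `F̄₀`. -/
def StmtDiamInv : Prop :=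
  ∀ (L M : ℕ) (H : Subgroup (ZMod M)ˣ) (p : ℕ), K7FLevel L M H p →
    ∀ A : ValuationSubring Kb, A.LiesOverPrime p →
    ∀ f : fieldC (kA A) L M H,
      (∀ δb : fieldC (kA A) L M H ≃ₐ[kA A] fieldC (kA A) L M H,
        (∀ f₀ : fieldC (kA A) L M H,
          (f₀ : LaurentSeries (kA A)) ∈ modularFunctionFieldFullC (kA A) L → δb f₀ = f₀) →
        δb f = f) →
      (f : LaurentSeries (kA A)) ∈ modularFunctionFieldFullC (kA A) L

/-- **FL-RHp-B (HYP-of-E)**, generic: Deuring's hypotheses without `bound`, together with the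
upper bound at the multiples of ONE effective divisor `E` of degree `e > 0` of the residue
curve, give the single-place `bound`, i.e. `DEU.Hyp` as it is on main. -/
def StmtHypOfE : Prop :=
  ∀ (K F k Fb : Type) [Field K] [Field F] [Algebra K F] [Field k] [Field Fb] [Algebra k Fb]
    (R : DEU.RedData K F k Fb) (Pinf : Place K F) (Qinf : Place k Fb) (g : ℕ),
    (∀ v : Place K F, Function.Bijective (algebraMap K v.ResidueField)) →
    (∀ v : Place k Fb, Function.Bijective (algebraMap k v.ResidueField)) →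
    HasPrincipalDivisors K F → HasPrincipalDivisors k Fb →
    (∀ 𝔞 : Divisor K F, Divisor.degree 𝔞 + 1 - g ≤ (finrank K ↥(riemannRochSpace 𝔞) : ℤ)) →
    (∀ V : Submodule K F, Module.Finite K V → finrank K V ≤ finrank k ↥(R.redSpace V)) →
    (∀ m : ℕ, R.redSpace (riemannRochSpace (DEU.mulPlace Pinf m)) ≤
      riemannRochSpace (DEU.mulPlace Qinf m)) →
    ∀ E : Divisor k Fb, 0 ≤ E → 0 < Divisor.degree E →
      (∃ n₁ : ℕ, ∀ n : ℕ, n₁ ≤ n →
        (finrank k ↥(riemannRochSpace (n • E)) : ℤ) + g ≤ n * Divisor.degree E + 1) →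
      ∃ n₀ : ℕ, DEU.Hyp R Pinf Qinf g n₀

/-- **FL-RHp-A (bound_E)**: the upper bound at the multiples of `Ē = Σ_δ δ̄(Q_∞)` (the pull-back
of the cusp `∞` of `X̄₀(L)`), `deg Ē = d`. -/
def StmtBoundE : Prop :=
  ∀ (L M : ℕ) (H : Subgroup (ZMod M)ˣ) (p : ℕ), K7FLevel L M H p →
    ∀ A : ValuationSubring Kb, A.LiesOverPrime p →
    ∀ (m : ℕ) (a : Fin (m + 1) → (ZMod M)ˣ), IsRepFam H a →
      ∃ E : Divisor (kA A) ↥(fieldC (kA A) L M H), 0 ≤ E ∧
        Divisor.degree E = ((m + 1 : ℕ) : ℤ) ∧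
        ∃ n₁ : ℕ, ∀ n : ℕ, n₁ ≤ n →
          (finrank (kA A) ↥(riemannRochSpace (n • E)) : ℤ) + (k7fGenus L (m + 1) : ℤ)
            ≤ n * ((m + 1 : ℕ) : ℤ) + 1

/-- **GEO-PR for `X_H(L; M)`** (assembly FL-NICE of all the pieces). -/
def StmtModPRH : Prop :=
  ∀ (L M : ℕ) (H : Subgroup (ZMod M)ˣ) (p : ℕ), K7FLevel L M H p →
    ∀ A : ValuationSubring Kb, A.LiesOverPrime p → HasModPRH L M H A

/-- **FL-KC**: the package gives a kernel chart on `J_H` for the twisted action. -/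
def StmtKCH : Prop :=
  ∀ (L M : ℕ) (H : Subgroup (ZMod M)ˣ) (p : ℕ), K7FLevel L M H p →
    ∀ A : ValuationSubring Kb, A.LiesOverPrime p →
    ∀ χ : K7GQ →* (ZMod M)ˣ, IsTwistChar A χ →
      HasModPRH L M H A → HasKernelChartH L M H A χ

/-- **FL-FIN**: `J_H^{tw}[p^n]` is finite and the twisted action has open stabilisers. -/
def StmtFinH : Prop :=
  ∀ (L M : ℕ) (H : Subgroup (ZMod M)ˣ) (p : ℕ), K7FLevel L M H p →
    ∀ A : ValuationSubring Kb, A.LiesOverPrime p →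
    ∀ χ : K7GQ →* (ZMod M)ˣ, IsTwistChar A χ → ∀ n : ℕ,
      Finite (Submodule.torsionBy ℤ (JHtw L M H χ) ((p ^ n : ℕ) : ℤ)) ∧
      IsContAction (torsAct (JHtw L M H χ) ((p ^ n : ℕ) : ℤ))

/-- **K7-FLAT, the target**: `J_H[p^n]` with the `χ`-twisted Galois action has a finite flat
model over `ℤ_(p)`. -/
def StmtFlatH : Prop :=
  ∀ (L M : ℕ) (H : Subgroup (ZMod M)ˣ) (p : ℕ), K7FLevel L M H p →
    ∀ A : ValuationSubring Kb, A.LiesOverPrime p →
    ∀ χ : K7GQ →* (ZMod M)ˣ, IsTwistChar A χ → ∀ n : ℕ,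
      HasFiniteFlatModel (GaloisRep.ratLocalizedAt p)
        (Submodule.torsionBy ℤ (JHtw L M H χ) ((p ^ n : ℕ) : ℤ))
        (torsAct (JHtw L M H χ) ((p ^ n : ℕ) : ℤ))

end Fermat.Agent.RT.K7F
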