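import Fermat.Agent.ES.HbLocal
import Fermat.Agent.S24.PlaceBasic
import Fermat.Agent.ES.RiemannGeneric

/-!
# RT-K7F, FL-RHp-A (abstract part 1): places in a finite separable extension, any characteristic

`F'/F` a finite SEPARABLE extension of fields over `K` (no hypothesis on the characteristic).

* `k7fpu_exists_place_over` : every place of `F/K` is the restriction of a place of `F'/K`
  (the integral closure of `O_v` in `F'` is a Dedekind domain, not a field);
* `k7fpu_eq_id_of_ord` : a `K`-automorphism `σ` of `F'` which preserves `ord_Q` and fixes an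
  element `t` with `ord_Q t = 1` is the identity, when the residue field of `Q` is `K`
  ("`K(t)` is dense in the completion at `Q`").
-/

set_option autoImplicit false
set_option linter.unusedSectionVars false
set_option linter.style.haveILetI false

noncomputable section

open AlgebraicCurve IsDedekindDomain WithZero

namespace Fermat.Agent.RT.K7F

open Fermat.Agent.S24 Fermat.Agent.ES.H

section GoingUp

variable {K F F' : Type*} [Field K] [Field F] [Field F'] [Algebra K F] [Algebra K F']
  [Algebra F F'] [IsScalarTower K F F'] [FiniteDimensional F F'] [Algebra.IsSeparable F F']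

theorem k7fpu_isDedekindDomain (v : Place K F) : IsDedekindDomain (Bv F' v) :=
  integralClosure.isDedekindDomain v.toValuationSubring F F'

theorem k7fpu_isFractionRing (v : Place K F) : IsFractionRing (Bv F' v) F' :=
  integralClosure.isFractionRing_of_finite_extension F F'

/-- the integral closure of `O_v` is not a field -/
theorem k7fpu_not_isField (v : Place K F) : ¬ IsField (Bv F' v) := by
  intro hB
  have hint : Algebra.IsIntegral v.toValuationSubring (Bv F' v) := inferInstance
  have hinj : Function.Injective (algebraMap v.toValuationSubring (Bv F' v)) := by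
    intro a b hab
    have h1 : algebraMap v.toValuationSubring F' a = algebraMap v.toValuationSubring F' b := by
      have := congrArg (fun x : Bv F' v => (x : F')) hab
      exact this
    rw [algebraMap_Ov_apply, algebraMap_Ov_apply] at h1
    exact Subtype.ext ((algebraMap F F').injective h1)
  have hA : IsField v.toValuationSubring := isField_of_isIntegral_of_isField hinj hB
  exact ValuationSubring.not_isField_of_ne_top F v.ne_top' hA

/-- **going up**: every place of `F` is the restriction of a place of `F'`. -/
theorem k7fpu_exists_place_over (v : Place K F) : ∃ w : Place K F', w.restrict F = v := by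
  haveI := k7fpu_isDedekindDomain (F' := F') v
  haveI := k7fpu_isFractionRing (F' := F') v
  obtain ⟨M, hM⟩ := Ideal.exists_maximal (Bv F' v)
  have hMbot : M ≠ ⊥ := by
    intro h
    apply k7fpu_not_isField (F' := F') v
    rw [h] at hM
    exact Ring.isField_iff_isSimpleOrder_ideal.mpr
      (by
        constructor
        intro I
        by_cases hI : I = ⊥
        · exact Or.inl hI
        · right
          by_contra hIt
          exact hI (hM.eq_of_le hIt bot_le).symm)
  let P : HeightOneSpectrum (Bv F' v) := ⟨M, hM.isPrime, hMbot⟩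
  refine ⟨placeOfPrime (hK_Bv v) P, ?_⟩
  symm
  apply Place.ext
  refine ValuationSubring.eq_of_le_of_ne_top _ ?_ ((placeOfPrime (hK_Bv v) P).restrict F).ne_top'
  intro a ha
  rw [Place.restrict_toValuationSubring, ValuationSubring.mem_comap]
  show algebraMap F F' a ∈ (P.valuation F').valuationSubring
  rw [Valuation.mem_valuationSubring_iff]
  have hint : IsIntegral v.toValuationSubring (algebraMap F F' a) := by
    have : algebraMap F F' a = algebraMap v.toValuationSubring F' ⟨a, ha⟩ := rfl
    rw [this]
    exact isIntegral_algebraMap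
  have : algebraMap F F' a = algebraMap (Bv F' v) F' ⟨algebraMap F F' a, hint⟩ := rfl
  rw [this]
  exact P.valuation_le_one _

end GoingUp

section Density

open Fermat.Agent.ES.R

variable {K F : Type*} [Field K] [Field F] [Algebra K F]

/-- approximation of `f` by `σ`-fixed elements (Laurent polynomials in `t`) to any order -/
theorem k7fpu_approx (Q : Place K F)
    (hres : Function.Bijective (algebraMap K Q.ResidueField))
    (σ : F ≃ₐ[K] F) (t : F) (ht : Q.ord t = 1) (hσt : σ t = t) (f : F) :
    ∀ n : ℕ, ∃ f₀ : F, σ f₀ = f₀ ∧ (f - f₀ = 0 ∨ Q.ord f + n ≤ Q.ord (f - f₀)) := by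
  have ht0 : t ≠ 0 := by
    rintro rfl
    rw [Q.ord_zero] at ht
    exact zero_ne_one ht
  intro n
  induction n with
  | zero => exact ⟨0, map_zero σ, Or.inr (by simp)⟩
  | succ n ih =>
    obtain ⟨f₀, hf₀, h⟩ := ih
    rcases h with h | h
    · exact ⟨f₀, hf₀, Or.inl h⟩
    · by_cases hr : f - f₀ = 0
      · exact ⟨f₀, hf₀, Or.inl hr⟩
      have hg0 : t ^ (Q.ord (f - f₀)) ≠ 0 := zpow_ne_zero _ ht0
      have hgo : Q.ord (t ^ (Q.ord (f - f₀))) = Q.ord (f - f₀) := by
        rw [Q.ord_zpow, ht, mul_one]
      obtain ⟨c, hc⟩ := exists_sub_smul_ord_gt Q hres hr hg0 hgo.symm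
      refine ⟨f₀ + c • t ^ (Q.ord (f - f₀)), ?_, ?_⟩
      · rw [map_add, hf₀, map_smul, map_zpow₀, hσt]
      · have e : f - (f₀ + c • t ^ (Q.ord (f - f₀))) = (f - f₀) - c • t ^ (Q.ord (f - f₀)) := by
          ring
        rw [e]
        rcases hc with hc | hc
        · exact Or.inl hc
        · right
          rw [hgo] at hc
          push_cast
          omega

/-- **rigidity**: a `K`-automorphism preserving `ord_Q` and fixing an element of order `1` at
`Q` is the identity, if the residue field of `Q` is `K`. -/
theorem k7fpu_eq_id_of_ord (Q : Place K F)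
    (hres : Function.Bijective (algebraMap K Q.ResidueField))
    (σ : F ≃ₐ[K] F) (t : F) (ht : Q.ord t = 1) (hσt : σ t = t)
    (hσQ : ∀ f : F, Q.ord (σ f) = Q.ord f) (f : F) : σ f = f := by
  by_contra hne
  have hd : σ f - f ≠ 0 := sub_ne_zero.mpr hne
  obtain ⟨n, hn⟩ : ∃ n : ℕ, Q.ord (σ f - f) < Q.ord f + n :=
    ⟨(Q.ord (σ f - f) - Q.ord f).toNat + 1, by
      push_cast
      have := Int.self_le_toNat (Q.ord (σ f - f) - Q.ord f)
      omega⟩
  obtain ⟨f₀, hf₀, h⟩ := k7fpu_approx Q hres σ t ht hσt f n
  have e : σ f - f = σ (f - f₀) + -(f - f₀) := by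
    rw [map_sub, hf₀]; ring
  have hr0 : f - f₀ ≠ 0 := by
    intro h0
    rw [h0, map_zero, neg_zero, add_zero] at e
    exact hd e
  have h := h.resolve_left hr0
  have hσr0 : σ (f - f₀) ≠ 0 := by
    intro h0
    exact hr0 ((map_eq_zero_iff σ σ.injective).mp h0)
  have h1 := PlaceAux.le_ord_add Q hσr0 (neg_ne_zero.mpr hr0) (by rw [← e]; exact hd)
  rw [PlaceAux.ord_neg, hσQ, min_self, ← e] at h1
  omega

end Density

end Fermat.Agent.RT.K7F
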