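import Fermat.Agent.RT.K7F.RHpA
import Fermat.Agent.RT.K7F.PlaceUp
import Fermat.Agent.DEU.Main1

/-!
# RT-K7F, FL-RHp-A (abstract part 2): the divisor `E = Σ_g g•Q` and the bound at `n•E`

`k` a field of characteristic `p`, `Fb/k` a function field, `P` a finite `p`-group acting
faithfully on `Fb` by `k`-automorphisms (`φ`), `F₀` the field of invariants, all residue fields of
places of `Fb` and of `F₀` equal to `k`, `Q` a place of `Fb`, `Pinf` a place of `F₀` with
`ord_Q = ord_{Pinf}` on `F₀` (unramified at `Q`).  Then for `E := Σ_{g ∈ P} g•Q`: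

* `k7fba_E_nonneg`, `k7fba_degree_E` : `0 ≤ E`, `deg E = |P|`;
* `k7fba_bound` : `dim L(n•E) ≤ |P| · dim L₀(n·Pinf)` for every `n`
  (on top of helper75's `k7frhp_bound_generic`);
* `k7fba_bound_genus` : with Riemann–Roch for `F₀` at `Pinf` (`dim L₀(n·Pinf) ≤ n + 1 - g₀` for
  `n ≥ n₁`): `dim L(n•E) + (|P| (g₀ - 1) + 1).toNat ≤ n |P| + 1` for `n ≥ n₁`, the shape of
  `StmtBoundE`.

Ingredients: Artin (`Fb/F₀` finite separable), going up (`k7fpu_exists_place_over`), rigidity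
(`k7fpu_eq_id_of_ord`: the orbit of `Q` is free).
-/

set_option autoImplicit false
set_option linter.unusedSectionVars false
set_option linter.unusedVariables false
set_option linter.style.haveILetI false

noncomputable section

open AlgebraicCurve Module

namespace Fermat.Agent.RT.K7F

open Fermat.Agent.S24 Fermat.Agent.ES.R

variable {k Fb : Type} [Field k] [Field Fb] [Algebra k Fb]

/-! ### Artin: `Fb / F₀` is finite and separable -/

section Artin

variable {P : Type} [Group P] [Finite P] (φ : P →* (Fb ≃ₐ[k] Fb)) (F₀ : IntermediateField k Fb)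

/-- **Artin**: if `F₀` is the field of invariants of a finite group of automorphisms of `Fb`, then
`Fb / F₀` is finite and separable. -/
theorem k7fba_finite_separable (hfix : ∀ f : Fb, (∀ g : P, φ g f = f) → f ∈ F₀)
    (hF₀ : ∀ (g : P) (x : Fb), x ∈ F₀ → φ g x = x) :
    FiniteDimensional ↥F₀ Fb ∧ Algebra.IsSeparable ↥F₀ Fb := by
  letI : MulSemiringAction P Fb := MulSemiringAction.compHom Fb φ
  have hsmul : ∀ (g : P) (x : Fb), g • x = φ g x := fun _ _ => rfl
  have hmem : ∀ x : Fb, x ∈ FixedPoints.subfield P Fb ↔ x ∈ F₀ := by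
    intro x
    constructor
    · intro hx
      exact hfix x fun g => by rw [← hsmul]; exact hx g
    · intro hx g
      rw [hsmul]
      exact hF₀ g x hx
  let e₁ : FixedPoints.subfield P Fb ≃+* ↥F₀ :=
    { toFun := fun x => ⟨x.1, (hmem x.1).1 x.2⟩
      invFun := fun y => ⟨y.1, (hmem y.1).2 y.2⟩
      left_inv := fun _ => rfl
      right_inv := fun _ => rfl
      map_mul' := fun _ _ => rfl
      map_add' := fun _ _ => rfl }
  have he : RingHom.comp (algebraMap ↥F₀ Fb) (e₁ : FixedPoints.subfield P Fb →+* ↥F₀) =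
      RingHom.comp ((RingEquiv.refl Fb : Fb ≃+* Fb) : Fb →+* Fb)
        (algebraMap (FixedPoints.subfield P Fb) Fb) := by
    ext x
    rfl
  exact ⟨Module.Finite.of_equiv_equiv e₁ (RingEquiv.refl Fb) he,
    Algebra.IsSeparable.of_equiv_equiv e₁ (RingEquiv.refl Fb) he⟩

end Artin

/-! ### The orbit divisor -/

section Orbit

variable {P : Type} [Group P] [Fintype P] (φ : P →* (Fb ≃ₐ[k] Fb)) (Q : Place k Fb)

/-- the orbit divisor `E = Σ_{g ∈ P} g•Q` -/
def k7fbaE : Divisor k Fb := ∑ g : P, Finsupp.single (φ g • Q) (1 : ℤ)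

theorem k7fba_E_apply [DecidableEq (Place k Fb)] (w : Place k Fb) :
    k7fbaE φ Q w = ∑ g : P, if φ g • Q = w then (1 : ℤ) else 0 := by
  unfold k7fbaE
  rw [Finsupp.finsetSum_apply]
  refine Finset.sum_congr rfl fun g _ => ?_
  rw [Finsupp.single_apply]

theorem k7fba_E_nonneg : 0 ≤ k7fbaE φ Q := by
  classical
  rw [Finsupp.le_def]
  intro w
  rw [k7fba_E_apply]
  refine Finset.sum_nonneg fun g _ => ?_
  split_ifs
  · exact zero_le_one
  · exact le_rfl

theorem k7fba_nsmul_E_nonneg (n : ℕ) : 0 ≤ n • k7fbaE φ Q :=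
  nsmul_nonneg (k7fba_E_nonneg φ Q) n

/-- `deg E = |P|` when the residue field of `Q` is `k` -/
theorem k7fba_degree_E (hresQ : Function.Bijective (algebraMap k Q.ResidueField)) :
    Divisor.degree (k7fbaE φ Q) = (Fintype.card P : ℤ) := by
  unfold k7fbaE
  rw [map_sum]
  have h1 : ∀ g : P, Divisor.degree (Finsupp.single (φ g • Q) (1 : ℤ)) = 1 := by
    intro g
    rw [Divisor.degree_single, Place.deg_smul, place_deg_eq_one Q hresQ]
    norm_num
  rw [Finset.sum_congr rfl fun g _ => h1 g]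
  simp

/-- `E` is `P`-stable -/
theorem k7fba_smul_E (h : P) : φ h • k7fbaE φ Q = k7fbaE φ Q := by
  unfold k7fbaE
  rw [Finset.smul_sum]
  have h1 : ∀ g : P, φ h • Finsupp.single (φ g • Q) (1 : ℤ)
      = Finsupp.single (φ (h * g) • Q) (1 : ℤ) := by
    intro g
    rw [Divisor.smul_single, map_mul, mul_smul]
  rw [Finset.sum_congr rfl fun g _ => h1 g]
  exact Fintype.sum_equiv (Equiv.mulLeft h) _ _ fun g => rfl

theorem k7fba_smul_nsmul_E (n : ℕ) (h : P) : φ h • (n • k7fbaE φ Q) = n • k7fbaE φ Q := by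
  rw [smul_comm, k7fba_smul_E]

/-- `E` vanishes outside the orbit of `Q` -/
theorem k7fba_E_eq_zero {w : Place k Fb} (hw : ∀ g : P, φ g • Q ≠ w) : k7fbaE φ Q w = 0 := by
  classical
  rw [k7fba_E_apply]
  refine Finset.sum_eq_zero fun g _ => ?_
  rw [if_neg (hw g)]

/-- `E(Q) = 1` when the orbit is free -/
theorem k7fba_E_self (hfree : ∀ g : P, φ g • Q = Q → g = 1) : k7fbaE φ Q Q = 1 := by
  classical
  rw [k7fba_E_apply]
  have h1 : ∀ g : P, (if φ g • Q = Q then (1 : ℤ) else 0) = if g = 1 then 1 else 0 := by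
    intro g
    by_cases hg : g = 1
    · subst hg
      rw [if_pos rfl, if_pos]
      rw [map_one, one_smul]
    · rw [if_neg hg, if_neg]
      exact fun h => hg (hfree g h)
  rw [Finset.sum_congr rfl fun g _ => h1 g]
  simp

end Orbit

/-! ### The bound -/

section Main

variable {P : Type} [Group P] [Fintype P] (φ : P →* (Fb ≃ₐ[k] Fb))
  (F₀ : IntermediateField k Fb) (Q : Place k Fb) (Pinf : Place k ↥F₀)

/-- the orbit of `Q` is free: an automorphism fixing `F₀` and the place `Q` is the identity -/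
theorem k7fba_free (hinj : Function.Injective φ)
    (hF₀ : ∀ (g : P) (x : Fb), x ∈ F₀ → φ g x = x)
    (hresQ : Function.Bijective (algebraMap k Q.ResidueField))
    (hunr : ∀ x : ↥F₀, Q.ord (x : Fb) = Pinf.ord x) (g : P) (hg : φ g • Q = Q) : g = 1 := by
  obtain ⟨π, hπ⟩ := IsDiscreteValuationRing.exists_irreducible Pinf.toValuationSubring
  have ht₀ : Pinf.ord ((π : ↥F₀)) = 1 := Pinf.ord_coe_irreducible hπ
  have hσQ : ∀ f : Fb, Q.ord (φ g f) = Q.ord f := by
    intro f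
    have h := Place.ord_smul (φ g) Q f
    rwa [hg] at h
  have hid := k7fpu_eq_id_of_ord Q hresQ (φ g) (((π : ↥F₀) : ↥F₀) : Fb)
    (by rw [hunr]; exact ht₀) (hF₀ g _ (π : ↥F₀).2) hσQ
  apply hinj
  rw [map_one]
  exact AlgEquiv.ext hid

variable [FiniteDimensional ↥F₀ Fb]

/-- `Q` lies over `Pinf` -/
theorem k7fba_restrict_Q (hunr : ∀ x : ↥F₀, Q.ord (x : Fb) = Pinf.ord x) :
    Q.restrict ↥F₀ = Pinf := by
  apply Place.ext
  ext x
  rw [Place.restrict_toValuationSubring, ValuationSubring.mem_comap]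
  by_cases hx : x = 0
  · subst hx
    simp
  · have hx' : ((x : ↥F₀) : Fb) ≠ 0 := fun h => hx (Subtype.ext h)
    show ((x : ↥F₀) : Fb) ∈ Q.toValuationSubring ↔ _
    rw [← PlaceAux.ord_nonneg_iff Q hx', ← PlaceAux.ord_nonneg_iff Pinf hx, hunr]

/-- the places of the orbit of `Q` lie over the same place of `F₀` -/
theorem k7fba_restrict_smul (hF₀ : ∀ (g : P) (x : Fb), x ∈ F₀ → φ g x = x) (g : P) :
    (φ g • Q).restrict ↥F₀ = Q.restrict ↥F₀ := by
  apply Place.ext
  ext x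
  rw [Place.restrict_toValuationSubring, ValuationSubring.mem_comap,
    Place.restrict_toValuationSubring, ValuationSubring.mem_comap]
  by_cases hx : x = 0
  · subst hx
    simp
  · have hx' : ((x : ↥F₀) : Fb) ≠ 0 := fun h => hx (Subtype.ext h)
    show ((x : ↥F₀) : Fb) ∈ (φ g • Q).toValuationSubring ↔ ((x : ↥F₀) : Fb) ∈ Q.toValuationSubring
    rw [← PlaceAux.ord_nonneg_iff _ hx', ← PlaceAux.ord_nonneg_iff _ hx']
    have h := Place.ord_smul (φ g) Q ((x : ↥F₀) : Fb)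
    rw [hF₀ g _ x.2] at h
    rw [h]

variable [Algebra.IsSeparable ↥F₀ Fb]

/-- **compatibility**: `L(n•E) ∩ F₀ ⊆ L₀(n·Pinf)` -/
theorem k7fba_comp (hF₀ : ∀ (g : P) (x : Fb), x ∈ F₀ → φ g x = x)
    (hfree : ∀ g : P, φ g • Q = Q → g = 1)
    (hunr : ∀ x : ↥F₀, Q.ord (x : Fb) = Pinf.ord x) (n : ℕ) (f : ↥F₀)
    (hf : (f : Fb) ∈ riemannRochSpace (n • k7fbaE φ Q)) :
    f ∈ riemannRochSpace (Finsupp.single Pinf (n : ℤ)) := by
  rw [mem_riemannRochSpace_iff] at hf ⊢
  intro v₀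
  by_cases hf0 : f = 0
  · exact Or.inl hf0
  right
  have hf0' : ((f : ↥F₀) : Fb) ≠ 0 := fun h => hf0 (Subtype.ext h)
  by_cases hv : v₀ = Pinf
  · subst hv
    rw [Finsupp.single_eq_same]
    have h := (hf Q).resolve_left hf0'
    rw [Finsupp.smul_apply, k7fba_E_self φ Q hfree, hunr] at h
    simpa using h
  · rw [Finsupp.single_eq_of_ne hv, neg_zero]
    obtain ⟨w, hw⟩ := k7fpu_exists_place_over (F' := Fb) v₀
    have hnot : ∀ g : P, φ g • Q ≠ w := by
      intro g hg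
      apply hv
      rw [← hw, ← hg, k7fba_restrict_smul φ F₀ Q hF₀ g, k7fba_restrict_Q F₀ Q Pinf hunr]
    have h := (hf w).resolve_left hf0'
    rw [Finsupp.smul_apply, k7fba_E_eq_zero φ Q hnot, smul_zero, neg_zero] at h
    have hmem : ((f : ↥F₀) : Fb) ∈ w.toValuationSubring := PlaceAux.mem_of_ord_nonneg w h
    have hmem' : f ∈ (w.restrict ↥F₀).toValuationSubring := hmem
    rw [hw] at hmem'
    exact (PlaceAux.ord_nonneg_iff v₀ hf0).mpr hmem'

end Main

/-! ### The final statement -/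

/-- **FL-RHp-A, abstract form.**  `P` a finite `p`-group acting faithfully on `Fb` (char. `p`)
with field of invariants `F₀`; all residue fields are `k`; `Q` a place of `Fb` unramified over the
place `Pinf` of `F₀`.  Then `E = Σ_g g•Q` is effective of degree `|P|`, `P`-stable, and
`dim L(n•E) ≤ |P| · dim L₀(n·Pinf)`. -/
theorem k7fba_bound (p : ℕ) [Fact p.Prime] [CharP k p]
    {P : Type} [Group P] [Fintype P] (hP : IsPGroup p P) (φ : P →* (Fb ≃ₐ[k] Fb))
    (hinj : Function.Injective φ) (F₀ : IntermediateField k Fb)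
    (hfix : ∀ f : Fb, (∀ g : P, φ g f = f) → f ∈ F₀)
    (hF₀ : ∀ (g : P) (x : Fb), x ∈ F₀ → φ g x = x)
    (hres : ∀ v : Place k Fb, Function.Bijective (algebraMap k v.ResidueField))
    (hres0 : ∀ v : Place k ↥F₀, Function.Bijective (algebraMap k v.ResidueField))
    [HasPrincipalDivisors k Fb] [HasPrincipalDivisors k ↥F₀]
    (Q : Place k Fb) (Pinf : Place k ↥F₀) (hunr : ∀ x : ↥F₀, Q.ord (x : Fb) = Pinf.ord x) :
    0 ≤ k7fbaE φ Q ∧ Divisor.degree (k7fbaE φ Q) = (Fintype.card P : ℤ) ∧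
      (∀ g : P, φ g • k7fbaE φ Q = k7fbaE φ Q) ∧
      ∀ n : ℕ, finrank k ↥(riemannRochSpace (n • k7fbaE φ Q)) ≤
        Fintype.card P * finrank k ↥(riemannRochSpace (Finsupp.single Pinf (n : ℤ))) := by
  refine ⟨k7fba_E_nonneg φ Q, k7fba_degree_E φ Q (hres Q), k7fba_smul_E φ Q, fun n => ?_⟩
  obtain ⟨hfd, hsep⟩ := k7fba_finite_separable φ F₀ hfix hF₀
  have hfree := k7fba_free φ F₀ Q Pinf hinj hF₀ (hres Q) hunr
  haveI : Module.Finite k ↥(riemannRochSpace (n • k7fbaE φ Q)) := rr_finite Q hres _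
  haveI : Module.Finite k ↥(riemannRochSpace (Finsupp.single Pinf (n : ℤ))) :=
    rr_finite Pinf hres0 _
  exact k7frhp_bound_generic p hP φ F₀ hfix (n • k7fbaE φ Q) (k7fba_smul_nsmul_E φ Q n)
    (Finsupp.single Pinf (n : ℤ)) (k7fba_comp φ F₀ Q Pinf hF₀ hfree hunr n)

/-- **FL-RHp-A, abstract form with the genus.**  If moreover `dim L₀(n·Pinf) ≤ n + 1 - g₀` for
`n ≥ n₁`, then `dim L(n•E) + g ≤ n·|P| + 1` for `n ≥ n₁`, `g = (|P| (g₀ - 1) + 1).toNat`. -/
theorem k7fba_bound_genus (p : ℕ) [Fact p.Prime] [CharP k p]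
    {P : Type} [Group P] [Fintype P] (hP : IsPGroup p P) (φ : P →* (Fb ≃ₐ[k] Fb))
    (hinj : Function.Injective φ) (F₀ : IntermediateField k Fb)
    (hfix : ∀ f : Fb, (∀ g : P, φ g f = f) → f ∈ F₀)
    (hF₀ : ∀ (g : P) (x : Fb), x ∈ F₀ → φ g x = x)
    (hres : ∀ v : Place k Fb, Function.Bijective (algebraMap k v.ResidueField))
    (hres0 : ∀ v : Place k ↥F₀, Function.Bijective (algebraMap k v.ResidueField))
    [HasPrincipalDivisors k Fb] [HasPrincipalDivisors k ↥F₀]
    (Q : Place k Fb) (Pinf : Place k ↥F₀) (hunr : ∀ x : ↥F₀, Q.ord (x : Fb) = Pinf.ord x)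
    (g₀ n₁ : ℕ)
    (hRR : ∀ n : ℕ, n₁ ≤ n →
      (finrank k ↥(riemannRochSpace (Finsupp.single Pinf (n : ℤ))) : ℤ) ≤ n + 1 - g₀)
    (n : ℕ) (hn : n₁ ≤ n) :
    (finrank k ↥(riemannRochSpace (n • k7fbaE φ Q)) : ℤ) +
        ((((Fintype.card P : ℤ) * ((g₀ : ℤ) - 1) + 1).toNat : ℕ) : ℤ)
      ≤ n * (Fintype.card P : ℤ) + 1 := by
  obtain ⟨-, hdeg, -, hb⟩ :=
    k7fba_bound p hP φ hinj F₀ hfix hF₀ hres hres0 Q Pinf hunr
  have hd0 : (0 : ℤ) ≤ (Fintype.card P : ℤ) := Int.natCast_nonneg _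
  by_cases hg : 0 ≤ (Fintype.card P : ℤ) * ((g₀ : ℤ) - 1) + 1
  · rw [Int.toNat_of_nonneg hg]
    have h1 : (finrank k ↥(riemannRochSpace (n • k7fbaE φ Q)) : ℤ) ≤
        (Fintype.card P : ℤ) *
          (finrank k ↥(riemannRochSpace (Finsupp.single Pinf (n : ℤ))) : ℤ) := by
      exact_mod_cast hb n
    have h2 := mul_le_mul_of_nonneg_left (hRR n hn) hd0
    nlinarith
  · push Not at hg
    rw [Int.toNat_of_nonpos hg.le]
    have hdegn : Divisor.degree (n • k7fbaE φ Q) = n * (Fintype.card P : ℤ) := by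
      rw [map_nsmul, hdeg, nsmul_eq_mul]
    have h3 := Fermat.Agent.DEU.rr_finrank_le_degree_add_one hres Q (n • k7fbaE φ Q)
      (by rw [hdegn]; positivity)
    rw [hdegn] at h3
    simpa using h3

end Fermat.Agent.RT.K7F
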