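import Fermat.Agent.RT.K7F.DiamGrp

/-!
# RT / K7-FLAT, piece FL-DIAM, part 8: the `p`-group of reduced diamonds

`k = kA A`, `F̄_H = fieldC k L M H`.

* `k7fdgP A hA hlev : Subgroup (F̄_H ≃ₐ[k] F̄_H)` — the group of the reduced diamonds `δ̄_c`;
* `k7fdgF0 K L M H : IntermediateField K (fieldC K L M H)` — `F̄₀` inside `F̄_H`;
* `k7fdgP_bijective`, `k7fdgP_card` (`= m + 1`), `k7fdgP_finite`, `k7fdgP_isPGroup`;
* `k7fdgP_fix` (`hF₀`), `k7fdgP_fixed` (`hfix`) — the hypotheses of `k7fba_bound`.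
-/

set_option autoImplicit false
set_option linter.style.haveILetI false
set_option linter.unusedSectionVars false
set_option synthInstance.maxHeartbeats 400000
set_option maxHeartbeats 1600000

noncomputable section

namespace Fermat.Agent.RT.K7F

open Polynomial ModularCurve IntermediateField AlgebraicCurve HahnSeries
open Fermat.Agent.S24 Fermat.Agent.S28 Fermat.Agent.INJ Fermat.Agent.ES Fermat.Agent.ES1
  Fermat.Agent.ES.M Fermat.Agent.ES1.G2

variable (A : ValuationSubring Kb) {p : ℕ} {L M : ℕ} {H : Subgroup (ZMod M)ˣ}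

/-- **the group of reduced diamonds** -/
def k7fdgP (hA : A.LiesOverPrime p) (hlev : K7FLevel L M H p) :
    Subgroup (fieldC (kA A) L M H ≃ₐ[kA A] fieldC (kA A) L M H) :=
  (k7fdgHom A hA hlev).range

/-- `F̄₀` as an intermediate field of `F̄_H / k` -/
def k7fdgF0 (K : Type) [Field K] (L M : ℕ) (H : Subgroup (ZMod M)ˣ) :
    IntermediateField K (fieldC K L M H) :=
  (modularFunctionFieldFullC K L).comap (fieldC K L M H).val

theorem mem_k7fdgF0 {K : Type} [Field K] {f : fieldC K L M H} :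
    f ∈ k7fdgF0 K L M H ↔ (f : LaurentSeries K) ∈ modularFunctionFieldFullC K L := Iff.rfl

/-- multiplying a class `± a H` by `b` -/
theorem k7fdg_inPM_mul {a c : (ZMod M)ˣ} (b : (ZMod M)ˣ) (h : InPM H a (c : ZMod M)) :
    InPM H (b * a) ((b * c : (ZMod M)ˣ) : ZMod M) := by
  obtain ⟨h₀, hh₀, hx | hx⟩ := h
  · exact ⟨h₀, hh₀, Or.inl (by
      rw [Units.val_mul, hx, Units.val_mul, Units.val_mul, Units.val_mul]; ring)⟩
  · exact ⟨h₀, hh₀, Or.inr (by
      rw [Units.val_mul, hx, Units.val_mul, Units.val_mul, Units.val_mul]; ring)⟩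

/-- `δ̄_c` depends only on the class of `c` in `(ℤ/M)ˣ / ±H` -/
theorem k7fdgBar_congr (hA : A.LiesOverPrime p) (hlev : K7FLevel L M H p) {a c : (ZMod M)ˣ}
    (h : InPM H a (c : ZMod M)) : k7fdgBar A hA hlev c = k7fdgBar A hA hlev a := by
  refine k7fdg_algEquiv_ext (kA A) _ _ (fun f hf => ?_) (fun f hf => ?_)
  · have hf' : (f : LaurentSeries (kA A)) ∈ modularFunctionFieldFullC (kA A) L :=
      IntermediateField.subset_adjoin _ _ hf
    rw [k7fdgBar_fix A hA hlev c f hf', k7fdgBar_fix A hA hlev a f hf']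
  · obtain ⟨e, he0, b, he, hf⟩ := hf
    apply Subtype.ext
    rw [k7fdgBar_act A hA hlev c e b he f hf, k7fdgBar_act A hA hlev a e b he f hf,
      es1f_sS_eq_of_inPM (kA A) (k7fdg_inPM_mul b h)]

/-- the reduced diamonds `δ̄_{a i}` of a system of representatives are exactly the elements of
`P` -/
theorem k7fdgP_bijective (hA : A.LiesOverPrime p) (hlev : K7FLevel L M H p) {m : ℕ}
    (a : Fin (m + 1) → (ZMod M)ˣ) (ha : IsRepFam H a) :
    Function.Bijective (fun i : Fin (m + 1) =>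
      (⟨k7fdgBar A hA hlev (a i), ⟨a i, rfl⟩⟩ : k7fdgP A hA hlev)) := by
  constructor
  · intro i j hij
    have h1 : k7fdgBar A hA hlev (a i) = k7fdgBar A hA hlev (a j) := congrArg Subtype.val hij
    have h2 := k7fdgBar_S A hA hlev (a i)
    rw [h1, k7fdgBar_S A hA hlev (a j)] at h2
    exact es1cu_sS_injective (kA A) (k7fd_level_M_ne_zero hlev) ha h2.symm
  · rintro ⟨σ, c, rfl⟩
    obtain ⟨i, hi⟩ := ha.surj c
    exact ⟨i, Subtype.ext (k7fdgBar_congr A hA hlev hi).symm⟩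

theorem k7fdgP_card (hA : A.LiesOverPrime p) (hlev : K7FLevel L M H p) {m : ℕ}
    (a : Fin (m + 1) → (ZMod M)ˣ) (ha : IsRepFam H a) :
    Nat.card (k7fdgP A hA hlev) = m + 1 := by
  rw [← Nat.card_congr (Equiv.ofBijective _ (k7fdgP_bijective A hA hlev a ha)), Nat.card_fin]

theorem k7fdgP_finite (hA : A.LiesOverPrime p) (hlev : K7FLevel L M H p) :
    Finite (k7fdgP A hA hlev) := by
  obtain ⟨m, a, ha⟩ := exists_isRepFam (k7fd_level_M_ne_zero hlev) H
  exact Finite.of_equiv _ (Equiv.ofBijective _ (k7fdgP_bijective A hA hlev a ha))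

/-- `P` is a `p`-group -/
theorem k7fdgP_isPGroup (hA : A.LiesOverPrime p) (hlev : K7FLevel L M H p) :
    IsPGroup p (k7fdgP A hA hlev) := by
  obtain ⟨m, a, ha⟩ := exists_isRepFam (k7fd_level_M_ne_zero hlev) H
  obtain ⟨k, hk⟩ := hlev.pgroup m a ha
  haveI : Fact p.Prime := ⟨hlev.hp⟩
  exact IsPGroup.of_card (n := k) (by rw [k7fdgP_card A hA hlev a ha, hk])

/-- (`hF₀`) the reduced diamonds fix `F̄₀` -/
theorem k7fdgP_fix (hA : A.LiesOverPrime p) (hlev : K7FLevel L M H p)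
    (g : k7fdgP A hA hlev) (x : fieldC (kA A) L M H) (hx : x ∈ k7fdgF0 (kA A) L M H) :
    (g : fieldC (kA A) L M H ≃ₐ[kA A] fieldC (kA A) L M H) x = x := by
  obtain ⟨σ, c, rfl⟩ := g
  exact k7fdgBar_fix A hA hlev c x hx

/-- (`hfix`) an element fixed by all reduced diamonds lies in `F̄₀` -/
theorem k7fdgP_fixed (hA : A.LiesOverPrime p) (hlev : K7FLevel L M H p)
    (f : fieldC (kA A) L M H)
    (hf : ∀ g : k7fdgP A hA hlev,
      (g : fieldC (kA A) L M H ≃ₐ[kA A] fieldC (kA A) L M H) f = f) :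
    f ∈ k7fdgF0 (kA A) L M H := by
  obtain ⟨m, a, ha⟩ := exists_isRepFam (k7fd_level_M_ne_zero hlev) H
  exact k7fdg_fixed A hA hlev a ha f (fun i => hf ⟨k7fdgBar A hA hlev (a i), ⟨a i, rfl⟩⟩)

/-- the elements of `P` are the reduced diamonds -/
theorem k7fdgP_exists (hA : A.LiesOverPrime p) (hlev : K7FLevel L M H p)
    (g : k7fdgP A hA hlev) : ∃ c : (ZMod M)ˣ,
      (g : fieldC (kA A) L M H ≃ₐ[kA A] fieldC (kA A) L M H) = k7fdgBar A hA hlev c := by
  obtain ⟨σ, c, rfl⟩ := g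
  exact ⟨c, rfl⟩

theorem k7fdgBar_mem (hA : A.LiesOverPrime p) (hlev : K7FLevel L M H p) (c : (ZMod M)ˣ) :
    k7fdgBar A hA hlev c ∈ k7fdgP A hA hlev := ⟨c, rfl⟩

/-- **the package for `k7fba_bound`**: a finite `p`-group `P` with an injective
`φ : P →* Aut_k(F̄_H)`, `|P| = m + 1`, fixed field `F̄₀`. -/
theorem k7fdg_package (hA : A.LiesOverPrime p) (hlev : K7FLevel L M H p) {m : ℕ}
    (a : Fin (m + 1) → (ZMod M)ˣ) (ha : IsRepFam H a) :
    ∃ (P : Type) (_ : Group P) (_ : Fintype P)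
      (φ : P →* (fieldC (kA A) L M H ≃ₐ[kA A] fieldC (kA A) L M H)),
      Fintype.card P = m + 1 ∧ IsPGroup p P ∧ Function.Injective φ ∧
      (∀ (g : P) (x : fieldC (kA A) L M H), x ∈ k7fdgF0 (kA A) L M H → φ g x = x) ∧
      (∀ f : fieldC (kA A) L M H, (∀ g : P, φ g f = f) → f ∈ k7fdgF0 (kA A) L M H) ∧
      (∀ g : P, ∃ c : (ZMod M)ˣ, φ g = k7fdgBar A hA hlev c) ∧
      (∀ c : (ZMod M)ˣ, ∃ g : P, φ g = k7fdgBar A hA hlev c) := by
  haveI := k7fdgP_finite A hA hlev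
  letI : Fintype (k7fdgP A hA hlev) := Fintype.ofFinite _
  refine ⟨k7fdgP A hA hlev, inferInstance, inferInstance, (k7fdgP A hA hlev).subtype, ?_,
    k7fdgP_isPGroup A hA hlev, Subtype.val_injective, ?_, ?_, ?_, ?_⟩
  · rw [← Nat.card_eq_fintype_card]
    exact k7fdgP_card A hA hlev a ha
  · exact fun g x hx => k7fdgP_fix A hA hlev g x hx
  · exact fun f hf => k7fdgP_fixed A hA hlev f hf
  · exact fun g => k7fdgP_exists A hA hlev g
  · exact fun c => ⟨⟨k7fdgBar A hA hlev c, k7fdgBar_mem A hA hlev c⟩, rfl⟩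

end Fermat.Agent.RT.K7F
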