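import Fermat.Prelude.Def_AlgebraicCurve_Repartitions

/-!
# RT-K7F, FL-RHp-A: transport of places along an isomorphism of function fields

`e : F ≃ₐ[k] F'` an isomorphism of fields over `k`.

* `k7fpeMap e : Place k F ≃ Place k F'` (valuation subring `v.comap e.symm`);
* `k7fpe_ord` : `(k7fpeMap e v).ord (e f) = v.ord f`;
* `k7fpeResidue`, `k7fpe_deg`, `k7fpe_res` : the residue fields are isomorphic over `k`;
* `k7fpeDiv e : Divisor k F → Divisor k F'`, `k7fpe_degree`;
* `k7fpe_hasPrincipalDivisors`;
* `k7fpe_rr`, `k7fpe_finrank_div`, `k7fpe_finrank` : the Riemann–Roch spaces correspond.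
-/

set_option autoImplicit false
set_option linter.unusedSectionVars false
set_option linter.style.haveILetI false

noncomputable section

open AlgebraicCurve IsDedekindDomain WithZero Module

namespace Fermat.Agent.RT.K7F

variable {k F F' : Type*} [Field k] [Field F] [Field F'] [Algebra k F] [Algebra k F']
  (e : F ≃ₐ[k] F')

/-- the image of a valuation subring under an isomorphism -/
def k7fpeVal (A : ValuationSubring F) : ValuationSubring F' :=
  A.comap (e.symm : F' →+* F)

theorem mem_k7fpeVal {A : ValuationSubring F} {y : F'} : y ∈ k7fpeVal e A ↔ e.symm y ∈ A :=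
  Iff.rfl

/-- the isomorphism of the valuation rings -/
def k7fpeRingEquiv (A : ValuationSubring F) : A ≃+* k7fpeVal e A where
  toFun x := ⟨e x, by
    show e.symm (e x) ∈ A
    rw [e.symm_apply_apply]
    exact x.2⟩
  invFun y := ⟨e.symm y, y.2⟩
  left_inv x := Subtype.ext (e.symm_apply_apply x)
  right_inv y := Subtype.ext (e.apply_symm_apply y)
  map_mul' x y := Subtype.ext (map_mul e (x : F) (y : F))
  map_add' x y := Subtype.ext (map_add e (x : F) (y : F))

@[simp]
theorem coe_k7fpeRingEquiv_apply (A : ValuationSubring F) (x : A) :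
    ((k7fpeRingEquiv e A x : k7fpeVal e A) : F') = e x := rfl

/-- the image of a place under an isomorphism -/
def k7fpeFun (v : Place k F) : Place k F' where
  toValuationSubring := k7fpeVal e v.toValuationSubring
  algebraMap_mem' a := by
    show e.symm (algebraMap k F' a) ∈ v.toValuationSubring
    rw [e.symm.commutes]
    exact v.algebraMap_mem' a
  ne_top' h := v.ne_top' <| by
    ext x
    constructor
    · intro _
      exact ValuationSubring.mem_top x
    · intro _
      have h1 : e x ∈ k7fpeVal e v.toValuationSubring := by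
        rw [h]
        exact ValuationSubring.mem_top _
      have h2 : e.symm (e x) ∈ v.toValuationSubring := h1
      rwa [e.symm_apply_apply] at h2
  isPrincipalIdealRing' :=
    IsPrincipalIdealRing.of_surjective
      (k7fpeRingEquiv e v.toValuationSubring : _ ≃+* _)
      (k7fpeRingEquiv e v.toValuationSubring).surjective

@[simp]
theorem k7fpeFun_toValuationSubring (v : Place k F) :
    (k7fpeFun e v).toValuationSubring = k7fpeVal e v.toValuationSubring := rfl

theorem k7fpeFun_symm_apply (v : Place k F) : k7fpeFun e.symm (k7fpeFun e v) = v := by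
  apply Place.ext
  ext x
  show e.symm.symm x ∈ k7fpeVal e v.toValuationSubring ↔ _
  show e.symm (e.symm.symm x) ∈ v.toValuationSubring ↔ _
  rw [AlgEquiv.symm_symm, e.symm_apply_apply]

theorem k7fpeFun_apply_symm (w : Place k F') : k7fpeFun e (k7fpeFun e.symm w) = w := by
  have h := k7fpeFun_symm_apply e.symm w
  rwa [AlgEquiv.symm_symm] at h

/-- **the bijection of places** -/
def k7fpeMap : Place k F ≃ Place k F' where
  toFun := k7fpeFun e
  invFun := k7fpeFun e.symm
  left_inv := k7fpeFun_symm_apply e
  right_inv := k7fpeFun_apply_symm e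

@[simp]
theorem k7fpeMap_apply (v : Place k F) : k7fpeMap e v = k7fpeFun e v := rfl

@[simp]
theorem k7fpeMap_symm_apply (w : Place k F') : (k7fpeMap e).symm w = k7fpeFun e.symm w := rfl

/-- **orders correspond** -/
theorem k7fpe_ord (v : Place k F) (f : F) : (k7fpeMap e v).ord (e f) = v.ord f := by
  rcases eq_or_ne f 0 with rfl | hf
  · simp
  obtain ⟨π, hπ⟩ := IsDiscreteValuationRing.exists_irreducible v.toValuationSubring
  obtain ⟨u, hu⟩ := v.exists_unit_mul_zpow hf hπ
  set n := v.ord f with hn
  set ε : v.toValuationSubring ≃+* (k7fpeFun e v).toValuationSubring :=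
    k7fpeRingEquiv e v.toValuationSubring with hε
  have hπ' : Irreducible (ε π) := (MulEquiv.irreducible_iff ε).mpr hπ
  have hu' : IsUnit (ε (u : v.toValuationSubring)) := u.isUnit.map ε
  have hcoeu : ((hu'.unit : (k7fpeFun e v).toValuationSubring) : F')
      = e ((u : v.toValuationSubring) : F) := by
    rw [IsUnit.unit_spec]
    rfl
  have hcoeπ : ((ε π : (k7fpeFun e v).toValuationSubring) : F') = e (π : F) := rfl
  have key : e f = ((hu'.unit : (k7fpeFun e v).toValuationSubring) : F')
      * (((ε π : (k7fpeFun e v).toValuationSubring) : F') ^ n) := by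
    rw [hcoeu, hcoeπ, hu, map_mul, map_zpow₀]
  rw [k7fpeMap_apply, key, (k7fpeFun e v).ord_unit_smul_zpow hu'.unit hπ' n]

theorem k7fpe_ord_symm (w : Place k F') (f' : F') :
    ((k7fpeMap e).symm w).ord (e.symm f') = w.ord f' := by
  have h := k7fpe_ord e.symm w f'
  exact h

theorem k7fpe_ord' (v : Place k F) (f' : F') : (k7fpeMap e v).ord f' = v.ord (e.symm f') := by
  have h := k7fpe_ord e v (e.symm f')
  rwa [e.apply_symm_apply] at h

/-- the residue fields are isomorphic over `k` -/
def k7fpeResidue (v : Place k F) : v.ResidueField ≃ₐ[k] (k7fpeMap e v).ResidueField :=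
  AlgEquiv.ofRingEquiv (f := IsLocalRing.ResidueField.mapEquiv
      (k7fpeRingEquiv e v.toValuationSubring)) <| fun a => by
    have h3 : (k7fpeRingEquiv e v.toValuationSubring) (algebraMap k v.toValuationSubring a)
        = algebraMap k (k7fpeFun e v).toValuationSubring a := by
      ext
      rw [coe_k7fpeRingEquiv_apply, Place.coe_algebraMap, e.commutes]
      rfl
    show IsLocalRing.ResidueField.mapEquiv _ (IsLocalRing.residue _ _) = IsLocalRing.residue _ _
    rw [IsLocalRing.ResidueField.mapEquiv_apply, IsLocalRing.ResidueField.map_residue]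
    exact congrArg _ h3

theorem k7fpe_deg (v : Place k F) : (k7fpeMap e v).deg = v.deg :=
  ((k7fpeResidue e v).toLinearEquiv.finrank_eq).symm

/-- **residue fields `= k` correspond** -/
theorem k7fpe_res (v : Place k F) (h : Function.Bijective (algebraMap k v.ResidueField)) :
    Function.Bijective (algebraMap k (k7fpeMap e v).ResidueField) := by
  have hcomp : (algebraMap k (k7fpeMap e v).ResidueField : k → (k7fpeMap e v).ResidueField) =
      (k7fpeResidue e v) ∘ (algebraMap k v.ResidueField) := by
    funext a
    exact ((k7fpeResidue e v).commutes a).symm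
  rw [hcomp]
  exact (k7fpeResidue e v).bijective.comp h

include e in
/-- residue fields `= k` for all places -/
theorem k7fpe_res_all (h : ∀ v : Place k F, Function.Bijective (algebraMap k v.ResidueField))
    (w : Place k F') : Function.Bijective (algebraMap k w.ResidueField) := by
  have h1 := k7fpe_res e ((k7fpeMap e).symm w) (h _)
  rwa [Equiv.apply_symm_apply] at h1

/-! ### Divisors -/

/-- the image of a divisor -/
def k7fpeDiv (D : Divisor k F) : Divisor k F' := Finsupp.mapDomain (k7fpeMap e) D

theorem k7fpeDiv_apply (D : Divisor k F) (v : Place k F) : k7fpeDiv e D (k7fpeMap e v) = D v :=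
  Finsupp.mapDomain_apply (k7fpeMap e).injective D v

theorem k7fpeDiv_apply' (D : Divisor k F) (w : Place k F') :
    k7fpeDiv e D w = D ((k7fpeMap e).symm w) := by
  have h := k7fpeDiv_apply e D ((k7fpeMap e).symm w)
  rwa [Equiv.apply_symm_apply] at h

@[simp]
theorem k7fpeDiv_single (v : Place k F) (n : ℤ) :
    k7fpeDiv e (Finsupp.single v n) = Finsupp.single (k7fpeMap e v) n := by
  rw [k7fpeDiv, Finsupp.mapDomain_single]

theorem k7fpeDiv_add (D D' : Divisor k F) : k7fpeDiv e (D + D') = k7fpeDiv e D + k7fpeDiv e D' :=
  Finsupp.mapDomain_add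

theorem k7fpe_degree (D : Divisor k F) : Divisor.degree (k7fpeDiv e D) = Divisor.degree D := by
  induction D using Finsupp.induction with
  | zero => simp [k7fpeDiv]
  | single_add v n D _ _ ih =>
      rw [k7fpeDiv_add, map_add, map_add, ih, k7fpeDiv_single, Divisor.degree_single,
        Divisor.degree_single, k7fpe_deg]

include e in
/-- **principal divisors correspond** -/
theorem k7fpe_hasPrincipalDivisors (h : HasPrincipalDivisors k F) : HasPrincipalDivisors k F' where
  exists_divisor f' hf' := by
    have hf : e.symm f' ≠ 0 := by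
      intro h0
      apply hf'
      have := congrArg e h0
      rwa [e.apply_symm_apply, map_zero] at this
    obtain ⟨D, hD, hdeg⟩ := h.exists_divisor (e.symm f') hf
    refine ⟨k7fpeDiv e D, fun w => ?_, ?_⟩
    · rw [k7fpeDiv_apply', hD, k7fpe_ord_symm]
    · rw [k7fpe_degree, hdeg]

/-! ### Riemann–Roch spaces -/

/-- **the Riemann–Roch spaces correspond** -/
theorem k7fpe_mem_rr (D : Divisor k F) (f : F) :
    e f ∈ riemannRochSpace (k7fpeDiv e D) ↔ f ∈ riemannRochSpace D := by
  rw [mem_riemannRochSpace_iff, mem_riemannRochSpace_iff]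
  have h0 : e f = 0 ↔ f = 0 := by
    constructor
    · intro h
      have := congrArg e.symm h
      rwa [e.symm_apply_apply, map_zero] at this
    · intro h
      rw [h, map_zero]
  constructor
  · intro h v
    have h1 := h (k7fpeMap e v)
    rwa [h0, k7fpeDiv_apply, k7fpe_ord] at h1
  · intro h w
    have h1 := h ((k7fpeMap e).symm w)
    have h2 := k7fpe_ord e ((k7fpeMap e).symm w) f
    rw [Equiv.apply_symm_apply] at h2
    rw [h0, k7fpeDiv_apply', h2]
    exact h1

/-- the linear equivalence of the Riemann–Roch spaces -/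
def k7fpeRR (D : Divisor k F) :
    ↥(riemannRochSpace D) ≃ₗ[k] ↥(riemannRochSpace (k7fpeDiv e D)) where
  toFun f := ⟨e (f : F), (k7fpe_mem_rr e D f).mpr f.2⟩
  invFun g := ⟨e.symm (g : F'), by
    have h := g.2
    rw [← e.apply_symm_apply (g : F')] at h
    exact (k7fpe_mem_rr e D _).mp h⟩
  left_inv f := Subtype.ext (e.symm_apply_apply _)
  right_inv g := Subtype.ext (e.apply_symm_apply _)
  map_add' f g := Subtype.ext (map_add e _ _)
  map_smul' c f := Subtype.ext (map_smul e c (f : F))

theorem k7fpe_finrank_div (D : Divisor k F) :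
    finrank k ↥(riemannRochSpace (k7fpeDiv e D)) = finrank k ↥(riemannRochSpace D) :=
  ((k7fpeRR e D).finrank_eq).symm

/-- **the dimensions at the multiples of a place correspond** -/
theorem k7fpe_finrank (v : Place k F) (n : ℤ) :
    finrank k ↥(riemannRochSpace (Finsupp.single (k7fpeMap e v) n)) =
      finrank k ↥(riemannRochSpace (Finsupp.single v n)) := by
  rw [← k7fpeDiv_single, k7fpe_finrank_div]

end Fermat.Agent.RT.K7F
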