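import Fermat.Agent.RT.K7F.ResFin
import Fermat.Agent.DEU.ResSide
import Fermat.Agent.ES1.HGen

/-!
# K7F / FL-RES: the residue side `F̄_H = ES1.fieldC k L M H`, `k` of characteristic `p`

Fork of `DEU/ResSide.lean` (there: `F̄₀ = modularFunctionFieldFullC k N`).

GENERIC part (`k7fresg_*`): `F` any intermediate field of `k((q)) / k` containing `j̄` and finite
over `k(j̄)`:
* `k7fresg_transcendental` : `j̄` is transcendental;
* `k7fresg_isSeparable` : `F / k(j̄)` is separable (`k` perfect);
* `k7fresg_hroot` : every transcendental `y ∈ F` is `z ^ (p ^ e)`, `z ∈ F` not a `p`-th power in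
  `k((q))` (so `F / k(z)` is separable, `k7fresg_isSeparable_of_not_pow`);
* `k7fresg_hasPrincipalDivisors`, `k7fresg_residue_bijective` (`k` algebraically closed).

INSTANCE `F = fieldC k L M H`, `L ≠ 0`, `M ∣ L` (`k7fres_*`):
* `k7fresJ`, `k7fres_finiteDimensionalJ`, `k7fres_ff1 : ES1.Es1hFF1 k F̄_H`,
* `k7fres_isSeparable`, `k7fres_hroot`, `k7fres_root_mem`,
* `k7fres_hasPrincipalDivisors`, `k7fres_residue_bijective`.
-/

set_option autoImplicit false
set_option linter.unusedSectionVars false
set_option linter.style.haveILetI false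
set_option synthInstance.maxHeartbeats 400000
set_option maxHeartbeats 1600000

open ModularCurve HahnSeries IntermediateField

namespace Fermat.Agent.RT.K7F

open Fermat.Agent.DEU Fermat.Agent.ES1

section Generic

variable (k : Type*) [Field k] (p : ℕ) [Fact p.Prime] [CharP k p]
variable (F : IntermediateField k (LaurentSeries k)) (J : F)
  (hJ : (J : LaurentSeries k) = jqModC k)

include hJ in
theorem k7fresg_transcendental : Transcendental k J := by
  intro h
  have h1 : IsAlgebraic k ((J : F) : LaurentSeries k) := by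
    have := h.algHom F.val
    simpa using this
  rw [hJ] at h1
  exact Fermat.Agent.S28.red_transcendental_jqModC k h1

/-- a transcendental element of `F` is not constant as a Laurent series -/
theorem k7fresg_exists_coeff_ne_zero (y : F) (hy : Transcendental k y) :
    ∃ n : ℤ, n ≠ 0 ∧ (y : LaurentSeries k).coeff n ≠ 0 := by
  by_contra hcon
  push Not at hcon
  apply hy
  have h1 : (y : LaurentSeries k) = HahnSeries.C ((y : LaurentSeries k).coeff 0) := by
    ext n
    by_cases hn : n = 0
    · subst hn; simp
    · rw [hcon n hn]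
      simp [HahnSeries.C_apply, HahnSeries.coeff_single_of_ne hn]
  have h2 : y = algebraMap k F ((y : LaurentSeries k).coeff 0) := by
    apply Subtype.ext
    have h3 : ((algebraMap k F ((y : LaurentSeries k).coeff 0) : F) : LaurentSeries k) =
          algebraMap k (LaurentSeries k) ((y : LaurentSeries k).coeff 0) := rfl
    rw [h3, LaurentSeries.algebraMap_apply]
    exact h1
  rw [h2]
  exact isAlgebraic_algebraMap _

variable [PerfectRing k p]

include p

/-- an element of `F` that is not a `p`-th power in `k((q))` is separating -/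
theorem k7fresg_isSeparable_of_not_pow (z : F)
    (hz : ∀ w : LaurentSeries k, w ^ p ≠ (z : LaurentSeries k))
    [Algebra.IsAlgebraic k⟮z⟯ F] : Algebra.IsSeparable k⟮z⟯ F :=
  resSep_isSeparable p F z hz

include hJ in
/-- `F / k(j̄)` is separable. -/
theorem k7fresg_isSeparable [FiniteDimensional k⟮J⟯ F] : Algebra.IsSeparable k⟮J⟯ F := by
  haveI : Algebra.IsAlgebraic k⟮J⟯ F := Algebra.IsAlgebraic.of_finite _ _
  refine k7fresg_isSeparable_of_not_pow k p F J ?_
  rw [hJ]
  exact resSide_jq_not_pow k p

include hJ in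
/-- `F` is closed under `p ^ e`-th roots in `k((q))`. -/
theorem k7fresg_root_mem [FiniteDimensional k⟮J⟯ F] (e : ℕ) (w : LaurentSeries k)
    (hw : w ^ (p ^ e) ∈ F) : w ∈ F := by
  haveI := k7fresg_isSeparable k p F J hJ
  induction e generalizing w with
  | zero => simpa using hw
  | succ e ih =>
    refine ih w ?_
    refine resRoot_mem p F J (by rw [hJ]; exact resSide_jq_not_pow k p) (w ^ (p ^ e)) ?_
    rw [← pow_mul, ← pow_succ]
    exact hw

include hJ in
/-- **every transcendental element of `F` is a `p`-power of a separating element** -/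
theorem k7fresg_hroot [FiniteDimensional k⟮J⟯ F] (y : F) (hy : Transcendental k y) :
    ∃ (e : ℕ) (z : F), z ^ (p ^ e) = y ∧
      ∀ w : LaurentSeries k, w ^ p ≠ (z : LaurentSeries k) := by
  obtain ⟨e, w, hw, hwp⟩ := resLaurent_exists_root p (y : LaurentSeries k)
    (k7fresg_exists_coeff_ne_zero k F y hy)
  have hwF : w ∈ F := k7fresg_root_mem k p F J hJ e w (by rw [hw]; exact y.2)
  exact ⟨e, ⟨w, hwF⟩, Subtype.ext hw, hwp⟩

omit [PerfectRing k p] in
include hJ in
/-- principal divisors (any characteristic `p > 0`, `k` algebraically closed) -/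
theorem k7fresg_hasPrincipalDivisors [IsAlgClosed k] [FiniteDimensional k⟮J⟯ F] :
    AlgebraicCurve.HasPrincipalDivisors k F := by
  haveI : PerfectRing k p := inferInstance
  exact resPD_hasPrincipalDivisors p F J (k7fresg_transcendental k F J hJ)
    (k7fresg_hroot k p F J hJ)

omit [Fact p.Prime] [CharP k p] [PerfectRing k p] in
omit p in
include hJ in
/-- every place has residue field `k` (`k` algebraically closed) -/
theorem k7fresg_residue_bijective [IsAlgClosed k] [FiniteDimensional k⟮J⟯ F]
    (v : AlgebraicCurve.Place k F) :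
    Function.Bijective (algebraMap k v.ResidueField) :=
  Fermat.Agent.S24.algebraMap_residueField_bijective J
    (k7fresg_transcendental k F J hJ) (Algebra.IsAlgebraic.of_finite _ _) v

end Generic

section Instance

variable (k : Type*) [Field k] (p : ℕ) [Fact p.Prime] [CharP k p]
variable (L M : ℕ) (H : Subgroup (ZMod M)ˣ)

/-- `j̄` as an element of `F̄_H` -/
noncomputable def k7fresJ : ↥(fieldC k L M H) :=
  ⟨jqModC k, full_le_fieldC k L M H (jqModC_mem_full k L)⟩

@[simp] theorem coe_k7fresJ :
    ((k7fresJ k L M H : ↥(fieldC k L M H)) : LaurentSeries k) = jqModC k := rfl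

theorem k7fres_transcendental_J : Transcendental k (k7fresJ k L M H) :=
  k7fresg_transcendental k (fieldC k L M H) _ rfl

include p

/-- **`F̄_H / k(j̄)` is finite.** -/
theorem k7fres_finiteDimensionalJ (hL : L ≠ 0) (hML : M ∣ L) :
    FiniteDimensional k⟮k7fresJ k L M H⟯ ↥(fieldC k L M H) :=
  k7fres_finiteDimensional k p L M H hL hML _ rfl

/-- `F̄_H` is a function field of one variable over `k` -/
theorem k7fres_ff1 (hL : L ≠ 0) (hML : M ∣ L) : Es1hFF1 k ↥(fieldC k L M H) :=
  ⟨k7fresJ k L M H, k7fres_transcendental_J k L M H, k7fres_finiteDimensionalJ k p L M H hL hML⟩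

/-- `F̄_H` is finite over `k(g)` for every transcendental `g` -/
theorem k7fres_finiteDimensional_of_transcendental (hL : L ≠ 0) (hML : M ∣ L)
    (g : ↥(fieldC k L M H)) (hg : Transcendental k g) :
    FiniteDimensional k⟮g⟯ ↥(fieldC k L M H) :=
  (k7fres_ff1 k p L M H hL hML).finiteDimensional g hg

variable [PerfectRing k p]

/-- **`F̄_H / k(j̄)` is separable.** -/
theorem k7fres_isSeparable (hL : L ≠ 0) (hML : M ∣ L) :
    Algebra.IsSeparable k⟮k7fresJ k L M H⟯ ↥(fieldC k L M H) := by
  haveI := k7fres_finiteDimensionalJ k p L M H hL hML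
  exact k7fresg_isSeparable k p (fieldC k L M H) _ rfl

/-- an element of `F̄_H` that is not a `p`-th power in `k((q))` is separating -/
theorem k7fres_isSeparable_of_not_pow (z : ↥(fieldC k L M H))
    (hz : ∀ w : LaurentSeries k, w ^ p ≠ (z : LaurentSeries k))
    [Algebra.IsAlgebraic k⟮z⟯ ↥(fieldC k L M H)] :
    Algebra.IsSeparable k⟮z⟯ ↥(fieldC k L M H) :=
  resSep_isSeparable p (fieldC k L M H) z hz

/-- `F̄_H` is closed under `p ^ e`-th roots in `k((q))`. -/
theorem k7fres_root_mem (hL : L ≠ 0) (hML : M ∣ L) (e : ℕ) (w : LaurentSeries k)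
    (hw : w ^ (p ^ e) ∈ fieldC k L M H) : w ∈ fieldC k L M H := by
  haveI := k7fres_finiteDimensionalJ k p L M H hL hML
  exact k7fresg_root_mem k p (fieldC k L M H) (k7fresJ k L M H) rfl e w hw

/-- **every transcendental element of `F̄_H` is a `p`-power of a separating element** -/
theorem k7fres_hroot (hL : L ≠ 0) (hML : M ∣ L) (y : ↥(fieldC k L M H))
    (hy : Transcendental k y) :
    ∃ (e : ℕ) (z : ↥(fieldC k L M H)), z ^ (p ^ e) = y ∧
      ∀ w : LaurentSeries k, w ^ p ≠ (z : LaurentSeries k) := by
  haveI := k7fres_finiteDimensionalJ k p L M H hL hML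
  exact k7fresg_hroot k p (fieldC k L M H) (k7fresJ k L M H) rfl y hy

omit [PerfectRing k p] in
/-- **FL-RES (a).** `F̄_H` has principal divisors. -/
theorem k7fres_hasPrincipalDivisors [IsAlgClosed k] (hL : L ≠ 0) (hML : M ∣ L) :
    AlgebraicCurve.HasPrincipalDivisors k ↥(fieldC k L M H) := by
  haveI := k7fres_finiteDimensionalJ k p L M H hL hML
  exact k7fresg_hasPrincipalDivisors k p (fieldC k L M H) (k7fresJ k L M H) rfl

omit [PerfectRing k p] in
/-- **FL-RES (b).** Every place of `F̄_H` has residue field `k`. -/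
theorem k7fres_residue_bijective [IsAlgClosed k] (hL : L ≠ 0) (hML : M ∣ L)
    (v : AlgebraicCurve.Place k ↥(fieldC k L M H)) :
    Function.Bijective (algebraMap k v.ResidueField) := by
  haveI := k7fres_finiteDimensionalJ k p L M H hL hML
  exact k7fresg_residue_bijective k (fieldC k L M H) (k7fresJ k L M H) rfl v

end Instance

end Fermat.Agent.RT.K7F
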