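/-
RT-K7F / FL-RHp-A, instance half (helper75): `StmtBoundE` from

* the abstract bound (helper32's `BoundAbs.lean`, on top of `k7frhp_bound_generic`),
* the diamond group package (helper40's `DiamGrpP.lean`),
* the residue side of `F̄_H` (helper11's `ResSide.lean`), the cusp `∞` (helper65's `AnchCusp.lean`),
* the level-`L` Riemann–Roch bound at the cusp `∞` of `F̄_L` (`DEU.deuAnchor_main`),
* the transport of places along the isomorphism `F̄_L ≃ F̄₀ ⊂ F̄_H` (`StmtRhpTransport`,
  proved in helper40's `PlaceEquiv.lean`).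

Main results: `k7frhpIso`, `k7frhp_stmtI2`, `k7frhp_boundE_of : StmtRhpTransport → StmtBoundE`,
`k7frhp_transport : StmtRhpTransport`, and **`k7frhp_stmtBoundE : StmtBoundE`** (unconditional).
-/
import Fermat.Agent.RT.K7F.Plan
import Fermat.Agent.RT.K7F.BoundAbs
import Fermat.Agent.RT.K7F.DiamGrpP
import Fermat.Agent.RT.K7F.AnchCusp
import Fermat.Agent.RT.K7F.ResSide
import Fermat.Agent.RT.K7F.PlaceEquiv
import Fermat.Agent.DEU.Anchor
import Fermat.Agent.DEU.ModHyp
import Fermat.Agent.ES.M.RedF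
import Fermat.Agent.ES.LR.Final
import Fermat.Agent.ES.I2.Final
import Fermat.Agent.ES.I2aux.Glue

set_option autoImplicit false
set_option linter.unusedSectionVars false
set_option linter.unusedVariables false
set_option linter.style.haveILetI false
set_option synthInstance.maxHeartbeats 400000
set_option maxHeartbeats 1600000

noncomputable section

namespace Fermat.Agent.RT.K7F

open AlgebraicCurve Module ModularCurve HahnSeries
open Fermat.Agent.ES Fermat.Agent.ES.M Fermat.Agent.ES1 Fermat.Agent.S24 Fermat.Agent.DEU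

/-! ## the transport package (input) -/

/-- **transport of the places along an isomorphism of function fields** (helper40,
`PlaceEquiv.lean`): orders, residue fields, principal divisors and the dimensions of the spaces
`L(n·v)` are preserved. -/
def StmtRhpTransport : Prop :=
  ∀ (k F F' : Type) [Field k] [Field F] [Field F'] [Algebra k F] [Algebra k F']
    (e : F ≃ₐ[k] F'),
    ∃ T : Place k F ≃ Place k F',
      (∀ (v : Place k F) (f : F), (T v).ord (e f) = v.ord f) ∧
      (∀ v : Place k F, Function.Bijective (algebraMap k v.ResidueField) →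
        Function.Bijective (algebraMap k (T v).ResidueField)) ∧
      (HasPrincipalDivisors k F → HasPrincipalDivisors k F') ∧
      (∀ (v : Place k F) (n : ℤ),
        finrank k ↥(riemannRochSpace (Finsupp.single (T v) n)) =
          finrank k ↥(riemannRochSpace (Finsupp.single v n)))

/-! ## the isomorphism `F̄_L ≃ F̄₀`

The generic form first (`F₁ ≤ F₂` intermediate fields of `E / K`): stated for VARIABLES, so that no
unification problem ever unfolds the concrete fields. -/

section IsoGen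

variable {K₀ E₀ : Type*} [Field K₀] [Field E₀] [Algebra K₀ E₀] (F₁ F₂ : IntermediateField K₀ E₀)

/-- the restriction `F₁ ∩ F₂ ⊂ F₂ → F₁` (identity on the elements) -/
def k7frhgHom : ↥(F₁.comap F₂.val) →ₐ[K₀] ↥F₁ where
  toFun y := ⟨((y : ↥F₂) : E₀), y.2⟩
  map_one' := rfl
  map_mul' _ _ := rfl
  map_zero' := rfl
  map_add' _ _ := rfl
  commutes' _ := rfl

theorem k7frhgHom_coe (y : ↥(F₁.comap F₂.val)) :
    ((k7frhgHom F₁ F₂ y : ↥F₁) : E₀) = ((y : ↥F₂) : E₀) := rfl

theorem k7frhgHom_bijective (h : F₁ ≤ F₂) : Function.Bijective (k7frhgHom F₁ F₂) :=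
  ⟨(k7frhgHom F₁ F₂).toRingHom.injective, fun x => ⟨⟨⟨(x : E₀), h x.2⟩, x.2⟩, rfl⟩⟩

/-- `F₁ ≃ F₁ ∩ F₂ ⊂ F₂` for `F₁ ≤ F₂` -/
def k7frhgIso (h : F₁ ≤ F₂) : ↥F₁ ≃ₐ[K₀] ↥(F₁.comap F₂.val) :=
  (AlgEquiv.ofBijective (k7frhgHom F₁ F₂) (k7frhgHom_bijective F₁ F₂ h)).symm

theorem k7frhgIso_symm_coe (h : F₁ ≤ F₂) (y : ↥(F₁.comap F₂.val)) :
    (((k7frhgIso F₁ F₂ h).symm y : ↥F₁) : E₀) = ((y : ↥F₂) : E₀) := rfl

end IsoGen

/-- the identification of `F̄_L = modularFunctionFieldFullC K L` with the subfield `F̄₀` of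
`F̄_H` -/
def k7frhpIso (K : Type) [Field K] (L M : ℕ) (H : Subgroup (ZMod M)ˣ) :
    ↥(modularFunctionFieldFullC K L) ≃ₐ[K] ↥(k7fdgF0 K L M H) :=
  k7frhgIso (modularFunctionFieldFullC K L) (fieldC K L M H) (full_le_fieldC K L M H)

theorem k7frhpIso_symm_coe (K : Type) [Field K] (L M : ℕ) (H : Subgroup (ZMod M)ˣ)
    (y : ↥(k7fdgF0 K L M H)) :
    (((k7frhpIso K L M H).symm y : ↥(modularFunctionFieldFullC K L)) : LaurentSeries K) =
      ((y : ↥(fieldC K L M H)) : LaurentSeries K) :=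
  k7frhgIso_symm_coe (modularFunctionFieldFullC K L) (fieldC K L M H) (full_le_fieldC K L M H) y

/-! ## the level-`L` input -/

/-- the genus bound (I2) at level `L`, in the two cases of `K7FLevel.h5` -/
theorem k7frhp_stmtI2 {L M : ℕ} {H : Subgroup (ZMod M)ˣ} {p : ℕ} (hlev : K7FLevel L M H p)
    [NeZero L] (A : ValuationSubring Kb) (hA : A.LiesOverPrime p) : StmtI2 L A := by
  rcases le_or_gt 5 p with h5 | h5
  · exact Fermat.Agent.ES.I2.stmtI2All L p hlev.hp h5 hlev.hpL A hA
  · exact Fermat.Agent.ES.I2aux.stmtI2AuxAll L p hlev.hp h5 hlev.hpL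
      (hlev.h5.resolve_left (not_le.mpr h5)) A hA

/-- **(RR₀)**: the cusp `∞` of `F̄_L` and the Riemann–Roch bound at its multiples -/
theorem k7frhp_level {L M : ℕ} {H : Subgroup (ZMod M)ˣ} {p : ℕ} (hlev : K7FLevel L M H p)
    [NeZero L] (A : ValuationSubring Kb) (hA : A.LiesOverPrime p) :
    ∃ (Qinf : Place (kA A) ↥(modularFunctionFieldFullC (kA A) L)) (n₀ : ℕ),
      (∀ x : ↥(modularFunctionFieldFullC (kA A) L), x ≠ 0 →
        Qinf.ord x = (x : LaurentSeries (kA A)).order) ∧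
      ∀ n : ℕ, n₀ ≤ n →
        (finrank (kA A) ↥(riemannRochSpace (Finsupp.single Qinf (n : ℤ))) : ℤ) ≤
          n + 1 - gN L := by
  haveI := modHyp_hpdk L A hlev.hp hA
  obtain ⟨-, Qinf, n₀, -, -, hQ, -, -, hRR⟩ := deuAnchor_main L A
    (stmtRedF L A p hlev.hp hlev.hpL hA) (Fermat.Agent.ES.LR.stmtLRa L p hlev.hp A hA)
    (k7frhp_stmtI2 hlev A hA) (Fermat.Agent.ES.R.stmtR L)
  refine ⟨Qinf, n₀, hQ, fun n hn => ?_⟩
  have h := hRR n hn
  rw [mulPlace] at h
  linarith

/-! ## the assembly -/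

/-- **FL-RHp-A (bound_E)**, given the transport package. -/
theorem k7frhp_boundE_of (hT : StmtRhpTransport) : StmtBoundE := by
  intro L M H p hlev A hA m a ha
  haveI : Fact p.Prime := ⟨hlev.hp⟩
  haveI : CharP (kA A) p := kron_charP_residueField hlev.hp hA
  haveI : IsAlgClosed (kA A) := modHyp_isAlgClosed A
  have hL0 : L ≠ 0 := by
    have := hlev.hL
    omega
  haveI : NeZero L := ⟨hL0⟩
  -- the group of reduced diamonds
  obtain ⟨P, hG, hF, φ, hcard, hP, hinj, hF₀, hfix, -, -⟩ := k7fdg_package A hA hlev a ha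
  -- level `L`
  have hpdL := modHyp_hpdk L A hlev.hp hA
  obtain ⟨Qinf, n₀, hQinf, hRR⟩ := k7frhp_level hlev A hA
  -- transport to `F̄₀ ⊂ F̄_H`
  obtain ⟨T, hTord, hTres, hTpd, hTfin⟩ :=
    hT (kA A) ↥(modularFunctionFieldFullC (kA A) L) ↥(k7fdgF0 (kA A) L M H)
      (k7frhpIso (kA A) L M H)
  haveI hpd0 : HasPrincipalDivisors (kA A) ↥(k7fdgF0 (kA A) L M H) := hTpd hpdL
  haveI hpdH : HasPrincipalDivisors (kA A) ↥(fieldC (kA A) L M H) :=
    k7fres_hasPrincipalDivisors (kA A) p L M H hL0 hlev.hML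
  have hres : ∀ v : Place (kA A) ↥(fieldC (kA A) L M H),
      Function.Bijective (algebraMap (kA A) v.ResidueField) :=
    k7fres_residue_bijective (kA A) p L M H hL0 hlev.hML
  have hres0 : ∀ v : Place (kA A) ↥(k7fdgF0 (kA A) L M H),
      Function.Bijective (algebraMap (kA A) v.ResidueField) := by
    intro v
    have key : ∀ w : Place (kA A) ↥(k7fdgF0 (kA A) L M H), w = v →
        Function.Bijective (algebraMap (kA A) w.ResidueField) →
        Function.Bijective (algebraMap (kA A) v.ResidueField) := by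
      intro w hw hb
      subst hw
      exact hb
    exact key _ (T.apply_symm_apply v) (hTres (T.symm v) (modHyp_hresk L A _))
  -- the cusp `∞` of `F̄_H`
  obtain ⟨Q, hQ, -⟩ := k7fanchc_exists_cuspC L M H (kA A)
  have hunr : ∀ x : ↥(k7fdgF0 (kA A) L M H),
      Q.ord (x : ↥(fieldC (kA A) L M H)) = (T Qinf).ord x := by
    intro x
    rcases eq_or_ne x 0 with rfl | hx
    · simp
    · have hx' : (x : ↥(fieldC (kA A) L M H)) ≠ 0 := fun h => hx (Subtype.ext h)
      have hx'' : (k7frhpIso (kA A) L M H).symm x ≠ 0 := by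
        intro h
        apply hx
        have h2 := congrArg (k7frhpIso (kA A) L M H) h
        rwa [AlgEquiv.apply_symm_apply, map_zero] at h2
      have h1 := hTord Qinf ((k7frhpIso (kA A) L M H).symm x)
      rw [AlgEquiv.apply_symm_apply] at h1
      rw [hQ _ hx', h1, hQinf _ hx'', k7frhpIso_symm_coe]
  have hRR' : ∀ n : ℕ, n₀ ≤ n →
      (finrank (kA A) ↥(riemannRochSpace (Finsupp.single (T Qinf) (n : ℤ))) : ℤ) ≤
        n + 1 - gN L := by
    intro n hn
    rw [hTfin Qinf n]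
    exact hRR n hn
  obtain ⟨hE0, hEdeg, -, -⟩ :=
    k7fba_bound p hP φ hinj (k7fdgF0 (kA A) L M H) hfix hF₀ hres hres0 Q (T Qinf) hunr
  refine ⟨k7fbaE φ Q, hE0, ?_, n₀, fun n hn => ?_⟩
  · rw [hEdeg, hcard]
  · have h := k7fba_bound_genus p hP φ hinj (k7fdgF0 (kA A) L M H) hfix hF₀ hres hres0 Q
      (T Qinf) hunr (gN L) n₀ hRR' n hn
    rw [hcard] at h
    exact h

/-- the transport package holds (helper40's `PlaceEquiv.lean`) -/
theorem k7frhp_transport : StmtRhpTransport := by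
  intro k F F' _ _ _ _ _ e
  exact ⟨k7fpeMap e, k7fpe_ord e, k7fpe_res e, k7fpe_hasPrincipalDivisors e, k7fpe_finrank e⟩

/-- **FL-RHp-A (bound_E)**, unconditional. -/
theorem k7frhp_stmtBoundE : StmtBoundE := k7frhp_boundE_of k7frhp_transport

end Fermat.Agent.RT.K7F
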