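import Fermat.Agent.RT.K7F.FinalOf
import Fermat.Agent.RT.K7F.RHpInst

/-!
# RT-K7F: K7-FLAT, UNCONDITIONAL (helper34, sub-captain)

* `stmtBoundE  : StmtBoundE`  (FL-RHp-A, helper75: `k7frhp_stmtBoundE`, `RHpInst.lean`)
* `stmtModPRH  : StmtModPRH`  (GEO-PR for `X_H(L; M)`)
* `stmtFlatH   : StmtFlatH`   (**K7-FLAT**)

All the pieces (FL-RH0 `stmtRiemannH`, FL-RHp `k7frhp_stmtBoundE`, FL-ANCH
`k7fanch_stmtModPRH_of_two`, FL-KC `k7fkc_stmtKCH`, FL-FIN `stmtFlatH_of_kc`) are theorems.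
-/

set_option autoImplicit false

namespace Fermat.Agent.RT.K7F

/-- FL-RHp-A (the bound at `Ē`), unconditional. -/
theorem stmtBoundE : StmtBoundE := k7frhp_stmtBoundE

/-- GEO-PR for `X_H(L; M)`, unconditional. -/
theorem stmtModPRH : StmtModPRH := stmtModPRH_of_boundE k7frhp_stmtBoundE

/-- **K7-FLAT**, unconditional. -/
theorem stmtFlatH : StmtFlatH := stmtFlatH_of_boundE k7frhp_stmtBoundE

end Fermat.Agent.RT.K7F
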