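import Fermat.Agent.W1.PlanAlg
import Fermat.Agent.W1.HopfOfLattice
import Fermat.Agent.W1.LocalToGlobalFinal
import Fermat.Agent.W1.ChartToLocal

/-!
# RT / K7-FLAT, piece FL-FIN (generic part): the flat conclusion from a kernel chart

`k7ffin_flat_of_kernelChart` : a kernel chart (`W1.KernelChart`) on ANY abelian group `J` with an
action of `G_ℚ`, with (FIN) and (CONT) for `J[pⁿ]`, gives
`HasFiniteFlatModel ℤ_(p) J[pⁿ] (torsAct J pⁿ)`
(ALG-B `chartToLocalStatement` + ALG-A `localToGlobalStatement` + W1-GL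
`hasFiniteFlatModel_of_isHopfLattice`, all generic in `J`).
-/

set_option autoImplicit false

noncomputable section

namespace Fermat.Agent.RT.K7F

open Fermat.Agent.W1

/-- **ALG-B + ALG-A + W1-GL**: a kernel chart on `J`, with (FIN) and (CONT) for `J[m]`, `m > 0`,
gives a finite flat model of `J[m]` over `ℤ_(p)`. -/
theorem k7ffin_flat_of_kernelChart (p : ℕ) (hp : p.Prime)
    (A : ValuationSubring (AlgebraicClosure ℚ)) (hA : A.LiesOverPrime p)
    (J : Type) [AddCommGroup J]
    [DistribMulAction (AlgebraicClosure ℚ ≃ₐ[ℚ] AlgebraicClosure ℚ) J]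
    (J1 : AddSubgroup J) (g : ℕ) (z : J → Fin g → AlgebraicClosure ℚ)
    (hKC : KernelChart A J J1 g z) (m : ℕ) (hm : 0 < m)
    (hfin : Finite (Submodule.torsionBy ℤ J (m : ℤ)))
    (hcont : IsContAction (torsAct J (m : ℤ))) :
    HasFiniteFlatModel (GaloisRep.ratLocalizedAt p) (Submodule.torsionBy ℤ J (m : ℤ))
      (torsAct J (m : ℤ)) := by
  obtain ⟨Ht, hHt⟩ := chartToLocalStatement p hp A hA J inferInstance inferInstance J1 g z hKC
    m hm hfin hcont
  obtain ⟨H, hH⟩ := localToGlobalStatement p hp A hA _ inferInstance hfin _ hcont Ht hHt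
  have : Fact p.Prime := ⟨hp⟩
  exact hasFiniteFlatModel_of_isHopfLattice hH

end Fermat.Agent.RT.K7F
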