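import Fermat.Agent.RT.K7F.Plan
import Fermat.Agent.RT.K7F.FinAbs
import Fermat.Agent.ES1.G1Final
import Fermat.Agent.ES1.G1.MuCoreH
import Fermat.Agent.ES1.G1Unique
import Fermat.Agent.ES1.G1Op
import Fermat.Agent.ES1.TopBSupp
import Fermat.Agent.ES1.TopBGalois
import Fermat.Agent.ES.TopFaith

/-!
# RT / K7-FLAT, piece FL-FIN: (FIN), (CONT) for `J_H^{tw}` and the final statement

`M ∣ L`, `H ≤ (ℤ/M)ˣ`, `J_H = ES1.JH L M H`, `χ : G_ℚ →* (ℤ/M)ˣ` with open kernel,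
`J_H^{tw} = JHtw L M H χ` (`RT/K7F/Plan.lean`).

* `k7ffin_finite_set` : **(FIN)** `J_H[n]` is finite, `n > 0` (multiplier map of ES₁-G1);
* `k7ffin_level` : the torsion points of `J_H` have finite level;
* `k7ffin_tw_finite`, `k7ffin_tw_cont` : (FIN) and (CONT) for `J_H^{tw}[n]`;
* `stmtFinH : StmtFinH` — **FL-FIN**, unconditional;
* `stmtFlatH_of_kc : StmtKCH → StmtModPRH → StmtFlatH` — the final statement of K7-FLAT from
  FL-KC and the package.
-/

set_option autoImplicit false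

noncomputable section

namespace Fermat.Agent.RT.K7F

open Fermat.Agent.W1 Fermat.Agent.ES1 Fermat.Agent.ES1.G2 Fermat.Agent.ES

variable (L M : ℕ) (H : Subgroup (ZMod M)ˣ)

/-! ## (FIN) and finite level for `J_H` -/

/-- **(FIN)**: `J_H[n]` is finite. -/
theorem k7ffin_finite_set [NeZero L] [NeZero M] (hML : M ∣ L) (n : ℕ) (hn : 0 < n) :
    {x : JH L M H | n • x = 0}.Finite := by
  have : Group.FG (gammaH L M H) := es1g1op_fg L M H
  exact es1b_finite_of_multiplier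
    (es1g1_muP (es1g1e_muExistsH hML H) (es1g1u_muUniqueH hML) es1g1u_muAddH n hn)
    (es1g1_muP_injective (es1g1e_muExistsH hML H) (es1g1u_muUniqueH hML) es1g1u_muAddH
      (es1g1i_muInjH hML H) n hn)
    (finite_torsion_additive_units n hn.ne')

theorem k7ffin_nsmul_of_mem {J : Type} [AddCommGroup J] (n : ℕ) {x : J}
    (hx : x ∈ Submodule.torsionBy ℤ J (n : ℤ)) : n • x = 0 := by
  have hx' : (n : ℤ) • x = 0 := (Submodule.mem_torsionBy_iff _ _).1 hx
  rwa [natCast_zsmul] at hx'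

/-- the torsion points of `J_H` have finite level -/
theorem k7ffin_level (n : ℕ) (hn : n ≠ 0) (x : JH L M H) (hx : n • x = 0) :
    ∃ E : IntermediateField ℚ (AlgebraicClosure ℚ), FiniteDimensional ℚ E ∧
      ∀ σ : K7GQ, (∀ a ∈ E, σ a = a) → σ • x = x :=
  es1b_finiteLevel L M H n hn x hx

/-! ## (FIN) and (CONT) for the twist -/

variable (χ : K7GQ →* (ZMod M)ˣ)

theorem k7ffin_ofTw_nsmul (n : ℕ) (x : JHtw L M H χ) :
    ofTw L M H χ (n • x) = n • ofTw L M H χ x := map_nsmul _ n x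

/-- **(FIN)** for `J_H^{tw}[n]` -/
theorem k7ffin_tw_finite [NeZero L] [NeZero M] (hML : M ∣ L) (n : ℕ) (hn : 0 < n) :
    Finite (Submodule.torsionBy ℤ (JHtw L M H χ) (n : ℤ)) := by
  have : Finite {x : JH L M H | n • x = 0} := (k7ffin_finite_set L M H hML n hn).to_subtype
  refine Finite.of_injective
    (fun x : Submodule.torsionBy ℤ (JHtw L M H χ) (n : ℤ) =>
      (⟨ofTw L M H χ x.1, ?_⟩ : {x : JH L M H | n • x = 0}))
    (fun _ _ hab => Subtype.ext (congrArg Subtype.val hab))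
  show n • ofTw L M H χ x.1 = 0
  rw [← k7ffin_ofTw_nsmul, k7ffin_nsmul_of_mem n x.2, map_zero]

/-- **(CONT)** for `J_H^{tw}[n]`: the twisted action has open stabilisers if `χ` has open
kernel. -/
theorem k7ffin_tw_cont (n : ℕ) (hn : n ≠ 0)
    (hχ : ∃ E : IntermediateField ℚ (AlgebraicClosure ℚ), FiniteDimensional ℚ E ∧
      ∀ σ : K7GQ, (∀ a ∈ E, σ a = a) → χ σ = 1) :
    IsContAction (torsAct (JHtw L M H χ) (n : ℤ)) where
  one P := Subtype.ext (one_smul _ _)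
  mul σ τ P := Subtype.ext (mul_smul σ τ _)
  add σ P Q := Subtype.ext (smul_add σ _ _)
  open_stab P := by
    obtain ⟨E₁, hE₁, h₁⟩ := hχ
    have hP : n • ofTw L M H χ P.1 = 0 := by
      rw [← k7ffin_ofTw_nsmul, k7ffin_nsmul_of_mem n P.2, map_zero]
    obtain ⟨E₂, hE₂, h₂⟩ := k7ffin_level L M H n hn (ofTw L M H χ P.1) hP
    have := hE₁
    have := hE₂
    refine ⟨E₁ ⊔ E₂, inferInstance, fun σ hσ => Subtype.ext ?_⟩
    have hσ₁ : χ σ = 1 := h₁ σ (fun a ha => hσ a ((le_sup_left : E₁ ≤ E₁ ⊔ E₂) ha))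
    have hσ₂ : σ • ofTw L M H χ P.1 = ofTw L M H χ P.1 :=
      h₂ σ (fun a ha => hσ a ((le_sup_right : E₂ ≤ E₁ ⊔ E₂) ha))
    have h3 := tw_smul_eq_of_one L M H χ hσ₁ P.1
    rw [hσ₂] at h3
    exact h3

/-! ## The statements -/

theorem k7ffin_neZero_of_level {L M : ℕ} {H : Subgroup (ZMod M)ˣ} {p : ℕ}
    (h : K7FLevel L M H p) : L ≠ 0 ∧ M ≠ 0 := by
  have hL : L ≠ 0 := by have := h.hL; omega
  exact ⟨hL, fun hM => hL (by have := h.hML; rw [hM] at this; exact zero_dvd_iff.1 this)⟩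

/-- **FL-FIN** -/
theorem stmtFinH : StmtFinH := by
  intro L M H p hlev A _ χ hχ n
  obtain ⟨hL, hM⟩ := k7ffin_neZero_of_level hlev
  have : NeZero L := ⟨hL⟩
  have : NeZero M := ⟨hM⟩
  exact ⟨k7ffin_tw_finite L M H χ hlev.hML (p ^ n) (pow_pos hlev.hp.pos n),
    k7ffin_tw_cont L M H χ (p ^ n) (pow_ne_zero n hlev.hp.ne_zero) hχ.open_ker⟩

/-- **K7-FLAT, final statement** from the kernel chart (FL-KC) and the package (FL-NICE). -/
theorem stmtFlatH_of_kc (hKC : StmtKCH) (hPR : StmtModPRH) : StmtFlatH := by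
  intro L M H p hlev A hA χ hχ n
  obtain ⟨J1, g, z, hz⟩ := hKC L M H p hlev A hA χ hχ (hPR L M H p hlev A hA)
  obtain ⟨hfin, hcont⟩ := stmtFinH L M H p hlev A hA χ hχ n
  exact k7ffin_flat_of_kernelChart p hlev.hp A hA (JHtw L M H χ) J1 g z hz (p ^ n)
    (pow_pos hlev.hp.pos n) hfin hcont

end Fermat.Agent.RT.K7F
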