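/-
K-machine, K7-FLAT, piece FL-GAUSS (helper65), part 1: DEFINITIONS, generic in the field.

`A ⊂ ℚ̄` a valuation ring, `k = kA A`, `F` ANY intermediate field of `ℚ̄((q)) / ℚ̄`.

* `k7fgRel A F x w`   : fraction-form Gauss reduction (`= ES.M.GaussRed` for `F = F_N`):
                        `x = Y₁ / Y₂`, `Y₁, Y₂ ∈ F ∩ A((q))`, `Ȳ₂ ≠ 0`, `w = Ȳ₁ / Ȳ₂`;
* `k7fgInt A F x`     : Gauss norm `≤ 1`;
* `k7fgSub A F`       : the subring of Gauss-integral elements;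
* `k7fgRedL A F`      : the reduction `k7fgSub A F →+* k((q))` (no hypothesis);
* `k7fgRedL_iff`      : `k7fgRel A F x w ↔ ∃ h, k7fgRedL ⟨x, h⟩ = w`;
* `k7fgDataL A F hprim : RedData ℚ̄ F k k((q))` for `hprim : PrimAt A F`;
* `k7fgO A F hprim    : ValuationSubring F` (carrier `k7fgSub A F`), the Gauss valuation ring;
* `k7fgRed`, `k7fgData A F Fk hprim hRedF : RedData ℚ̄ F k Fk` for a subfield `Fk ⊂ k((q))` with
  `hRedF : ∀ Y, kronIncl A Y ∈ F → kronRed A Y ∈ Fk`.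

(Fork of `DEU/Inst.lean`, helper-written for `F_N`, with the field as a parameter.)
-/
import Fermat.Agent.DEU.Val
import Fermat.Agent.ES1.G2.Plan

set_option autoImplicit false
set_option linter.unusedSectionVars false
set_option synthInstance.maxHeartbeats 400000
set_option maxHeartbeats 1000000

noncomputable section

namespace Fermat.Agent.RT.K7F

open ModularCurve AlgebraicCurve HahnSeries Fermat.Agent.ES Fermat.Agent.S24 Fermat.Agent.ES.M
  Fermat.Agent.DEU Fermat.Agent.ES1.G2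

variable (A : ValuationSubring Kb) (F : IntermediateField Kb (LaurentSeries Kb))

/-- `x = Y₁ / Y₂` with integral `Y₁, Y₂ ∈ F`, `Ȳ₂ ≠ 0`, and `w = Ȳ₁ / Ȳ₂`. -/
def k7fgRel (x : F) (w : LaurentSeries (kA A)) : Prop :=
  ∃ Y₁ Y₂ : LaurentSeries A,
    kronIncl A Y₁ ∈ F ∧ kronIncl A Y₂ ∈ F ∧
      kronRed A Y₂ ≠ 0 ∧ (x : LaurentSeries Kb) * kronIncl A Y₂ = kronIncl A Y₁ ∧
        w * kronRed A Y₂ = kronRed A Y₁

/-- Gauss norm `≤ 1` -/
def k7fgInt (x : F) : Prop := ∃ w : LaurentSeries (kA A), k7fgRel A F x w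

/-! ## `GaussRed` is the graph of a ring homomorphism -/

theorem k7fg_coeffMap_C {R S : Type*} [CommRing R] [CommRing S] (f : R →+* S) (a : R) :
    coeffMap f (HahnSeries.C a : LaurentSeries R) = HahnSeries.C (f a) := by
  rw [HahnSeries.C_apply, HahnSeries.C_apply, coeffMap_single]

/-- the reduction is unique -/
theorem k7fgRel_unique {x : F} {w w' : LaurentSeries (kA A)}
    (h : k7fgRel A F x w) (h' : k7fgRel A F x w') : w = w' := by
  obtain ⟨Y₁, Y₂, -, -, hY₂, hx, hw⟩ := h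
  obtain ⟨Z₁, Z₂, -, -, hZ₂, hx', hw'⟩ := h'
  have h1 : kronIncl A (Y₁ * Z₂) = kronIncl A (Z₁ * Y₂) := by
    rw [map_mul, map_mul, ← hx, ← hx']
    ring
  have h2 : Y₁ * Z₂ = Z₁ * Y₂ := kronIncl_injective h1
  have h3 : kronRed A Y₁ * kronRed A Z₂ = kronRed A Z₁ * kronRed A Y₂ := by
    rw [← map_mul, ← map_mul, h2]
  rw [← hw, ← hw'] at h3
  have h4 : w * (kronRed A Y₂ * kronRed A Z₂) = w' * (kronRed A Y₂ * kronRed A Z₂) := by
    calc w * (kronRed A Y₂ * kronRed A Z₂) = w * kronRed A Y₂ * kronRed A Z₂ := by ring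
      _ = w' * kronRed A Z₂ * kronRed A Y₂ := h3
      _ = w' * (kronRed A Y₂ * kronRed A Z₂) := by ring
  exact mul_right_cancel₀ (mul_ne_zero hY₂ hZ₂) h4

theorem k7fgRel_zero : k7fgRel A F 0 0 := by
  refine ⟨0, 1, ?_, ?_, ?_, ?_, ?_⟩
  · rw [map_zero]; exact zero_mem _
  · rw [map_one]; exact one_mem _
  · rw [map_one]; exact one_ne_zero
  · rw [map_zero, map_one, mul_one]; rfl
  · rw [map_zero, zero_mul]

theorem k7fgRel_one : k7fgRel A F 1 1 := by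
  refine ⟨1, 1, ?_, ?_, ?_, ?_, ?_⟩
  · rw [map_one]; exact one_mem _
  · rw [map_one]; exact one_mem _
  · rw [map_one]; exact one_ne_zero
  · rw [map_one, mul_one]; rfl
  · rw [map_one, mul_one]

theorem k7fgRel_add {x x' : F} {w w' : LaurentSeries (kA A)}
    (h : k7fgRel A F x w) (h' : k7fgRel A F x' w') : k7fgRel A F (x + x') (w + w') := by
  obtain ⟨Y₁, Y₂, hY₁m, hY₂m, hY₂, hx, hw⟩ := h
  obtain ⟨Z₁, Z₂, hZ₁m, hZ₂m, hZ₂, hx', hw'⟩ := h'
  refine ⟨Y₁ * Z₂ + Z₁ * Y₂, Y₂ * Z₂, ?_, ?_, ?_, ?_, ?_⟩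
  · rw [map_add, map_mul, map_mul]
    exact add_mem (mul_mem hY₁m hZ₂m) (mul_mem hZ₁m hY₂m)
  · rw [map_mul]; exact mul_mem hY₂m hZ₂m
  · rw [map_mul]; exact mul_ne_zero hY₂ hZ₂
  · rw [map_add, map_mul, map_mul, map_mul, ← hx, ← hx']
    have : ((x + x' : F) : LaurentSeries Kb) = (x : LaurentSeries Kb) + (x' : LaurentSeries Kb) :=
      rfl
    rw [this]; ring
  · rw [map_add, map_mul, map_mul, map_mul, ← hw, ← hw']; ring

theorem k7fgRel_mul {x x' : F} {w w' : LaurentSeries (kA A)}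
    (h : k7fgRel A F x w) (h' : k7fgRel A F x' w') : k7fgRel A F (x * x') (w * w') := by
  obtain ⟨Y₁, Y₂, hY₁m, hY₂m, hY₂, hx, hw⟩ := h
  obtain ⟨Z₁, Z₂, hZ₁m, hZ₂m, hZ₂, hx', hw'⟩ := h'
  refine ⟨Y₁ * Z₁, Y₂ * Z₂, ?_, ?_, ?_, ?_, ?_⟩
  · rw [map_mul]; exact mul_mem hY₁m hZ₁m
  · rw [map_mul]; exact mul_mem hY₂m hZ₂m
  · rw [map_mul]; exact mul_ne_zero hY₂ hZ₂
  · rw [map_mul, map_mul, ← hx, ← hx']
    have : ((x * x' : F) : LaurentSeries Kb) = (x : LaurentSeries Kb) * (x' : LaurentSeries Kb) :=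
      rfl
    rw [this]; ring
  · rw [map_mul, map_mul, ← hw, ← hw']; ring

theorem k7fgRel_neg {x : F} {w : LaurentSeries (kA A)}
    (h : k7fgRel A F x w) : k7fgRel A F (-x) (-w) := by
  obtain ⟨Y₁, Y₂, hY₁m, hY₂m, hY₂, hx, hw⟩ := h
  refine ⟨-Y₁, Y₂, ?_, hY₂m, hY₂, ?_, ?_⟩
  · rw [map_neg]; exact neg_mem hY₁m
  · rw [map_neg, ← hx]
    have : ((-x : F) : LaurentSeries Kb) = -(x : LaurentSeries Kb) := rfl
    rw [this]; ring
  · rw [map_neg, ← hw]; ring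

/-- constants -/
theorem k7fgRel_const (a : A) :
    k7fgRel A F (algebraMap Kb F (a : Kb))
      (HahnSeries.C (IsLocalRing.residue A a) : LaurentSeries (kA A)) := by
  refine ⟨HahnSeries.C a, 1, ?_, ?_, ?_, ?_, ?_⟩
  · have : kronIncl A (HahnSeries.C a) = HahnSeries.C (a : Kb) :=
      k7fg_coeffMap_C A.subtype a
    rw [this]
    exact hahnC_mem_intermediateField _ _
  · rw [map_one]; exact one_mem _
  · rw [map_one]; exact one_ne_zero
  · rw [map_one, mul_one]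
    have h1 : ((algebraMap Kb F (a : Kb) : F) : LaurentSeries Kb)
        = algebraMap Kb (LaurentSeries Kb) (a : Kb) := rfl
    rw [h1, algebraMap_eq_hahnC]
    exact (k7fg_coeffMap_C A.subtype a).symm
  · rw [map_one, mul_one]
    exact (k7fg_coeffMap_C (IsLocalRing.residue A) a).symm

/-- inverses -/
theorem k7fgRel_inv {x : F} {w : LaurentSeries (kA A)}
    (h : k7fgRel A F x w) (hw0 : w ≠ 0) : k7fgRel A F x⁻¹ w⁻¹ := by
  obtain ⟨Y₁, Y₂, hY₁m, hY₂m, hY₂, hx, hw⟩ := h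
  have hY₁ : kronRed A Y₁ ≠ 0 := by
    rw [← hw]; exact mul_ne_zero hw0 hY₂
  have hI₁ : kronIncl A Y₁ ≠ 0 := by
    intro h0
    apply hY₁
    have : Y₁ = 0 := kronIncl_injective (by rw [h0, map_zero])
    rw [this, map_zero]
  have hx0 : (x : LaurentSeries Kb) ≠ 0 := by
    intro h0
    rw [h0, zero_mul] at hx
    exact hI₁ hx.symm
  refine ⟨Y₂, Y₁, hY₂m, hY₁m, hY₁, ?_, ?_⟩
  · have : ((x⁻¹ : F) : LaurentSeries Kb) = (x : LaurentSeries Kb)⁻¹ := rfl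
    rw [this, ← hx, ← mul_assoc, inv_mul_cancel₀ hx0, one_mul]
  · rw [← hw, ← mul_assoc, inv_mul_cancel₀ hw0, one_mul]

/-! ## The ring of Gauss-integral elements and the reduction map -/

/-- the elements of Gauss norm `≤ 1` -/
def k7fgSub : Subring F where
  carrier := {x | k7fgInt A F x}
  mul_mem' := by
    rintro x y ⟨w, hw⟩ ⟨w', hw'⟩
    exact ⟨w * w', k7fgRel_mul A F hw hw'⟩
  one_mem' := ⟨1, k7fgRel_one A F⟩
  add_mem' := by
    rintro x y ⟨w, hw⟩ ⟨w', hw'⟩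
    exact ⟨w + w', k7fgRel_add A F hw hw'⟩
  zero_mem' := ⟨0, k7fgRel_zero A F⟩
  neg_mem' := by
    rintro x ⟨w, hw⟩
    exact ⟨-w, k7fgRel_neg A F hw⟩

theorem mem_k7fgSub {x : F} : x ∈ k7fgSub A F ↔ k7fgInt A F x := Iff.rfl

/-- the reduction of a Gauss-integral element, as a Laurent series -/
def k7fgRedFun (x : k7fgSub A F) : LaurentSeries (kA A) := Classical.choose x.2

theorem k7fgRedFun_spec (x : k7fgSub A F) : k7fgRel A F (x : F) (k7fgRedFun A F x) :=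
  Classical.choose_spec x.2

theorem k7fgRedFun_eq {x : k7fgSub A F} {w : LaurentSeries (kA A)}
    (h : k7fgRel A F (x : F) w) : k7fgRedFun A F x = w :=
  k7fgRel_unique A F (k7fgRedFun_spec A F x) h


/-- the reduction map `O → k((q))` -/
def k7fgRedL : k7fgSub A F →+* LaurentSeries (kA A) where
  toFun x := k7fgRedFun A F x
  map_one' := k7fgRedFun_eq A F (k7fgRel_one A F)
  map_mul' x y := k7fgRedFun_eq A F
    (k7fgRel_mul A F (k7fgRedFun_spec A F x) (k7fgRedFun_spec A F y))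
  map_zero' := k7fgRedFun_eq A F (k7fgRel_zero A F)
  map_add' x y := k7fgRedFun_eq A F
    (k7fgRel_add A F (k7fgRedFun_spec A F x) (k7fgRedFun_spec A F y))

theorem k7fgRedL_apply (x : k7fgSub A F) : k7fgRedL A F x = k7fgRedFun A F x := rfl

/-- `k7fgRel` is the graph of `k7fgRedL` -/
theorem k7fgRedL_iff (x : F) (w : LaurentSeries (kA A)) :
    k7fgRel A F x w ↔ ∃ h : x ∈ k7fgSub A F, k7fgRedL A F ⟨x, h⟩ = w := by
  constructor
  · intro hw
    exact ⟨⟨w, hw⟩, k7fgRedFun_eq A F (x := ⟨x, ⟨w, hw⟩⟩) hw⟩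
  · rintro ⟨h, rfl⟩
    exact k7fgRedFun_spec A F ⟨x, h⟩

/-- the reduction of an integral series of `F` -/
theorem k7fgRel_of_int (Y : LaurentSeries A) (hY : kronIncl A Y ∈ F) :
    k7fgRel A F ⟨kronIncl A Y, hY⟩ (kronRed A Y) := by
  refine ⟨Y, 1, hY, ?_, ?_, ?_, ?_⟩
  · rw [map_one]; exact one_mem _
  · rw [map_one]; exact one_ne_zero
  · rw [map_one, mul_one]
  · rw [map_one, mul_one]

end Fermat.Agent.RT.K7F
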