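/-
K-machine, K7-FLAT, piece FL-GAUSS (helper65), part 2: the constant reduction, generic in the field.

`A ⊂ ℚ̄` a valuation ring, `k = kA A`, `F` an intermediate field of `ℚ̄((q)) / ℚ̄` with PRIM
(`hprim : PrimAt A F`), `Fk` an intermediate field of `k((q)) / k`.

* `k7fg_exists_scale`  : scaling (from PRIM);
* `k7fgDataL A F hprim : RedData ℚ̄ F k k((q))`;
* `k7fgO A F hprim     : ValuationSubring F` — THE GAUSS VALUATION RING (carrier `k7fgSub A F`);
* `k7fgRed A F Fk hRedF : k7fgSub A F →+* Fk`, `k7fgData A F Fk hprim hRedF : RedData ℚ̄ F k Fk`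
  for `hRedF : ∀ Y, kronIncl A Y ∈ F → kronRed A Y ∈ Fk`;
* `k7fgValRed A F Fk hprim hRedF : k7fgO A F hprim →+* Fk`;
* the hypotheses of `DEU.exists_isPR` = fields of `W1.PRData.IsPR` except `r_div`:
  `k7fg_res_surjective`, `k7fg_res_eq_zero_iff`, `k7fg_algebraMap_mem_iff`,
  `k7fg_red_surjective` (if `Fk` is generated by reductions), `k7fg_red_eq_zero_iff`,
  `k7fg_red_algebraMap`, `k7fg_prim`.
-/
import Fermat.Agent.RT.K7F.GaussDefs

set_option autoImplicit false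
set_option linter.unusedSectionVars false
set_option synthInstance.maxHeartbeats 400000
set_option maxHeartbeats 1000000

noncomputable section

namespace Fermat.Agent.RT.K7F

open ModularCurve AlgebraicCurve HahnSeries Fermat.Agent.ES Fermat.Agent.S24 Fermat.Agent.ES.M
  Fermat.Agent.DEU Fermat.Agent.ES1.G2

variable (A : ValuationSubring Kb) (F : IntermediateField Kb (LaurentSeries Kb))

/-! ## Scaling (PRIM) -/

/-- scaling: every `f ≠ 0` has a constant multiple of Gauss norm `1` -/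
theorem k7fg_exists_scale (hprim : PrimAt A F) (f : F) (hf : f ≠ 0) :
    ∃ c : Kb, c ≠ 0 ∧ ∃ w : LaurentSeries (kA A), w ≠ 0 ∧
      k7fgRel A F (algebraMap Kb F c * f) w := by
  obtain ⟨c, y₁, y₂, hc, hy₁m, hy₂m, hy₁, hy₂, huy⟩ := hprim f hf
  obtain ⟨Y₁, rfl⟩ := hy₁.1.exists_lift
  obtain ⟨Y₂, rfl⟩ := hy₂.1.exists_lift
  have hR₁ : kronRed A Y₁ ≠ 0 := (kronPrim_kronIncl_iff Y₁).mp hy₁
  have hR₂ : kronRed A Y₂ ≠ 0 := (kronPrim_kronIncl_iff Y₂).mp hy₂
  refine ⟨c⁻¹, inv_ne_zero hc, kronRed A Y₁ * (kronRed A Y₂)⁻¹,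
    mul_ne_zero hR₁ (inv_ne_zero hR₂), Y₁, Y₂, hy₁m, hy₂m, hR₂, ?_, ?_⟩
  · have h1 : ((algebraMap Kb F c⁻¹ * f : F) : LaurentSeries Kb)
        = HahnSeries.C c⁻¹ * (f : LaurentSeries Kb) := by
      have : ((algebraMap Kb F c⁻¹ * f : F) : LaurentSeries Kb)
          = algebraMap Kb (LaurentSeries Kb) c⁻¹ * (f : LaurentSeries Kb) := rfl
      rw [this, algebraMap_eq_hahnC]
    rw [h1, mul_assoc, huy, ← mul_assoc, ← map_mul, inv_mul_cancel₀ hc, map_one, one_mul]
  · rw [mul_assoc, inv_mul_cancel₀ hR₂, mul_one]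

/-! ## The constant reduction with values in `k((q))` -/

/-- the constant reduction of `F` at `A`, with values in `k((q))`. -/
def k7fgDataL (hprim : PrimAt A F) : RedData Kb F (kA A) (LaurentSeries (kA A)) where
  A := A
  res := IsLocalRing.residue A
  res_surjective := IsLocalRing.residue_surjective
  O := k7fgSub A F
  red := k7fgRedL A F
  algebraMap_mem a := ⟨_, k7fgRel_const A F a⟩
  red_algebraMap a := by
    rw [algebraMap_eq_hahnC]
    exact k7fgRedFun_eq A F (k7fgRel_const A F a)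
  inv_mem f hf := ⟨_, k7fgRel_inv A F (k7fgRedFun_spec A F f) hf⟩
  exists_scale f hf := by
    obtain ⟨c, hc, w, hw0, hw⟩ := k7fg_exists_scale A F hprim f hf
    refine ⟨c, hc, ⟨w, hw⟩, ?_⟩
    intro h0
    apply hw0
    rw [← k7fgRedFun_eq A F (x := ⟨_, ⟨w, hw⟩⟩) hw]
    exact h0

/-- **the Gauss valuation ring of `F` at `A`** -/
def k7fgO (hprim : PrimAt A F) : ValuationSubring F := (k7fgDataL A F hprim).valO

@[simp] theorem k7fgO_toSubring (hprim : PrimAt A F) :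
    (k7fgO A F hprim).toSubring = k7fgSub A F := rfl

theorem mem_k7fgO (hprim : PrimAt A F) {x : F} : x ∈ k7fgO A F hprim ↔ k7fgInt A F x := Iff.rfl

/-! ## The constant reduction with values in a subfield `Fk ⊂ k((q))` -/

variable (Fk : IntermediateField (kA A) (LaurentSeries (kA A)))

/-- the reduction lies in `Fk` -/
theorem k7fgRel_mem (hRedF : ∀ Y : LaurentSeries A, kronIncl A Y ∈ F → kronRed A Y ∈ Fk)
    {x : F} {w : LaurentSeries (kA A)} (h : k7fgRel A F x w) : w ∈ Fk := by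
  obtain ⟨Y₁, Y₂, hY₁m, hY₂m, hY₂, -, hw⟩ := h
  have h1 : w = kronRed A Y₁ * (kronRed A Y₂)⁻¹ := by
    rw [← hw, mul_assoc, mul_inv_cancel₀ hY₂, mul_one]
  rw [h1]
  exact mul_mem (hRedF Y₁ hY₁m) (inv_mem (hRedF Y₂ hY₂m))

/-- the reduction map `O → Fk` -/
def k7fgRed (hRedF : ∀ Y : LaurentSeries A, kronIncl A Y ∈ F → kronRed A Y ∈ Fk) :
    k7fgSub A F →+* ↥Fk where
  toFun x := ⟨k7fgRedFun A F x, k7fgRel_mem A F Fk hRedF (k7fgRedFun_spec A F x)⟩
  map_one' := Subtype.ext (k7fgRedFun_eq A F (k7fgRel_one A F))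
  map_mul' x y := Subtype.ext (k7fgRedFun_eq A F
    (k7fgRel_mul A F (k7fgRedFun_spec A F x) (k7fgRedFun_spec A F y)))
  map_zero' := Subtype.ext (k7fgRedFun_eq A F (k7fgRel_zero A F))
  map_add' x y := Subtype.ext (k7fgRedFun_eq A F
    (k7fgRel_add A F (k7fgRedFun_spec A F x) (k7fgRedFun_spec A F y)))

theorem k7fgRed_coe (hRedF : ∀ Y : LaurentSeries A, kronIncl A Y ∈ F → kronRed A Y ∈ Fk)
    (x : k7fgSub A F) :
    ((k7fgRed A F Fk hRedF x : ↥Fk) : LaurentSeries (kA A)) = k7fgRedFun A F x := rfl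

/-- `k7fgRel` is the graph of `k7fgRed` -/
theorem k7fgRed_iff (hRedF : ∀ Y : LaurentSeries A, kronIncl A Y ∈ F → kronRed A Y ∈ Fk)
    (x : F) (w : LaurentSeries (kA A)) :
    k7fgRel A F x w ↔ ∃ h : x ∈ k7fgSub A F,
      ((k7fgRed A F Fk hRedF ⟨x, h⟩ : ↥Fk) : LaurentSeries (kA A)) = w :=
  k7fgRedL_iff A F x w

/-- **The constant reduction of `F` at `A` with values in `Fk`.** -/
def k7fgData (hprim : PrimAt A F)
    (hRedF : ∀ Y : LaurentSeries A, kronIncl A Y ∈ F → kronRed A Y ∈ Fk) :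
    RedData Kb F (kA A) ↥Fk where
  A := A
  res := IsLocalRing.residue A
  res_surjective := IsLocalRing.residue_surjective
  O := k7fgSub A F
  red := k7fgRed A F Fk hRedF
  algebraMap_mem a := ⟨_, k7fgRel_const A F a⟩
  red_algebraMap a := by
    apply Subtype.ext
    rw [k7fgRed_coe]
    have h1 : ((algebraMap (kA A) ↥Fk (IsLocalRing.residue A a) : ↥Fk) :
          LaurentSeries (kA A)) = algebraMap (kA A) (LaurentSeries (kA A))
            (IsLocalRing.residue A a) := rfl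
    rw [h1, algebraMap_eq_hahnC]
    exact k7fgRedFun_eq A F (k7fgRel_const A F a)
  inv_mem f hf := by
    have hw0 : k7fgRedFun A F f ≠ 0 := by
      intro h0
      apply hf
      apply Subtype.ext
      rw [k7fgRed_coe, h0]
      rfl
    exact ⟨_, k7fgRel_inv A F (k7fgRedFun_spec A F f) hw0⟩
  exists_scale f hf := by
    obtain ⟨c, hc, w, hw0, hw⟩ := k7fg_exists_scale A F hprim f hf
    refine ⟨c, hc, ⟨w, hw⟩, ?_⟩
    intro h0
    apply hw0
    have h1 := congrArg (fun z : ↥Fk => (z : LaurentSeries (kA A))) h0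
    simp only [k7fgRed_coe] at h1
    rw [k7fgRedFun_eq A F (x := ⟨_, ⟨w, hw⟩⟩) hw] at h1
    exact h1

@[simp] theorem k7fgData_A (hprim : PrimAt A F)
    (hRedF : ∀ Y : LaurentSeries A, kronIncl A Y ∈ F → kronRed A Y ∈ Fk) :
    (k7fgData A F Fk hprim hRedF).A = A := rfl

@[simp] theorem k7fgData_O (hprim : PrimAt A F)
    (hRedF : ∀ Y : LaurentSeries A, kronIncl A Y ∈ F → kronRed A Y ∈ Fk) :
    (k7fgData A F Fk hprim hRedF).O = k7fgSub A F := rfl

@[simp] theorem k7fgData_red (hprim : PrimAt A F)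
    (hRedF : ∀ Y : LaurentSeries A, kronIncl A Y ∈ F → kronRed A Y ∈ Fk) :
    (k7fgData A F Fk hprim hRedF).red = k7fgRed A F Fk hRedF := rfl

/-- **the reduction map on the Gauss valuation ring** -/
def k7fgValRed (hprim : PrimAt A F)
    (hRedF : ∀ Y : LaurentSeries A, kronIncl A Y ∈ F → kronRed A Y ∈ Fk) :
    ↥(k7fgO A F hprim) →+* ↥Fk :=
  k7fgRed A F Fk hRedF

theorem k7fgValRed_apply (hprim : PrimAt A F)
    (hRedF : ∀ Y : LaurentSeries A, kronIncl A Y ∈ F → kronRed A Y ∈ Fk)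
    (x : F) (h : x ∈ k7fgO A F hprim) :
    k7fgValRed A F Fk hprim hRedF ⟨x, h⟩ = k7fgRed A F Fk hRedF ⟨x, h⟩ := rfl

/-- `k7fgRel` is the graph of `k7fgValRed` -/
theorem k7fgValRed_iff (hprim : PrimAt A F)
    (hRedF : ∀ Y : LaurentSeries A, kronIncl A Y ∈ F → kronRed A Y ∈ Fk)
    (x : F) (w : LaurentSeries (kA A)) :
    k7fgRel A F x w ↔ ∃ h : x ∈ k7fgO A F hprim,
      ((k7fgValRed A F Fk hprim hRedF ⟨x, h⟩ : ↥Fk) : LaurentSeries (kA A)) = w :=
  k7fgRedL_iff A F x w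

/-! ### Surjectivity of the reduction -/

/-- every element of a field generated by reductions is a reduction -/
theorem k7fg_exists_rel (G : Set (LaurentSeries (kA A)))
    (hG : ∀ w ∈ G, ∃ x : F, k7fgRel A F x w) (w : LaurentSeries (kA A))
    (hw : w ∈ IntermediateField.adjoin (kA A) G) : ∃ x : F, k7fgRel A F x w := by
  induction hw using IntermediateField.adjoin_induction with
  | mem w hw => exact hG w hw
  | algebraMap c =>
    obtain ⟨a, rfl⟩ := IsLocalRing.residue_surjective c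
    refine ⟨algebraMap Kb F (a : Kb), ?_⟩
    rw [algebraMap_eq_hahnC]
    exact k7fgRel_const A F a
  | add x y _ _ hx hy =>
    obtain ⟨x', hx'⟩ := hx
    obtain ⟨y', hy'⟩ := hy
    exact ⟨x' + y', k7fgRel_add A F hx' hy'⟩
  | inv x _ hx =>
    obtain ⟨x', hx'⟩ := hx
    rcases eq_or_ne x 0 with rfl | hx0
    · rw [inv_zero]
      exact ⟨0, k7fgRel_zero A F⟩
    · exact ⟨x'⁻¹, k7fgRel_inv A F hx' hx0⟩
  | mul x y _ _ hx hy =>
    obtain ⟨x', hx'⟩ := hx
    obtain ⟨y', hy'⟩ := hy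
    exact ⟨x' * y', k7fgRel_mul A F hx' hy'⟩

/-- **`red` is surjective onto `Fk`** if `Fk` is generated by reductions. -/
theorem k7fgRed_surjective
    (hRedF : ∀ Y : LaurentSeries A, kronIncl A Y ∈ F → kronRed A Y ∈ Fk)
    (G : Set (LaurentSeries (kA A))) (hFk : Fk = IntermediateField.adjoin (kA A) G)
    (hG : ∀ w ∈ G, ∃ x : F, k7fgRel A F x w) :
    Function.Surjective (k7fgRed A F Fk hRedF) := by
  intro w
  have hw : (w : LaurentSeries (kA A)) ∈ IntermediateField.adjoin (kA A) G := by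
    rw [← hFk]; exact w.2
  obtain ⟨x, hx⟩ := k7fg_exists_rel A F G hG (w : LaurentSeries (kA A)) hw
  refine ⟨⟨x, ⟨_, hx⟩⟩, ?_⟩
  apply Subtype.ext
  rw [k7fgRed_coe]
  exact k7fgRedFun_eq A F hx

/-! ### The hypotheses of `DEU.exists_isPR` -/

/-- `hres` -/
theorem k7fg_res_surjective : Function.Surjective (IsLocalRing.residue A) :=
  IsLocalRing.residue_surjective

/-- `hres0` -/
theorem k7fg_res_eq_zero_iff (a : A) :
    IsLocalRing.residue A a = 0 ↔ (a : Kb) ∈ A.nonunits := by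
  rw [ValuationSubring.coe_mem_nonunits_iff, IsLocalRing.residue_eq_zero_iff]

/-- `hmem` -/
theorem k7fg_algebraMap_mem_iff (hprim : PrimAt A F) (a : Kb) :
    algebraMap Kb F a ∈ k7fgO A F hprim ↔ a ∈ A :=
  deuVal_algebraMap_mem_iff (k7fgDataL A F hprim) a

/-- `hredsurj` -/
theorem k7fg_red_surjective (hprim : PrimAt A F)
    (hRedF : ∀ Y : LaurentSeries A, kronIncl A Y ∈ F → kronRed A Y ∈ Fk)
    (G : Set (LaurentSeries (kA A))) (hFk : Fk = IntermediateField.adjoin (kA A) G)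
    (hG : ∀ w ∈ G, ∃ x : F, k7fgRel A F x w) :
    Function.Surjective (k7fgValRed A F Fk hprim hRedF) :=
  k7fgRed_surjective A F Fk hRedF G hFk hG

/-- `hred0` -/
theorem k7fg_red_eq_zero_iff (hprim : PrimAt A F)
    (hRedF : ∀ Y : LaurentSeries A, kronIncl A Y ∈ F → kronRed A Y ∈ Fk)
    (x : k7fgO A F hprim) :
    k7fgValRed A F Fk hprim hRedF x = 0 ↔ (x : F) ∈ (k7fgO A F hprim).nonunits :=
  deuVal_red_eq_zero_iff (k7fgData A F Fk hprim hRedF) x

/-- `hredalg` -/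
theorem k7fg_red_algebraMap (hprim : PrimAt A F)
    (hRedF : ∀ Y : LaurentSeries A, kronIncl A Y ∈ F → kronRed A Y ∈ Fk) (a : A)
    (h : algebraMap Kb F (a : Kb) ∈ k7fgO A F hprim) :
    k7fgValRed A F Fk hprim hRedF ⟨algebraMap Kb F (a : Kb), h⟩
      = algebraMap (kA A) ↥Fk (IsLocalRing.residue A a) :=
  (k7fgData A F Fk hprim hRedF).red_algebraMap a

/-- `hprim` -/
theorem k7fg_prim (hprim : PrimAt A F)
    (hRedF : ∀ Y : LaurentSeries A, kronIncl A Y ∈ F → kronRed A Y ∈ Fk)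
    (f : F) (hf : f ≠ 0) :
    ∃ a : Kb, a ≠ 0 ∧ ∃ h : algebraMap Kb F a * f ∈ k7fgO A F hprim,
      k7fgValRed A F Fk hprim hRedF ⟨algebraMap Kb F a * f, h⟩ ≠ 0 :=
  (k7fgData A F Fk hprim hRedF).exists_scale f hf

/-- the `RedData` of the Gauss valuation ring is `k7fgData` -/
theorem k7fg_redDataOfVal_eq (hprim : PrimAt A F)
    (hRedF : ∀ Y : LaurentSeries A, kronIncl A Y ∈ F → kronRed A Y ∈ Fk) :
    redDataOfVal A (IsLocalRing.residue A) (k7fgO A F hprim) (k7fgValRed A F Fk hprim hRedF)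
        (k7fg_res_surjective A) (k7fg_algebraMap_mem_iff A F hprim)
        (k7fg_red_eq_zero_iff A F Fk hprim hRedF) (k7fg_red_algebraMap A F Fk hprim hRedF)
        (k7fg_prim A F Fk hprim hRedF)
      = k7fgData A F Fk hprim hRedF := rfl

end Fermat.Agent.RT.K7F
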