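import Fermat.Agent.DEU.EquivMod
import Fermat.Agent.W1.GeoKCAbs
import Fermat.Agent.RT.K7F.GaussData

/-!
# RT-K7F, piece FL-EQ (generic part): equivariance of the reduction of places

Twin of `PR/Frob.lean` §1, §4 and of `DEU/EquivMod.lean`, GENERIC in the pair of fields

  `F = laurentBaseChange ℚ̄ F₀ ⊂ ℚ̄((q))`,  `Fb ⊂ k((q))`  (`k = kA A`),

where `Fb` is stable under the coefficientwise action of `Aut k` (`K7feqStable`).  For
`F₀ = ES1.fieldQ L M H`, `Fb = ES1.fieldC k L M H` see `EqH.lean`.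

* `k7feqSemilinear hFb τ : SemilinearAut k Fb` : the coefficientwise action of `τ ∈ Aut k`;
* the Gauss relation is helper65's `k7fgRel A F x w` (`GaussDefs.lean`);
* `k7feq_rel_smul` : `x ≡ w ⇒ σ x ≡ σ̄ w` for `σ` in the decomposition group of `A`;
* for a reduction datum `R : DEU.RedData ℚ̄ F k Fb` whose reduction is the Gauss relation (`hiff`)
  and a reduction of places `r` canonical in large degree (`hleast`):
  `k7feq_r_decomposition`, `k7feq_r_inertia`, `k7feq_r_frobenius` and their divisor forms;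
* `k7feq_r_algAut` : the same for a pair `(δ, δ̄)` of automorphisms over the constants (diamonds)
  which are compatible with the Gauss relation;
* `k7feq_smul_mem_J1`, `k7feq_smul_smul_mem_J1` : stability of the kernel of reduction.
-/

set_option autoImplicit false
set_option synthInstance.maxHeartbeats 400000
set_option maxHeartbeats 1000000

noncomputable section

namespace Fermat.Agent.RT.K7F

open ModularCurve AlgebraicCurve HahnSeries Module Fermat.Agent.ES Fermat.Agent.S24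
  Fermat.Agent.ES.M Fermat.Agent.ES.R Fermat.Agent.PR Fermat.Agent.DEU Fermat.Agent.INJ

/-! ## 1. Coefficientwise automorphisms of a stable subfield of `k((q))` -/

section Coeff

variable {k : Type*} [Field k]

/-- `Fb ⊂ k((q))` is stable under the coefficientwise action of the automorphisms of `k` -/
def K7feqStable (Fb : IntermediateField k (LaurentSeries k)) : Prop :=
  ∀ (τ : k ≃+* k) (x : LaurentSeries k), x ∈ Fb → coeffMap (τ : k →+* k) x ∈ Fb

variable {Fb : IntermediateField k (LaurentSeries k)} (hFb : K7feqStable Fb)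

/-- the coefficientwise action on `Fb` -/
def k7feqFieldAut (τ : k ≃+* k) : Fb ≃+* Fb where
  toFun x := ⟨coeffMap (τ : k →+* k) x, hFb τ x x.2⟩
  invFun x := ⟨coeffMap (τ.symm : k →+* k) x, hFb τ.symm x x.2⟩
  left_inv x := Subtype.ext (pr_coeffMap_symm_apply τ x)
  right_inv x := Subtype.ext (pr_coeffMap_apply_symm τ x)
  map_mul' _ _ := Subtype.ext (map_mul _ _ _)
  map_add' _ _ := Subtype.ext (map_add _ _ _)

@[simp] theorem coe_k7feqFieldAut (τ : k ≃+* k) (x : Fb) :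
    ((k7feqFieldAut hFb τ x : Fb) : LaurentSeries k) = coeffMap (τ : k →+* k) x := rfl

@[simp] theorem coe_k7feqFieldAut_symm (τ : k ≃+* k) (x : Fb) :
    (((k7feqFieldAut hFb τ).symm x : Fb) : LaurentSeries k)
      = coeffMap (τ.symm : k →+* k) x := rfl

theorem k7feqFieldAut_algebraMap (τ : k ≃+* k) (a : k) :
    k7feqFieldAut hFb τ (algebraMap k Fb a) = algebraMap k Fb (τ a) :=
  Subtype.ext (pr_coeffMap_algebraMap (τ : k →+* k) a)

/-- **the coefficientwise action of `τ ∈ Aut(k)` as a semilinear automorphism of `Fb`** -/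
def k7feqSemilinear (τ : k ≃+* k) : SemilinearAut k Fb :=
  ⟨(k7feqFieldAut hFb τ, τ), fun a => k7feqFieldAut_algebraMap hFb τ a⟩

@[simp] theorem toRingAut_k7feqSemilinear (τ : k ≃+* k) :
    SemilinearAut.toRingAut (k7feqSemilinear hFb τ) = k7feqFieldAut hFb τ := rfl

@[simp] theorem baseAut_k7feqSemilinear (τ : k ≃+* k) :
    SemilinearAut.baseAut (k7feqSemilinear hFb τ) = τ := rfl

theorem coe_k7feqSemilinear_smul (τ : k ≃+* k) (x : Fb) :
    ((k7feqSemilinear hFb τ • x : Fb) : LaurentSeries k) = coeffMap (τ : k →+* k) x := rfl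

theorem coe_k7feqSemilinear_inv_smul (τ : k ≃+* k) (x : Fb) :
    (((k7feqSemilinear hFb τ)⁻¹ • x : Fb) : LaurentSeries k)
      = coeffMap (τ.symm : k →+* k) x := rfl

theorem k7feqSemilinear_one : k7feqSemilinear hFb (RingEquiv.refl k) = 1 := by
  refine Subtype.ext (Prod.ext (RingEquiv.ext fun x => Subtype.ext ?_) rfl)
  show coeffMap ((RingEquiv.refl k : k ≃+* k) : k →+* k) (x : LaurentSeries k) = x
  have h : ((RingEquiv.refl k : k ≃+* k) : k →+* k) = RingHom.id k := rfl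
  rw [coeffMap_congr h, coeffMap_id]

theorem k7feqSemilinear_mul (σ τ : k ≃+* k) :
    k7feqSemilinear hFb (σ * τ) = k7feqSemilinear hFb σ * k7feqSemilinear hFb τ := by
  refine Subtype.ext (Prod.ext (RingEquiv.ext fun x => Subtype.ext ?_) rfl)
  show coeffMap ((σ * τ : k ≃+* k) : k →+* k) (x : LaurentSeries k)
    = coeffMap (σ : k →+* k) (coeffMap (τ : k →+* k) (x : LaurentSeries k))
  rw [coeffMap_coeffMap]
  exact coeffMap_congr (RingHom.ext fun _ => rfl) _

/-- the coefficientwise Frobenius of `Fb` -/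
def k7feqFrob (ℓ : ℕ) [Fact ℓ.Prime] [CharP k ℓ] [PerfectRing k ℓ] : SemilinearAut k Fb :=
  k7feqSemilinear hFb (frobeniusEquiv k ℓ)

theorem k7feqFrob_smul_coeff (ℓ : ℕ) [Fact ℓ.Prime] [CharP k ℓ] [PerfectRing k ℓ] (x : Fb)
    (n : ℤ) :
    ((k7feqFrob hFb ℓ • x : Fb) : LaurentSeries k).coeff n = (x : LaurentSeries k).coeff n ^ ℓ :=
  rfl

end Coeff

/-! ## 2. The Gauss relation and the decomposition group -/

section Rel

variable (A : ValuationSubring Kb)

/-- at level `Γ₀(N)` the generic Gauss relation `k7fgRel` is `ES.M.GaussRed` -/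
theorem k7feq_rel_iff_gaussRed (N : ℕ) (x : FF N) (w : LaurentSeries (kA A)) :
    k7fgRel A (modularFunctionFieldBar N) x w ↔ GaussRed N A x w := Iff.rfl

variable (F₀ : IntermediateField ℚ (LaurentSeries ℚ))

/-- the arithmetic Galois action on `F = ℚ̄ · F₀` is the coefficientwise action -/
theorem k7feq_coe_arith_smul (σ : Kb ≃ₐ[ℚ] Kb) (x : laurentBaseChange Kb F₀) :
    ((arithmeticGalois F₀ σ • x : laurentBaseChange Kb F₀) : LaurentSeries Kb)
      = coeffMap (σ : Kb →+* Kb) (x : LaurentSeries Kb) := rfl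

/-- **reduction of `σ x`**: if `w` is the reduction of `x`, then `σ̄ w` is the reduction of `σ x`,
for `σ` in the decomposition group of `A`. -/
theorem k7feq_rel_smul (σ : Kb ≃ₐ[ℚ] Kb) (hσ : σ ∈ A.decompositionSubgroup ℚ)
    {x : laurentBaseChange Kb F₀} {w : LaurentSeries (kA A)}
    (h : k7fgRel A (laurentBaseChange Kb F₀) x w) :
    k7fgRel A (laurentBaseChange Kb F₀) (arithmeticGalois F₀ σ • x)
      (coeffMap ((prResAut σ hσ : _ ≃+* _) : _ →+* _) w) := by
  obtain ⟨Y₁, Y₂, h₁, h₂, hne, hx, hw⟩ := h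
  refine ⟨coeffMap (kronDecompHom σ hσ) Y₁, coeffMap (kronDecompHom σ hσ) Y₂, ?_, ?_, ?_, ?_, ?_⟩
  · rw [kronIncl_coeffMap_kronDecompHom]
    exact coeffMap_mem_laurentBaseChange σ h₁
  · rw [kronIncl_coeffMap_kronDecompHom]
    exact coeffMap_mem_laurentBaseChange σ h₂
  · rw [pr_kronRed_coeffMap]
    intro h0
    apply hne
    have := congrArg (coeffMap (((prResAut σ hσ).symm : kA A ≃+* kA A) : kA A →+* kA A)) h0
    rwa [pr_coeffMap_symm_apply, map_zero] at this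
  · rw [kronIncl_coeffMap_kronDecompHom, kronIncl_coeffMap_kronDecompHom, k7feq_coe_arith_smul,
      ← map_mul, hx]
  · rw [pr_kronRed_coeffMap, pr_kronRed_coeffMap, ← map_mul, hw]

/-- Gauss-integrality is stable under the decomposition group. -/
theorem k7feq_int_smul (σ : Kb ≃ₐ[ℚ] Kb) (hσ : σ ∈ A.decompositionSubgroup ℚ)
    {x : laurentBaseChange Kb F₀} (h : k7fgInt A (laurentBaseChange Kb F₀) x) :
    k7fgInt A (laurentBaseChange Kb F₀) (arithmeticGalois F₀ σ • x) := by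
  obtain ⟨w, hw⟩ := h
  exact ⟨_, k7feq_rel_smul A F₀ σ hσ hw⟩

theorem k7feq_int_smul_iff (σ : Kb ≃ₐ[ℚ] Kb) (hσ : σ ∈ A.decompositionSubgroup ℚ)
    (x : laurentBaseChange Kb F₀) :
    k7fgInt A (laurentBaseChange Kb F₀) x ↔
      k7fgInt A (laurentBaseChange Kb F₀) (arithmeticGalois F₀ σ • x) := by
  constructor
  · exact k7feq_int_smul A F₀ σ hσ
  · intro h
    have hσ' : σ⁻¹ ∈ A.decompositionSubgroup ℚ := inv_mem hσ
    have h1 := k7feq_int_smul A F₀ σ⁻¹ hσ' h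
    rwa [map_inv, inv_smul_smul] at h1

/-- **Frobenius**: the reduction of `φ x` is the coefficientwise `ℓ`-th power of `x̄`. -/
theorem k7feq_rel_frobenius {ℓ : ℕ} [Fact ℓ.Prime] [CharP (kA A) ℓ]
    (φ : Kb ≃ₐ[ℚ] Kb) (hφ : A.IsFrobeniusAt φ ℓ)
    {x : laurentBaseChange Kb F₀} {w : LaurentSeries (kA A)}
    (h : k7fgRel A (laurentBaseChange Kb F₀) x w) :
    k7fgRel A (laurentBaseChange Kb F₀) (arithmeticGalois F₀ φ • x)
      (coeffMap (frobenius (kA A) ℓ) w) := by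
  have h1 := k7feq_rel_smul A F₀ φ hφ.mem_decompositionSubgroup h
  have h2 : coeffMap ((prResAut φ hφ.mem_decompositionSubgroup : _ ≃+* _) : _ →+* _) w
      = coeffMap (frobenius (kA A) ℓ) w := by
    ext n
    show prResAut φ hφ.mem_decompositionSubgroup (w.coeff n) = (w.coeff n) ^ ℓ
    exact hφ.smul_residue_eq (w.coeff n)
  rwa [h2] at h1

/-- **Inertia**: the reduction of `σ x` is the reduction of `x`. -/
theorem k7feq_rel_inertia (σ : Kb ≃ₐ[ℚ] Kb) (hσ : σ ∈ A.inertiaSubgroupIn ℚ)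
    {x : laurentBaseChange Kb F₀} {w : LaurentSeries (kA A)}
    (h : k7fgRel A (laurentBaseChange Kb F₀) x w) :
    k7fgRel A (laurentBaseChange Kb F₀) (arithmeticGalois F₀ σ • x) w := by
  have h1 := k7feq_rel_smul A F₀ σ (kron_mem_decomposition_of_mem_inertia hσ) h
  have h2 : coeffMap ((prResAut σ (kron_mem_decomposition_of_mem_inertia hσ) : _ ≃+* _) :
      _ →+* _) w = w := by
    rw [prResAut_inertia hσ]
    have h : ((RingEquiv.refl (kA A) : kA A ≃+* kA A) : kA A →+* kA A)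
        = RingHom.id (kA A) := rfl
    rw [coeffMap_congr h, coeffMap_id]
  rwa [h2] at h1

variable {Fb : IntermediateField (kA A) (LaurentSeries (kA A))} (hFb : K7feqStable Fb)

/-- `σ̄` as a semilinear automorphism of `Fb`: reduction of `σ x`, with values in `Fb`. -/
theorem k7feq_rel_semilinear (σ : Kb ≃ₐ[ℚ] Kb) (hσ : σ ∈ A.decompositionSubgroup ℚ)
    {x : laurentBaseChange Kb F₀} {y : Fb}
    (h : k7fgRel A (laurentBaseChange Kb F₀) x (y : LaurentSeries (kA A))) :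
    k7fgRel A (laurentBaseChange Kb F₀) (arithmeticGalois F₀ σ • x)
      ((k7feqSemilinear hFb (prResAut σ hσ) • y : Fb) : LaurentSeries (kA A)) :=
  k7feq_rel_smul A F₀ σ hσ h

/-- **`Fr` for the residue field of `A`** (a valuation ring of `ℚ̄` over `ℓ`). -/
def k7feqFrobA {ℓ : ℕ} (hℓ : ℓ.Prime) (hA : A.LiesOverPrime ℓ) : SemilinearAut (kA A) Fb :=
  haveI : Fact ℓ.Prime := ⟨hℓ⟩
  haveI : CharP (kA A) ℓ := kron_charP_residueField hℓ hA
  haveI : PerfectRing (kA A) ℓ := nf_perfectRing_residueField A ℓ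
  k7feqFrob hFb ℓ

theorem k7feqFrobA_smul_coeff {ℓ : ℕ} (hℓ : ℓ.Prime) (hA : A.LiesOverPrime ℓ) (y : Fb) (n : ℤ) :
    ((k7feqFrobA A hFb hℓ hA • y : Fb) : LaurentSeries (kA A)).coeff n
      = (y : LaurentSeries (kA A)).coeff n ^ ℓ := rfl

theorem baseAut_k7feqFrobA_apply {ℓ : ℕ} (hℓ : ℓ.Prime) (hA : A.LiesOverPrime ℓ) (a : kA A) :
    SemilinearAut.baseAut (k7feqFrobA A hFb hℓ hA) a = a ^ ℓ := rfl

/-- for a Frobenius element `φ`, `k7feqFrobA` is the semilinear automorphism induced by `φ̄`. -/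
theorem k7feqFrobA_eq_semilinear {ℓ : ℕ} (hℓ : ℓ.Prime) (hA : A.LiesOverPrime ℓ)
    (φ : Kb ≃ₐ[ℚ] Kb) (hφ : A.IsFrobeniusAt φ ℓ) :
    k7feqFrobA A hFb hℓ hA = k7feqSemilinear hFb (prResAut φ hφ.mem_decompositionSubgroup) := by
  have : Fact ℓ.Prime := ⟨hℓ⟩
  have : CharP (kA A) ℓ := kron_charP_residueField hℓ hA
  have : PerfectRing (kA A) ℓ := nf_perfectRing_residueField A ℓ
  show k7feqSemilinear hFb (frobeniusEquiv (kA A) ℓ) = _
  rw [prResAut_frobenius φ hφ]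

/-- for `σ` in the inertia group the induced semilinear automorphism is trivial. -/
theorem k7feqSemilinear_inertia (σ : Kb ≃ₐ[ℚ] Kb) (hσ : σ ∈ A.inertiaSubgroupIn ℚ) :
    k7feqSemilinear hFb (prResAut σ (kron_mem_decomposition_of_mem_inertia hσ))
      = (1 : SemilinearAut (kA A) Fb) := by
  rw [prResAut_inertia hσ]
  exact k7feqSemilinear_one hFb

end Rel

/-! ## 3. Equivariance of a canonical reduction of places -/

section Red

variable (A : ValuationSubring Kb) (F₀ : IntermediateField ℚ (LaurentSeries ℚ))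
  {Fb : IntermediateField (kA A) (LaurentSeries (kA A))} (hFb : K7feqStable Fb)
  (R : RedData Kb (laurentBaseChange Kb F₀) (kA A) Fb)
  (hiff : ∀ (x : laurentBaseChange Kb F₀) (w : LaurentSeries (kA A)),
    k7fgRel A (laurentBaseChange Kb F₀) x w ↔
      ∃ h : x ∈ R.O, ((R.red ⟨x, h⟩ : Fb) : LaurentSeries (kA A)) = w)

include hiff in
theorem k7feq_mem_O_iff_int (x : laurentBaseChange Kb F₀) :
    x ∈ R.O ↔ k7fgInt A (laurentBaseChange Kb F₀) x := by
  constructor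
  · intro h
    exact ⟨_, (hiff x _).mpr ⟨h, rfl⟩⟩
  · rintro ⟨w, hw⟩
    exact ((hiff x w).mp hw).1

include hiff in
/-- the decomposition group preserves the Gauss-integral elements -/
theorem k7feq_mem_O_iff (σ : Kb ≃ₐ[ℚ] Kb) (hσ : σ ∈ A.decompositionSubgroup ℚ)
    (f : laurentBaseChange Kb F₀) :
    f ∈ R.O ↔ arithmeticGalois F₀ σ • f ∈ R.O := by
  rw [k7feq_mem_O_iff_int A F₀ R hiff, k7feq_mem_O_iff_int A F₀ R hiff]
  exact k7feq_int_smul_iff A F₀ σ hσ f

include hiff in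
/-- `red (σ f) = σ̄ (red f)` for `σ` in the decomposition group -/
theorem k7feq_red_smul (σ : Kb ≃ₐ[ℚ] Kb) (hσ : σ ∈ A.decompositionSubgroup ℚ)
    (f : R.O) (h : arithmeticGalois F₀ σ • (f : laurentBaseChange Kb F₀) ∈ R.O) :
    R.red ⟨arithmeticGalois F₀ σ • (f : laurentBaseChange Kb F₀), h⟩
      = k7feqSemilinear hFb (prResAut σ hσ) • R.red f := by
  have h1 : k7fgRel A (laurentBaseChange Kb F₀) (f : laurentBaseChange Kb F₀)
      ((R.red f : Fb) : LaurentSeries (kA A)) :=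
    (hiff (f : laurentBaseChange Kb F₀) _).mpr ⟨f.2, rfl⟩
  have h2 := k7feq_rel_semilinear A F₀ hFb σ hσ h1
  obtain ⟨h', h3⟩ := (hiff _ _).mp h2
  exact Subtype.ext h3

variable
  (hresF : ∀ v : Place Kb (laurentBaseChange Kb F₀),
    Function.Bijective (algebraMap Kb v.ResidueField))
  (d₀ : ℤ) (r : Place Kb (laurentBaseChange Kb F₀) → Place (kA A) Fb)
  (hleast : ∀ D : Divisor Kb (laurentBaseChange Kb F₀), d₀ ≤ Divisor.degree D →
    IsLeast (bounds (R.redSpace (riemannRochSpace D))) (Finsupp.mapDomain r D))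

include hiff hresF hleast in
/-- **FL-EQ, decomposition group**: `r (σ • P) = σ̄ • r P`. -/
theorem k7feq_r_decomposition (σ : Kb ≃ₐ[ℚ] Kb) (hσ : σ ∈ A.decompositionSubgroup ℚ)
    (P : Place Kb (laurentBaseChange Kb F₀)) :
    r (arithmeticGalois F₀ σ • P) = k7feqSemilinear hFb (prResAut σ hσ) • r P :=
  r_smul_of_isLeast R (arithmeticGalois F₀ σ) (k7feqSemilinear hFb (prResAut σ hσ))
    (k7feq_mem_O_iff A F₀ R hiff σ hσ) (k7feq_red_smul A F₀ hFb R hiff σ hσ) hresF d₀ r hleast P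

include hiff in
/-- `red (σ f) = red f` for `σ` in the inertia group -/
theorem k7feq_red_inertia (σ : Kb ≃ₐ[ℚ] Kb) (hσ : σ ∈ A.inertiaSubgroupIn ℚ)
    (f : R.O) (h : arithmeticGalois F₀ σ • (f : laurentBaseChange Kb F₀) ∈ R.O) :
    R.red ⟨arithmeticGalois F₀ σ • (f : laurentBaseChange Kb F₀), h⟩ = R.red f := by
  have h1 : k7fgRel A (laurentBaseChange Kb F₀) (f : laurentBaseChange Kb F₀)
      ((R.red f : Fb) : LaurentSeries (kA A)) :=
    (hiff (f : laurentBaseChange Kb F₀) _).mpr ⟨f.2, rfl⟩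
  have h2 := k7feq_rel_inertia A F₀ σ hσ h1
  obtain ⟨h', h3⟩ := (hiff _ _).mp h2
  exact Subtype.ext h3

include hiff hresF hleast in
/-- **FL-EQ, inertia**: `r (σ • P) = r P`. -/
theorem k7feq_r_inertia (σ : Kb ≃ₐ[ℚ] Kb) (hσ : σ ∈ A.inertiaSubgroupIn ℚ)
    (P : Place Kb (laurentBaseChange Kb F₀)) :
    r (arithmeticGalois F₀ σ • P) = r P :=
  r_smul_of_isLeast_of_fix R (arithmeticGalois F₀ σ)
    (k7feq_mem_O_iff A F₀ R hiff σ (kron_mem_decomposition_of_mem_inertia hσ))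
    (k7feq_red_inertia A F₀ R hiff σ hσ) hresF d₀ r hleast P

include hiff hresF hleast in
/-- **FL-EQ, Frobenius**: `r (φ • P) = Fr • r P`. -/
theorem k7feq_r_frobenius {ℓ : ℕ} (hℓ : ℓ.Prime) (hA : A.LiesOverPrime ℓ)
    (φ : Kb ≃ₐ[ℚ] Kb) (hφ : A.IsFrobeniusAt φ ℓ) (P : Place Kb (laurentBaseChange Kb F₀)) :
    r (arithmeticGalois F₀ φ • P) = k7feqFrobA A hFb hℓ hA • r P := by
  rw [k7feqFrobA_eq_semilinear A hFb hℓ hA φ hφ]
  exact k7feq_r_decomposition A F₀ hFb R hiff hresF d₀ r hleast φ hφ.mem_decompositionSubgroup P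

include hiff hresF hleast in
/-- on divisors: `r_* (σ • D) = σ̄ • r_* D` -/
theorem k7feq_mapDomain_r_smul (σ : Kb ≃ₐ[ℚ] Kb) (hσ : σ ∈ A.decompositionSubgroup ℚ)
    (D : Divisor Kb (laurentBaseChange Kb F₀)) :
    Finsupp.mapDomain r (arithmeticGalois F₀ σ • D)
      = k7feqSemilinear hFb (prResAut σ hσ) • Finsupp.mapDomain r D :=
  deuEqMod_mapDomain_r_smul_of _ _ r
    (k7feq_r_decomposition A F₀ hFb R hiff hresF d₀ r hleast σ hσ) D

include hiff hresF hleast in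
theorem k7feq_mapDomain_r_inertia (σ : Kb ≃ₐ[ℚ] Kb) (hσ : σ ∈ A.inertiaSubgroupIn ℚ)
    (D : Divisor Kb (laurentBaseChange Kb F₀)) :
    Finsupp.mapDomain r (arithmeticGalois F₀ σ • D) = Finsupp.mapDomain r D := by
  have h := deuEqMod_mapDomain_r_smul_of (arithmeticGalois F₀ σ)
    (1 : SemilinearAut (kA A) Fb) r
    (fun P => by
      rw [one_smul]; exact k7feq_r_inertia A F₀ R hiff hresF d₀ r hleast σ hσ P) D
  rwa [one_smul] at h

include hiff hresF hleast in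
theorem k7feq_mapDomain_r_frobenius {ℓ : ℕ} (hℓ : ℓ.Prime) (hA : A.LiesOverPrime ℓ)
    (φ : Kb ≃ₐ[ℚ] Kb) (hφ : A.IsFrobeniusAt φ ℓ) (D : Divisor Kb (laurentBaseChange Kb F₀)) :
    Finsupp.mapDomain r (arithmeticGalois F₀ φ • D)
      = k7feqFrobA A hFb hℓ hA • Finsupp.mapDomain r D :=
  deuEqMod_mapDomain_r_smul_of _ _ r
    (k7feq_r_frobenius A F₀ hFb R hiff hresF d₀ r hleast hℓ hA φ hφ) D

end Red

/-! ## 4. Automorphisms over the constants (diamonds) -/

section AlgAut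

variable (A : ValuationSubring Kb) {F : IntermediateField Kb (LaurentSeries Kb)}
  {Fb : IntermediateField (kA A) (LaurentSeries (kA A))}
  (R : RedData Kb F (kA A) Fb)
  (hiff : ∀ (x : F) (w : LaurentSeries (kA A)),
    k7fgRel A F x w ↔ ∃ h : x ∈ R.O, ((R.red ⟨x, h⟩ : Fb) : LaurentSeries (kA A)) = w)

/-- `(δ, δ̄)` is compatible with the Gauss relation: `x ≡ w ⇒ δ x ≡ δ̄ w` (the output of FL-DIAM
for a diamond `δ` of `F_H` and the diamond `δ̄` of `F̄_H`). -/
def K7feqCompat (δ : F ≃ₐ[Kb] F) (δb : Fb ≃ₐ[kA A] Fb) : Prop :=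
  ∀ (x : F) (y : Fb), k7fgRel A F x (y : LaurentSeries (kA A)) →
    k7fgRel A F (δ x) ((δb y : Fb) : LaurentSeries (kA A))

theorem k7feqCompat_one : K7feqCompat A (1 : F ≃ₐ[Kb] F) (1 : Fb ≃ₐ[kA A] Fb) :=
  fun _ _ h => h

theorem K7feqCompat.mul {δ δ' : F ≃ₐ[Kb] F} {δb δb' : Fb ≃ₐ[kA A] Fb}
    (h : K7feqCompat A δ δb) (h' : K7feqCompat A δ' δb') :
    K7feqCompat A (δ * δ') (δb * δb') :=
  fun x y hxy => h _ _ (h' x y hxy)

theorem K7feqCompat.pow {δ : F ≃ₐ[Kb] F} {δb : Fb ≃ₐ[kA A] Fb}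
    (h : K7feqCompat A δ δb) (n : ℕ) : K7feqCompat A (δ ^ n) (δb ^ n) := by
  induction n with
  | zero => rw [pow_zero, pow_zero]; exact k7feqCompat_one A
  | succ n ih => rw [pow_succ, pow_succ]; exact ih.mul A h

include hiff in
/-- a compatible pair maps `O` into `O`, compatibly with `red` -/
theorem K7feqCompat.mem_O {δ : F ≃ₐ[Kb] F} {δb : Fb ≃ₐ[kA A] Fb} (h : K7feqCompat A δ δb)
    (f : R.O) : ∃ h' : δ (f : F) ∈ R.O, R.red ⟨δ (f : F), h'⟩ = δb (R.red f) := by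
  have h1 : k7fgRel A F (f : F) ((R.red f : Fb) : LaurentSeries (kA A)) :=
    (hiff (f : F) _).mpr ⟨f.2, rfl⟩
  obtain ⟨h', h3⟩ := (hiff _ _).mp (h _ _ h1)
  exact ⟨h', Subtype.ext h3⟩

include hiff in
theorem K7feqCompat.hO {δ : F ≃ₐ[Kb] F} {δb δb' : Fb ≃ₐ[kA A] Fb} (h : K7feqCompat A δ δb)
    (hinv : K7feqCompat A δ⁻¹ δb') (f : F) :
    f ∈ R.O ↔ SemilinearAut.ofAlgAut δ • f ∈ R.O := by
  constructor
  · intro hf
    exact (h.mem_O A R hiff ⟨f, hf⟩).1
  · intro hf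
    obtain ⟨h', -⟩ := hinv.mem_O A R hiff ⟨SemilinearAut.ofAlgAut δ • f, hf⟩
    have h2 : δ⁻¹ (SemilinearAut.ofAlgAut δ • f) = f := δ.symm_apply_apply f
    rw [← h2]
    exact h'

include hiff in
theorem K7feqCompat.hred {δ : F ≃ₐ[Kb] F} {δb : Fb ≃ₐ[kA A] Fb} (h : K7feqCompat A δ δb)
    (f : R.O) (hf : SemilinearAut.ofAlgAut δ • (f : F) ∈ R.O) :
    R.red ⟨SemilinearAut.ofAlgAut δ • (f : F), hf⟩ = SemilinearAut.ofAlgAut δb • R.red f := by
  obtain ⟨h', h2⟩ := h.mem_O A R hiff f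
  exact h2

variable
  (hresF : ∀ v : Place Kb F, Function.Bijective (algebraMap Kb v.ResidueField))
  (d₀ : ℤ) (r : Place Kb F → Place (kA A) Fb)
  (hleast : ∀ D : Divisor Kb F, d₀ ≤ Divisor.degree D →
    IsLeast (bounds (R.redSpace (riemannRochSpace D))) (Finsupp.mapDomain r D))

include hiff hresF hleast in
/-- **FL-EQ, diamonds**: `r (δ • P) = δ̄ • r P` for a pair `(δ, δ̄)` compatible with the Gauss
relation (`δ⁻¹` being compatible with some `δ̄'`). -/
theorem k7feq_r_algAut {δ : F ≃ₐ[Kb] F} {δb δb' : Fb ≃ₐ[kA A] Fb} (h : K7feqCompat A δ δb)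
    (hinv : K7feqCompat A δ⁻¹ δb') (P : Place Kb F) :
    r (SemilinearAut.ofAlgAut δ • P) = SemilinearAut.ofAlgAut δb • r P :=
  r_smul_of_isLeast R (SemilinearAut.ofAlgAut δ) (SemilinearAut.ofAlgAut δb)
    (h.hO A R hiff hinv) (h.hred A R hiff) hresF d₀ r hleast P

include hiff hresF hleast in
theorem k7feq_mapDomain_r_algAut {δ : F ≃ₐ[Kb] F} {δb δb' : Fb ≃ₐ[kA A] Fb}
    (h : K7feqCompat A δ δb) (hinv : K7feqCompat A δ⁻¹ δb') (D : Divisor Kb F) :
    Finsupp.mapDomain r (SemilinearAut.ofAlgAut δ • D)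
      = SemilinearAut.ofAlgAut δb • Finsupp.mapDomain r D :=
  deuEqMod_mapDomain_r_smul_of _ _ r (k7feq_r_algAut A R hiff hresF d₀ r hleast h hinv) D

end AlgAut

/-! ## 5. Stability of the kernel of reduction -/

section J1

open Fermat.Agent.W1

variable {K F k Fk : Type} [Field K] [Field F] [Algebra K F] [Field k] [Field Fk] [Algebra k Fk]
variable {A : ValuationSubring K} {R : PRData K F k Fk A}

/-- `γ` with `r (γ P) = τ (r P)` for a semilinear automorphism `τ` of the residue field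
preserves the kernel of reduction -/
theorem k7feq_smul_mem_J1 (γ : SemilinearAut K F) (τ : SemilinearAut k Fk)
    (h : ∀ P, R.r (γ • P) = τ • R.r P) {x : Pic0 K F} (hx : x ∈ R.J1) : γ • x ∈ R.J1 :=
  kc_smul_mem_J1 γ (fun Q => τ • Q) h (fun _ hE => deuEqMod_mapDomain_principal τ hE) hx

/-- the same for a product (twisted action `δ ∘ σ`) -/
theorem k7feq_smul_smul_mem_J1 (γ γ' : SemilinearAut K F) (τ τ' : SemilinearAut k Fk)
    (h : ∀ P, R.r (γ • P) = τ • R.r P) (h' : ∀ P, R.r (γ' • P) = τ' • R.r P)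
    {x : Pic0 K F} (hx : x ∈ R.J1) : γ • γ' • x ∈ R.J1 :=
  k7feq_smul_mem_J1 γ τ h (k7feq_smul_mem_J1 γ' τ' h' hx)

/-- the `ModPR`-form of the decomposition clause -/
theorem k7feq_decomp_clause (γ : SemilinearAut K F) (τ : SemilinearAut k Fk)
    (h : ∀ P, R.r (γ • P) = τ • R.r P) :
    ∃ σb : Place k Fk → Place k Fk, (∀ P, R.r (γ • P) = σb (R.r P)) ∧
      ∀ E ∈ Divisor.principal (K := k) (F := Fk),
        Finsupp.mapDomain σb E ∈ Divisor.principal (K := k) (F := Fk) :=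
  ⟨fun Q => τ • Q, h, fun _ hE => deuEqMod_mapDomain_principal τ hE⟩

end J1

end Fermat.Agent.RT.K7F
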