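import Fermat.Agent.RT.K7F.AnchGen
import Fermat.Agent.RT.K7F.AnchDiam
import Fermat.Agent.RT.K7F.Eq
import Fermat.Agent.RT.K7F.GaussData

/-!
# RT-K7F, piece FL-ANCH — the conjugates in characteristic `p`

`F ⊂ ℚ̄((q))`, `Fb ⊂ k((q))`, `R = k7fgData A F Fb hprim hRedF` the Gauss reduction, `δ_c` a family
of automorphisms of `F` indexed by a finite group, `δb_c` automorphisms of `Fb` compatible with
the Gauss relation (`K7feqCompat`).

* `k7fanch_compat_mem` : `δ_c f ∈ O`, `red (δ_c f) = δb_c (red f)`;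
* `k7fanch_db_eq_self` : `δ_c = 1 ⇒ δb_c = id`;
* `k7fanch_red_of_lift` : the reduction of an `A`-integral series is its coefficientwise reduction;
* `k7fanch_hsym` : the coefficients of `∏_c (X - δb_c x)` lie in `Fb₀`, if the invariants of the
  `δ_c` lie in `F₀` and `red (O ∩ F₀) ⊆ Fb₀`;
* `k7fanch_conj_isIntegral` : `δb_c (red Y)` is integral over `S₀` if the coefficients of
  `∏_c (X - Z_c)` (`Z_c` an `A`-integral lift of `δ_c Y`) reduce into `S₀`.
-/

set_option autoImplicit false
set_option linter.unusedSectionVars false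
set_option linter.style.haveILetI false
set_option synthInstance.maxHeartbeats 400000
set_option maxHeartbeats 1600000

noncomputable section

namespace Fermat.Agent.RT.K7F

open AlgebraicCurve Polynomial ModularCurve
open Fermat.Agent.ES Fermat.Agent.ES.M Fermat.Agent.S24 Fermat.Agent.DEU Fermat.Agent.ES1.G2

section Conj

variable {A : ValuationSubring Kb} {F : IntermediateField Kb (LaurentSeries Kb)}
  {Fb : IntermediateField (kA A) (LaurentSeries (kA A))}
  (hprim : PrimAt A F) (hRedF : ∀ Y : LaurentSeries A, kronIncl A Y ∈ F → kronRed A Y ∈ Fb)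
  {G : Type*} [Group G] [Fintype G]
  (δ : G → (F ≃ₐ[Kb] F)) (δb : G → (Fb ≃ₐ[kA A] Fb))
  (hcompat : ∀ c, K7feqCompat A (δ c) (δb c))

/-- the conjugates `σ_c = incl ∘ δb_c : Fb → k((q))` -/
def k7fanchSigma (c : G) : Fb →ₐ[kA A] LaurentSeries (kA A) :=
  Fb.val.comp (δb c : Fb →ₐ[kA A] Fb)

theorem k7fanchSigma_apply (c : G) (x : Fb) :
    k7fanchSigma δb c x = ((δb c x : Fb) : LaurentSeries (kA A)) := rfl

include hcompat in
/-- `δ_c f ∈ O` and `red (δ_c f) = δb_c (red f)` -/
theorem k7fanch_compat_mem (c : G) (f : (k7fgData A F Fb hprim hRedF).O) :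
    ∃ h' : δ c (f : F) ∈ (k7fgData A F Fb hprim hRedF).O,
      (k7fgData A F Fb hprim hRedF).red ⟨δ c (f : F), h'⟩
        = δb c ((k7fgData A F Fb hprim hRedF).red f) :=
  (hcompat c).mem_O A (k7fgData A F Fb hprim hRedF) (k7fgRed_iff A F Fb hRedF) f

include hcompat in
/-- `δ_c = 1 ⇒ δb_c = id` -/
theorem k7fanch_db_eq_self
    (hsurj : Function.Surjective (k7fgData A F Fb hprim hRedF).red) {c : G} (hc : δ c = 1)
    (x : Fb) : δb c x = x := by
  obtain ⟨f, rfl⟩ := hsurj x
  obtain ⟨h', h2⟩ := k7fanch_compat_mem hprim hRedF δ δb hcompat c f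
  rw [← h2]
  congr 1
  apply Subtype.ext
  show δ c (f : F) = (f : F)
  rw [hc]
  rfl

/-- the reduction of an `A`-integral series is its coefficientwise reduction -/
theorem k7fanch_red_of_lift (f : (k7fgData A F Fb hprim hRedF).O) (Y : LaurentSeries A)
    (hY : kronIncl A Y = ((f : F) : LaurentSeries Kb)) :
    (((k7fgData A F Fb hprim hRedF).red f : Fb) : LaurentSeries (kA A)) = kronRed A Y := by
  have hYF : kronIncl A Y ∈ F := by rw [hY]; exact (f : F).2
  have h1 := k7fgRel_of_int A F Y hYF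
  have h2 : (⟨kronIncl A Y, hYF⟩ : F) = (f : F) := Subtype.ext hY
  rw [h2] at h1
  obtain ⟨h, h3⟩ := (k7fgRed_iff A F Fb hRedF (f : F) _).mp h1
  exact h3

include hcompat in
/-- **the symmetric functions of the conjugates lie in `Fb₀`** -/
theorem k7fanch_hsym (hmul : ∀ c d x, δ c (δ d x) = δ (c * d) x)
    (F₀ : IntermediateField Kb (LaurentSeries Kb))
    (hinv : ∀ x : F, (∀ c, δ c x = x) → (x : LaurentSeries Kb) ∈ F₀)
    (Fb₀ : IntermediateField (kA A) (LaurentSeries (kA A)))
    (hred₀ : ∀ f : (k7fgData A F Fb hprim hRedF).O, ((f : F) : LaurentSeries Kb) ∈ F₀ →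
      (((k7fgData A F Fb hprim hRedF).red f : Fb) : LaurentSeries (kA A)) ∈ Fb₀)
    (hsurj : Function.Surjective (k7fgData A F Fb hprim hRedF).red)
    (x : Fb) (n : ℕ) : (k7fanch_charpoly Fb (k7fanchSigma δb) x).coeff n ∈ Fb₀ := by
  classical
  obtain ⟨f, rfl⟩ := hsurj x
  have hmem := fun c => k7fanch_compat_mem hprim hRedF δ δb hcompat c f
  let g : G → (k7fgData A F Fb hprim hRedF).O := fun c => ⟨δ c (f : F), (hmem c).1⟩
  have hg : ∀ c, (k7fgData A F Fb hprim hRedF).red (g c)
      = δb c ((k7fgData A F Fb hprim hRedF).red f) := fun c => (hmem c).2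
  set P : Polynomial (k7fgData A F Fb hprim hRedF).O := ∏ c, (X - C (g c)) with hP
  have h1 : k7fanch_charpoly Fb (k7fanchSigma δb) ((k7fgData A F Fb hprim hRedF).red f)
      = (P.map (k7fgData A F Fb hprim hRedF).red).map (algebraMap Fb (LaurentSeries (kA A))) := by
    rw [k7fanch_charpoly, hP, Polynomial.map_prod, Polynomial.map_prod]
    refine Finset.prod_congr rfl fun c _ => ?_
    rw [Polynomial.map_sub, Polynomial.map_X, Polynomial.map_C, Polynomial.map_sub,
      Polynomial.map_X, Polynomial.map_C, hg c]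
    rfl
  have h2 : P.map (k7fgData A F Fb hprim hRedF).O.subtype = ∏ c, (X - C (δ c (f : F))) := by
    rw [hP, Polynomial.map_prod]
    refine Finset.prod_congr rfl fun c _ => ?_
    rw [Polynomial.map_sub, Polynomial.map_X, Polynomial.map_C]
    rfl
  rw [h1, Polynomial.coeff_map, Polynomial.coeff_map]
  refine hred₀ (P.coeff n) (hinv _ fun c => ?_)
  have h3 : ((P.coeff n : (k7fgData A F Fb hprim hRedF).O) : F)
      = (∏ c, (X - C (δ c (f : F)))).coeff n := by
    rw [← h2, Polynomial.coeff_map]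
    rfl
  rw [h3]
  exact k7fanch_coeff_fixed δ hmul (f : F) c n

include hcompat in
/-- **the conjugates of a reduction are integral over `S₀`** -/
theorem k7fanch_conj_isIntegral (Y : (k7fgData A F Fb hprim hRedF).O)
    (Z : G → LaurentSeries A)
    (hZ : ∀ c, kronIncl A (Z c) = ((δ c (Y : F) : F) : LaurentSeries Kb))
    (S₀ : Subalgebra (kA A) (LaurentSeries (kA A)))
    (hS₀ : ∀ n, kronRed A ((∏ c, (X - C (Z c))).coeff n) ∈ S₀) (c : G) :
    IsIntegral S₀ (k7fanchSigma δb c ((k7fgData A F Fb hprim hRedF).red Y)) := by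
  classical
  have hmem := fun c => k7fanch_compat_mem hprim hRedF δ δb hcompat c Y
  have hred : ∀ c, kronRed A (Z c)
      = k7fanchSigma δb c ((k7fgData A F Fb hprim hRedF).red Y) := by
    intro c
    rw [k7fanchSigma_apply, ← (hmem c).2]
    exact (k7fanch_red_of_lift hprim hRedF ⟨δ c (Y : F), (hmem c).1⟩ (Z c) (hZ c)).symm
  set Q : Polynomial (LaurentSeries (kA A)) := (∏ c, (X - C (Z c))).map (kronRed A) with hQ
  have hQ' : Q = ∏ c, (X - C (kronRed A (Z c))) := by
    rw [hQ, Polynomial.map_prod]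
    refine Finset.prod_congr rfl fun c _ => ?_
    rw [Polynomial.map_sub, Polynomial.map_X, Polynomial.map_C]
  have hmonic : Q.Monic := by
    rw [hQ']
    exact monic_prod_of_monic _ _ fun i _ => monic_X_sub_C _
  have hlift : Q ∈ Polynomial.lifts (algebraMap S₀ (LaurentSeries (kA A))) := by
    rw [Polynomial.lifts_iff_coeff_lifts]
    intro n
    rw [hQ, Polynomial.coeff_map]
    exact ⟨⟨_, hS₀ n⟩, rfl⟩
  obtain ⟨q, hq, -, hqm⟩ := Polynomial.lifts_and_degree_eq_and_monic hlift hmonic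
  refine ⟨q, hqm, ?_⟩
  rw [← Polynomial.eval_map, hq, hQ', Polynomial.eval_prod]
  refine Finset.prod_eq_zero (Finset.mem_univ c) ?_
  rw [Polynomial.eval_sub, Polynomial.eval_X, Polynomial.eval_C, hred c, sub_self]

end Conj

end Fermat.Agent.RT.K7F
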