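import Fermat.Agent.DEU.AnchorCore
import Fermat.Agent.S18.CuspPlace

/-!
# RT-K7F, piece FL-ANCH — generic core: (h0) for a cover, from (h0) of the base

`E₀ ≤ E ⊂ k((q))` fields, `σ_i : E → k((q))` a finite family of `k`-embeddings ("conjugates") whose
elementary symmetric functions lie in `E₀`, one of them (`i₀`) being the inclusion.
`R₀ = k[G]`, `G ⊂ E` a set of functions whose conjugates are integral over a `k`-algebra `S₀`
and, for the conjugates `≠` inclusion, are POWER SERIES (no pole at `q = 0`).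

If the elements of `E₀` integral over `S₀` with `q`-order `≥ 0` are constants (this is (h0) for
the base curve), then the elements of `E` integral over `R₀` with `q`-order `≥ 0` are constants
(`k7fanch_h0`): this is the hypothesis (h0) of `DEU.deuAnchor_regular` for the cover.
-/

set_option autoImplicit false
set_option synthInstance.maxHeartbeats 400000
set_option maxHeartbeats 1000000

noncomputable section

namespace Fermat.Agent.RT.K7F

open Polynomial WithZero

/-! ## power series inside Laurent series -/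

theorem k7fanch_v_le_one_iff {k : Type*} [Field k] (x : LaurentSeries k) :
    (Valued.v x : ℤᵐ⁰) ≤ 1 ↔ ∀ n : ℤ, n < 0 → x.coeff n = 0 := by
  have h := LaurentSeries.valuation_le_iff_coeff_lt_eq_zero (K := k) (D := 0) (f := x)
  simpa using h

/-- the Laurent series without negative coefficients, as a `k`-subalgebra -/
def k7fanch_ps (k : Type*) [Field k] : Subalgebra k (LaurentSeries k) where
  carrier := {x | ∀ n : ℤ, n < 0 → x.coeff n = 0}
  mul_mem' := by
    intro a b ha hb
    have ha' : (Valued.v a : ℤᵐ⁰) ≤ 1 := (k7fanch_v_le_one_iff a).mpr ha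
    have hb' : (Valued.v b : ℤᵐ⁰) ≤ 1 := (k7fanch_v_le_one_iff b).mpr hb
    have hab : (Valued.v (a * b) : ℤᵐ⁰) ≤ 1 := by
      rw [map_mul]
      exact mul_le_one' ha' hb'
    exact (k7fanch_v_le_one_iff (a * b)).mp hab
  add_mem' := by
    intro a b ha hb n hn
    rw [HahnSeries.coeff_add, ha n hn, hb n hn, add_zero]
  algebraMap_mem' := by
    intro c n hn
    rw [LaurentSeries.algebraMap_apply, HahnSeries.C_apply,
      HahnSeries.coeff_single_of_ne hn.ne]

variable {k : Type*} [Field k]

theorem k7fanch_mem_ps {x : LaurentSeries k} :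
    x ∈ k7fanch_ps k ↔ ∀ n : ℤ, n < 0 → x.coeff n = 0 := Iff.rfl

theorem k7fanch_mem_ps_iff_v {x : LaurentSeries k} :
    x ∈ k7fanch_ps k ↔ (Valued.v x : ℤᵐ⁰) ≤ 1 :=
  (k7fanch_v_le_one_iff x).symm

theorem k7fanch_mem_ps_of_order {x : LaurentSeries k} (hx : 0 ≤ x.order) :
    x ∈ k7fanch_ps k := fun _ hn =>
  HahnSeries.coeff_eq_zero_of_lt_order (lt_of_lt_of_le hn hx)

theorem k7fanch_order_of_mem_ps {x : LaurentSeries k} (hx : x ∈ k7fanch_ps k) :
    0 ≤ x.order := by
  rcases eq_or_ne x 0 with rfl | h0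
  · simp
  · by_contra hlt
    rw [not_le] at hlt
    exact h0 (HahnSeries.coeff_order_eq_zero.1 (hx _ hlt))

/-- `k[[q]]` is integrally closed in `k((q))` -/
theorem k7fanch_ps_closed {x : LaurentSeries k} (hx : IsIntegral (k7fanch_ps k) x) :
    x ∈ k7fanch_ps k := by
  rw [k7fanch_mem_ps_iff_v]
  let v : Valuation (LaurentSeries k) ℤᵐ⁰ := Valued.v
  let φ : k7fanch_ps k →+* v.integer :=
    { toFun := fun c => ⟨(c : LaurentSeries k), k7fanch_mem_ps_iff_v.mp c.2⟩
      map_one' := rfl
      map_mul' := fun _ _ => rfl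
      map_zero' := rfl
      map_add' := fun _ _ => rfl }
  have hint : IsIntegral v.integer x := by
    obtain ⟨p, hp, hpx⟩ := hx
    refine ⟨p.map φ, hp.map _, ?_⟩
    rw [Polynomial.eval₂_map]
    exact hpx
  exact (Valuation.integer.integers v).mem_of_integral hint

/-- the integral closure of a subalgebra, as a `k`-subalgebra of `k((q))` -/
def k7fanch_ic (S₀ : Subalgebra k (LaurentSeries k)) : Subalgebra k (LaurentSeries k) :=
  (integralClosure S₀ (LaurentSeries k)).restrictScalars k

theorem k7fanch_mem_ic {S₀ : Subalgebra k (LaurentSeries k)} {x : LaurentSeries k} :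
    x ∈ k7fanch_ic S₀ ↔ IsIntegral S₀ x := Iff.rfl

/-- the integral closure is integrally closed -/
theorem k7fanch_ic_closed {S₀ : Subalgebra k (LaurentSeries k)} {x : LaurentSeries k}
    (hx : IsIntegral (k7fanch_ic S₀) x) : x ∈ k7fanch_ic S₀ := by
  rw [k7fanch_mem_ic]
  have h1 : IsIntegral (integralClosure S₀ (LaurentSeries k)) x := by
    obtain ⟨p, hp, hpx⟩ := hx
    let φ : k7fanch_ic S₀ →+* integralClosure S₀ (LaurentSeries k) :=
      { toFun := fun c => ⟨(c : LaurentSeries k), c.2⟩
        map_one' := rfl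
        map_mul' := fun _ _ => rfl
        map_zero' := rfl
        map_add' := fun _ _ => rfl }
    refine ⟨p.map φ, hp.map _, ?_⟩
    rw [Polynomial.eval₂_map]
    exact hpx
  exact isIntegral_trans x h1

/-! ## transport of integrality along an embedding -/

section Transport

variable (E : IntermediateField k (LaurentSeries k)) (G : Set (LaurentSeries k))
  (hGE : ∀ y ∈ G, y ∈ E) (τ : E →ₐ[k] LaurentSeries k) (B : Subalgebra k (LaurentSeries k))

include hGE in
/-- `k[G] ⊆ E` and `τ (k[G]) ⊆ B` -/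
theorem k7fanch_adjoin_mem (hG : ∀ y (hy : y ∈ G), τ ⟨y, hGE y hy⟩ ∈ B)
    (c : LaurentSeries k) (hc : c ∈ Algebra.adjoin k G) : ∃ h : c ∈ E, τ ⟨c, h⟩ ∈ B := by
  induction hc using Algebra.adjoin_induction with
  | mem y hy => exact ⟨hGE y hy, hG y hy⟩
  | algebraMap r =>
    refine ⟨E.algebraMap_mem r, ?_⟩
    have : (⟨algebraMap k (LaurentSeries k) r, E.algebraMap_mem r⟩ : E) = algebraMap k E r := rfl
    rw [this, τ.commutes]
    exact B.algebraMap_mem r
  | add y z _ _ hy hz =>
    obtain ⟨hyE, hy⟩ := hy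
    obtain ⟨hzE, hz⟩ := hz
    refine ⟨E.add_mem hyE hzE, ?_⟩
    have : (⟨y + z, E.add_mem hyE hzE⟩ : E) = ⟨y, hyE⟩ + ⟨z, hzE⟩ := rfl
    rw [this, map_add]
    exact B.add_mem hy hz
  | mul y z _ _ hy hz =>
    obtain ⟨hyE, hy⟩ := hy
    obtain ⟨hzE, hz⟩ := hz
    refine ⟨E.mul_mem hyE hzE, ?_⟩
    have : (⟨y * z, E.mul_mem hyE hzE⟩ : E) = ⟨y, hyE⟩ * ⟨z, hzE⟩ := rfl
    rw [this, map_mul]
    exact B.mul_mem hy hz

include hGE in
/-- **transport**: if `B` is integrally closed in `k((q))` and `τ G ⊆ B`, then `τ x ∈ B` for every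
`x ∈ E` integral over `k[G]` -/
theorem k7fanch_transport (hB : ∀ x : LaurentSeries k, IsIntegral B x → x ∈ B)
    (hG : ∀ y (hy : y ∈ G), τ ⟨y, hGE y hy⟩ ∈ B)
    (x : E) (hx : IsIntegral (Algebra.adjoin k G) (x : LaurentSeries k)) : τ x ∈ B := by
  apply hB
  have hmem := k7fanch_adjoin_mem E G hGE τ B hG
  let ψ : Algebra.adjoin k G →+* B :=
    { toFun := fun c => ⟨τ ⟨(c : LaurentSeries k), (hmem c c.2).1⟩, (hmem c c.2).2⟩
      map_one' := by
        apply Subtype.ext
        show τ ⟨(1 : LaurentSeries k), _⟩ = 1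
        have : (⟨(1 : LaurentSeries k), (hmem 1 (one_mem _)).1⟩ : E) = 1 := rfl
        rw [this, map_one]
      map_mul' := fun a b => by
        apply Subtype.ext
        show τ ⟨(a : LaurentSeries k) * (b : LaurentSeries k), _⟩ = τ ⟨_, _⟩ * τ ⟨_, _⟩
        rw [← map_mul]
        rfl
      map_zero' := by
        apply Subtype.ext
        show τ ⟨(0 : LaurentSeries k), _⟩ = 0
        have : (⟨(0 : LaurentSeries k), (hmem 0 (zero_mem _)).1⟩ : E) = 0 := rfl
        rw [this, map_zero]
      map_add' := fun a b => by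
        apply Subtype.ext
        show τ ⟨(a : LaurentSeries k) + (b : LaurentSeries k), _⟩ = τ ⟨_, _⟩ + τ ⟨_, _⟩
        rw [← map_add]
        rfl }
  let incl : Algebra.adjoin k G →+* E :=
    { toFun := fun c => ⟨(c : LaurentSeries k), (hmem c c.2).1⟩
      map_one' := rfl
      map_mul' := fun _ _ => rfl
      map_zero' := rfl
      map_add' := fun _ _ => rfl }
  obtain ⟨p, hp, hpx⟩ := hx
  refine ⟨p.map ψ, hp.map _, ?_⟩
  rw [Polynomial.eval₂_map]
  have h2 : (algebraMap B (LaurentSeries k)).comp ψ = (τ : E →+* LaurentSeries k).comp incl := rfl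
  rw [h2]
  have h3 := Polynomial.hom_eval₂ p incl (τ : E →+* LaurentSeries k) x
  have h4 : Polynomial.eval₂ incl x p = 0 := by
    apply Subtype.ext
    have h5 := Polynomial.hom_eval₂ p incl (algebraMap E (LaurentSeries k)) x
    have h6 : (algebraMap E (LaurentSeries k)).comp incl =
        algebraMap (Algebra.adjoin k G) (LaurentSeries k) := rfl
    rw [h6] at h5
    show algebraMap E (LaurentSeries k) (Polynomial.eval₂ incl x p) = 0
    rw [h5]
    exact hpx
  rw [h4, map_zero] at h3
  exact h3.symm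

end Transport

/-! ## the core -/

section Core

variable (E E₀ : IntermediateField k (LaurentSeries k)) {ι : Type*} [Fintype ι]
  (σ : ι → (E →ₐ[k] LaurentSeries k))

/-- the characteristic polynomial of `x` with respect to the conjugates `σ` -/
def k7fanch_charpoly (x : E) : (LaurentSeries k)[X] := ∏ i, (X - C (σ i x))

theorem k7fanch_charpoly_monic (x : E) : (k7fanch_charpoly E σ x).Monic :=
  monic_prod_of_monic _ _ fun i _ => monic_X_sub_C (σ i x)

theorem k7fanch_charpoly_root (x : E) (i₀ : ι) (hi₀ : σ i₀ x = (x : LaurentSeries k)) :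
    (k7fanch_charpoly E σ x).eval (x : LaurentSeries k) = 0 := by
  rw [k7fanch_charpoly, Polynomial.eval_prod]
  refine Finset.prod_eq_zero (Finset.mem_univ i₀) ?_
  rw [Polynomial.eval_sub, Polynomial.eval_X, Polynomial.eval_C, hi₀, sub_self]

/-- the coefficients of the characteristic polynomial lie in every subalgebra containing the
conjugates -/
theorem k7fanch_charpoly_coeff_mem (B : Subalgebra k (LaurentSeries k)) (x : E)
    (hx : ∀ i, σ i x ∈ B) (n : ℕ) : (k7fanch_charpoly E σ x).coeff n ∈ B := by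
  have h : k7fanch_charpoly E σ x =
      (∏ i, (X - C (⟨σ i x, hx i⟩ : B))).map (algebraMap B (LaurentSeries k)) := by
    rw [k7fanch_charpoly, Polynomial.map_prod]
    refine Finset.prod_congr rfl fun i _ => ?_
    rw [Polynomial.map_sub, Polynomial.map_X, Polynomial.map_C]
    rfl
  rw [h, Polynomial.coeff_map]
  exact Subtype.prop _

/-- **FL-ANCH core: (h0) for the cover.** -/
theorem k7fanch_h0 (i₀ : ι) (hi₀ : ∀ x : E, σ i₀ x = (x : LaurentSeries k))
    (hsym : ∀ (x : E) (n : ℕ), (k7fanch_charpoly E σ x).coeff n ∈ E₀)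
    (S₀ : Subalgebra k (LaurentSeries k))
    (h0₀ : ∀ x ∈ E₀, IsIntegral S₀ x → 0 ≤ x.order →
      x ∈ Set.range (algebraMap k (LaurentSeries k)))
    (G : Set (LaurentSeries k)) (hGE : ∀ y ∈ G, y ∈ E)
    (hG_int : ∀ y (hy : y ∈ G) (i : ι), IsIntegral S₀ (σ i ⟨y, hGE y hy⟩))
    (hG_ps : ∀ i : ι, (∀ x : E, σ i x = (x : LaurentSeries k)) ∨
      ∀ y (hy : y ∈ G), σ i ⟨y, hGE y hy⟩ ∈ k7fanch_ps k)
    (halgc : ∀ x : E, IsAlgebraic k x →
      (x : LaurentSeries k) ∈ Set.range (algebraMap k (LaurentSeries k)))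
    (x : LaurentSeries k) (hxE : x ∈ E) (hx : IsIntegral (Algebra.adjoin k G) x)
    (hord : 0 ≤ x.order) : x ∈ Set.range (algebraMap k (LaurentSeries k)) := by
  classical
  set x' : E := ⟨x, hxE⟩ with hx'
  -- all conjugates are integral over `S₀`
  have hint : ∀ i, σ i x' ∈ k7fanch_ic S₀ := fun i =>
    k7fanch_transport E G hGE (σ i) (k7fanch_ic S₀) (fun _ h => k7fanch_ic_closed h)
      (fun y hy => hG_int y hy i) x' hx
  -- all conjugates are power series
  have hps : ∀ i, σ i x' ∈ k7fanch_ps k := by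
    intro i
    rcases hG_ps i with h | h
    · rw [h x']
      exact k7fanch_mem_ps_of_order hord
    · exact k7fanch_transport E G hGE (σ i) (k7fanch_ps k) (fun _ h => k7fanch_ps_closed h) h x' hx
  -- the coefficients of the characteristic polynomial are constants
  have hcoef : ∀ n : ℕ, (k7fanch_charpoly E σ x').coeff n ∈
      Set.range (algebraMap k (LaurentSeries k)) := by
    intro n
    refine h0₀ _ (hsym x' n) ?_ ?_
    · exact k7fanch_charpoly_coeff_mem E σ (k7fanch_ic S₀) x' hint n
    · exact k7fanch_order_of_mem_ps (k7fanch_charpoly_coeff_mem E σ (k7fanch_ps k) x' hps n)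
  have hlift : k7fanch_charpoly E σ x' ∈ Polynomial.lifts (algebraMap k (LaurentSeries k)) := by
    rw [Polynomial.lifts_iff_coeff_lifts]
    intro n
    exact hcoef n
  obtain ⟨p₀, hp₀, -, hmonic⟩ :=
    Polynomial.lifts_and_degree_eq_and_monic hlift (k7fanch_charpoly_monic E σ x')
  have hroot : Polynomial.aeval (x' : LaurentSeries k) p₀ = 0 := by
    rw [Polynomial.aeval_def, ← Polynomial.eval_map, hp₀]
    exact k7fanch_charpoly_root E σ x' i₀ (hi₀ x')
  have halg : IsAlgebraic k x' := by
    refine ⟨p₀, hmonic.ne_zero, ?_⟩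
    apply Subtype.ext
    have h := Polynomial.aeval_algHom_apply E.val x' p₀
    have h' : (E.val (Polynomial.aeval x' p₀) : LaurentSeries k) = 0 := by
      rw [← h]
      exact hroot
    exact h'
  exact halgc x' halg

end Core

end Fermat.Agent.RT.K7F
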