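import Fermat.Agent.RT.K7F.DiamRed

/-!
# RT / K7-FLAT, piece FL-DIAM, part 6: the reduction `δ̄` of a diamond (`StmtDiamInt`)

`δ` a diamond automorphism of `F_H = fieldBar L M H`.  By the integral representation
`k7fd_rep_bar`, `δ` maps the Gauss valuation ring `O_H` into itself and its maximal ideal into
itself (also for `δ⁻¹`), hence induces an automorphism `δ̄` of the residue field
`F̄_H = fieldC k L M H`.

* `k7fd_fix_adjoin`  : a ring endomorphism fixing constants and generators fixes the adjoin;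
* `k7fd_diam_fix`    : a diamond fixes `F₀ = modularFunctionFieldBar L` pointwise;
* `k7fd_isDiamondH_symm` : the inverse of the diamond `⟨c⟩` is the diamond `⟨c⁻¹⟩`;
* `k7fd_diam_int`, `k7fd_diam_int_ne`, `k7fd_diam_rel` : `δ` preserves Gauss reductions;
* `k7fd_lift_equiv`  : generic descent of an automorphism to the residue field;
* `k7fd_diamInt : StmtDiamInt`.
-/

set_option autoImplicit false
set_option linter.style.haveILetI false
set_option linter.unusedSectionVars false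
set_option synthInstance.maxHeartbeats 400000
set_option maxHeartbeats 1600000

noncomputable section

namespace Fermat.Agent.RT.K7F

open Polynomial ModularCurve IntermediateField AlgebraicCurve HahnSeries
open Fermat.Agent.S24 Fermat.Agent.S28 Fermat.Agent.INJ Fermat.Agent.ES Fermat.Agent.ES1
  Fermat.Agent.ES.M Fermat.Agent.ES1.G2

/-! ## Generic lemmas -/

/-- a ring endomorphism of `F` fixing the constants and the generators `S ⊆ F` fixes
`K(S)` pointwise -/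
theorem k7fd_fix_adjoin {K Ω : Type*} [Field K] [Field Ω] [Algebra K Ω] (S : Set Ω)
    (F : IntermediateField K Ω) (hSF : S ⊆ F) (σ : F →+* F)
    (hc : ∀ a : K, σ (algebraMap K F a) = algebraMap K F a)
    (hS : ∀ x : F, (x : Ω) ∈ S → σ x = x) (x : F)
    (hx : (x : Ω) ∈ IntermediateField.adjoin K S) : σ x = x := by
  have key : ∀ y : Ω, y ∈ IntermediateField.adjoin K S → ∃ h : y ∈ F, σ ⟨y, h⟩ = ⟨y, h⟩ := by
    intro y hy
    induction hy using IntermediateField.adjoin_induction with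
    | mem y hy => exact ⟨hSF hy, hS ⟨y, hSF hy⟩ hy⟩
    | algebraMap a => exact ⟨F.algebraMap_mem a, hc a⟩
    | add y z _ _ ihy ihz =>
        obtain ⟨hy, ey⟩ := ihy
        obtain ⟨hz, ez⟩ := ihz
        refine ⟨add_mem hy hz, ?_⟩
        have : (⟨y + z, add_mem hy hz⟩ : F) = ⟨y, hy⟩ + ⟨z, hz⟩ := rfl
        rw [this, map_add, ey, ez]
    | inv y _ ihy =>
        obtain ⟨hy, ey⟩ := ihy
        refine ⟨inv_mem hy, ?_⟩
        have : (⟨y⁻¹, inv_mem hy⟩ : F) = (⟨y, hy⟩ : F)⁻¹ := rfl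
        rw [this, map_inv₀, ey]
    | mul y z _ _ ihy ihz =>
        obtain ⟨hy, ey⟩ := ihy
        obtain ⟨hz, ez⟩ := ihz
        refine ⟨mul_mem hy hz, ?_⟩
        have : (⟨y * z, mul_mem hy hz⟩ : F) = ⟨y, hy⟩ * ⟨z, hz⟩ := rfl
        rw [this, map_mul, ey, ez]
  obtain ⟨h, e⟩ := key x hx
  exact e

/-- **generic descent of an automorphism to the residue field** -/
theorem k7fd_lift_equiv {F Fk : Type*} [Field F] [Field Fk] (O : ValuationSubring F)
    (red : O →+* Fk) (hsurj : Function.Surjective red) (δ : F ≃+* F)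
    (h1 : ∀ x ∈ O, δ x ∈ O) (h2 : ∀ x ∈ O, δ.symm x ∈ O)
    (h3 : ∀ (x : F) (h : x ∈ O), red ⟨x, h⟩ = 0 → red ⟨δ x, h1 x h⟩ = 0)
    (h4 : ∀ (x : F) (h : x ∈ O), red ⟨x, h⟩ = 0 → red ⟨δ.symm x, h2 x h⟩ = 0) :
    ∃ δb : Fk ≃+* Fk, ∀ (x : F) (h : x ∈ O), δb (red ⟨x, h⟩) = red ⟨δ x, h1 x h⟩ := by
  let δO : O →+* O :=
    { toFun := fun x => ⟨δ x, h1 x x.2⟩
      map_one' := Subtype.ext (map_one δ)
      map_mul' := fun x y => Subtype.ext (map_mul δ x.1 y.1)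
      map_zero' := Subtype.ext (map_zero δ)
      map_add' := fun x y => Subtype.ext (map_add δ x.1 y.1) }
  let δO' : O →+* O :=
    { toFun := fun x => ⟨δ.symm x, h2 x x.2⟩
      map_one' := Subtype.ext (map_one δ.symm)
      map_mul' := fun x y => Subtype.ext (map_mul δ.symm x.1 y.1)
      map_zero' := Subtype.ext (map_zero δ.symm)
      map_add' := fun x y => Subtype.ext (map_add δ.symm x.1 y.1) }
  have hg : RingHom.ker red ≤ RingHom.ker (red.comp δO) := by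
    intro x hx
    rw [RingHom.mem_ker] at hx ⊢
    exact h3 x.1 x.2 hx
  have hg' : RingHom.ker red ≤ RingHom.ker (red.comp δO') := by
    intro x hx
    rw [RingHom.mem_ker] at hx ⊢
    exact h4 x.1 x.2 hx
  let f : Fk →+* Fk := red.liftOfSurjective hsurj ⟨red.comp δO, hg⟩
  let f' : Fk →+* Fk := red.liftOfSurjective hsurj ⟨red.comp δO', hg'⟩
  have hf : ∀ x : O, f (red x) = red (δO x) := fun x =>
    red.liftOfRightInverse_comp_apply _ _ ⟨red.comp δO, hg⟩ x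
  have hf' : ∀ x : O, f' (red x) = red (δO' x) := fun x =>
    red.liftOfRightInverse_comp_apply _ _ ⟨red.comp δO', hg'⟩ x
  have hff' : ∀ w, f (f' w) = w := by
    intro w
    obtain ⟨x, rfl⟩ := hsurj w
    rw [hf', hf]
    congr 1
    exact Subtype.ext (δ.apply_symm_apply x.1)
  have hf'f : ∀ w, f' (f w) = w := by
    intro w
    obtain ⟨x, rfl⟩ := hsurj w
    rw [hf, hf']
    congr 1
    exact Subtype.ext (δ.symm_apply_apply x.1)
  refine ⟨RingEquiv.ofRingHom f f' (RingHom.ext hff') (RingHom.ext hf'f), fun x h => ?_⟩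
  exact hf ⟨x, h⟩

/-! ## Diamonds -/

variable (A : ValuationSubring Kb) {p : ℕ} {L M : ℕ} {H : Subgroup (ZMod M)ˣ}

/-- a diamond fixes `F₀ = modularFunctionFieldBar L` pointwise -/
theorem k7fd_diam_fix {c : (ZMod M)ˣ} {δ : fieldBar L M H ≃ₐ[Kb] fieldBar L M H}
    (hδ : IsDiamondH L M H c δ) (x : fieldBar L M H)
    (hx : (x : LaurentSeries Kb) ∈ modularFunctionFieldBar L) : δ x = x := by
  rw [nf_bar_eq_fullC] at hx
  refine k7fd_fix_adjoin (divisorExpansionsC Kb L) (fieldBar L M H) ?_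
    (δ : fieldBar L M H →+* fieldBar L M H) (fun a => δ.commutes a) ?_ x hx
  · rintro _ ⟨d, hd0, hd, rfl⟩
    rw [SetLike.mem_coe, es1f_fieldBar_eq]
    exact jd_mem_fieldC Kb L M H hd
  · rintro y ⟨d, hd0, hd, hy⟩
    exact hδ.fix_j d hd y hy

/-- the inverse of the diamond `⟨c⟩` is the diamond `⟨c⁻¹⟩` -/
theorem k7fd_isDiamondH_symm {c : (ZMod M)ˣ} {δ : fieldBar L M H ≃ₐ[Kb] fieldBar L M H}
    (hδ : IsDiamondH L M H c δ) : IsDiamondH L M H c⁻¹ δ.symm where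
  fix_j := fun d _ hd x hx => by
    rw [AlgEquiv.symm_apply_eq]
    exact (hδ.fix_j d hd x hx).symm
  map_s := fun e _ a he x hx => by
    have hy : qExpand Kb e (sS Kb M H (a * c⁻¹)) ∈ fieldBar L M H := by
      rw [es1f_fieldBar_eq]
      exact qExpand_sS_mem Kb L M H he _
    have h1 := hδ.map_s e (a * c⁻¹) he ⟨_, hy⟩ rfl
    rw [inv_mul_cancel_right] at h1
    have h2 : δ ⟨_, hy⟩ = x := Subtype.ext (by rw [h1, hx])
    rw [← h2, AlgEquiv.symm_apply_apply]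

/-- `δ S_1 = S_c` -/
theorem k7fd_diam_S (hML : M ∣ L) {c : (ZMod M)ˣ}
    {δ : fieldBar L M H ≃ₐ[Kb] fieldBar L M H} (hδ : IsDiamondH L M H c δ) :
    δ ⟨sS Kb M H 1, k7fd_sS_mem_bar hML 1⟩ = ⟨sS Kb M H c, k7fd_sS_mem_bar hML c⟩ := by
  apply Subtype.ext
  have h := hδ.map_s 1 1 (by rwa [one_mul]) ⟨sS Kb M H 1, k7fd_sS_mem_bar hML 1⟩
    (qExpand_one_apply _).symm
  rw [h, qExpand_one_apply, one_mul]

/-- **`δ` on an integral series**: `D · δ(Y) = T` with `D ∈ F₀`, `T ∈ F_H` integral, `D̄ ≠ 0`,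
`Ȳ = 0 → T̄ = 0`. -/
theorem k7fd_diam_int (hA : A.LiesOverPrime p) (hlev : K7FLevel L M H p) {c : (ZMod M)ˣ}
    {δ : fieldBar L M H ≃ₐ[Kb] fieldBar L M H} (hδ : IsDiamondH L M H c δ)
    (Y : LaurentSeries A) (hY : kronIncl A Y ∈ fieldBar L M H) :
    ∃ D T : LaurentSeries A, kronIncl A D ∈ modularFunctionFieldBar L ∧ kronRed A D ≠ 0 ∧
      kronIncl A T ∈ fieldBar L M H ∧
      kronIncl A D * ((δ ⟨kronIncl A Y, hY⟩ : fieldBar L M H) : LaurentSeries Kb)
        = kronIncl A T ∧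
      (kronRed A Y = 0 → kronRed A T = 0) := by
  classical
  obtain ⟨m, a, ha⟩ := exists_isRepFam (k7fd_level_M_ne_zero hlev) H
  obtain ⟨n, X, D, C, hX, hD, hC, hD0, hrep, hzero⟩ := k7fd_rep_bar A hA H hlev a ha Y hY
  have hle := dlh_bar_le_fieldBar L M H
  have hML := hlev.hML
  set T : LaurentSeries A := ∑ j, C j * (X j.1 * sS A M H c ^ (j.2 : ℕ)) with hT
  have hinclT : kronIncl A T =
      ∑ j, kronIncl A (C j) * (kronIncl A (X j.1) * sS Kb M H c ^ (j.2 : ℕ)) := by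
    rw [hT, map_sum]
    refine Finset.sum_congr rfl fun j _ => ?_
    rw [map_mul, map_mul, map_pow, k7fd_incl_S]
  have hinclrep : kronIncl A D * kronIncl A Y =
      ∑ j, kronIncl A (C j) * (kronIncl A (X j.1) * sS Kb M H 1 ^ (j.2 : ℕ)) := by
    rw [← map_mul, hrep, map_sum]
    refine Finset.sum_congr rfl fun j _ => ?_
    rw [map_mul, map_mul, map_pow, k7fd_incl_S]
  refine ⟨D, T, hD, hD0, ?_, ?_, ?_⟩
  · rw [hinclT]
    refine sum_mem fun j _ => mul_mem (hle (hC j)) (mul_mem (hle (hX j.1)) ?_)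
    exact pow_mem (k7fd_sS_mem_bar hML c) _
  · -- the identity in `F_H`
    have hF : (⟨kronIncl A D, hle hD⟩ : fieldBar L M H) * ⟨kronIncl A Y, hY⟩ =
        ∑ j, (⟨kronIncl A (C j), hle (hC j)⟩ : fieldBar L M H) *
          (⟨kronIncl A (X j.1), hle (hX j.1)⟩ *
            (⟨sS Kb M H 1, k7fd_sS_mem_bar hML 1⟩ : fieldBar L M H) ^ (j.2 : ℕ)) := by
      apply Subtype.ext
      rw [k7fg_coe_sum]
      exact hinclrep
    have h2 := congrArg δ hF
    rw [map_mul, map_sum, k7fd_diam_fix hδ _ hD] at h2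
    have h3 : ∀ j : Fin n × Fin (m + 1),
        δ ((⟨kronIncl A (C j), hle (hC j)⟩ : fieldBar L M H) *
          (⟨kronIncl A (X j.1), hle (hX j.1)⟩ *
            (⟨sS Kb M H 1, k7fd_sS_mem_bar hML 1⟩ : fieldBar L M H) ^ (j.2 : ℕ))) =
        (⟨kronIncl A (C j), hle (hC j)⟩ : fieldBar L M H) *
          (⟨kronIncl A (X j.1), hle (hX j.1)⟩ *
            (⟨sS Kb M H c, k7fd_sS_mem_bar hML c⟩ : fieldBar L M H) ^ (j.2 : ℕ)) := by
      intro j
      rw [map_mul, map_mul, map_pow, k7fd_diam_fix hδ _ (hC j), k7fd_diam_fix hδ _ (hX j.1),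
        k7fd_diam_S hML hδ]
    rw [Finset.sum_congr rfl fun j _ => h3 j] at h2
    have h4 := congrArg (fun z : fieldBar L M H => (z : LaurentSeries Kb)) h2
    rw [k7fg_coe_sum] at h4
    rw [hinclT]
    exact h4
  · intro h0
    have hC0 := hzero h0
    rw [hT, map_sum]
    refine Finset.sum_eq_zero fun j _ => ?_
    rw [map_mul, hC0 j, zero_mul]

/-- `δ` of an integral series with nonzero reduction has nonzero reduction -/
theorem k7fd_diam_int_ne (hA : A.LiesOverPrime p) (hlev : K7FLevel L M H p) {c : (ZMod M)ˣ}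
    {δ : fieldBar L M H ≃ₐ[Kb] fieldBar L M H} (hδ : IsDiamondH L M H c δ)
    (Y : LaurentSeries A) (hY : kronIncl A Y ∈ fieldBar L M H) (hY0 : kronRed A Y ≠ 0)
    (D T : LaurentSeries A) (hD : kronIncl A D ∈ modularFunctionFieldBar L)
    (hD0 : kronRed A D ≠ 0) (hT : kronIncl A T ∈ fieldBar L M H)
    (hDT : kronIncl A D * ((δ ⟨kronIncl A Y, hY⟩ : fieldBar L M H) : LaurentSeries Kb)
        = kronIncl A T) : kronRed A T ≠ 0 := by
  intro hT0
  have hle := dlh_bar_le_fieldBar L M H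
  have hδs := k7fd_isDiamondH_symm hδ
  obtain ⟨D', T', hD', hD'0, -, hDT', hzero⟩ := k7fd_diam_int A hA hlev hδs T hT
  have hT'0 := hzero hT0
  -- `δ⁻¹ T = D · Y`
  have h1 : (⟨kronIncl A T, hT⟩ : fieldBar L M H) =
      ⟨kronIncl A D, hle hD⟩ * δ ⟨kronIncl A Y, hY⟩ := Subtype.ext hDT.symm
  have h2 : δ.symm ⟨kronIncl A T, hT⟩ =
      (⟨kronIncl A D, hle hD⟩ : fieldBar L M H) * ⟨kronIncl A Y, hY⟩ := by
    rw [h1, map_mul, AlgEquiv.symm_apply_apply, k7fd_diam_fix hδs _ hD]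
  rw [h2] at hDT'
  have h3 : kronIncl A (D' * (D * Y)) = kronIncl A T' := by
    rw [map_mul, map_mul]
    exact hDT'
  have h4 : D' * (D * Y) = T' := kronIncl_injective h3
  have h5 : kronRed A D' * (kronRed A D * kronRed A Y) = 0 := by
    rw [← map_mul, ← map_mul, h4, hT'0]
  exact mul_ne_zero hD'0 (mul_ne_zero hD0 hY0) h5

/-- **`δ` preserves Gauss reductions** -/
theorem k7fd_diam_rel (hA : A.LiesOverPrime p) (hlev : K7FLevel L M H p) {c : (ZMod M)ˣ}
    {δ : fieldBar L M H ≃ₐ[Kb] fieldBar L M H} (hδ : IsDiamondH L M H c δ)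
    {x : fieldBar L M H} {w : LaurentSeries (kA A)} (h : k7fgRel A (fieldBar L M H) x w) :
    ∃ w' : LaurentSeries (kA A), k7fgRel A (fieldBar L M H) (δ x) w' ∧ (w = 0 → w' = 0) := by
  have hle := dlh_bar_le_fieldBar L M H
  obtain ⟨Y₁, Y₂, hY₁m, hY₂m, hY₂, hx, hw⟩ := h
  obtain ⟨D₁, T₁, hD₁, hD₁0, hT₁, hDT₁, hz₁⟩ := k7fd_diam_int A hA hlev hδ Y₁ hY₁m
  obtain ⟨D₂, T₂, hD₂, hD₂0, hT₂, hDT₂, -⟩ := k7fd_diam_int A hA hlev hδ Y₂ hY₂m
  have hT₂0 := k7fd_diam_int_ne A hA hlev hδ Y₂ hY₂m hY₂ D₂ T₂ hD₂ hD₂0 hT₂ hDT₂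
  have hxF : x * ⟨kronIncl A Y₂, hY₂m⟩ = ⟨kronIncl A Y₁, hY₁m⟩ := Subtype.ext hx
  have hδx : ((δ x : fieldBar L M H) : LaurentSeries Kb) *
      ((δ ⟨kronIncl A Y₂, hY₂m⟩ : fieldBar L M H) : LaurentSeries Kb) =
      ((δ ⟨kronIncl A Y₁, hY₁m⟩ : fieldBar L M H) : LaurentSeries Kb) := by
    have := congrArg (fun z : fieldBar L M H => ((δ z : fieldBar L M H) : LaurentSeries Kb)) hxF
    simp only [map_mul] at this
    exact this
  have hden : kronRed A (T₂ * D₁) ≠ 0 := by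
    rw [map_mul]
    exact mul_ne_zero hT₂0 hD₁0
  refine ⟨kronRed A (T₁ * D₂) * (kronRed A (T₂ * D₁))⁻¹, ⟨T₁ * D₂, T₂ * D₁, ?_, ?_, hden, ?_, ?_⟩,
    ?_⟩
  · rw [map_mul]
    exact mul_mem hT₁ (hle hD₂)
  · rw [map_mul]
    exact mul_mem hT₂ (hle hD₁)
  · rw [map_mul, map_mul, ← hDT₁, ← hDT₂, ← hδx]
    ring
  · rw [mul_assoc, inv_mul_cancel₀ hden, mul_one]
  · intro hw0
    have hY₁0 : kronRed A Y₁ = 0 := by rw [← hw, hw0, zero_mul]
    rw [map_mul, hz₁ hY₁0, zero_mul, zero_mul]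

/-! ## The reduction of the diamond -/

/-- an integral series of `F_H` lies in the Gauss valuation ring -/
theorem k7fd_int_mem_O (Y : LaurentSeries A) (hY : kronIncl A Y ∈ fieldBar L M H) :
    (⟨kronIncl A Y, hY⟩ : fieldBar L M H) ∈ k7fO L M H A :=
  ⟨kronRed A Y, k7fgRel_of_int A (fieldBar L M H) Y hY⟩

/-- the reduction of an integral series -/
theorem k7fd_red_int (hRedF : K7fRedF L M H A) (Y : LaurentSeries A)
    (hY : kronIncl A Y ∈ fieldBar L M H)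
    (h : (⟨kronIncl A Y, hY⟩ : fieldBar L M H) ∈ k7fO L M H A) :
    ((k7fRed L M H A hRedF ⟨⟨kronIncl A Y, hY⟩, h⟩ : fieldC (kA A) L M H) :
      LaurentSeries (kA A)) = kronRed A Y := by
  obtain ⟨h', e⟩ := (k7fRed_iff L M H A hRedF _ _).mp (k7fgRel_of_int A (fieldBar L M H) Y hY)
  exact e

/-- **FL-DIAM**: the diamonds are Gauss-integral and reduce to automorphisms of `F̄_H`. -/
theorem k7fd_diamInt : StmtDiamInt := by
  intro L M H p hlev A hA c δ hδ
  have hRedF : K7fRedF L M H A := k7fd_redFH L M H p hlev A hA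
  have hδs := k7fd_isDiamondH_symm hδ
  have hsurj := k7f_red_surjective L M H A hRedF
  have hiff := k7fRed_iff L M H A hRedF
  have h1 : ∀ x ∈ k7fO L M H A, δ x ∈ k7fO L M H A := by
    rintro x ⟨w, hw⟩
    obtain ⟨w', hw', -⟩ := k7fd_diam_rel A hA hlev hδ hw
    exact ⟨w', hw'⟩
  have h2 : ∀ x ∈ k7fO L M H A, δ.symm x ∈ k7fO L M H A := by
    rintro x ⟨w, hw⟩
    obtain ⟨w', hw', -⟩ := k7fd_diam_rel A hA hlev hδs hw
    exact ⟨w', hw'⟩
  have h3 : ∀ (x : fieldBar L M H) (h : x ∈ k7fO L M H A),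
      k7fRed L M H A hRedF ⟨x, h⟩ = 0 → k7fRed L M H A hRedF ⟨δ x, h1 x h⟩ = 0 := by
    intro x h h0
    have hrel : k7fgRel A (fieldBar L M H) x 0 := (hiff x 0).mpr ⟨h, by rw [h0]; rfl⟩
    obtain ⟨w', hw', hz⟩ := k7fd_diam_rel A hA hlev hδ hrel
    rw [hz rfl] at hw'
    obtain ⟨h', e⟩ := (hiff _ _).mp hw'
    exact Subtype.ext e
  have h4 : ∀ (x : fieldBar L M H) (h : x ∈ k7fO L M H A),
      k7fRed L M H A hRedF ⟨x, h⟩ = 0 → k7fRed L M H A hRedF ⟨δ.symm x, h2 x h⟩ = 0 := by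
    intro x h h0
    have hrel : k7fgRel A (fieldBar L M H) x 0 := (hiff x 0).mpr ⟨h, by rw [h0]; rfl⟩
    obtain ⟨w', hw', hz⟩ := k7fd_diam_rel A hA hlev hδs hrel
    rw [hz rfl] at hw'
    obtain ⟨h', e⟩ := (hiff _ _).mp hw'
    exact Subtype.ext e
  obtain ⟨δr, hδr⟩ := k7fd_lift_equiv (k7fO L M H A) (k7fRed L M H A hRedF) hsurj
    δ.toRingEquiv h1 h2 h3 h4
  have hδr' : ∀ (x : fieldBar L M H) (h : x ∈ k7fO L M H A),
      δr (k7fRed L M H A hRedF ⟨x, h⟩) = k7fRed L M H A hRedF ⟨δ x, h1 x h⟩ := hδr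
  -- `k`-linearity
  have hk : ∀ a : kA A, δr (algebraMap (kA A) (fieldC (kA A) L M H) a) =
      algebraMap (kA A) (fieldC (kA A) L M H) a := by
    intro a
    obtain ⟨α, rfl⟩ := IsLocalRing.residue_surjective (R := A) a
    have hm : algebraMap Kb (fieldBar L M H) (α : Kb) ∈ k7fO L M H A :=
      (k7f_algebraMap_mem_iff L M H A _).mpr α.2
    rw [← k7f_red_algebraMap L M H A hRedF α hm, hδr' _ hm]
    congr 1
    exact Subtype.ext (δ.commutes _)
  refine ⟨AlgEquiv.ofRingEquiv (f := δr) hk, ?_, ?_, ?_⟩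
  · intro f hf
    show δr f = f
    refine k7fd_fix_adjoin (divisorExpansionsC (kA A) L) (fieldC (kA A) L M H) ?_
      (δr : fieldC (kA A) L M H →+* fieldC (kA A) L M H) hk ?_ f hf
    · rintro _ ⟨d, hd0, hd, rfl⟩
      exact jd_mem_fieldC (kA A) L M H hd
    · rintro y ⟨d, hd0, hd, hy⟩
      have hYm : kronIncl A (jqNModC A d) ∈ fieldBar L M H := by
        rw [k7f_incl_j, es1f_fieldBar_eq]
        exact jd_mem_fieldC Kb L M H hd
      have hO := k7fd_int_mem_O A (jqNModC A d) hYm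
      have hy' : y = k7fRed L M H A hRedF ⟨⟨kronIncl A (jqNModC A d), hYm⟩, hO⟩ :=
        Subtype.ext (by rw [k7fd_red_int, k7f_red_j, hy])
      show δr y = y
      rw [hy', hδr' _ hO]
      congr 1
      exact Subtype.ext (hδ.fix_j d hd _ (k7f_incl_j A d))
  · intro e _ he b
    show ((δr ⟨qExpand (kA A) e (sS (kA A) M H b), qExpand_sS_mem (kA A) L M H he b⟩ :
      fieldC (kA A) L M H) : LaurentSeries (kA A)) = _
    have hYm : kronIncl A (k7fS M H A e b) ∈ fieldBar L M H := by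
      rw [k7f_incl_S, es1f_fieldBar_eq]
      exact qExpand_sS_mem Kb L M H he b
    have hYm' : kronIncl A (k7fS M H A e (b * c)) ∈ fieldBar L M H := by
      rw [k7f_incl_S, es1f_fieldBar_eq]
      exact qExpand_sS_mem Kb L M H he (b * c)
    have hO := k7fd_int_mem_O A (k7fS M H A e b) hYm
    have hO' := k7fd_int_mem_O A (k7fS M H A e (b * c)) hYm'
    have hy : (⟨qExpand (kA A) e (sS (kA A) M H b), qExpand_sS_mem (kA A) L M H he b⟩ :
        fieldC (kA A) L M H) = k7fRed L M H A hRedF ⟨⟨kronIncl A (k7fS M H A e b), hYm⟩, hO⟩ :=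
      Subtype.ext (by rw [k7fd_red_int, k7f_red_S])
    have hδy : δ ⟨kronIncl A (k7fS M H A e b), hYm⟩ =
        ⟨kronIncl A (k7fS M H A e (b * c)), hYm'⟩ :=
      Subtype.ext ((hδ.map_s e b he _ (k7f_incl_S M H A e b)).trans
        (k7f_incl_S M H A e (b * c)).symm)
    have hred : k7fRed L M H A hRedF ⟨δ ⟨kronIncl A (k7fS M H A e b), hYm⟩, h1 _ hO⟩ =
        k7fRed L M H A hRedF ⟨⟨kronIncl A (k7fS M H A e (b * c)), hYm'⟩, hO'⟩ :=
      congrArg (k7fRed L M H A hRedF) (Subtype.ext hδy)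
    rw [hy, hδr' _ hO, hred, k7fd_red_int, k7f_red_S]
  · intro x w hw hrel
    obtain ⟨h, e⟩ := (hiff x w).mp hrel
    have hw' : (⟨w, hw⟩ : fieldC (kA A) L M H) = k7fRed L M H A hRedF ⟨x, h⟩ :=
      Subtype.ext e.symm
    show k7fgRel A (fieldBar L M H) (δ x) ((δr ⟨w, hw⟩ : fieldC (kA A) L M H) :
      LaurentSeries (kA A))
    rw [hw', hδr' x h]
    exact (hiff _ _).mpr ⟨h1 x h, rfl⟩

end Fermat.Agent.RT.K7F
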