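import Fermat.Agent.RT.K7F.Good
import Fermat.Agent.RT.K7F.ResSide

/-!
# RT-K7F / FL-GOOD, final form (with FL-RES: `F̄_H / k(j̄)` is finite)

* `k7fgood_hfin` : `[F̄_H : F̄₀] ≠ 0` (from `k7fres_finiteDimensional`, FL-RES);
* `k7fgood_ram_final` : **the field `ram` of `ModPRH`**, unconditional (any `R`, `t` with
  `red t = j̄`);
* `k7fgood_good_final` : **the field `good` of `ModPRH`** from the degree inequality
  `[F_H : F₀] ≤ [F̄_H : F̄₀]`;
* `k7fgood_good_ram_final` : both fields from FL-DIAM (`StmtDiamInt`), for a reduction package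
  whose reduction map is the Gauss reduction;
* `k7fgood_good_ram_k7f` : the same for `R.O = k7fO`, `R.red = k7fRed` in the form
  `hO : ∀ x, x ∈ R.O ↔ x ∈ k7fO L M H A`, `hred : R.red x = k7fRed ⟨x, _⟩`.
-/

set_option autoImplicit false
set_option synthInstance.maxHeartbeats 400000
set_option maxHeartbeats 1600000
set_option linter.style.haveILetI false
set_option linter.unusedSectionVars false

noncomputable section

namespace Fermat.Agent.RT.K7F

open AlgebraicCurve Module IntermediateField ModularCurve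
open Fermat.Agent.ES Fermat.Agent.ES.M Fermat.Agent.ES1 Fermat.Agent.W1 Fermat.Agent.S24
  Fermat.Agent.DEU

/-- `F̄_H / F̄₀` is finite, in every characteristic `p ∤ L` -/
theorem k7fgood_hfin (k : Type*) [Field k] (p : ℕ) [Fact p.Prime] [CharP k p] (L M : ℕ)
    (H : Subgroup (ZMod M)ˣ) (hL : L ≠ 0) (hLk : (L : k) ≠ 0) (hML : M ∣ L) :
    (modularFunctionFieldFullC k L).relfinrank (fieldC k L M H) ≠ 0 := by
  haveI : NeZero L := ⟨hL⟩
  haveI := k7fres_finiteDimensional k p L M H hL hML (k7fresJ k L M H) rfl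
  exact k7fgood_relfinrank_ne_zero_of_finite k L M H hLk (k7fresJ k L M H) rfl

section Final

variable (L M : ℕ) (H : Subgroup (ZMod M)ˣ) (p : ℕ) (A : ValuationSubring Kb)

/-- `F̄_H / F̄₀` is finite, at the levels of K7-FLAT -/
theorem k7fgood_hfin_level (hlev : K7FLevel L M H p) (hA : A.LiesOverPrime p) :
    (modularFunctionFieldFullC (kA A) L).relfinrank (fieldC (kA A) L M H) ≠ 0 := by
  have hL : L ≠ 0 := by have := hlev.hL; omega
  have hLk : ((L : ℕ) : kA A) ≠ 0 := redF_natCast_ne_zero L A p hlev.hp hlev.hpL hA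
  haveI : Fact p.Prime := ⟨hlev.hp⟩
  haveI : CharP (kA A) p := kron_charP_residueField hlev.hp hA
  exact k7fgood_hfin (kA A) p L M H hL hLk hlev.hML

/-- **FL-GOOD: the field `ram` of `ModPRH`** (unconditional). -/
theorem k7fgood_ram_final (hlev : K7FLevel L M H p) (hA : A.LiesOverPrime p)
    (R : PRData Kb ↥(fieldBar L M H) (kA A) ↥(fieldC (kA A) L M H) A)
    (t : ↥(fieldBar L M H))
    (hred : ∀ ht : t ∈ R.O,
      ((R.red ⟨t, ht⟩ : ↥(fieldC (kA A) L M H)) : LaurentSeries (kA A)) = jqModC (kA A)) :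
    ∀ ht : t ∈ R.O,
      {Q : Place (kA A) ↥(fieldC (kA A) L M H) |
        ¬ ∃ c : kA A, Q.ord (R.red ⟨t, ht⟩ - algebraMap _ _ c) = 1}.Finite :=
  k7fgood_ram L M H p A hlev hA R t hred (k7fgood_hfin_level L M H p A hlev hA)

/-- **FL-GOOD: the field `good` of `ModPRH`** from the degree inequality. -/
theorem k7fgood_good_final (hlev : K7FLevel L M H p) (hA : A.LiesOverPrime p)
    (R : PRData Kb ↥(fieldBar L M H) (kA A) ↥(fieldC (kA A) L M H) A) (hR : R.IsPR)
    (t : ↥(fieldBar L M H)) (htj : (t : LaurentSeries Kb) = jBar) (ht : t ∈ R.O)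
    (hred : ((R.red ⟨t, ht⟩ : ↥(fieldC (kA A) L M H)) : LaurentSeries (kA A)) = jqModC (kA A))
    (hdeg : (modularFunctionFieldBar L).relfinrank (fieldBar L M H) ≤
      (modularFunctionFieldFullC (kA A) L).relfinrank (fieldC (kA A) L M H)) :
    R.GoodFn t :=
  k7fgood_good L M H p A hlev hA R hR t htj ht hred hdeg

/-- the degree inequality from FL-DIAM -/
theorem k7fgood_deg_final (hDI : StmtDiamInt) (hlev : K7FLevel L M H p)
    (hA : A.LiesOverPrime p) :
    (modularFunctionFieldBar L).relfinrank (fieldBar L M H) ≤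
      (modularFunctionFieldFullC (kA A) L).relfinrank (fieldC (kA A) L M H) :=
  k7fgood_deg_of_diamInt L M H hDI p hlev A hA (k7fgood_hfin_level L M H p A hlev hA)

/-- **FL-GOOD, both fields**, from FL-DIAM, for a reduction package whose reduction map is the
Gauss reduction. -/
theorem k7fgood_good_ram_final (hDI : StmtDiamInt) (hlev : K7FLevel L M H p)
    (hA : A.LiesOverPrime p)
    (R : PRData Kb ↥(fieldBar L M H) (kA A) ↥(fieldC (kA A) L M H) A) (hR : R.IsPR)
    (hRrel : ∀ (x : ↥(fieldBar L M H)) (hx : x ∈ R.O), k7fgRel A (fieldBar L M H) x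
      ((R.red ⟨x, hx⟩ : ↥(fieldC (kA A) L M H)) : LaurentSeries (kA A)))
    (t : ↥(fieldBar L M H)) (htj : (t : LaurentSeries Kb) = jBar) (ht : t ∈ R.O) :
    R.GoodFn t ∧ ∀ ht : t ∈ R.O,
      {Q : Place (kA A) ↥(fieldC (kA A) L M H) |
        ¬ ∃ c : kA A, Q.ord (R.red ⟨t, ht⟩ - algebraMap _ _ c) = 1}.Finite :=
  k7fgood_good_ram L M H p A hDI hlev hA R hR hRrel t htj ht
    (k7fgood_hfin_level L M H p A hlev hA)

/-- **FL-GOOD, both fields, for the Gauss package** `R.O = k7fO`, `R.red = k7fRed`. -/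
theorem k7fgood_good_ram_k7f (hDI : StmtDiamInt) (hlev : K7FLevel L M H p)
    (hA : A.LiesOverPrime p) (hRedF : K7fRedF L M H A)
    (R : PRData Kb ↥(fieldBar L M H) (kA A) ↥(fieldC (kA A) L M H) A) (hR : R.IsPR)
    (hO : ∀ x : ↥(fieldBar L M H), x ∈ R.O ↔ x ∈ k7fO L M H A)
    (hred : ∀ (x : ↥(fieldBar L M H)) (hx : x ∈ R.O),
      R.red ⟨x, hx⟩ = k7fRed L M H A hRedF ⟨x, (hO x).mp hx⟩)
    (t : ↥(fieldBar L M H)) (htj : (t : LaurentSeries Kb) = jBar) :
    R.GoodFn t ∧ ∀ ht : t ∈ R.O,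
      {Q : Place (kA A) ↥(fieldC (kA A) L M H) |
        ¬ ∃ c : kA A, Q.ord (R.red ⟨t, ht⟩ - algebraMap _ _ c) = 1}.Finite := by
  refine k7fgood_good_ram_final L M H p A hDI hlev hA R hR (fun x hx => ?_) t htj
    ((hO t).mpr (k7fgood_mem_k7fO A L M H t htj))
  rw [hred x hx]
  exact (k7fRed_iff L M H A hRedF x _).mpr ⟨(hO x).mp hx, rfl⟩

end Final

end Fermat.Agent.RT.K7F
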