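import Fermat.Agent.RT.K7F.DiamAsc
import Fermat.Agent.RT.K7F.GoodFin

/-!
# RT-K7F / DEG — `[F_H : F₀] ≤ [F̄_H : F̄₀]` ("Igusa for `Γ_H`", degree form)

`A ⊂ ℚ̄` a valuation ring over `p`, `k = kA A`, `K7FLevel L M H p`, `S = S_{M,H,1}`,
`m + 1 = #((ℤ/M)ˣ/±H)`.

* `k7fgdeg_le_relfinrank_of_indep` (generic): `m + 1 ≤ [F : F₀]` if `F / F₀` is finite and
  `1, s, …, s^m` are linearly independent over `F₀`;
* `k7fgdeg_indep_bar` : `1, S, …, S^m` are linearly independent over `F₀` (characteristic `0`);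
* `k7fgdeg_lift` : every element of `F̄₀` is `Ȳ₁ / Ȳ₂` with `Y₁, Y₂ ∈ F₀ ∩ A((q))`;
* `k7fgdeg_indep_res` : **`1, S̄, …, S̄^m` are linearly independent over `F̄₀`** (from helper40's
  integral representation `k7fd_rep_bar`);
* `k7fgdeg_le` : **`[F_H : F₀] ≤ [F̄_H : F̄₀]`**;
* `k7fgdeg_good_ram`, `k7fgdeg_good_ram_k7f` : **FL-GOOD, both fields, unconditional**.
-/

set_option autoImplicit false
set_option synthInstance.maxHeartbeats 400000
set_option maxHeartbeats 1600000
set_option linter.style.haveILetI false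
set_option linter.unusedSectionVars false

noncomputable section

namespace Fermat.Agent.RT.K7F

open AlgebraicCurve Module IntermediateField ModularCurve Polynomial
open Fermat.Agent.ES Fermat.Agent.ES.M Fermat.Agent.ES1 Fermat.Agent.W1 Fermat.Agent.S24
  Fermat.Agent.DEU Fermat.Agent.INJ

/-! ## Generic -/

section Generic

variable {K Ω : Type*} [Field K] [Field Ω] [Algebra K Ω]

/-- a polynomial of degree `≤ m` as a sum of `m + 1` terms -/
theorem k7fgdeg_eval₂_eq_sum {F₀ : IntermediateField K Ω} (P : Polynomial F₀) (s : Ω) (m : ℕ)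
    (hP : P.natDegree ≤ m) :
    Polynomial.eval₂ (algebraMap F₀ Ω) s P =
      ∑ l : Fin (m + 1), ((P.coeff (l : ℕ) : F₀) : Ω) * s ^ (l : ℕ) := by
  rw [Polynomial.eval₂_eq_sum_range' (algebraMap F₀ Ω) (Nat.lt_succ_of_le hP) s,
    Finset.sum_range]
  rfl

/-- the powers `1, s, …, s^m` are linearly independent over `F₀` if the minimal polynomial of
`s` has degree `> m` -/
theorem k7fgdeg_indep_of_natDegree {F₀ : IntermediateField K Ω} (s : Ω) (m : ℕ)
    (_hint : IsIntegral F₀ s) (hdeg : m + 1 ≤ (minpoly F₀ s).natDegree)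
    (β : Fin (m + 1) → Ω) (hβ : ∀ l, β l ∈ F₀) (hrel : ∑ l, β l * s ^ (l : ℕ) = 0) :
    ∀ l, β l = 0 := by
  classical
  set P : Polynomial F₀ :=
    ∑ l : Fin (m + 1), Polynomial.C (⟨β l, hβ l⟩ : F₀) * Polynomial.X ^ (l : ℕ) with hP
  have hPdeg : P.natDegree ≤ m := by
    rw [hP]
    refine Polynomial.natDegree_sum_le_of_forall_le _ _ fun l _ => ?_
    refine (Polynomial.natDegree_C_mul_X_pow_le _ _).trans ?_
    exact Nat.lt_succ_iff.mp l.2
  have hPcoeff : ∀ l : Fin (m + 1), P.coeff (l : ℕ) = ⟨β l, hβ l⟩ := by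
    intro l
    rw [hP, Polynomial.finsetSum_coeff]
    rw [Finset.sum_eq_single l]
    · rw [Polynomial.coeff_C_mul_X_pow, if_pos rfl]
    · intro l' _ hne
      rw [Polynomial.coeff_C_mul_X_pow, if_neg]
      intro h
      exact hne (Fin.ext h.symm)
    · intro h
      exact absurd (Finset.mem_univ l) h
  have hroot : Polynomial.aeval s P = 0 := by
    rw [Polynomial.aeval_def, k7fgdeg_eval₂_eq_sum P s m hPdeg, ← hrel]
    refine Finset.sum_congr rfl fun l _ => ?_
    rw [hPcoeff l]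
  have hP0 : P = 0 := by
    by_contra hne
    have h1 := minpoly.degree_le_of_ne_zero F₀ s hne hroot
    have h2 := Polynomial.natDegree_le_natDegree h1
    omega
  intro l
  have h2 := hPcoeff l
  rw [hP0, Polynomial.coeff_zero] at h2
  exact (congrArg Subtype.val h2).symm

/-- `m + 1 ≤ [F : F₀]` if `F / F₀` is finite and the powers `1, s, …, s^m` of an element
`s ∈ F` are linearly independent over `F₀` -/
theorem k7fgdeg_le_relfinrank_of_indep {F₀ F : IntermediateField K Ω} (hle : F₀ ≤ F)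
    (hfin : F₀.relfinrank F ≠ 0) (s : Ω) (hs : s ∈ F) (m : ℕ)
    (hind : ∀ β : Fin (m + 1) → Ω, (∀ l, β l ∈ F₀) → ∑ l, β l * s ^ (l : ℕ) = 0 →
      ∀ l, β l = 0) :
    m + 1 ≤ F₀.relfinrank F := by
  classical
  have hF₀G : F₀ ≤ (F₀⟮s⟯).restrictScalars K := by
    intro x hx
    show x ∈ F₀⟮s⟯
    exact IntermediateField.algebraMap_mem F₀⟮s⟯ (⟨x, hx⟩ : F₀)
  have hGF : (F₀⟮s⟯).restrictScalars K ≤ F := by
    rw [IntermediateField.restrictScalars_adjoin, IntermediateField.adjoin_le_iff]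
    rintro x (hx | hx)
    · exact hle hx
    · rw [Set.mem_singleton_iff] at hx
      rw [hx]; exact hs
  have hmul := IntermediateField.relfinrank_mul_relfinrank hF₀G hGF
  have hG0 : F₀.relfinrank ((F₀⟮s⟯).restrictScalars K) ≠ 0 :=
    fun h0 => hfin (by rw [← hmul, h0, zero_mul])
  have hext : IntermediateField.extendScalars hF₀G = F₀⟮s⟯ := by
    apply IntermediateField.restrictScalars_injective K
    rw [IntermediateField.extendScalars_restrictScalars]
  have hfr : F₀.relfinrank ((F₀⟮s⟯).restrictScalars K) = Module.finrank F₀ F₀⟮s⟯ := by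
    rw [IntermediateField.relfinrank_eq_finrank_of_le hF₀G, hext]
  have hint : IsIntegral F₀ s := by
    haveI : FiniteDimensional F₀ F₀⟮s⟯ :=
      FiniteDimensional.of_finrank_pos (by rw [← hfr]; exact Nat.pos_of_ne_zero hG0)
    have h1 : IsIntegral F₀ (⟨s, mem_adjoin_simple_self F₀ s⟩ : F₀⟮s⟯) :=
      IsIntegral.of_finite F₀ _
    exact h1.map (F₀⟮s⟯).val
  have hle1 : F₀.relfinrank ((F₀⟮s⟯).restrictScalars K) ≤ F₀.relfinrank F :=
    Nat.le_of_dvd (Nat.pos_of_ne_zero hfin) ⟨_, hmul.symm⟩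
  refine le_trans ?_ hle1
  rw [hfr, IntermediateField.adjoin.finrank hint]
  by_contra hlt
  rw [not_le] at hlt
  have hPdeg : (minpoly F₀ s).natDegree ≤ m := Nat.lt_succ_iff.mp hlt
  have h1 := hind (fun l => (((minpoly F₀ s).coeff (l : ℕ) : F₀) : Ω)) (fun l => Subtype.coe_prop _)
    (by
      rw [← k7fgdeg_eval₂_eq_sum (minpoly F₀ s) s m hPdeg]
      exact minpoly.aeval F₀ s)
  have h2 : minpoly F₀ s = 0 := by
    refine Polynomial.ext fun i => ?_
    rw [Polynomial.coeff_zero]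
    by_cases hi : i < m + 1
    · exact Subtype.ext (h1 ⟨i, hi⟩)
    · exact Polynomial.coeff_eq_zero_of_natDegree_lt (by omega)
  exact minpoly.ne_zero hint h2

/-- the degree of the minimal polynomial of a generator -/
theorem k7fgdeg_natDegree_of_gen {F₀ F : IntermediateField K Ω} (hle : F₀ ≤ F) (s : Ω)
    (hs : s ∈ F) (hgen : F ≤ IntermediateField.adjoin K ((F₀ : Set Ω) ∪ {s}))
    (hint : IsIntegral F₀ s) :
    (minpoly F₀ s).natDegree = F₀.relfinrank F := by
  have hFeq : F = (F₀⟮s⟯).restrictScalars K := by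
    rw [IntermediateField.restrictScalars_adjoin]
    refine le_antisymm hgen ?_
    rw [IntermediateField.adjoin_le_iff]
    rintro x (hx | hx)
    · exact hle hx
    · rw [Set.mem_singleton_iff] at hx
      rw [hx]; exact hs
  have hext : IntermediateField.extendScalars hle = F₀⟮s⟯ := by
    apply IntermediateField.restrictScalars_injective K
    rw [IntermediateField.extendScalars_restrictScalars]
    exact hFeq
  rw [IntermediateField.relfinrank_eq_finrank_of_le hle, hext,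
    IntermediateField.adjoin.finrank hint]

end Generic

/-! ## Characteristic `0` -/

section Bar

variable (L M : ℕ) (H : Subgroup (ZMod M)ˣ)

/-- `1, S, …, S^m` are linearly independent over `F₀` (over `ℚ̄`) -/
theorem k7fgdeg_indep_bar {m : ℕ} (a : Fin (m + 1) → (ZMod M)ˣ) (hL : L ≠ 0) (hML : M ∣ L)
    (ha : IsRepFam H a) (β : Fin (m + 1) → LaurentSeries Kb)
    (hβ : ∀ l, β l ∈ modularFunctionFieldBar L)
    (hrel : ∑ l, β l * sS Kb M H 1 ^ (l : ℕ) = 0) : ∀ l, β l = 0 := by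
  haveI : Algebra.IsAlgebraic ℚ NfQb := by
    have h := AlgebraicClosure.isAlgebraic ℚ
    convert h
    · rfl
    · exact Subsingleton.elim _ _
  obtain ⟨hgen, ⟨P, hPm, hPd, hPr⟩, -⟩ := stmtDiamondH NfQb L M H a hL hML ha
  have hint : IsIntegral (modularFunctionFieldFullC NfQb L) (sS NfQb M H 1) := ⟨P, hPm, hPr⟩
  have h1 : (1 : ℕ) * M ∣ L := by rwa [one_mul]
  have hmem : sS NfQb M H 1 ∈ fieldC NfQb L M H := by
    have := qExpand_sS_mem NfQb L M H (e := 1) h1 1
    rwa [qExpand_one_apply] at this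
  have hdeg := k7fgdeg_natDegree_of_gen (full_le_fieldC NfQb L M H) _ hmem hgen hint
  rw [es1cu_relfinrank stmtDiamondH NfQb L M H a hL hML ha] at hdeg
  refine k7fgdeg_indep_of_natDegree (sS NfQb M H 1) m hint hdeg.ge β (fun l => ?_) hrel
  have := hβ l
  rwa [nf_bar_eq_fullC] at this

end Bar

/-! ## The residue side -/

section Res

variable (A : ValuationSubring Kb)

/-- every element of `F̄₀` is a quotient of reductions of integral series of `F₀` -/
theorem k7fgdeg_lift (L : ℕ) (β : LaurentSeries (kA A))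
    (hβ : β ∈ modularFunctionFieldFullC (kA A) L) :
    ∃ Y₁ Y₂ : LaurentSeries A, kronIncl A Y₁ ∈ modularFunctionFieldBar L ∧
      kronIncl A Y₂ ∈ modularFunctionFieldBar L ∧ kronRed A Y₂ ≠ 0 ∧
        β * kronRed A Y₂ = kronRed A Y₁ := by
  have hG : ∀ w ∈ divisorExpansionsC (kA A) L,
      ∃ x : ↥(modularFunctionFieldBar L), k7fgRel A (modularFunctionFieldBar L) x w := by
    rintro w ⟨d, hd0, hd, rfl⟩
    have hmem : kronIncl A (jqNModC A d) ∈ modularFunctionFieldBar L := by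
      rw [k7f_incl_j, nf_bar_eq_fullC]
      exact jqModCd_mem_full NfQb L hd
    refine ⟨⟨_, hmem⟩, ?_⟩
    have := k7fgRel_of_int A (modularFunctionFieldBar L) (jqNModC A d) hmem
    rwa [k7f_red_j] at this
  obtain ⟨x, Y₁, Y₂, h1, h2, h3, -, h5⟩ := k7fg_exists_rel A (modularFunctionFieldBar L)
    (divisorExpansionsC (kA A) L) hG β hβ
  exact ⟨Y₁, Y₂, h1, h2, h3, h5⟩

/-- **`1, S̄, …, S̄^m` are linearly independent over `F̄₀`.** -/
theorem k7fgdeg_indep_res {p : ℕ} (hA : A.LiesOverPrime p) {L M : ℕ}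
    (H : Subgroup (ZMod M)ˣ) (hlev : K7FLevel L M H p)
    {m : ℕ} (a : Fin (m + 1) → (ZMod M)ˣ) (ha : IsRepFam H a)
    (β : Fin (m + 1) → LaurentSeries (kA A))
    (hβ : ∀ l, β l ∈ modularFunctionFieldFullC (kA A) L)
    (hrel : ∑ l, β l * sS (kA A) M H 1 ^ (l : ℕ) = 0) : ∀ l, β l = 0 := by
  classical
  have hL : L ≠ 0 := by have := hlev.hL; omega
  have hML := hlev.hML
  -- lift the coefficients
  choose Y₁ Y₂ hY₁ hY₂ hY₂0 hβY using fun l => k7fgdeg_lift A L (β l) (hβ l)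
  set d : LaurentSeries A := ∏ l, Y₂ l with hd
  set b : Fin (m + 1) → LaurentSeries A :=
    fun l => Y₁ l * ∏ l' ∈ Finset.univ.erase l, Y₂ l' with hbdef
  have hb : ∀ l, kronRed A (b l) = β l * kronRed A d := by
    intro l
    rw [hbdef, hd]
    show kronRed A (Y₁ l * ∏ l' ∈ Finset.univ.erase l, Y₂ l') = _
    rw [map_mul, ← hβY l, mul_assoc, ← map_mul,
      Finset.mul_prod_erase _ _ (Finset.mem_univ l)]
  have hd0 : kronRed A d ≠ 0 := by
    rw [hd, map_prod]
    exact Finset.prod_ne_zero_iff.mpr fun l _ => hY₂0 l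
  have hbmem : ∀ l, kronIncl A (b l) ∈ modularFunctionFieldBar L := by
    intro l
    rw [hbdef]
    show kronIncl A (Y₁ l * ∏ l' ∈ Finset.univ.erase l, Y₂ l') ∈ _
    rw [map_mul, map_prod]
    exact mul_mem (hY₁ l) (prod_mem fun l' _ => hY₂ l')
  -- the series `S`
  have hSincl : kronIncl A (sS A M H 1) = sS Kb M H 1 := es1f_coeffMap_sS _ M H 1
  have hSred : kronRed A (sS A M H 1) = sS (kA A) M H 1 := es1f_coeffMap_sS _ M H 1
  have h1M : (1 : ℕ) * M ∣ L := by rwa [one_mul]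
  have hSmem : sS Kb M H 1 ∈ fieldBar L M H := by
    rw [es1f_fieldBar_eq]
    have := qExpand_sS_mem Kb L M H (e := 1) h1M 1
    rwa [qExpand_one_apply] at this
  -- the integral series `Y = Σ b_l S^l`, with reduction `0`
  set Y : LaurentSeries A := ∑ l, b l * sS A M H 1 ^ (l : ℕ) with hY
  have hYmem : kronIncl A Y ∈ fieldBar L M H := by
    rw [hY, map_sum]
    refine sum_mem fun l _ => ?_
    rw [map_mul, map_pow, hSincl]
    exact mul_mem (dlh_bar_le_fieldBar L M H (hbmem l)) (pow_mem hSmem _)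
  have hYred : kronRed A Y = 0 := by
    rw [hY, map_sum]
    have h2 : ∀ l : Fin (m + 1), kronRed A (b l * sS A M H 1 ^ (l : ℕ)) =
        kronRed A d * (β l * sS (kA A) M H 1 ^ (l : ℕ)) := by
      intro l
      rw [map_mul, map_pow, hSred, hb l]
      ring
    rw [Finset.sum_congr rfl fun l _ => h2 l, ← Finset.mul_sum, hrel, mul_zero]
  obtain ⟨n, X, D, C, hX, hD, hC, hD0, hrepr, hzero⟩ := k7fd_rep_bar A hA H hlev a ha Y hYmem
  have hC0 := hzero hYred
  -- compare the coefficients of `S^l`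
  have hsum : ∑ l : Fin (m + 1), (D * b l - ∑ i, C (i, l) * X i) * sS A M H 1 ^ (l : ℕ)
      = 0 := by
    have e1 : D * Y = ∑ l : Fin (m + 1), (D * b l) * sS A M H 1 ^ (l : ℕ) := by
      rw [hY, Finset.mul_sum]
      refine Finset.sum_congr rfl fun l _ => ?_
      ring
    have e2 : ∑ j : Fin n × Fin (m + 1), C j * (X j.1 * sS A M H 1 ^ (j.2 : ℕ)) =
        ∑ l : Fin (m + 1), (∑ i, C (i, l) * X i) * sS A M H 1 ^ (l : ℕ) := by
      rw [Fintype.sum_prod_type_right]
      refine Finset.sum_congr rfl fun l _ => ?_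
      rw [Finset.sum_mul]
      refine Finset.sum_congr rfl fun i _ => ?_
      ring
    simp only [sub_mul, Finset.sum_sub_distrib]
    rw [← e1, hrepr, e2, sub_self]
  have hsum' : ∑ l : Fin (m + 1),
      kronIncl A (D * b l - ∑ i, C (i, l) * X i) * sS Kb M H 1 ^ (l : ℕ) = 0 := by
    have h3 := congrArg (kronIncl A) hsum
    rw [map_sum, map_zero] at h3
    rw [← h3]
    refine Finset.sum_congr rfl fun l _ => ?_
    rw [map_mul, map_pow, hSincl]
  have hcmem : ∀ l : Fin (m + 1),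
      kronIncl A (D * b l - ∑ i, C (i, l) * X i) ∈ modularFunctionFieldBar L := by
    intro l
    rw [map_sub, map_mul, map_sum]
    refine sub_mem (mul_mem hD (hbmem l)) (sum_mem fun i _ => ?_)
    rw [map_mul]
    exact mul_mem (hC (i, l)) (hX i)
  have hzero' := k7fgdeg_indep_bar L M H a hL hML ha _ hcmem hsum'
  have hcoef : ∀ l : Fin (m + 1), D * b l = ∑ i, C (i, l) * X i := by
    intro l
    have h4 : kronIncl A (D * b l - ∑ i, C (i, l) * X i) = kronIncl A 0 := by
      rw [hzero' l, map_zero]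
    exact sub_eq_zero.mp (kronIncl_injective h4)
  intro l
  have h5 := congrArg (kronRed A) (hcoef l)
  rw [map_mul, map_sum] at h5
  have h6 : ∑ i, kronRed A (C (i, l) * X i) = 0 := by
    refine Finset.sum_eq_zero fun i _ => ?_
    rw [map_mul, hC0 (i, l), zero_mul]
  rw [h6] at h5
  have h7 : kronRed A (b l) = 0 := (mul_eq_zero.mp h5).resolve_left hD0
  rw [hb l] at h7
  exact (mul_eq_zero.mp h7).resolve_right hd0

end Res

/-! ## The degree and FL-GOOD -/

section Final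

variable (L M : ℕ) (H : Subgroup (ZMod M)ˣ) (p : ℕ) (A : ValuationSubring Kb)

/-- **`#((ℤ/M)ˣ/±H) ≤ [F̄_H : F̄₀]`** -/
theorem k7fgdeg_card_le (hlev : K7FLevel L M H p) (hA : A.LiesOverPrime p)
    {m : ℕ} (a : Fin (m + 1) → (ZMod M)ˣ) (ha : IsRepFam H a) :
    m + 1 ≤ (modularFunctionFieldFullC (kA A) L).relfinrank (fieldC (kA A) L M H) := by
  have h1M : (1 : ℕ) * M ∣ L := by rw [one_mul]; exact hlev.hML
  have hmem : sS (kA A) M H 1 ∈ fieldC (kA A) L M H := by
    have := qExpand_sS_mem (kA A) L M H (e := 1) h1M 1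
    rwa [qExpand_one_apply] at this
  exact k7fgdeg_le_relfinrank_of_indep (full_le_fieldC (kA A) L M H)
    (k7fgood_hfin_level L M H p A hlev hA) (sS (kA A) M H 1) hmem m
    (fun β hβ hrel => k7fgdeg_indep_res A hA H hlev a ha β hβ hrel)

/-- **DEG: `[F_H : F₀] ≤ [F̄_H : F̄₀]`** -/
theorem k7fgdeg_le (hlev : K7FLevel L M H p) (hA : A.LiesOverPrime p) :
    (modularFunctionFieldBar L).relfinrank (fieldBar L M H) ≤
      (modularFunctionFieldFullC (kA A) L).relfinrank (fieldC (kA A) L M H) := by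
  have hL : L ≠ 0 := by have := hlev.hL; omega
  have hML := hlev.hML
  have hM0 : M ≠ 0 := fun h => hL (by rw [h] at hML; exact Nat.eq_zero_of_zero_dvd hML)
  obtain ⟨m, a, ha⟩ := exists_isRepFam hM0 H
  rw [k7fgood_relfinrank_bar_eq L M H a hL hML ha]
  exact k7fgdeg_card_le L M H p A hlev hA a ha

/-- **FL-GOOD, the field `good` of `ModPRH`, unconditional.** -/
theorem k7fgdeg_good (hlev : K7FLevel L M H p) (hA : A.LiesOverPrime p)
    (R : PRData Kb ↥(fieldBar L M H) (kA A) ↥(fieldC (kA A) L M H) A) (hR : R.IsPR)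
    (t : ↥(fieldBar L M H)) (htj : (t : LaurentSeries Kb) = jBar) (ht : t ∈ R.O)
    (hred : ((R.red ⟨t, ht⟩ : ↥(fieldC (kA A) L M H)) : LaurentSeries (kA A)) = jqModC (kA A)) :
    R.GoodFn t :=
  k7fgood_good L M H p A hlev hA R hR t htj ht hred (k7fgdeg_le L M H p A hlev hA)

/-- **FL-GOOD, both fields, unconditional**, for a reduction package whose reduction map is
the Gauss reduction. -/
theorem k7fgdeg_good_ram (hlev : K7FLevel L M H p) (hA : A.LiesOverPrime p)
    (R : PRData Kb ↥(fieldBar L M H) (kA A) ↥(fieldC (kA A) L M H) A) (hR : R.IsPR)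
    (hRrel : ∀ (x : ↥(fieldBar L M H)) (hx : x ∈ R.O), k7fgRel A (fieldBar L M H) x
      ((R.red ⟨x, hx⟩ : ↥(fieldC (kA A) L M H)) : LaurentSeries (kA A)))
    (t : ↥(fieldBar L M H)) (htj : (t : LaurentSeries Kb) = jBar) (ht : t ∈ R.O) :
    R.GoodFn t ∧ ∀ ht : t ∈ R.O,
      {Q : Place (kA A) ↥(fieldC (kA A) L M H) |
        ¬ ∃ c : kA A, Q.ord (R.red ⟨t, ht⟩ - algebraMap _ _ c) = 1}.Finite :=
  ⟨k7fgdeg_good L M H p A hlev hA R hR t htj ht
      (k7fgood_red_of_rel A L M H R hRrel t htj ht),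
    k7fgood_ram_final L M H p A hlev hA R t
      (fun ht' => k7fgood_red_of_rel A L M H R hRrel t htj ht')⟩

/-- **FL-GOOD, both fields, unconditional, for the Gauss package** `R.O = k7fO`,
`R.red = k7fRed`. -/
theorem k7fgdeg_good_ram_k7f (hlev : K7FLevel L M H p) (hA : A.LiesOverPrime p)
    (hRedF : K7fRedF L M H A)
    (R : PRData Kb ↥(fieldBar L M H) (kA A) ↥(fieldC (kA A) L M H) A) (hR : R.IsPR)
    (hO : ∀ x : ↥(fieldBar L M H), x ∈ R.O ↔ x ∈ k7fO L M H A)
    (hred : ∀ (x : ↥(fieldBar L M H)) (hx : x ∈ R.O),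
      R.red ⟨x, hx⟩ = k7fRed L M H A hRedF ⟨x, (hO x).mp hx⟩)
    (t : ↥(fieldBar L M H)) (htj : (t : LaurentSeries Kb) = jBar) :
    R.GoodFn t ∧ ∀ ht : t ∈ R.O,
      {Q : Place (kA A) ↥(fieldC (kA A) L M H) |
        ¬ ∃ c : kA A, Q.ord (R.red ⟨t, ht⟩ - algebraMap _ _ c) = 1}.Finite := by
  refine k7fgdeg_good_ram L M H p A hlev hA R hR (fun x hx => ?_) t htj
    ((hO t).mpr (k7fgood_mem_k7fO A L M H t htj))
  rw [hred x hx]
  exact (k7fRed_iff L M H A hRedF x _).mpr ⟨(hO x).mp hx, rfl⟩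

end Final

end Fermat.Agent.RT.K7F
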