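import Fermat.Agent.RT.K7F.Eq
import Fermat.Agent.RT.K7F.Plan
import Fermat.Agent.ES1.Formal

/-!
# RT-K7F, piece FL-EQ: equivariance of the reduction of places of `X_H(L; M)`

`F_H = ES1.fieldBar L M H`, `F̄_H = ES1.fieldC k L M H` (`k = kA A`),
`R = k7fgData A F_H F̄_H hprim hRedF` (helper65's constant reduction), `r` a reduction of places
which is canonical in large degree (`hleast`; e.g. `r = Hy.r` for `Hy : DEU.Hyp R Pinf Qinf g n₀`).

* `k7feq_stable_fieldC` : `F̄_H` is stable under the coefficientwise action of `Aut k`;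
* `k7feqSigma L M H A σ hσ : SemilinearAut k F̄_H` : the action of `σ̄`, `σ` in the decomposition
  group of `A`; `k7feqFrobH` the coefficientwise Frobenius;
* `k7feqH_gaussRedH_smul` : `GaussRedH x w → GaussRedH (σ x) (σ̄ w)`;
* `k7feqH_r_decomposition`, `k7feqH_r_inertia`, `k7feqH_r_frobenius` : `r (σ P) = σ̄ (r P)`;
* `k7feqH_r_diamond` : `r (δ P) = δ̄ (r P)` for a diamond `δ` whose reduction is `δ̄` (clause 3 of
  `StmtDiamInt`);
* `k7feqH_decomp`, `k7feqH_inertia`, `k7feqH_diam` : **the three fields `decomp`, `inertia`,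
  `diam` of `ModPRH`** for any `R' : PRData` with `R'.r = r`; `k7feqH_*_hyp` for `r = Hy.r`;
* `k7feqH_J1_galois`, `k7feqH_J1_diamond`, `k7feqH_J1_tw` : the kernel of reduction `R'.J1` is
  stable under the decomposition group, the diamonds, and the twisted action.
-/

set_option autoImplicit false
set_option linter.unusedSectionVars false
set_option synthInstance.maxHeartbeats 400000
set_option maxHeartbeats 1600000

noncomputable section

namespace Fermat.Agent.RT.K7F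

open ModularCurve AlgebraicCurve HahnSeries Module Fermat.Agent.ES Fermat.Agent.S24
  Fermat.Agent.ES.M Fermat.Agent.ES.R Fermat.Agent.PR Fermat.Agent.DEU Fermat.Agent.INJ
  Fermat.Agent.ES1 Fermat.Agent.ES1.G2 Fermat.Agent.W1

variable (L M : ℕ) (H : Subgroup (ZMod M)ˣ)

/-! ## 1. The coefficientwise action on `F̄_H` -/

/-- `F̄_H` is stable under the coefficientwise action of the automorphisms of `k` -/
theorem k7feq_stable_fieldC (k : Type*) [Field k] : K7feqStable (fieldC k L M H) :=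
  fun τ _ hx => es1f_coeffMap_mem_fieldC (τ : k →+* k) L M H hx

variable (A : ValuationSubring Kb)

/-- **`σ̄`**: the semilinear automorphism of `F̄_H` induced by `σ` in the decomposition group -/
def k7feqSigma (σ : Kb ≃ₐ[ℚ] Kb) (hσ : σ ∈ A.decompositionSubgroup ℚ) :
    SemilinearAut (kA A) ↥(fieldC (kA A) L M H) :=
  k7feqSemilinear (k7feq_stable_fieldC L M H (kA A)) (prResAut σ hσ)

theorem coe_k7feqSigma_smul (σ : Kb ≃ₐ[ℚ] Kb) (hσ : σ ∈ A.decompositionSubgroup ℚ)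
    (y : fieldC (kA A) L M H) :
    ((k7feqSigma L M H A σ hσ • y : fieldC (kA A) L M H) : LaurentSeries (kA A))
      = coeffMap ((prResAut σ hσ : _ ≃+* _) : _ →+* _) (y : LaurentSeries (kA A)) := rfl

theorem k7feqSigma_inertia (σ : Kb ≃ₐ[ℚ] Kb) (hσ : σ ∈ A.inertiaSubgroupIn ℚ) :
    k7feqSigma L M H A σ (kron_mem_decomposition_of_mem_inertia hσ) = 1 :=
  k7feqSemilinear_inertia A (k7feq_stable_fieldC L M H (kA A)) σ hσ

/-- **`Fr`**: the coefficientwise Frobenius of `F̄_H` -/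
def k7feqFrobH {ℓ : ℕ} (hℓ : ℓ.Prime) (hA : A.LiesOverPrime ℓ) :
    SemilinearAut (kA A) ↥(fieldC (kA A) L M H) :=
  k7feqFrobA A (k7feq_stable_fieldC L M H (kA A)) hℓ hA

theorem k7feqFrobH_smul_coeff {ℓ : ℕ} (hℓ : ℓ.Prime) (hA : A.LiesOverPrime ℓ)
    (y : fieldC (kA A) L M H) (n : ℤ) :
    ((k7feqFrobH L M H A hℓ hA • y : fieldC (kA A) L M H) : LaurentSeries (kA A)).coeff n
      = (y : LaurentSeries (kA A)).coeff n ^ ℓ := rfl

theorem k7feqFrobH_eq_sigma {ℓ : ℕ} (hℓ : ℓ.Prime) (hA : A.LiesOverPrime ℓ)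
    (φ : Kb ≃ₐ[ℚ] Kb) (hφ : A.IsFrobeniusAt φ ℓ) :
    k7feqFrobH L M H A hℓ hA = k7feqSigma L M H A φ hφ.mem_decompositionSubgroup :=
  k7feqFrobA_eq_semilinear A (k7feq_stable_fieldC L M H (kA A)) hℓ hA φ hφ

/-! ## 2. The Gauss relation of `F_H` -/

/-- `GaussRedH` (Plan.lean) is helper65's generic `k7fgRel` at `F_H` -/
theorem k7feq_gaussRedH_iff (x : fieldBar L M H) (w : LaurentSeries (kA A)) :
    GaussRedH L M H A x w ↔ k7fgRel A (fieldBar L M H) x w := Iff.rfl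

theorem k7feq_gaussIntH_iff (x : fieldBar L M H) :
    GaussIntH L M H A x ↔ k7fgInt A (fieldBar L M H) x := Iff.rfl

/-- `x ≡ w ⇒ σ x ≡ σ̄ w` for `σ` in the decomposition group -/
theorem k7feqH_gaussRedH_smul (σ : Kb ≃ₐ[ℚ] Kb) (hσ : σ ∈ A.decompositionSubgroup ℚ)
    {x : fieldBar L M H} {w : LaurentSeries (kA A)} (h : GaussRedH L M H A x w) :
    GaussRedH L M H A (arithmeticGalois (fieldQ L M H) σ • x)
      (coeffMap ((prResAut σ hσ : _ ≃+* _) : _ →+* _) w) :=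
  k7feq_rel_smul A (fieldQ L M H) σ hσ h

theorem k7feqH_gaussRedH_inertia (σ : Kb ≃ₐ[ℚ] Kb) (hσ : σ ∈ A.inertiaSubgroupIn ℚ)
    {x : fieldBar L M H} {w : LaurentSeries (kA A)} (h : GaussRedH L M H A x w) :
    GaussRedH L M H A (arithmeticGalois (fieldQ L M H) σ • x) w :=
  k7feq_rel_inertia A (fieldQ L M H) σ hσ h

theorem k7feqH_gaussIntH_smul_iff (σ : Kb ≃ₐ[ℚ] Kb) (hσ : σ ∈ A.decompositionSubgroup ℚ)
    (x : fieldBar L M H) :
    GaussIntH L M H A x ↔ GaussIntH L M H A (arithmeticGalois (fieldQ L M H) σ • x) :=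
  k7feq_int_smul_iff A (fieldQ L M H) σ hσ x

/-! ## 3. Diamonds -/

variable {L M H}

/-- the inverse of the diamond `⟨c⟩` is the diamond `⟨c⁻¹⟩` -/
theorem k7feq_isDiamondH_inv (hL : L ≠ 0) (hML : M ∣ L) {c : (ZMod M)ˣ}
    {δ : fieldBar L M H ≃ₐ[Kb] fieldBar L M H} (h : IsDiamondH L M H c δ) :
    IsDiamondH L M H c⁻¹ δ⁻¹ := by
  obtain ⟨δ', h'⟩ := k7f_diamondBar L M H hL hML c⁻¹
  have h1 : IsDiamondH L M H (c * c⁻¹) (δ * δ') := h.mul h'
  rw [mul_inv_cancel] at h1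
  have h2 : δ * δ' = 1 := h1.unique isDiamondH_one
  have h3 : δ' = δ⁻¹ := eq_inv_of_mul_eq_one_right h2
  rw [← h3]
  exact h'

variable (L M H)

/-- clause 3 of `StmtDiamInt` at `(L, M, H, A)`: every diamond has a reduction -/
def K7feqDiamRed : Prop :=
  ∀ (c : (ZMod M)ˣ) (δ : fieldBar L M H ≃ₐ[Kb] fieldBar L M H), IsDiamondH L M H c δ →
    ∃ δb : fieldC (kA A) L M H ≃ₐ[kA A] fieldC (kA A) L M H,
      ∀ (x : fieldBar L M H) (w : LaurentSeries (kA A)) (hw : w ∈ fieldC (kA A) L M H),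
        GaussRedH L M H A x w →
          GaussRedH L M H A (δ x) ((δb ⟨w, hw⟩ : fieldC (kA A) L M H) : LaurentSeries (kA A))

theorem k7feq_diamRed_of_stmt (hDI : StmtDiamInt) {p : ℕ} (hlev : K7FLevel L M H p)
    (hA : A.LiesOverPrime p) : K7feqDiamRed L M H A := by
  intro c δ hδ
  obtain ⟨δb, -, -, h⟩ := hDI L M H p hlev A hA c δ hδ
  exact ⟨δb, h⟩

/-! ## 4. Equivariance of the reduction of places -/

section Red

variable (hprim : PrimAt A (fieldBar L M H)) (hRedF : StmtRedFH L M H A)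
  (hresF : ∀ v : Place Kb (fieldBar L M H), Function.Bijective (algebraMap Kb v.ResidueField))
  (d₀ : ℤ) (r : Place Kb (fieldBar L M H) → Place (kA A) ↥(fieldC (kA A) L M H))
  (hleast : ∀ D : Divisor Kb (fieldBar L M H), d₀ ≤ Divisor.degree D →
    IsLeast (bounds ((k7fgData A (fieldBar L M H) (fieldC (kA A) L M H) hprim hRedF).redSpace
      (riemannRochSpace D))) (Finsupp.mapDomain r D))

include hresF hleast in
/-- **FL-EQ, decomposition group**: `r (σ • P) = σ̄ • r P`. -/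
theorem k7feqH_r_decomposition (σ : Kb ≃ₐ[ℚ] Kb) (hσ : σ ∈ A.decompositionSubgroup ℚ)
    (P : Place Kb (fieldBar L M H)) :
    r (arithmeticGalois (fieldQ L M H) σ • P) = k7feqSigma L M H A σ hσ • r P :=
  k7feq_r_decomposition A (fieldQ L M H) (k7feq_stable_fieldC L M H (kA A))
    (k7fgData A (fieldBar L M H) (fieldC (kA A) L M H) hprim hRedF)
    (k7fgRed_iff A (fieldBar L M H) (fieldC (kA A) L M H) hRedF) hresF d₀ r hleast σ hσ P

include hresF hleast in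
/-- **FL-EQ, inertia**: `r (σ • P) = r P`. -/
theorem k7feqH_r_inertia (σ : Kb ≃ₐ[ℚ] Kb) (hσ : σ ∈ A.inertiaSubgroupIn ℚ)
    (P : Place Kb (fieldBar L M H)) :
    r (arithmeticGalois (fieldQ L M H) σ • P) = r P :=
  k7feq_r_inertia A (fieldQ L M H)
    (k7fgData A (fieldBar L M H) (fieldC (kA A) L M H) hprim hRedF)
    (k7fgRed_iff A (fieldBar L M H) (fieldC (kA A) L M H) hRedF) hresF d₀ r hleast σ hσ P

include hresF hleast in
/-- **FL-EQ, Frobenius**: `r (φ • P) = Fr • r P`. -/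
theorem k7feqH_r_frobenius {ℓ : ℕ} (hℓ : ℓ.Prime) (hA : A.LiesOverPrime ℓ)
    (φ : Kb ≃ₐ[ℚ] Kb) (hφ : A.IsFrobeniusAt φ ℓ) (P : Place Kb (fieldBar L M H)) :
    r (arithmeticGalois (fieldQ L M H) φ • P) = k7feqFrobH L M H A hℓ hA • r P := by
  rw [k7feqFrobH_eq_sigma L M H A hℓ hA φ hφ]
  exact k7feqH_r_decomposition L M H A hprim hRedF hresF d₀ r hleast φ
    hφ.mem_decompositionSubgroup P

include hresF hleast in
/-- **FL-EQ, diamonds**: `r (δ • P) = δ̄ • r P`, `δ̄` a reduction of the diamond `δ`. -/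
theorem k7feqH_r_diamond (hL : L ≠ 0) (hML : M ∣ L) (hDR : K7feqDiamRed L M H A)
    {c : (ZMod M)ˣ} {δ : fieldBar L M H ≃ₐ[Kb] fieldBar L M H} (hδ : IsDiamondH L M H c δ)
    {δb : fieldC (kA A) L M H ≃ₐ[kA A] fieldC (kA A) L M H}
    (hδb : ∀ (x : fieldBar L M H) (w : LaurentSeries (kA A)) (hw : w ∈ fieldC (kA A) L M H),
      GaussRedH L M H A x w →
        GaussRedH L M H A (δ x) ((δb ⟨w, hw⟩ : fieldC (kA A) L M H) : LaurentSeries (kA A)))
    (P : Place Kb (fieldBar L M H)) :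
    r (SemilinearAut.ofAlgAut δ • P) = SemilinearAut.ofAlgAut δb • r P := by
  obtain ⟨δb', hδb'⟩ := hDR c⁻¹ δ⁻¹ (k7feq_isDiamondH_inv hL hML hδ)
  have h1 : K7feqCompat A δ δb := fun x y hxy => hδb x (y : LaurentSeries (kA A)) y.2 hxy
  have h2 : K7feqCompat A δ⁻¹ δb' := fun x y hxy => hδb' x (y : LaurentSeries (kA A)) y.2 hxy
  exact k7feq_r_algAut A (k7fgData A (fieldBar L M H) (fieldC (kA A) L M H) hprim hRedF)
    (k7fgRed_iff A (fieldBar L M H) (fieldC (kA A) L M H) hRedF) hresF d₀ r hleast h1 h2 P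

/-! ### The fields `decomp`, `inertia`, `diam` of `ModPRH` -/

include hresF hleast in
/-- **the field `decomp` of `ModPRH`** -/
theorem k7feqH_decomp (σ : Kb ≃ₐ[ℚ] Kb) (hσ : σ ∈ A.decompositionSubgroup ℚ) :
    ∃ σb : Place (kA A) ↥(fieldC (kA A) L M H) → Place (kA A) ↥(fieldC (kA A) L M H),
      (∀ P, r (arithmeticGalois (fieldQ L M H) σ • P) = σb (r P)) ∧
      ∀ E ∈ Divisor.principal (K := kA A) (F := ↥(fieldC (kA A) L M H)),
        Finsupp.mapDomain σb E ∈ Divisor.principal (K := kA A) (F := ↥(fieldC (kA A) L M H)) :=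
  ⟨fun Q => k7feqSigma L M H A σ hσ • Q,
    fun P => k7feqH_r_decomposition L M H A hprim hRedF hresF d₀ r hleast σ hσ P,
    fun _ hE => deuEqMod_mapDomain_principal _ hE⟩

include hresF hleast in
/-- **the field `diam` of `ModPRH`** -/
theorem k7feqH_diam (hL : L ≠ 0) (hML : M ∣ L) (hDR : K7feqDiamRed L M H A)
    (c : (ZMod M)ˣ) (δ : fieldBar L M H ≃ₐ[Kb] fieldBar L M H) (hδ : IsDiamondH L M H c δ) :
    ∃ δb : Place (kA A) ↥(fieldC (kA A) L M H) → Place (kA A) ↥(fieldC (kA A) L M H),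
      (∀ P, r (SemilinearAut.ofAlgAut δ • P) = δb (r P)) ∧
      ∀ E ∈ Divisor.principal (K := kA A) (F := ↥(fieldC (kA A) L M H)),
        Finsupp.mapDomain δb E ∈ Divisor.principal (K := kA A) (F := ↥(fieldC (kA A) L M H)) := by
  obtain ⟨δb, hδb⟩ := hDR c δ hδ
  exact ⟨fun Q => SemilinearAut.ofAlgAut δb • Q,
    fun P => k7feqH_r_diamond L M H A hprim hRedF hresF d₀ r hleast hL hML hDR hδ hδb P,
    fun _ hE => deuEqMod_mapDomain_principal _ hE⟩

end Red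

/-! ### The same for `r = Hy.r`, `Hy : DEU.Hyp R Pinf Qinf g n₀` -/

section Hyp

variable (hprim : PrimAt A (fieldBar L M H)) (hRedF : StmtRedFH L M H A)
  {Pinf : Place Kb (fieldBar L M H)} {Qinf : Place (kA A) ↥(fieldC (kA A) L M H)} {g n₀ : ℕ}
  (Hy : Hyp (k7fgData A (fieldBar L M H) (fieldC (kA A) L M H) hprim hRedF) Pinf Qinf g n₀)

theorem k7feqH_decomp_hyp (σ : Kb ≃ₐ[ℚ] Kb) (hσ : σ ∈ A.decompositionSubgroup ℚ) :
    ∃ σb : Place (kA A) ↥(fieldC (kA A) L M H) → Place (kA A) ↥(fieldC (kA A) L M H),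
      (∀ P, Hy.r (arithmeticGalois (fieldQ L M H) σ • P) = σb (Hy.r P)) ∧
      ∀ E ∈ Divisor.principal (K := kA A) (F := ↥(fieldC (kA A) L M H)),
        Finsupp.mapDomain σb E ∈ Divisor.principal (K := kA A) (F := ↥(fieldC (kA A) L M H)) :=
  k7feqH_decomp L M H A hprim hRedF Hy.hresF ((n₀ : ℤ) + 2 * g) Hy.r
    (fun D hD => Hy.isLeast_mapDomain_r D hD) σ hσ

theorem k7feqH_inertia_hyp (σ : Kb ≃ₐ[ℚ] Kb) (hσ : σ ∈ A.inertiaSubgroupIn ℚ)
    (P : Place Kb (fieldBar L M H)) :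
    Hy.r (arithmeticGalois (fieldQ L M H) σ • P) = Hy.r P :=
  k7feqH_r_inertia L M H A hprim hRedF Hy.hresF ((n₀ : ℤ) + 2 * g) Hy.r
    (fun D hD => Hy.isLeast_mapDomain_r D hD) σ hσ P

theorem k7feqH_frobenius_hyp {ℓ : ℕ} (hℓ : ℓ.Prime) (hA : A.LiesOverPrime ℓ)
    (φ : Kb ≃ₐ[ℚ] Kb) (hφ : A.IsFrobeniusAt φ ℓ) (P : Place Kb (fieldBar L M H)) :
    Hy.r (arithmeticGalois (fieldQ L M H) φ • P) = k7feqFrobH L M H A hℓ hA • Hy.r P :=
  k7feqH_r_frobenius L M H A hprim hRedF Hy.hresF ((n₀ : ℤ) + 2 * g) Hy.r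
    (fun D hD => Hy.isLeast_mapDomain_r D hD) hℓ hA φ hφ P

theorem k7feqH_diam_hyp (hL : L ≠ 0) (hML : M ∣ L) (hDR : K7feqDiamRed L M H A)
    (c : (ZMod M)ˣ) (δ : fieldBar L M H ≃ₐ[Kb] fieldBar L M H) (hδ : IsDiamondH L M H c δ) :
    ∃ δb : Place (kA A) ↥(fieldC (kA A) L M H) → Place (kA A) ↥(fieldC (kA A) L M H),
      (∀ P, Hy.r (SemilinearAut.ofAlgAut δ • P) = δb (Hy.r P)) ∧
      ∀ E ∈ Divisor.principal (K := kA A) (F := ↥(fieldC (kA A) L M H)),
        Finsupp.mapDomain δb E ∈ Divisor.principal (K := kA A) (F := ↥(fieldC (kA A) L M H)) :=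
  k7feqH_diam L M H A hprim hRedF Hy.hresF ((n₀ : ℤ) + 2 * g) Hy.r
    (fun D hD => Hy.isLeast_mapDomain_r D hD) hL hML hDR c δ hδ

/-- the same from `StmtDiamInt` and the standing hypotheses -/
theorem k7feqH_diam_hyp_of_stmt (hDI : StmtDiamInt) {p : ℕ} (hlev : K7FLevel L M H p)
    (hA : A.LiesOverPrime p)
    (c : (ZMod M)ˣ) (δ : fieldBar L M H ≃ₐ[Kb] fieldBar L M H) (hδ : IsDiamondH L M H c δ) :
    ∃ δb : Place (kA A) ↥(fieldC (kA A) L M H) → Place (kA A) ↥(fieldC (kA A) L M H),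
      (∀ P, Hy.r (SemilinearAut.ofAlgAut δ • P) = δb (Hy.r P)) ∧
      ∀ E ∈ Divisor.principal (K := kA A) (F := ↥(fieldC (kA A) L M H)),
        Finsupp.mapDomain δb E ∈ Divisor.principal (K := kA A) (F := ↥(fieldC (kA A) L M H)) :=
  k7feqH_diam_hyp L M H A hprim hRedF Hy
    (fun h => by have := hlev.hL; omega) hlev.hML
    (k7feq_diamRed_of_stmt L M H A hDI hlev hA) c δ hδ

end Hyp

/-! ## 5. The kernel of reduction is stable -/

section J1

variable {L M H A}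
variable {g : ℕ} {R : PRData Kb ↥(fieldBar L M H) (kA A) ↥(fieldC (kA A) L M H) A}
  {t : ↥(fieldBar L M H)}

/-- `J1` is stable under the decomposition group (plain action) -/
theorem k7feqH_J1_galois (hM : ModPRH L M H A g R t) {σ : Kb ≃ₐ[ℚ] Kb}
    (hσ : σ ∈ A.decompositionSubgroup ℚ) {x : JH L M H} (hx : x ∈ R.J1) :
    arithmeticGalois (fieldQ L M H) σ • x ∈ R.J1 := by
  obtain ⟨σb, h1, h2⟩ := hM.decomp σ hσ
  exact kc_smul_mem_J1 (arithmeticGalois (fieldQ L M H) σ) σb h1 h2 hx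

/-- the Galois action on `J_H` is the action of `arithmeticGalois` -/
theorem k7feqH_galois_smul_def (σ : Kb ≃ₐ[ℚ] Kb) (x : JH L M H) :
    σ • x = arithmeticGalois (fieldQ L M H) σ • x := rfl

/-- `J1` is stable under the diamonds -/
theorem k7feqH_J1_diamondJ (hM : ModPRH L M H A g R t) {c : (ZMod M)ˣ}
    {δ : fieldBar L M H ≃ₐ[Kb] fieldBar L M H} (hδ : IsDiamondH L M H c δ)
    {x : JH L M H} (hx : x ∈ R.J1) : diamondJ δ x ∈ R.J1 := by
  obtain ⟨δb, h1, h2⟩ := hM.diam c δ hδ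
  exact kc_smul_mem_J1 (SemilinearAut.ofAlgAut δ) δb h1 h2 hx

theorem k7feqH_J1_diamond (hL : L ≠ 0) (hML : M ∣ L) (hM : ModPRH L M H A g R t)
    (c : (ZMod M)ˣ) {x : JH L M H} (hx : x ∈ R.J1) : es1Diamond L M H c x ∈ R.J1 := by
  obtain ⟨δ, hδ⟩ := k7f_diamondBar L M H hL hML c
  rw [es1Diamond_eq hδ]
  exact k7feqH_J1_diamondJ hM hδ hx

/-- **`J1` is stable under the twisted action of the decomposition group** -/
theorem k7feqH_J1_tw (hM : ModPRH L M H A g R t) (χ : K7GQ →* (ZMod M)ˣ) {σ : Kb ≃ₐ[ℚ] Kb}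
    (hσ : σ ∈ A.decompositionSubgroup ℚ) {x : JH L M H} (hx : x ∈ R.J1) :
    twSmul L M H χ σ x ∈ R.J1 := by
  have h1 : σ • x ∈ R.J1 := k7feqH_J1_galois hM hσ hx
  by_cases h : L ≠ 0 ∧ M ∣ L
  · rw [twSmul_eq h.1 h.2]
    exact k7feqH_J1_diamond h.1 h.2 hM (χ σ) h1
  · rw [twSmul_eq_of_not h]
    exact h1

/-- on the inertia group the twisted action is the plain action -/
theorem k7feqH_tw_inertia {χ : K7GQ →* (ZMod M)ˣ} (hχ : IsTwistChar A χ) {σ : Kb ≃ₐ[ℚ] Kb}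
    (hσ : σ ∈ A.inertiaSubgroupIn ℚ) (x : JH L M H) :
    twSmul L M H χ σ x = σ • x := by
  by_cases h : L ≠ 0 ∧ M ∣ L
  · rw [twSmul_eq h.1 h.2, hχ.inertia σ hσ]
    exact diamb_diamond_one _
  · rw [twSmul_eq_of_not h]

end J1

end Fermat.Agent.RT.K7F
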