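/-
K-machine, K7-FLAT, piece FL-GAUSS (helper65), part 3: orthonormal bases (Q2), generic, and the
bridge for (RedF).

* `k7fg_q2` : for `F = ℚ̄(g_i : i ∈ ι)`, `g_i ∈ ℤ((q))`: a linearly independent family `a : Fin r → F`
  can be replaced by a family `b` in its span whose Gauss reductions are linearly independent over
  the residue field.  (Fork of `ES/M/Q2.lean`.)
* `k7fgData_q2`, `k7fgData_finrank_redSpace` : Q2 in `RedData` form: reduction preserves the
  dimension of finite-dimensional subspaces.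
* `k7fg_redF_of_basis` : (RedF) for `F ⊇ F₀` from (RedF) for `F₀` and a family of integral series
  `S_i ∈ F` with reductions in `Fk` such that every integral series of `F` is a combination of the
  `S_i` with Gauss-integral coefficients in `F₀`.
-/
import Fermat.Agent.RT.K7F.GaussData
import Fermat.Agent.ES1.G2.PrimH
import Fermat.Agent.ES.M.Q2

set_option autoImplicit false
set_option linter.unusedSectionVars false
set_option synthInstance.maxHeartbeats 400000
set_option maxHeartbeats 1000000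

noncomputable section

namespace Fermat.Agent.RT.K7F

open ModularCurve AlgebraicCurve HahnSeries Fermat.Agent.ES Fermat.Agent.S24 Fermat.Agent.ES.M
  Fermat.Agent.DEU Fermat.Agent.ES1.G2 Fermat.Agent.ES.G2

variable (A : ValuationSubring Kb) (F : IntermediateField Kb (LaurentSeries Kb))

section Q2

variable {ι : Type*} (gn : ι → LaurentSeries Kb)

/-- evaluation of polynomials at the generators -/
abbrev k7fgEv : MvPolynomial ι Kb →ₐ[Kb] LaurentSeries Kb := MvPolynomial.aeval gn

/-- the range of `q2Ev` as a `ℚ̄`-subspace of `ℚ̄((q))` -/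
def k7fgRange : Submodule Kb (LaurentSeries Kb) where
  carrier := {x | ∃ P, k7fgEv gn P = x}
  zero_mem' := ⟨0, map_zero _⟩
  add_mem' := by
    rintro _ _ ⟨P, rfl⟩ ⟨Q, rfl⟩
    exact ⟨P + Q, map_add _ _ _⟩
  smul_mem' := by
    rintro c _ ⟨P, rfl⟩
    refine ⟨MvPolynomial.C c * P, ?_⟩
    rw [map_mul, MvPolynomial.aeval_C, algebraMap_eq_hahnC, HahnSeries.C_mul_eq_smul]

/-- in the range of `q2Ev` the Gauss norm is attained -/
theorem k7fg_attained (hgn : ∀ i, gn i ∈ primIntSeries) (x : LaurentSeries Kb) (hx : x ∈ k7fgRange gn) (h0 : x ≠ 0) :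
    ∃ n₀, q2Coeff n₀ x ≠ 0 ∧ ∀ n, q2Coeff n x / q2Coeff n₀ x ∈ A.toSubring := by
  obtain ⟨P, rfl⟩ := hx
  obtain ⟨s, y, hs, -, ⟨hyI, n₀, hn₀⟩, hPy⟩ := es1prim_exists_primitive gn hgn A P h0
  have hy0 : y.coeff n₀ ≠ 0 := by
    intro h
    apply hn₀
    rw [h, ValuationSubring.mem_nonunits_iff, map_zero]
    exact zero_lt_one
  have hco : ∀ n, q2Coeff n (k7fgEv gn P) = s * y.coeff n := by
    intro n
    rw [q2Coeff_apply, hPy, HahnSeries.C_mul_eq_smul, HahnSeries.coeff_smul, smul_eq_mul]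
  refine ⟨n₀, ?_, fun n => ?_⟩
  · rw [hco]
    exact mul_ne_zero hs hy0
  · rw [hco, hco, mul_div_mul_left _ _ hs]
    show y.coeff n / y.coeff n₀ ∈ A
    have h1 : A.valuation (y.coeff n₀) = 1 := by
      refine le_antisymm ((ValuationSubring.valuation_le_one_iff A _).2 (hyI n₀)) ?_
      rw [ValuationSubring.mem_nonunits_iff, not_lt] at hn₀
      exact hn₀
    rw [← ValuationSubring.valuation_le_one_iff, map_div₀, h1, div_one]
    exact (ValuationSubring.valuation_le_one_iff A _).2 (hyI n)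

theorem k7fg_coe_smul (c : Kb) (x : F) :
    ((c • x : F) : LaurentSeries Kb) = c • (x : LaurentSeries Kb) := by
  rw [Algebra.smul_def, ← HahnSeries.C_mul_eq_smul, ← algebraMap_eq_hahnC]
  rfl

theorem k7fg_coe_sum {κ : Type*} (s : Finset κ) (f : κ → F) :
    ((∑ i ∈ s, f i : F) : LaurentSeries Kb) = ∑ i ∈ s, (f i : LaurentSeries Kb) :=
  map_sum F.val f s

/-- **(Q2)** for `F = ℚ̄(g_i)`, `g_i` with integer coefficients, at every valuation subring `A`. -/
theorem k7fg_q2 (hgn : ∀ i, gn i ∈ primIntSeries)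
    (hF : F = IntermediateField.adjoin Kb (Set.range gn))
    (r : ℕ) (a : Fin r → F) (ha : LinearIndependent Kb a) :
    ∃ (b : Fin r → F) (w : Fin r → LaurentSeries (kA A)),
      (∀ i, b i ∈ Submodule.span Kb (Set.range a)) ∧ (∀ i, k7fgRel A F (b i) (w i)) ∧
        LinearIndependent (kA A) w := by
  classical
  -- fractions
  have hfrac : ∀ i, ∃ P Q : MvPolynomial ι Kb,
      ((a i : F) : LaurentSeries Kb) = k7fgEv gn P / k7fgEv gn Q := by
    intro i
    have hu' : ((a i : F) : LaurentSeries Kb) ∈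
        IntermediateField.adjoin Kb (Set.range gn) := by
      rw [← hF]; exact (a i).2
    exact (IntermediateField.mem_adjoin_range_iff Kb _ _).1 hu'
  choose P Q hPQ using hfrac
  have ha0 : ∀ i, ((a i : F) : LaurentSeries Kb) ≠ 0 := fun i h =>
    ha.ne_zero i (Subtype.ext h)
  have hQ0 : ∀ i, k7fgEv gn (Q i) ≠ 0 := by
    intro i h
    apply ha0 i
    rw [hPQ i, h, div_zero]
  -- common denominator
  set D : LaurentSeries Kb := k7fgEv gn (∏ i, Q i) with hD
  have hDprod : D = ∏ i, k7fgEv gn (Q i) := map_prod _ _ _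
  have hD0 : D ≠ 0 := by
    rw [hDprod]
    exact Finset.prod_ne_zero_iff.2 fun i _ => hQ0 i
  set P' : Fin r → MvPolynomial ι Kb :=
    fun i => P i * ∏ j ∈ Finset.univ.erase i, Q j with hP'
  have haD : ∀ i, ((a i : F) : LaurentSeries Kb) * D = k7fgEv gn (P' i) := by
    intro i
    rw [hP', map_mul, map_prod, hDprod,
      ← Finset.mul_prod_erase Finset.univ _ (Finset.mem_univ i), hPQ i, ← mul_assoc,
      div_mul_cancel₀ _ (hQ0 i)]
  set a'' : Fin r → LaurentSeries Kb := fun i => k7fgEv gn (P' i) with ha''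
  have hsum : ∀ g : Fin r → Kb, ∑ i, g i • a'' i =
      ((∑ i, g i • a i : F) : LaurentSeries Kb) * D := by
    intro g
    rw [k7fg_coe_sum F, Finset.sum_mul]
    refine Finset.sum_congr rfl fun i _ => ?_
    show g i • k7fgEv gn (P' i) = _
    rw [k7fg_coe_smul F, ← haD i, ← HahnSeries.C_mul_eq_smul, ← HahnSeries.C_mul_eq_smul, mul_assoc]
  have ha''li : LinearIndependent Kb a'' := by
    rw [Fintype.linearIndependent_iff]
    intro g hg
    rw [hsum g] at hg
    have h1 : ((∑ i, g i • a i : F) : LaurentSeries Kb) = 0 := by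
      rcases mul_eq_zero.1 hg with h | h
      · exact h
      · exact absurd h hD0
    exact (Fintype.linearIndependent_iff.1 ha) g (Subtype.ext h1)
  -- elimination
  obtain ⟨b'', n, hb''span, hb''A, hb''δ⟩ := q2_elim A.toSubring q2Coeff (k7fgRange gn)
    (k7fg_attained A gn hgn) r a'' ha''li (fun i => ⟨P' i, rfl⟩)
  -- the denominator is a constant times a primitive series
  obtain ⟨sD, yD, hsD, hyDm, hyDprim, hDy⟩ := es1prim_exists_primitive gn hgn A (∏ i, Q i) hD0
  have hc : ∀ i, ∃ c : Fin r → Kb, ∑ j, c j • a'' j = b'' i := fun i =>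
    (Submodule.mem_span_range_iff_exists_fun Kb).1 (hb''span i)
  choose c hc using hc
  set b : Fin r → F := fun i => sD • ∑ j, c i j • a j with hb
  have hby : ∀ i, ((b i : F) : LaurentSeries Kb) * yD = b'' i := by
    intro i
    have hDy' : D = HahnSeries.C sD * yD := hDy
    rw [← hc i, hsum (c i), hDy']
    show ((sD • ∑ j, c i j • a j : F) : LaurentSeries Kb) * yD = _
    rw [k7fg_coe_smul F, ← HahnSeries.C_mul_eq_smul]
    ring
  have hb''I : ∀ i, KronInt A (b'' i) := fun i m => hb''A i m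
  choose Y₁ hY₁ using fun i => (hb''I i).exists_lift
  obtain ⟨Y₂, hY₂⟩ := hyDprim.1.exists_lift
  have hY₂0 : kronRed A Y₂ ≠ 0 := by
    rw [← kronPrim_kronIncl_iff, hY₂]
    exact hyDprim
  refine ⟨b, fun i => kronRed A (Y₁ i) * (kronRed A Y₂)⁻¹, ?_, ?_, ?_⟩
  · intro i
    exact Submodule.smul_mem _ _ (Submodule.sum_mem _ fun j _ =>
      Submodule.smul_mem _ _ (Submodule.subset_span ⟨j, rfl⟩))
  · intro i
    refine ⟨Y₁ i, Y₂, ?_, ?_, hY₂0, ?_, ?_⟩
    · rw [hY₁ i, ← hby i]
      exact mul_mem (b i).2 (hF ▸ hyDm)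
    · rw [hY₂]
      exact hF ▸ hyDm
    · rw [hY₁ i, hY₂, hby i]
    · rw [inv_mul_cancel_right₀ hY₂0]
  · rw [Fintype.linearIndependent_iff]
    intro g hg
    have h1 : ∑ i, g i • kronRed A (Y₁ i) = 0 := by
      have h2 := congrArg (fun x => x * kronRed A Y₂) hg
      simp only [Finset.sum_mul, zero_mul] at h2
      rw [← h2]
      refine Finset.sum_congr rfl fun i _ => ?_
      rw [← HahnSeries.C_mul_eq_smul, ← HahnSeries.C_mul_eq_smul, mul_assoc,
        inv_mul_cancel_right₀ hY₂0]
    intro j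
    have h3 := congrArg (fun x : LaurentSeries (kA A) => x.coeff (n j)) h1
    simp only [HahnSeries.coeff_sum, HahnSeries.coeff_smul, coeffMap_coeff,
      HahnSeries.coeff_zero] at h3
    have h4 : ∀ i, IsLocalRing.residue A ((Y₁ i).coeff (n j)) = if i = j then 1 else 0 := by
      intro i
      have h5 : (((Y₁ i).coeff (n j) : A) : Kb) = if i = j then 1 else 0 := by
        have := congrArg (fun x : LaurentSeries Kb => x.coeff (n j)) (hY₁ i)
        simp only [coeffMap_coeff] at this
        rw [← hb''δ i j, q2Coeff_apply, ← this]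
        rfl
      have h6 : ((Y₁ i).coeff (n j) : A) = if i = j then 1 else 0 := by
        apply Subtype.ext
        rw [h5]
        split_ifs <;> rfl
      rw [h6]
      split_ifs <;> simp
    simp only [h4] at h3
    simpa using h3


variable (Fk : IntermediateField (kA A) (LaurentSeries (kA A)))

/-- **Q2 in `RedData` form.** -/
theorem k7fgData_q2 (hgn : ∀ i, gn i ∈ primIntSeries)
    (hF : F = IntermediateField.adjoin Kb (Set.range gn)) (hprim : PrimAt A F)
    (hRedF : ∀ Y : LaurentSeries A, kronIncl A Y ∈ F → kronRed A Y ∈ Fk)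
    (V : Submodule Kb F) [Module.Finite Kb V] :
    Module.finrank Kb V ≤
      Module.finrank (kA A) ↥((k7fgData A F Fk hprim hRedF).redSpace V) := by
  classical
  let B := Module.finBasis Kb V
  let a : Fin (Module.finrank Kb V) → F := fun i => ((B i : V) : F)
  have ha : LinearIndependent Kb a :=
    B.linearIndependent.map' V.subtype (Submodule.ker_subtype _)
  obtain ⟨b, w, hbV, hbw, hw⟩ := k7fg_q2 A F gn hgn hF (Module.finrank Kb V) a ha
  have hbV' : ∀ i, b i ∈ V := fun i =>
    (Submodule.span_le.mpr (by rintro _ ⟨j, rfl⟩; exact (B j).2)) (hbV i)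
  have hmem : ∀ i, ∃ h : b i ∈ k7fgSub A F,
      ((k7fgRed A F Fk hRedF ⟨b i, h⟩ : ↥Fk) : LaurentSeries (kA A)) = w i :=
    fun i => (k7fgRed_iff A F Fk hRedF _ _).mp (hbw i)
  choose hO hred using hmem
  let v : Fin (Module.finrank Kb V) → ↥((k7fgData A F Fk hprim hRedF).redSpace V) := fun i =>
    ⟨k7fgRed A F Fk hRedF ⟨b i, hO i⟩, ⟨⟨b i, hO i⟩, hbV' i, rfl⟩⟩
  have hv : LinearIndependent (kA A) v := by
    rw [Fintype.linearIndependent_iff]
    intro c hc
    apply Fintype.linearIndependent_iff.mp hw c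
    have h1 := congrArg (fun z : ↥((k7fgData A F Fk hprim hRedF).redSpace V) =>
      (((z : ↥Fk) : LaurentSeries (kA A)))) hc
    simp only [Submodule.coe_sum, Submodule.coe_smul, IntermediateField.coe_sum,
      Submodule.coe_zero, IntermediateField.coe_zero] at h1
    rw [← h1]
    refine Finset.sum_congr rfl fun i _ => ?_
    rw [← HahnSeries.C_mul_eq_smul]
    have h2 : ((c i • (v i : ↥Fk) : ↥Fk) : LaurentSeries (kA A))
        = algebraMap (kA A) (LaurentSeries (kA A)) (c i) *
          ((v i : ↥Fk) : LaurentSeries (kA A)) := by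
      rw [Algebra.smul_def]
      rfl
    rw [h2, algebraMap_eq_hahnC]
    congr 1
    exact (hred i).symm
  have h := hv.fintype_card_le_finrank
  simpa using h

/-- reduction preserves the dimension of finite-dimensional subspaces -/
theorem k7fgData_finrank_redSpace (hgn : ∀ i, gn i ∈ primIntSeries)
    (hF : F = IntermediateField.adjoin Kb (Set.range gn)) (hprim : PrimAt A F)
    (hRedF : ∀ Y : LaurentSeries A, kronIncl A Y ∈ F → kronRed A Y ∈ Fk)
    (V : Submodule Kb F) [Module.Finite Kb V] :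
    Module.finrank (kA A) ↥((k7fgData A F Fk hprim hRedF).redSpace V) = Module.finrank Kb V :=
  le_antisymm ((k7fgData A F Fk hprim hRedF).finrank_redSpace_le V)
    (k7fgData_q2 A F gn Fk hgn hF hprim hRedF V)

end Q2

/-! ## The bridge for (RedF) -/

section Bridge

variable (F₀ : IntermediateField Kb (LaurentSeries Kb))
  (Fk₀ Fk : IntermediateField (kA A) (LaurentSeries (kA A)))

/-- a Gauss reduction in `F₀` is a Gauss reduction in every larger field -/
theorem k7fgRel_mono (hle : F₀ ≤ F) {x : F₀} {w : LaurentSeries (kA A)}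
    (h : k7fgRel A F₀ x w) : k7fgRel A F ⟨(x : LaurentSeries Kb), hle x.2⟩ w := by
  obtain ⟨Y₁, Y₂, hY₁m, hY₂m, hY₂, hx, hw⟩ := h
  exact ⟨Y₁, Y₂, hle hY₁m, hle hY₂m, hY₂, hx, hw⟩

/-- **(RedF) for `F ⊇ F₀`** from (RedF) for `F₀` and an integral "basis": every integral series
of `F` is a combination of integral series `S i ∈ F` (reductions in `Fk`) with Gauss-integral
coefficients in `F₀`. -/
theorem k7fg_redF_of_basis (hle : F₀ ≤ F) (hlek : Fk₀ ≤ Fk)
    (hRedF₀ : ∀ Y : LaurentSeries A, kronIncl A Y ∈ F₀ → kronRed A Y ∈ Fk₀)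
    {n : ℕ} (S : Fin n → LaurentSeries A) (hS : ∀ i, kronIncl A (S i) ∈ F)
    (hSk : ∀ i, kronRed A (S i) ∈ Fk)
    (hbasis : ∀ Y : LaurentSeries A, kronIncl A Y ∈ F →
      ∃ a : Fin n → F₀, (∀ i, k7fgInt A F₀ (a i)) ∧
        kronIncl A Y = ∑ i, (a i : LaurentSeries Kb) * kronIncl A (S i)) :
    ∀ Y : LaurentSeries A, kronIncl A Y ∈ F → kronRed A Y ∈ Fk := by
  classical
  intro Y hY
  obtain ⟨a, ha, hYa⟩ := hbasis Y hY
  choose w hw using ha
  have hwk : ∀ i, w i ∈ Fk := fun i => hlek (k7fgRel_mem A F₀ Fk₀ hRedF₀ (hw i))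
  -- the relation in `F`
  have hterm : ∀ i, k7fgRel A F
      (⟨(a i : LaurentSeries Kb), hle (a i).2⟩ * ⟨kronIncl A (S i), hS i⟩)
      (w i * kronRed A (S i)) := fun i =>
    k7fgRel_mul A F (k7fgRel_mono A F F₀ hle (hw i)) (k7fgRel_of_int A F (S i) (hS i))
  have hsum : ∀ s : Finset (Fin n), k7fgRel A F
      (∑ i ∈ s, (⟨(a i : LaurentSeries Kb), hle (a i).2⟩ * ⟨kronIncl A (S i), hS i⟩ : F))
      (∑ i ∈ s, w i * kronRed A (S i)) := by
    intro s
    induction s using Finset.induction_on with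
    | empty =>
      rw [Finset.sum_empty, Finset.sum_empty]
      exact k7fgRel_zero A F
    | insert j s hj ih =>
      rw [Finset.sum_insert hj, Finset.sum_insert hj]
      exact k7fgRel_add A F (hterm j) ih
  have hYeq : (⟨kronIncl A Y, hY⟩ : F) =
      ∑ i, (⟨(a i : LaurentSeries Kb), hle (a i).2⟩ * ⟨kronIncl A (S i), hS i⟩ : F) := by
    apply Subtype.ext
    rw [k7fg_coe_sum F]
    exact hYa
  have h1 := k7fgRel_of_int A F Y hY
  rw [hYeq] at h1
  have h2 := k7fgRel_unique A F h1 (hsum Finset.univ)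
  rw [h2]
  exact sum_mem fun i _ => mul_mem (hwk i) (hSk i)

end Bridge

end Fermat.Agent.RT.K7F
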