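/-
K-machine, K7-FLAT, piece FL-GAUSS (helper65), part 4: the Gauss valuation ring of
`F_H = fieldBar L M H` and its constant reduction to `F̄_H = fieldC k L M H`.

`A ⊂ ℚ̄` a valuation ring, `k = kA A`.

* `k7f_primAt`      : PRIM for `F_H` (`ES1.G2.es1prim_fieldBar`);
* `K7fRedF L M H A` : the hypothesis (RedF)_H: the reduction of an `A`-integral series of `F_H`
                      lies in `F̄_H`  (`k7fg_redF_of_basis`: from (RedF) at level `Γ₀(L)` and an
                      integral basis of `F_H / F₀`);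
* `k7fO L M H A     : ValuationSubring (fieldBar L M H)`  — the Gauss valuation ring;
* `k7fRed L M H A hRedF : k7fO L M H A →+* fieldC k L M H`;
* `k7fData L M H A hRedF : RedData ℚ̄ F_H k F̄_H`;
* `k7f_gen_rel`     : the generators of `F̄_H` are reductions of the generators of `F_H`;
* the fields of `W1.PRData.IsPR` except `r_div` (= hypotheses of `DEU.exists_isPR`):
  `k7f_res_surjective`, `k7f_res_eq_zero_iff`, `k7f_algebraMap_mem_iff`, `k7f_red_surjective`,
  `k7f_red_eq_zero_iff`, `k7f_red_algebraMap`, `k7f_prim`, `k7f_redDataOfVal_eq`;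
* `k7f_q2`, `k7f_finrank_redSpace` : orthonormal bases.
-/
import Fermat.Agent.RT.K7F.GaussQ2

set_option autoImplicit false
set_option linter.unusedSectionVars false
set_option synthInstance.maxHeartbeats 400000
set_option maxHeartbeats 1000000

noncomputable section

namespace Fermat.Agent.RT.K7F

open ModularCurve AlgebraicCurve HahnSeries Fermat.Agent.ES Fermat.Agent.S24 Fermat.Agent.ES.M
  Fermat.Agent.DEU Fermat.Agent.ES1 Fermat.Agent.ES1.G2 Fermat.Agent.ES.G2

variable (L M : ℕ) (H : Subgroup (ZMod M)ˣ) (A : ValuationSubring Kb)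

/-- PRIM for `F_H` -/
theorem k7f_primAt : PrimAt A (fieldBar L M H) := fun u hu => es1prim_fieldBar L M H A u hu

/-- **(RedF)_H**: the reduction of an `A`-integral series of `F_H` lies in `F̄_H`. -/
def K7fRedF : Prop :=
  ∀ Y : LaurentSeries A, kronIncl A Y ∈ fieldBar L M H → kronRed A Y ∈ fieldC (kA A) L M H

/-- **the Gauss valuation ring of `F_H` at `A`** -/
def k7fO : ValuationSubring (fieldBar L M H) := k7fgO A (fieldBar L M H) (k7f_primAt L M H A)

theorem mem_k7fO {x : fieldBar L M H} : x ∈ k7fO L M H A ↔ k7fgInt A (fieldBar L M H) x := Iff.rfl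

/-- **the reduction map `O_H → F̄_H`** -/
def k7fRed (hRedF : K7fRedF L M H A) : ↥(k7fO L M H A) →+* ↥(fieldC (kA A) L M H) :=
  k7fgValRed A (fieldBar L M H) (fieldC (kA A) L M H) (k7f_primAt L M H A) hRedF

/-- `k7fgRel` is the graph of `k7fRed` -/
theorem k7fRed_iff (hRedF : K7fRedF L M H A) (x : fieldBar L M H) (w : LaurentSeries (kA A)) :
    k7fgRel A (fieldBar L M H) x w ↔ ∃ h : x ∈ k7fO L M H A,
      ((k7fRed L M H A hRedF ⟨x, h⟩ : ↥(fieldC (kA A) L M H)) : LaurentSeries (kA A)) = w :=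
  k7fgValRed_iff A (fieldBar L M H) (fieldC (kA A) L M H) (k7f_primAt L M H A) hRedF x w

/-- **the constant reduction of `F_H` at `A`** -/
def k7fData (hRedF : K7fRedF L M H A) :
    RedData Kb ↥(fieldBar L M H) (kA A) ↥(fieldC (kA A) L M H) :=
  k7fgData A (fieldBar L M H) (fieldC (kA A) L M H) (k7f_primAt L M H A) hRedF

/-! ### The generators -/

/-- the integral series `j(q^d)` -/
theorem k7f_incl_j (d : ℕ) [NeZero d] :
    kronIncl A (jqNModC A d) = qExpand Kb d (jqModC Kb) := coeffMap_jqNModC A.subtype d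

theorem k7f_red_j (d : ℕ) [NeZero d] :
    kronRed A (jqNModC A d) = qExpand (kA A) d (jqModC (kA A)) :=
  coeffMap_jqNModC (IsLocalRing.residue A) d

/-- the integral series `S_a(q^e)` -/
def k7fS (e : ℕ) [NeZero e] (a : (ZMod M)ˣ) : LaurentSeries A :=
  coeffMap (Int.castRingHom A) (qExpand ℤ e (sZ M H a))

theorem k7f_incl_S (e : ℕ) [NeZero e] (a : (ZMod M)ˣ) :
    kronIncl A (k7fS M H A e a) = qExpand Kb e (sS Kb M H a) := by
  show coeffMap A.subtype (coeffMap (Int.castRingHom A) (qExpand ℤ e (sZ M H a))) = _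
  rw [coeffMap_coeffMap, coeffMap_congr (RingHom.ext_int _ (Int.castRingHom Kb)),
    coeffMap_qExpand]
  rfl

theorem k7f_red_S (e : ℕ) [NeZero e] (a : (ZMod M)ˣ) :
    kronRed A (k7fS M H A e a) = qExpand (kA A) e (sS (kA A) M H a) := by
  show coeffMap (IsLocalRing.residue A) (coeffMap (Int.castRingHom A) (qExpand ℤ e (sZ M H a))) = _
  rw [coeffMap_coeffMap, coeffMap_congr (RingHom.ext_int _ (Int.castRingHom (kA A))),
    coeffMap_qExpand]
  rfl

/-- the generators of `F̄_H` are reductions of integral series of `F_H` -/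
theorem k7f_gen_int {w : LaurentSeries (kA A)}
    (hw : w ∈ divisorExpansionsC (kA A) L ∪ diamondExpansionsC (kA A) L M H) :
    ∃ Y : LaurentSeries A, kronIncl A Y ∈ fieldBar L M H ∧ kronRed A Y = w := by
  rcases hw with ⟨d, hd0, hd, rfl⟩ | ⟨e, he0, a, he, rfl⟩
  · refine ⟨jqNModC A d, ?_, k7f_red_j A d⟩
    rw [k7f_incl_j, es1f_fieldBar_eq]
    exact jd_mem_fieldC Kb L M H hd
  · refine ⟨k7fS M H A e a, ?_, k7f_red_S M H A e a⟩
    rw [k7f_incl_S, es1f_fieldBar_eq]
    exact qExpand_sS_mem Kb L M H he a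

theorem k7f_gen_rel {w : LaurentSeries (kA A)}
    (hw : w ∈ divisorExpansionsC (kA A) L ∪ diamondExpansionsC (kA A) L M H) :
    ∃ x : fieldBar L M H, k7fgRel A (fieldBar L M H) x w := by
  obtain ⟨Y, hY, rfl⟩ := k7f_gen_int L M H A hw
  exact ⟨⟨kronIncl A Y, hY⟩, k7fgRel_of_int A (fieldBar L M H) Y hY⟩

/-! ### The hypotheses of `DEU.exists_isPR` -/

/-- `hres` -/
theorem k7f_res_surjective : Function.Surjective (IsLocalRing.residue A) :=
  IsLocalRing.residue_surjective

/-- `hres0` -/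
theorem k7f_res_eq_zero_iff (a : A) :
    IsLocalRing.residue A a = 0 ↔ (a : Kb) ∈ A.nonunits :=
  k7fg_res_eq_zero_iff A a

/-- `hmem` -/
theorem k7f_algebraMap_mem_iff (a : Kb) :
    algebraMap Kb ↥(fieldBar L M H) a ∈ k7fO L M H A ↔ a ∈ A :=
  k7fg_algebraMap_mem_iff A (fieldBar L M H) (k7f_primAt L M H A) a

/-- `hredsurj` -/
theorem k7f_red_surjective (hRedF : K7fRedF L M H A) :
    Function.Surjective (k7fRed L M H A hRedF) :=
  k7fg_red_surjective A (fieldBar L M H) (fieldC (kA A) L M H) (k7f_primAt L M H A) hRedF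
    (divisorExpansionsC (kA A) L ∪ diamondExpansionsC (kA A) L M H) rfl
    (fun _ hw => k7f_gen_rel L M H A hw)

/-- `hred0` -/
theorem k7f_red_eq_zero_iff (hRedF : K7fRedF L M H A) (x : k7fO L M H A) :
    k7fRed L M H A hRedF x = 0 ↔ (x : fieldBar L M H) ∈ (k7fO L M H A).nonunits :=
  k7fg_red_eq_zero_iff A (fieldBar L M H) (fieldC (kA A) L M H) (k7f_primAt L M H A) hRedF x

/-- `hredalg` -/
theorem k7f_red_algebraMap (hRedF : K7fRedF L M H A) (a : A)
    (h : algebraMap Kb ↥(fieldBar L M H) (a : Kb) ∈ k7fO L M H A) :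
    k7fRed L M H A hRedF ⟨algebraMap Kb ↥(fieldBar L M H) (a : Kb), h⟩
      = algebraMap (kA A) ↥(fieldC (kA A) L M H) (IsLocalRing.residue A a) :=
  k7fg_red_algebraMap A (fieldBar L M H) (fieldC (kA A) L M H) (k7f_primAt L M H A) hRedF a h

/-- `hprim` -/
theorem k7f_prim (hRedF : K7fRedF L M H A) (f : fieldBar L M H) (hf : f ≠ 0) :
    ∃ a : Kb, a ≠ 0 ∧ ∃ h : algebraMap Kb ↥(fieldBar L M H) a * f ∈ k7fO L M H A,
      k7fRed L M H A hRedF ⟨algebraMap Kb ↥(fieldBar L M H) a * f, h⟩ ≠ 0 :=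
  k7fg_prim A (fieldBar L M H) (fieldC (kA A) L M H) (k7f_primAt L M H A) hRedF f hf

/-- the `RedData` of the Gauss valuation ring is `k7fData` -/
theorem k7f_redDataOfVal_eq (hRedF : K7fRedF L M H A) :
    redDataOfVal A (IsLocalRing.residue A) (k7fO L M H A) (k7fRed L M H A hRedF)
        (k7f_res_surjective A) (k7f_algebraMap_mem_iff L M H A)
        (k7f_red_eq_zero_iff L M H A hRedF) (k7f_red_algebraMap L M H A hRedF)
        (k7f_prim L M H A hRedF)
      = k7fData L M H A hRedF := rfl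

/-! ### Orthonormal bases -/

/-- **Q2** for `F_H`, fraction form. -/
theorem k7f_q2 (r : ℕ) (a : Fin r → fieldBar L M H) (ha : LinearIndependent Kb a) :
    ∃ (b : Fin r → fieldBar L M H) (w : Fin r → LaurentSeries (kA A)),
      (∀ i, b i ∈ Submodule.span Kb (Set.range a)) ∧
        (∀ i, k7fgRel A (fieldBar L M H) (b i) (w i)) ∧ LinearIndependent (kA A) w := by
  refine k7fg_q2 A (fieldBar L M H)
    (fun x : ↥(divisorExpansionsC Kb L ∪ diamondExpansionsC Kb L M H) => (x : LaurentSeries Kb))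
    (fun x => es1prim_gen_mem L M H x.2) ?_ r a ha
  rw [es1f_fieldBar_eq, Subtype.range_coe]
  rfl

/-- reduction preserves the dimension of finite-dimensional subspaces of `F_H` -/
theorem k7f_finrank_redSpace (hRedF : K7fRedF L M H A) (V : Submodule Kb ↥(fieldBar L M H))
    [Module.Finite Kb V] :
    Module.finrank (kA A) ↥((k7fData L M H A hRedF).redSpace V) = Module.finrank Kb V := by
  refine k7fgData_finrank_redSpace A (fieldBar L M H)
    (fun x : ↥(divisorExpansionsC Kb L ∪ diamondExpansionsC Kb L M H) => (x : LaurentSeries Kb))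
    (fieldC (kA A) L M H) (fun x => es1prim_gen_mem L M H x.2) ?_ (k7f_primAt L M H A) hRedF V
  rw [es1f_fieldBar_eq, Subtype.range_coe]
  rfl

end Fermat.Agent.RT.K7F
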