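import Fermat.Agent.DEU.Main1

/-!
# RT-K7F, piece FL-RHp-B (HYP-of-E): Deuring's hypotheses from a bound at ONE divisor

`DEU.Hyp R Pinf Qinf g n₀` asks for the bound `dim L̄(n₀·Qinf) + g ≤ n₀ + 1` at a multiple of the
single place `Qinf`.  For the covers `X_H → X₀(L)` the natural bound is at a divisor `E`
(e.g. the pull-back of `n·∞̄₀`).  This file proves, generically:

* `k7fhe_Hyp0 R Pinf Qinf g` : the fields of `DEU.Hyp` except `bound`;
* `k7fhe_Hyp0.riemann_lower_res` : Riemann's inequality on the residue side (no bound needed);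
* `k7fhe_Hyp0.bound_of_divisor` : if `dim L̄(E) + g ≤ deg E + 1` for ONE divisor `E` of `Fb`, then
  `dim L̄(n₀·Qinf) + g ≤ n₀ + 1` for every `n₀ ≥ deg E + g`;
* `k7fhe_Hyp0.upper_of_divisor` : more generally `dim L̄(𝔟) ≤ deg 𝔟 + 1 − g` for every divisor `𝔟` of
  degree `≥ deg E + g`;
* `k7fhe_Hyp0.hyp_of_divisor`, `k7fhe_Hyp0.exists_hyp` : hence `DEU.Hyp R Pinf Qinf g n₀`.
-/

set_option autoImplicit false

open AlgebraicCurve Module

namespace Fermat.Agent.RT.K7F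

open Fermat.Agent.ES.R Fermat.Agent.DEU

variable {K F k Fb : Type*} [Field K] [Field F] [Algebra K F] [Field k] [Field Fb] [Algebra k Fb]

/-- The hypotheses of Deuring's dimension count (`DEU.Hyp`) WITHOUT the bound. -/
structure k7fhe_Hyp0 (R : RedData K F k Fb) (Pinf : Place K F) (Qinf : Place k Fb) (g : ℕ) :
    Prop where
  hresF : ∀ v : Place K F, Function.Bijective (algebraMap K v.ResidueField)
  hresk : ∀ v : Place k Fb, Function.Bijective (algebraMap k v.ResidueField)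
  hpdF : HasPrincipalDivisors K F
  hpdk : HasPrincipalDivisors k Fb
  riemann : ∀ 𝔞 : Divisor K F,
    Divisor.degree 𝔞 + 1 - g ≤ (finrank K ↥(riemannRochSpace 𝔞) : ℤ)
  q2 : ∀ V : Submodule K F, Module.Finite K V → finrank K V ≤ finrank k ↥(R.redSpace V)
  anchor : ∀ m : ℕ, R.redSpace (riemannRochSpace (mulPlace Pinf m)) ≤
    riemannRochSpace (mulPlace Qinf m)

/-- `DEU.Hyp` forgets to `k7fhe_Hyp0`. -/
theorem k7fhe_hyp0_of_hyp {R : RedData K F k Fb} {Pinf : Place K F} {Qinf : Place k Fb}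
    {g n₀ : ℕ} (H : Hyp R Pinf Qinf g n₀) : k7fhe_Hyp0 R Pinf Qinf g :=
  ⟨H.hresF, H.hresk, H.hpdF, H.hpdk, H.riemann, H.q2, H.anchor⟩

namespace k7fhe_Hyp0

variable {R : RedData K F k Fb} {Pinf : Place K F} {Qinf : Place k Fb} {g : ℕ}
  (H : k7fhe_Hyp0 R Pinf Qinf g)

include H

theorem finite_rr (𝔞 : Divisor K F) : Module.Finite K ↥(riemannRochSpace 𝔞) :=
  have := H.hpdF
  rr_finite Pinf H.hresF 𝔞

theorem finite_rr_res (𝔟 : Divisor k Fb) : Module.Finite k ↥(riemannRochSpace 𝔟) :=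
  have := H.hpdk
  rr_finite Qinf H.hresk 𝔟

/-- `dim red(L(𝔞)) = dim L(𝔞)`. -/
theorem finrank_redSpace_rr (𝔞 : Divisor K F) :
    finrank k ↥(R.redSpace (riemannRochSpace 𝔞)) = finrank K ↥(riemannRochSpace 𝔞) := by
  have := H.finite_rr 𝔞
  exact le_antisymm (R.finrank_redSpace_le _) (H.q2 _ inferInstance)

theorem rr_ne_bot_of_degree {𝔞 : Divisor K F} (h : (g : ℤ) ≤ Divisor.degree 𝔞) :
    riemannRochSpace 𝔞 ≠ ⊥ := by
  refine rr_ne_bot_of_finrank_pos ?_
  have := H.riemann 𝔞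
  have h2 : (0 : ℤ) < (finrank K ↥(riemannRochSpace 𝔞) : ℤ) := by linarith
  exact_mod_cast h2

/-- `dim L(𝔞) ≤ dim L̄(ρ 𝔞)`. -/
theorem finrank_rr_le_rho {𝔞 : Divisor K F} (h𝔞 : riemannRochSpace 𝔞 ≠ ⊥) :
    finrank K ↥(riemannRochSpace 𝔞) ≤ finrank k ↥(riemannRochSpace (R.rho 𝔞)) := by
  have := H.hpdF
  have := H.hpdk
  have := H.finite_rr_res (R.rho 𝔞)
  rw [← H.finrank_redSpace_rr 𝔞]
  exact Submodule.finrank_mono (R.redSpace_rr_le_rr_rho H.hresF H.hresk Pinf h𝔞)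

/-- The anchor: `ρ (m·Pinf) ≤ m·Qinf`. -/
theorem rho_mulPlace_le (m : ℕ) (hm : g ≤ m) :
    R.rho (mulPlace Pinf m) ≤ mulPlace Qinf m := by
  have := H.hpdF
  have := H.hpdk
  refine R.rho_le_of_le_rr H.hresF H.hresk Pinf (H.rr_ne_bot_of_degree ?_) (H.anchor m)
  rw [degree_mulPlace H.hresF]
  exact_mod_cast hm

/-- **Riemann's inequality on the residue side, with the same `g`** (no bound needed). -/
theorem riemann_lower_res (𝔟 : Divisor k Fb) :
    Divisor.degree 𝔟 + 1 - g ≤ (finrank k ↥(riemannRochSpace 𝔟) : ℤ) := by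
  have := H.hpdF
  have := H.hpdk
  refine riemann_transfer H.hresk g (fun M => ?_) 𝔟
  set m : ℕ := (M + g).toNat + g with hm
  have hmg : g ≤ m := Nat.le_add_left _ _
  have hmM : M + g ≤ m := by
    have := Int.self_le_toNat (M + g)
    rw [hm]; push_cast; linarith
  have hne : riemannRochSpace (mulPlace Pinf (m : ℤ)) ≠ ⊥ := by
    refine H.rr_ne_bot_of_degree ?_
    rw [degree_mulPlace H.hresF]; exact_mod_cast hmg
  have h1 := H.rho_mulPlace_le m hmg
  have hdeg : Divisor.degree (R.rho (mulPlace Pinf (m : ℤ))) ≤ m := by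
    have := degree_mono h1
    rwa [degree_mulPlace H.hresk] at this
  have h2 := H.riemann (mulPlace Pinf (m : ℤ))
  rw [degree_mulPlace H.hresF] at h2
  have h3 : (finrank K ↥(riemannRochSpace (mulPlace Pinf (m : ℤ))) : ℤ) ≤
      finrank k ↥(riemannRochSpace (R.rho (mulPlace Pinf (m : ℤ)))) := by
    exact_mod_cast H.finrank_rr_le_rho hne
  have h0 := R.degree_rho_nonneg H.hresF H.hresk Pinf hne
  have h4 := rr_finrank_le_degree_add_one H.hresk Qinf (R.rho (mulPlace Pinf (m : ℤ)))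
    (by linarith)
  refine ⟨R.rho (mulPlace Pinf (m : ℤ)), ?_, ?_⟩
  · linarith
  · linarith

/-- **The upper bound from a bound at ONE divisor `E`**:
`dim L̄(𝔟) ≤ deg 𝔟 + 1 − g` for `deg 𝔟 ≥ deg E + g`. -/
theorem upper_of_divisor (E : Divisor k Fb)
    (hE : (finrank k ↥(riemannRochSpace E) : ℤ) + g ≤ Divisor.degree E + 1)
    (𝔟 : Divisor k Fb) (h𝔟 : Divisor.degree E + g ≤ Divisor.degree 𝔟) :
    (finrank k ↥(riemannRochSpace 𝔟) : ℤ) ≤ Divisor.degree 𝔟 + 1 - g := by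
  have := H.hpdk
  -- a nonzero element of `L̄(𝔟 - E)`
  have h1 := H.riemann_lower_res (𝔟 - E)
  rw [map_sub] at h1
  have hpos : 0 < finrank k ↥(riemannRochSpace (𝔟 - E)) := by
    have : (0 : ℤ) < finrank k ↥(riemannRochSpace (𝔟 - E)) := by linarith
    exact_mod_cast this
  obtain ⟨h, hh, hh0⟩ := (Submodule.ne_bot_iff _).mp (rr_ne_bot_of_finrank_pos hpos)
  obtain ⟨Z, hZ, hZdeg⟩ := HasPrincipalDivisors.exists_divisor (K := k) h hh0
  -- `𝔟' = 𝔟 + div h ≥ E`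
  have hle : E ≤ 𝔟 + Z := by
    rw [Finsupp.le_def]
    intro v
    rw [mem_riemannRochSpace_iff] at hh
    have := (hh v).resolve_left hh0
    rw [Finsupp.sub_apply] at this
    rw [Finsupp.add_apply, hZ v]
    linarith
  have h2 := rr_finrank_le H.hresk hle
  rw [map_add, hZdeg, add_zero] at h2
  have h3 : finrank k ↥(riemannRochSpace (𝔟 + Z)) = finrank k ↥(riemannRochSpace 𝔟) := by
    refine rr_finrank_eq_of_principal (z := h⁻¹) (inv_ne_zero hh0) (fun v => ?_)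
    rw [Finsupp.add_apply, hZ v, v.ord_inv]
    ring
  rw [h3] at h2
  linarith

/-- **The bound at `n₀·Qinf` from a bound at ONE divisor `E`**, `n₀ ≥ deg E + g`. -/
theorem bound_of_divisor (E : Divisor k Fb)
    (hE : (finrank k ↥(riemannRochSpace E) : ℤ) + g ≤ Divisor.degree E + 1)
    (n₀ : ℕ) (hn : Divisor.degree E + g ≤ n₀) :
    (finrank k ↥(riemannRochSpace (mulPlace Qinf n₀)) : ℤ) + g ≤ n₀ + 1 := by
  have h := H.upper_of_divisor E hE (mulPlace Qinf n₀)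
    (by rw [degree_mulPlace H.hresk]; exact hn)
  rw [degree_mulPlace H.hresk] at h
  linarith

/-- **HYP-of-E**: `DEU.Hyp` from `k7fhe_Hyp0` and a bound at one divisor. -/
theorem hyp_of_divisor (E : Divisor k Fb)
    (hE : (finrank k ↥(riemannRochSpace E) : ℤ) + g ≤ Divisor.degree E + 1)
    (n₀ : ℕ) (hn : Divisor.degree E + g ≤ n₀) : Hyp R Pinf Qinf g n₀ :=
  ⟨H.hresF, H.hresk, H.hpdF, H.hpdk, H.riemann, H.q2, H.anchor,
    H.bound_of_divisor E hE n₀ hn⟩

/-- **HYP-of-E**, existence form. -/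
theorem exists_hyp (E : Divisor k Fb)
    (hE : (finrank k ↥(riemannRochSpace E) : ℤ) + g ≤ Divisor.degree E + 1) :
    ∃ n₀ : ℕ, Hyp R Pinf Qinf g n₀ :=
  ⟨(Divisor.degree E + g).toNat, H.hyp_of_divisor E hE _ (Int.self_le_toNat _)⟩

end k7fhe_Hyp0

end Fermat.Agent.RT.K7F
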