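/-
RT-K7F / FL-NICE (helper86): assembly of the reduction package `ModPRH` of `X_H(L; M)` at `A`.

* `k7fnicePRH L M H A hRedF r` : the package `⟨residue, k7fO, k7fRed, r⟩`;
* `k7fnice_modPRH` : `ModPRH L M H A g (k7fnicePRH … Hy.r) j` from Deuring's hypotheses
  `Hy : DEU.Hyp (k7fData L M H A hRedF) Pinf Qinf g n₀` at the cusps `∞` (`IsCuspInftyH`,
  `IsCuspInftyHk`), the reduction of the diamonds (`StmtDiamInt`), the good function `j` and the
  finiteness of the ramification of `j̄`  (twin of `DEU.modPR_of_hyp`);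
* `k7fnice_exists_hyp` : `DEU.Hyp` from FL-RH0 (`StmtRiemannH`), FL-RHp (`StmtBoundE`), FL-RES and
  the anchor (twin of `DEU.modHyp_of_anchor`, through HYP-of-E);
* `K7fniceInput`, `stmtModPRH_of` : the assembly `StmtModPRH`.
-/
import Fermat.Agent.RT.K7F.NiceGen
import Fermat.Agent.RT.K7F.GaussH
import Fermat.Agent.RT.K7F.EqH
import Fermat.Agent.RT.K7F.HypE
import Fermat.Agent.RT.K7F.Plan
import Fermat.Agent.ES1.HFinal
import Fermat.Agent.ES1.ConjDeg
import Fermat.Agent.DEU.ModHyp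

set_option autoImplicit false
set_option linter.unusedSectionVars false
set_option linter.style.haveILetI false
set_option synthInstance.maxHeartbeats 400000
set_option maxHeartbeats 1600000

open ModularCurve AlgebraicCurve HahnSeries Module

namespace Fermat.Agent.RT.K7F

open Fermat.Agent.ES Fermat.Agent.S24 Fermat.Agent.ES.M Fermat.Agent.W1 Fermat.Agent.PR
  Fermat.Agent.DEU Fermat.Agent.ES1 Fermat.Agent.ES1.G2 Fermat.Agent.ES.R

variable (L M : ℕ) (H : Subgroup (ZMod M)ˣ) (A : ValuationSubring Kb)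

/-- the reduction data of `X_H(L; M)` at `A` with a given reduction of places -/
noncomputable def k7fnicePRH (hRedF : StmtRedFH L M H A)
    (r : Place Kb (fieldBar L M H) → Place (kA A) ↥(fieldC (kA A) L M H)) :
    PRData Kb ↥(fieldBar L M H) (kA A) ↥(fieldC (kA A) L M H) A where
  res := IsLocalRing.residue A
  O := k7fO L M H A
  red := k7fRed L M H A hRedF
  r := r

/-- `j̄` as an element of `F̄_H` -/
noncomputable def k7fniceJk : ↥(fieldC (kA A) L M H) :=
  ⟨jqModC (kA A), by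
    have h := jd_mem_fieldC (kA A) L M H (one_dvd L)
    rwa [qExpand_one_apply] at h⟩

theorem coe_k7fniceJk :
    ((k7fniceJk L M H A : ↥(fieldC (kA A) L M H)) : LaurentSeries (kA A)) = jqModC (kA A) := rfl

theorem k7fniceJk_ne_zero : k7fniceJk L M H A ≠ 0 := by
  intro h
  have := congrArg (fun x : ↥(fieldC (kA A) L M H) =>
    (x : LaurentSeries (kA A)).coeff (-1)) h
  simp only [coe_k7fniceJk, ZeroMemClass.coe_zero, HahnSeries.coeff_zero] at this
  rw [coeff_jqModC_neg_one] at this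
  exact one_ne_zero this

theorem k7fnice_order_jk : (jqModC (kA A)).order ≤ -1 :=
  HahnSeries.order_le_of_coeff_ne_zero (by rw [coeff_jqModC_neg_one]; exact one_ne_zero)

/-- `j` is fixed by the arithmetic Galois action -/
theorem k7fnice_smul_j (σ : Kb ≃ₐ[ℚ] Kb) :
    arithmeticGalois (fieldQ L M H) σ • es1hJ L M H = es1hJ L M H := by
  apply Subtype.ext
  rw [coe_arithmeticGalois_smul]
  show coeffMap (σ : Kb →+* Kb) (coeffMap (algebraMap ℚ Kb) jq) = coeffMap (algebraMap ℚ Kb) jq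
  rw [coeffMap_coeffMap]
  exact coeffMap_congr (RingHom.ext fun a => σ.commutes a) _

variable {L M H A}
variable {hRedF : StmtRedFH L M H A} {Pinf : Place Kb (fieldBar L M H)}
  {Qinf : Place (kA A) ↥(fieldC (kA A) L M H)} {g n₀ : ℕ}

theorem k7fnice_isPRH (Hy : Hyp (k7fData L M H A hRedF) Pinf Qinf g n₀) :
    (k7fnicePRH L M H A hRedF Hy.r).IsPR where
  res_surjective := k7f_res_surjective A
  res_eq_zero_iff := k7f_res_eq_zero_iff A
  algebraMap_mem_iff := k7f_algebraMap_mem_iff L M H A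
  red_surjective := k7f_red_surjective L M H A hRedF
  red_eq_zero_iff := k7f_red_eq_zero_iff L M H A hRedF
  red_algebraMap := k7f_red_algebraMap L M H A hRedF
  prim := k7f_prim L M H A hRedF
  r_div := fun u hu D hD Q => Hy.mapDomain_r_principal u hu D hD Q

theorem k7fnice_orthH (Hy : Hyp (k7fData L M H A hRedF) Pinf Qinf g n₀) :
    (k7fnicePRH L M H A hRedF Hy.r).Orth :=
  fun D => Hy.exists_orth D

/-- **FL-NICE, characteristic `0`.** -/
theorem k7fnice_niceH (Hy : Hyp (k7fData L M H A hRedF) Pinf Qinf g n₀)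
    (hP : IsCuspInftyH L M H Pinf) : IsNiceCurve Kb ↥(fieldBar L M H) g := by
  refine k7fnice_nice Hy (es1hJ L M H) Pinf ?_
  have hj0 : es1hJ L M H ≠ 0 := fun h => jBar_ne_zero (congrArg Subtype.val h)
  rw [hP _ hj0]
  show (jBar : LaurentSeries Kb).order < 0
  rw [order_jBar]
  norm_num

/-- **FL-NICE, residue side.** -/
theorem k7fnice_niceHk (Hy : Hyp (k7fData L M H A hRedF) Pinf Qinf g n₀)
    (hQ : IsCuspInftyHk L M H A Qinf) : IsNiceCurve (kA A) ↥(fieldC (kA A) L M H) g := by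
  haveI : IsAlgClosed (kA A) := modHyp_isAlgClosed A
  haveI : Infinite (kA A) := IsAlgClosed.instInfinite
  refine k7fnice_nice_k Hy (k7fniceJk L M H A) Qinf ?_
  rw [hQ _ (k7fniceJk_ne_zero L M H A), coe_k7fniceJk]
  have := k7fnice_order_jk A
  omega

/-- **FL-NICE: the package `ModPRH`** from Deuring's hypotheses at the cusps `∞`. -/
theorem k7fnice_modPRH {p : ℕ} (hlev : K7FLevel L M H p) (hA : A.LiesOverPrime p)
    (hDI : StmtDiamInt)
    (Hy : Hyp (k7fData L M H A hRedF) Pinf Qinf g n₀)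
    (hP : IsCuspInftyH L M H Pinf) (hQ : IsCuspInftyHk L M H A Qinf)
    (hgood : (k7fnicePRH L M H A hRedF Hy.r).GoodFn (es1hJ L M H))
    (hram : ∀ ht : es1hJ L M H ∈ k7fO L M H A,
      {Q : Place (kA A) ↥(fieldC (kA A) L M H) |
        ¬ ∃ c : kA A, Q.ord (k7fRed L M H A hRedF ⟨es1hJ L M H, ht⟩ - algebraMap _ _ c) = 1}.Finite) :
    ModPRH L M H A g (k7fnicePRH L M H A hRedF Hy.r) (es1hJ L M H) where
  isPR := k7fnice_isPRH Hy
  res_eq := rfl
  orth := k7fnice_orthH Hy
  nice := k7fnice_niceH Hy hP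
  nice_k := k7fnice_niceHk Hy hQ
  good := hgood
  ram := hram
  t_fixed := k7fnice_smul_j L M H
  decomp := fun σ hσ => k7feqH_decomp_hyp L M H A (k7f_primAt L M H A) hRedF Hy σ hσ
  inertia := fun σ hσ P => k7feqH_inertia_hyp L M H A (k7f_primAt L M H A) hRedF Hy σ hσ P
  diam := fun c δ hδ =>
    k7feqH_diam_hyp_of_stmt L M H A (k7f_primAt L M H A) hRedF Hy hDI hlev hA c δ hδ


/-! ## Deuring's hypotheses from the pieces -/

variable (L M H A)

/-- **FL-RES** at `(L, M, H, A)`: the residue curve has rational places and principal divisors. -/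
def K7fniceRes : Prop :=
  (∀ v : Place (kA A) ↥(fieldC (kA A) L M H),
    Function.Bijective (algebraMap (kA A) v.ResidueField)) ∧
  HasPrincipalDivisors (kA A) ↥(fieldC (kA A) L M H)

/-- **FL-ANCH** at `(L, M, H, A)`: the cusps `∞` on both sides and the anchor. -/
def K7fniceAnch (hRedF : StmtRedFH L M H A) : Prop :=
  ∃ (Pinf : Place Kb (fieldBar L M H)) (Qinf : Place (kA A) ↥(fieldC (kA A) L M H)),
    IsCuspInftyH L M H Pinf ∧ IsCuspInftyHk L M H A Qinf ∧
    ∀ m : ℕ, (k7fData L M H A hRedF).redSpace (riemannRochSpace (mulPlace Pinf m)) ≤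
      riemannRochSpace (mulPlace Qinf m)

/-- **FL-GOOD** at `(L, M, H, A)`: for every map `r` on places with `r_* (div u) = div ū`, the
function `j` is Gauss-integral and every pole of `j` reduces to a pole of `j̄`. -/
def K7fniceGood (hRedF : StmtRedFH L M H A) : Prop :=
  ∀ r : Place Kb (fieldBar L M H) → Place (kA A) ↥(fieldC (kA A) L M H),
    (∀ u : k7fO L M H A, k7fRed L M H A hRedF u ≠ 0 →
      ∀ D : Divisor Kb (fieldBar L M H),
        (∀ P : Place Kb (fieldBar L M H), D P = P.ord (u : fieldBar L M H)) →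
        ∀ Q : Place (kA A) ↥(fieldC (kA A) L M H),
          Finsupp.mapDomain r D Q = Q.ord (k7fRed L M H A hRedF u)) →
    (k7fnicePRH L M H A hRedF r).GoodFn (es1hJ L M H)

/-- **FL-GOOD (ramification)** at `(L, M, H, A)`: `j̄ - c` is a uniformizer at almost all places
of the residue curve. -/
def K7fniceRam (hRedF : StmtRedFH L M H A) : Prop :=
  ∀ ht : es1hJ L M H ∈ k7fO L M H A,
    {Q : Place (kA A) ↥(fieldC (kA A) L M H) |
      ¬ ∃ c : kA A,
        Q.ord (k7fRed L M H A hRedF ⟨es1hJ L M H, ht⟩ - algebraMap _ _ c) = 1}.Finite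

variable {L M H A}

/-- **Deuring's hypotheses** for `X_H(L; M)` at `A`, from FL-RH0, FL-RHp, FL-RES and the anchor
(through HYP-of-E). -/
theorem k7fnice_exists_hyp {p : ℕ} (hlev : K7FLevel L M H p) (hA : A.LiesOverPrime p)
    (hRH0 : StmtRiemannH) (hBE : StmtBoundE) (hRedF : StmtRedFH L M H A)
    (hRes : K7fniceRes L M H A)
    (Pinf : Place Kb (fieldBar L M H)) (Qinf : Place (kA A) ↥(fieldC (kA A) L M H))
    (hanchor : ∀ m : ℕ,
      (k7fData L M H A hRedF).redSpace (riemannRochSpace (mulPlace Pinf m)) ≤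
        riemannRochSpace (mulPlace Qinf m)) :
    ∃ g n₀ : ℕ, Hyp (k7fData L M H A hRedF) Pinf Qinf g n₀ := by
  have hL0 : L ≠ 0 := fun h => by have := hlev.hL; omega
  have hM0 : M ≠ 0 := fun h => hL0 (by have := hlev.hML; rw [h] at this; exact zero_dvd_iff.mp this)
  obtain ⟨m, a, ha⟩ := exists_isRepFam hM0 H
  obtain ⟨-, hR⟩ := hRH0 L M H p hlev m a ha
  obtain ⟨E, -, hEdeg, n₁, hn₁⟩ := hBE L M H p hlev A hA m a ha
  have H0 : k7fhe_Hyp0 (k7fData L M H A hRedF) Pinf Qinf (k7fGenus L (m + 1)) :=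
    { hresF := es1h_residue_bijective_all hL0 hlev.hML
      hresk := hRes.1
      hpdF := es1h_hasPrincipalDivisors_all hL0 hlev.hML
      hpdk := hRes.2
      riemann := hR
      q2 := fun V hV => by
        haveI := hV
        exact (k7f_finrank_redSpace L M H A hRedF V).ge
      anchor := hanchor }
  obtain ⟨n₀, Hy⟩ := H0.exists_hyp (n₁ • E) (by
    have h := hn₁ n₁ le_rfl
    rw [map_nsmul, hEdeg, nsmul_eq_mul]
    exact h)
  exact ⟨_, n₀, Hy⟩

/-- **FL-NICE at `(L, M, H, A)`.** -/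
theorem k7fnice_hasModPRH {p : ℕ} (hlev : K7FLevel L M H p) (hA : A.LiesOverPrime p)
    (hRH0 : StmtRiemannH) (hBE : StmtBoundE) (hDI : StmtDiamInt) (hRedF : StmtRedFH L M H A)
    (hRes : K7fniceRes L M H A) (hAnch : K7fniceAnch L M H A hRedF)
    (hGood : K7fniceGood L M H A hRedF) (hRam : K7fniceRam L M H A hRedF) :
    HasModPRH L M H A := by
  obtain ⟨Pinf, Qinf, hP, hQ, hanchor⟩ := hAnch
  obtain ⟨g, n₀, Hy⟩ := k7fnice_exists_hyp hlev hA hRH0 hBE hRedF hRes Pinf Qinf hanchor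
  exact ⟨g, k7fnicePRH L M H A hRedF Hy.r, es1hJ L M H,
    k7fnice_modPRH hlev hA hDI Hy hP hQ
      (hGood Hy.r (fun u hu D hD Q => Hy.mapDomain_r_principal u hu D hD Q)) hRam⟩

/-- the local inputs of FL-NICE which are not Props of `Plan.lean`: FL-RES, FL-ANCH, FL-GOOD -/
def StmtNiceInput (hRedF : StmtRedFHAll) : Prop :=
  ∀ (L M : ℕ) (H : Subgroup (ZMod M)ˣ) (p : ℕ) (hlev : K7FLevel L M H p)
    (A : ValuationSubring Kb) (hA : A.LiesOverPrime p),
    K7fniceRes L M H A ∧ K7fniceAnch L M H A (hRedF L M H p hlev A hA) ∧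
      K7fniceGood L M H A (hRedF L M H p hlev A hA) ∧
      K7fniceRam L M H A (hRedF L M H p hlev A hA)

/-- **FL-NICE: the assembly `StmtModPRH`.** -/
theorem stmtModPRH_of (hRedF : StmtRedFHAll) (hRH0 : StmtRiemannH) (hBE : StmtBoundE)
    (hDI : StmtDiamInt) (hIn : StmtNiceInput hRedF) : StmtModPRH := by
  intro L M H p hlev A hA
  obtain ⟨hRes, hAnch, hGood, hRam⟩ := hIn L M H p hlev A hA
  exact k7fnice_hasModPRH hlev hA hRH0 hBE hDI (hRedF L M H p hlev A hA) hRes hAnch hGood hRam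

end Fermat.Agent.RT.K7F
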