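/-
K7F, FL-GAUSS, input (RedF_H), generic part (helper65).

* `k7frf_kdlift` : the key-data lift `ES1.stmtKDLift` with its EXPLICIT family
  `x j * S 0 ^ l` (verbatim fork of the proof of `stmtKDLift`, which hides the family).
* `k7frf_of_kd` : Gauss key data for `F` whose reduced family and coordinate lie in a field `Fk`
  ⇒ the reduction of every integral series of `F` lies in `Fk`.
-/
import Fermat.Agent.ES1.KDLift

set_option autoImplicit false
set_option linter.style.haveILetI false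
set_option linter.unusedSectionVars false

noncomputable section

namespace Fermat.Agent.RT.K7F

open Polynomial ModularCurve IntermediateField Fermat.Agent.S28 Fermat.Agent.INJ
  Fermat.Agent.ES1

section Package

variable {A₀ E k : Type} [CommRing A₀] [IsDomain A₀] [Field E] [Algebra A₀ E]
  [IsFractionRing A₀ E] [Field k] {r : A₀ →+* k}
  {F : IntermediateField E (LaurentSeries E)} {t₀ : LaurentSeries A₀}

/-- key data indexed by a finite type, remembering the family -/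
theorem k7frf_package {J : Type} [Fintype J] (y : J → LaurentSeries A₀)
    (ht : coeffMap (algebraMap A₀ E) t₀ ∈ F)
    (hmem : ∀ j, coeffMap (algebraMap A₀ E) (y j) ∈ F)
    (hspan : ∀ f ∈ F, ∃ c : J → LaurentSeries E,
      (∀ j, c j ∈ adjoin E {coeffMap (algebraMap A₀ E) t₀}) ∧
        f = ∑ j, c j * coeffMap (algebraMap A₀ E) (y j))
    (hindep : ∀ c : J → LaurentSeries k, (∀ j, c j ∈ adjoin k {coeffMap r t₀}) →
      ∑ j, c j * coeffMap r (y j) = 0 → ∀ j, c j = 0)
    (htr : Transcendental k (coeffMap r t₀)) :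
    ∃ (n' : ℕ) (x' : Fin n' → LaurentSeries A₀), GaussKD r F t₀ x' ∧
      ∀ i, ∃ j, x' i = y j := by
  classical
  let e : J ≃ Fin (Fintype.card J) := Fintype.equivFin J
  refine ⟨Fintype.card J, fun i => y (e.symm i), ⟨ht, fun i => hmem _, ?_, ?_, htr⟩,
    fun i => ⟨e.symm i, rfl⟩⟩
  · intro f hf
    obtain ⟨c, hc, hfc⟩ := hspan f hf
    refine ⟨fun i => c (e.symm i), fun i => hc _, ?_⟩
    rw [hfc]
    exact (Equiv.sum_comp e.symm (fun j => c j * coeffMap (algebraMap A₀ E) (y j))).symm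
  · intro c hc hrel i
    have h1 : ∑ j, c (e j) * coeffMap r (y j) = 0 := by
      rw [← hrel]
      rw [← Equiv.sum_comp e (fun i => c i * coeffMap r (y (e.symm i)))]
      refine Finset.sum_congr rfl fun j _ => ?_
      rw [Equiv.symm_apply_apply]
    have h2 := hindep (fun j => c (e j)) (fun j => hc _) h1 (e.symm i)
    simpa using h2

end Package

/-- **(INJ₁-KD) with its explicit family**: the key data of `F = F₀(S 0)` produced by
`ES1.stmtKDLift` is the family `x j * S 0 ^ l`. -/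
theorem k7frf_kdlift
    {A₀ E k : Type} [CommRing A₀] [IsDomain A₀] [IsDiscreteValuationRing A₀]
    [Field E] [Algebra A₀ E] [IsFractionRing A₀ E] [CharZero E]
    [Field k] (r : A₀ →+* k) (F₀ F : IntermediateField E (LaurentSeries E))
    {π : A₀} (hπ : Irreducible π) (hrπ : r π = 0) (hr : ∀ a, r a = 0 → π ∣ a)
    {t₀ : LaurentSeries A₀} {n : ℕ} {x : Fin n → LaurentSeries A₀}
    (kd : GaussKD r F₀ t₀ x)
    (ht₀ : (coeffMap (algebraMap A₀ E) t₀).order = -1)
    {m : ℕ} (S : Fin (m + 1) → LaurentSeries A₀) (hS : ConjFamily r F₀ F S)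
    (hgoodF₀ : ∀ [Algebra A₀ F₀] [IsScalarTower A₀ E F₀],
      TSGoodBasis (A₀ := A₀) (E := E) (Lf := F₀) π
        ⟨coeffMap (algebraMap A₀ E) t₀, kd.t_mem⟩)
    (hfin : FiniteDimensional
      E⟮(⟨coeffMap (algebraMap A₀ E) t₀, hS.le kd.t_mem⟩ : F)⟯ F)
    (Sg : Finset A₀) (hSg : ∀ c ∈ Sg, ∀ c' ∈ Sg, c ≠ c' → ¬ π ∣ c - c')
    (e : ℕ) (he : IsUnit (e : A₀)) (hζe : ∃ ζ : A₀, IsPrimitiveRoot ζ e)
    (hram : ∀ [Algebra A₀ F] [IsScalarTower A₀ E F],
      TSUnramified (A₀ := A₀) (E := E) (Lf := F)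
        ⟨coeffMap (algebraMap A₀ E) t₀, hS.le kd.t_mem⟩ Sg ∧
      TSTame (A₀ := A₀) (E := E) (Lf := F)
        ⟨coeffMap (algebraMap A₀ E) t₀, hS.le kd.t_mem⟩ Sg e) :
    ∃ (n' : ℕ) (x' : Fin n' → LaurentSeries A₀), GaussKD r F t₀ x' ∧
      ∀ i, ∃ (j : Fin n) (l : ℕ), x' i = x j * S 0 ^ l := by
  classical
  -- instances
  letI algF₀ : Algebra A₀ F₀ := coreAlg A₀ F₀
  haveI towF₀ : IsScalarTower A₀ E F₀ := coreAlg_isScalarTower A₀ F₀
  letI algF : Algebra A₀ F := coreAlg A₀ F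
  haveI towF : IsScalarTower A₀ E F := coreAlg_isScalarTower A₀ F
  letI algFF : Algebra F₀ F := kdlAlg hS.le
  haveI towEFF : IsScalarTower E F₀ F := kdlAlg_isScalarTower hS.le
  haveI towAFF : IsScalarTower A₀ F₀ F := IsScalarTower.of_algebraMap_eq (fun a => by
    apply Subtype.ext
    rfl)
  have hcoe : ∀ x : F₀, ((algebraMap F₀ F x : F) : LaurentSeries E) = (x : LaurentSeries E) :=
    fun _ => rfl
  obtain ⟨s, hs, hθint, hgoodF⟩ := kdl_goodBasis hcoe hπ hrπ hr kd ht₀ hS hgoodF₀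
  -- the tame specialization theorem
  have htrF : Transcendental E (⟨coeffMap (algebraMap A₀ E) t₀, hS.le kd.t_mem⟩ : F) :=
    bgConst_transcendental F _ (by
      show (coeffMap (algebraMap A₀ E) t₀).order ≠ 0
      rw [ht₀]; norm_num)
  obtain ⟨P₀, -, hP₀, -⟩ := bgConst_exists_place F
    (⟨coeffMap (algebraMap A₀ E) t₀, hS.le kd.t_mem⟩ : F) ht₀
  haveI := hfin
  have hprime : Prime (algebraMap A₀ (integralClosure
      (Algebra.adjoin A₀ {(⟨coeffMap (algebraMap A₀ E) t₀, hS.le kd.t_mem⟩ : F)}) F) π) :=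
    tameSpecStmt.{0} A₀ E F π hπ _ htrF (bgConst_mem_range_of_isAlgebraic F) hgoodF Sg hSg
      hram.1 e he hζe hram.2 ⟨P₀, hP₀⟩
  -- span and bounded denominators
  have hspan := kdl_span hcoe kd hS
  have hbdd : ∀ f ∈ F, ∃ e : ℕ, (HahnSeries.C (algebraMap A₀ E π) : LaurentSeries E) ^ e * f ∈
      gaussRing (algebraMap A₀ E) r := by
    intro f hf
    obtain ⟨c, hc, hfc⟩ := hspan f hf
    obtain ⟨e, he⟩ := kdl_bdd r hπ.prime hr t₀ kd.transc
      (fun j : Fin n × Fin (m + 1) => x j.1 * S 0 ^ (j.2 : ℕ)) c hc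
    exact ⟨e, by rw [hfc]; exact he⟩
  -- independence
  have hint := kdl_int_indep hcoe hπ hrπ hr kd hS s hs hθint hbdd hprime
  have hmax : (Ideal.span {π}).IsMaximal := by
    rw [← hπ.maximalIdeal_eq]
    exact IsLocalRing.maximalIdeal.isMaximal A₀
  have hindep := kdl_indep_of_int' r hmax hrπ hr t₀
    (fun j : Fin n × Fin (m + 1) => x j.1 * S 0 ^ (j.2 : ℕ)) hint
  have hmemF : ∀ j : Fin n × Fin (m + 1),
      coeffMap (algebraMap A₀ E) (x j.1 * S 0 ^ (j.2 : ℕ)) ∈ F := by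
    intro j
    rw [map_mul, map_pow]
    exact mul_mem (hS.le (kd.mem j.1)) (pow_mem (hS.mem 0) _)
  obtain ⟨n', x', kd', hx'⟩ := k7frf_package
    (fun j : Fin n × Fin (m + 1) => x j.1 * S 0 ^ (j.2 : ℕ))
    (hS.le kd.t_mem) hmemF hspan hindep kd.transc
  exact ⟨n', x', kd', fun i => by
    obtain ⟨j, hj⟩ := hx' i
    exact ⟨j.1, (j.2 : ℕ), hj⟩⟩

section Red

variable {A E k : Type*} [CommRing A] [IsDomain A] [Field E] [Algebra A E] [IsFractionRing A E]
  [Field k] {r : A →+* k} {F : IntermediateField E (LaurentSeries E)} {t₀ : LaurentSeries A}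
  {n : ℕ} {x : Fin n → LaurentSeries A}

/-- **(RedF) from Gauss key data**: if the reduced coordinate and the reduced family lie in a
field `Fk ⊂ k((q))`, the reduction of every integral series of `F` lies in `Fk`. -/
theorem k7frf_of_kd [WfDvdMonoid A] (kd : GaussKD r F t₀ x) {π : A} (hπ0 : π ≠ 0)
    (hπ : ¬ IsUnit π) (hr : ∀ a, r a = 0 → π ∣ a)
    (Fk : IntermediateField k (LaurentSeries k))
    (htk : coeffMap r t₀ ∈ Fk) (hxk : ∀ i, coeffMap r (x i) ∈ Fk)
    (Z : LaurentSeries A) (hZ : coeffMap (algebraMap A E) Z ∈ F) : coeffMap r Z ∈ Fk := by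
  obtain ⟨Q, P, hQ, hrel⟩ := kd.exists_rep_aux hπ0 hπ hr (f := coeffMap (algebraMap A E) Z)
    hZ (T := Z) (b := 1) (by rw [map_one]; exact one_ne_zero) (by rw [map_one, one_mul])
  rw [one_mul] at hrel
  have h1 := congrArg (coeffMap r) hrel
  rw [map_mul, map_sum, redDVR_coeffMap_aeval] at h1
  simp_rw [map_mul, redDVR_coeffMap_aeval] at h1
  have hne : aeval (coeffMap r t₀) (Q.map r) ≠ 0 :=
    fun h => hQ (transcendental_iff.mp kd.transc _ h)
  have hmem : ∀ Q₀ : Polynomial k, aeval (coeffMap r t₀) Q₀ ∈ Fk := by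
    intro Q₀
    rw [Polynomial.aeval_def, Polynomial.eval₂_eq_sum_range]
    exact sum_mem fun i _ => mul_mem (Fk.algebraMap_mem _) (pow_mem htk _)
  have h2 : coeffMap r Z = (aeval (coeffMap r t₀) (Q.map r))⁻¹ *
      (aeval (coeffMap r t₀) (Q.map r) * coeffMap r Z) := by
    rw [← mul_assoc, inv_mul_cancel₀ hne, one_mul]
  rw [h2, h1]
  exact mul_mem (inv_mem (hmem _)) (sum_mem fun i _ => mul_mem (hmem _) (hxk i))

end Red

end Fermat.Agent.RT.K7F
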