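/-
K7F, FL-GAUSS, input (RedF_H), number-field form (helper65).

`A ⊂ ℚ̄` a valuation ring over `ℓ ∤ L`, `K₀ ⊂ ℚ̄` a number field containing the `6L`-th roots of
unity, `A₀ = A ∩ K₀` (a DVR).  If `Z ∈ A₀((q))` has image in `fieldC K₀ L M H`, its reduction lies
in `fieldC k L M H`.

* `k7frf_nf_j`  : `ℓ ∤ 6 L` (the `j`-line; fork of the first half of `ES1.stmtInjNFH_j`);
* `k7frf_nf_h2` : `ℓ = 3`, `2 ∣ L`, `3 ∤ L` (the Hauptmodul line of `X₀(2)`; fork of
  `ES1.stmtInjNFH_h2`).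
-/
import Fermat.Agent.RT.K7F.RedFKD
import Fermat.Agent.ES1.InjInstJ
import Fermat.Agent.ES1.InjInstH2
import Fermat.Agent.ES1.ConjNF
import Fermat.Agent.ES1.Conj
import Fermat.Agent.ES1.RealFinal

set_option autoImplicit false
set_option linter.style.haveILetI false
set_option linter.unusedSectionVars false
set_option synthInstance.maxHeartbeats 400000
set_option maxHeartbeats 4000000

noncomputable section

namespace Fermat.Agent.RT.K7F

open Polynomial ModularCurve IntermediateField AlgebraicCurve Fermat.Agent.S24 Fermat.Agent.INJ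
  Fermat.Agent.S28 Fermat.Agent.ES1

section JLine

universe u

variable {A₀ E : Type u} {k : Type*} [CommRing A₀] [IsDomain A₀] [WfDvdMonoid A₀] [Field E]
  [Algebra A₀ E] [IsFractionRing A₀ E] [Field k] (r : A₀ →+* k) (π : A₀)

/-- **KD over the `j`-line**, remembering that the reduced family lies in `F̄₀`
(fork of `INJ.exists_gaussKD_j`). -/
theorem k7frf_exists_gaussKD_j (hπ0 : π ≠ 0) (hπ : ¬ IsUnit π) (hr : ∀ a, r a = 0 → π ∣ a)
    (N : ℕ) [NeZero N] (hN : (N : k) ≠ 0) :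
    ∃ x : Fin (dedekindPsi N) → LaurentSeries A₀,
      GaussKD r (modularFunctionFieldFullC E N) (jqModC A₀) x ∧
      ∀ i, coeffMap r (x i) ∈ modularFunctionFieldFullC k N := by
  obtain ⟨x, hx, hli⟩ := exists_monomials_full (k := k) N (primeHyp_of_dvd k N hN)
  have hliE := redDVR_linearIndependent_jq_int (E := E) r π hπ0 hπ hr x hli
  have hk : coeffMap r (jqModC A₀) = jqModC k := coeffMap_jqModC _
  have hE : coeffMap (algebraMap A₀ E) (jqModC A₀) = jqModC E := coeffMap_jqModC _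
  have hxk : ∀ i, coeffMap r (coeffMap (Int.castRingHom A₀) (x i)) =
      coeffMap (Int.castRingHom k) (x i) := fun i => by
    rw [coeffMap_coeffMap]
    exact coeffMap_congr (RingHom.ext_int _ _) _
  have hxE : ∀ i, coeffMap (algebraMap A₀ E) (coeffMap (Int.castRingHom A₀) (x i)) =
      coeffMap (Int.castRingHom E) (x i) := fun i => by
    rw [coeffMap_coeffMap]
    exact coeffMap_congr (RingHom.ext_int _ _) _
  have hm : ∀ i, coeffMap (Int.castRingHom E) (x i) ∈ modularFunctionFieldFullC E N :=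
    fun i => coeffMap_mem_full_of_mem_closure E N (hx i)
  refine ⟨fun i => coeffMap (Int.castRingHom A₀) (x i), ⟨?_, ?_, ?_, ?_, ?_⟩, ?_⟩
  · rw [hE]; exact jqModC_mem_full E N
  · intro i; rw [hxE]; exact hm i
  · intro f hf
    have hfin := UB.finrank_full_le E (NeZero.ne N)
      (fun r hr _ => @ub_modEq E _ r ⟨hr.ne_zero⟩ hr)
    obtain ⟨c, hc, hfc⟩ := exists_coeffs_of_linearIndependent (UB.K0 E)
      (modularFunctionFieldFullC E N) (UB.K0_le_full E N) hfin.1 hfin.2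
      (fun i => coeffMap (Int.castRingHom E) (x i)) hm hliE f hf
    refine ⟨c, fun i => ?_, ?_⟩
    · rw [hE]; exact hc i
    · rw [hfc]
      refine Finset.sum_congr rfl fun i _ => ?_
      rw [hxE]
  · intro c hc hsum
    rw [hk] at hc
    have h0 := Fintype.linearIndependent_iff.mp hli (fun i => ⟨c i, hc i⟩) (by
      rw [← hsum]
      refine Finset.sum_congr rfl fun i _ => ?_
      rw [hxk]
      rfl)
    intro i
    exact congrArg Subtype.val (h0 i)
  · rw [hk]; exact kdj_transcendental_jqModC k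
  · intro i
    rw [hxk]
    exact coeffMap_mem_full_of_mem_closure k N (hx i)

end JLine

/-- the reduced explicit family of the key-data lift lies in `fieldC k L M H` -/
theorem k7frf_family_mem {A₀ k : Type} [CommRing A₀] [Field k] (r : A₀ →+* k)
    (L M : ℕ) (H : Subgroup (ZMod M)ˣ) (hML : M ∣ L) (a₀ : (ZMod M)ˣ)
    {n n' : ℕ} (x : Fin n → LaurentSeries A₀) (x' : Fin n' → LaurentSeries A₀)
    (hx : ∀ i, coeffMap r (x i) ∈ modularFunctionFieldFullC k L)
    (hx' : ∀ i, ∃ (j : Fin n) (l : ℕ), x' i = x j * sS A₀ M H a₀ ^ l) (i : Fin n') :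
    coeffMap r (x' i) ∈ fieldC k L M H := by
  obtain ⟨j, l, hjl⟩ := hx' i
  rw [hjl, map_mul, map_pow, es1f_coeffMap_sS]
  refine mul_mem (full_le_fieldC k L M H (hx j)) (pow_mem ?_ _)
  have h1 : (1 : ℕ) * M ∣ L := by rwa [one_mul]
  have := qExpand_sS_mem k L M H (e := 1) h1 a₀
  rwa [qExpand_one_apply] at this

/-- **(RedF_H), number-field form, `ℓ ∤ 6 L`.** -/
theorem k7frf_nf_j {L M ℓ : ℕ} {H : Subgroup (ZMod M)ˣ} (hL : L ≠ 0) (hML : M ∣ L)
    (hℓ : ℓ.Prime) (hℓ6L : ¬ ℓ ∣ 6 * L)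
    (A : ValuationSubring NfQb) (hA : A.LiesOverPrime ℓ)
    (K₀ : IntermediateField ℚ NfQb) (hfin : FiniteDimensional ℚ K₀)
    (hζ6L : ∃ ζ : K₀, IsPrimitiveRoot ζ (6 * L))
    (Z : LaurentSeries (nfSub A K₀))
    (hZ : coeffMap (algebraMap (nfSub A K₀) K₀) Z ∈ fieldC K₀ L M H) :
    coeffMap (nfRes A K₀) Z ∈ fieldC (IsLocalRing.ResidueField A) L M H := by
  classical
  haveI : NeZero L := ⟨hL⟩
  haveI : FiniteDimensional ℚ K₀ := hfin
  have hR : RamJH L M H := stmtRamJH L M H hML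
  have hℓL : ¬ ℓ ∣ L := fun hd => hℓ6L (hd.mul_left 6)
  have hℓ6 : ¬ ℓ ∣ 6 := fun hd => hℓ6L (hd.mul_right L)
  have hℓ1728 : ¬ (ℓ : ℤ) ∣ 1728 := by
    intro hd
    have h1 : ℓ ∣ 1728 := by exact_mod_cast hd
    have h2 : (1728 : ℕ) = 6 ^ 3 * 8 := by norm_num
    rw [h2] at h1
    rcases (Nat.Prime.dvd_mul hℓ).mp h1 with h3 | h3
    · exact hℓ6 (hℓ.dvd_of_dvd_pow h3)
    · have h4 : (8 : ℕ) = 2 ^ 3 := by norm_num
      rw [h4] at h3
      have h5 := hℓ.dvd_of_dvd_pow h3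
      exact hℓ6 (h5.trans (by norm_num))
  haveI hdvr : IsDiscreteValuationRing (nfSub A K₀) := ls_isDVR A K₀ hℓ hA
  obtain ⟨π, hπ⟩ := IsDiscreteValuationRing.exists_irreducible (nfSub A K₀)
  have hrπ : nfRes A K₀ π = 0 := ls_res_irreducible A K₀ hπ
  have hr : ∀ a, nfRes A K₀ a = 0 → π ∣ a := fun a => ls_dvd_of_res_eq_zero A K₀ hπ a
  haveI : Fact ℓ.Prime := ⟨hℓ⟩
  haveI : CharP (IsLocalRing.ResidueField A) ℓ := ls_charP_residueField A hℓ hA
  haveI : PerfectRing (IsLocalRing.ResidueField A) ℓ := nf_perfectRing_residueField A ℓ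
  have hLk : ((L : ℕ) : IsLocalRing.ResidueField A) ≠ 0 :=
    ls_natCast_residue_ne_zero A hℓ hA L hℓL
  -- key data over the `j`-line for the `Γ₀(L)`-field
  obtain ⟨x₀, kd₀, hx₀⟩ := k7frf_exists_gaussKD_j (E := K₀) (nfRes A K₀) π hπ.ne_zero
    hπ.not_isUnit hr L hLk
  have hkt : coeffMap (nfRes A K₀) (jqModC (nfSub A K₀)) = jqModC (IsLocalRing.ResidueField A) :=
    coeffMap_jqModC _
  have hEt : coeffMap (algebraMap (nfSub A K₀) K₀) (jqModC (nfSub A K₀)) = jqModC K₀ :=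
    coeffMap_jqModC _
  have hord : (coeffMap (algebraMap (nfSub A K₀) K₀) (jqModC (nfSub A K₀))).order = -1 := by
    rw [hEt]
    exact bgConst_order_jqModC K₀
  have h6L : 6 * L ≠ 0 := mul_ne_zero (by norm_num) hL
  have hroot : ∃ ζ : nfSub A K₀, IsPrimitiveRoot ζ (6 * L) :=
    ls_exists_primitiveRoot A K₀ h6L hζ6L
  -- the set `Σ = {0, 1728}`
  set S : Finset (nfSub A K₀) := {0, 1728} with hSdef
  have hdist : ∀ c ∈ S, ∀ c' ∈ S, c ≠ c' → ¬ π ∣ c - c' := by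
    intro c hc c' hc' hcc
    rw [hSdef, Finset.mem_insert, Finset.mem_singleton] at hc hc'
    have key : ∀ a b : ℤ, ¬ (ℓ : ℤ) ∣ a - b →
        ¬ π ∣ ((a : nfSub A K₀) - (b : nfSub A K₀)) := fun a b hab =>
      ls_not_dvd_intCast_sub A K₀ hℓ hA hπ.not_isUnit a b hab
    rcases hc with rfl | rfl <;> rcases hc' with rfl | rfl
    · exact absurd rfl hcc
    · have := key 0 1728 (by rw [zero_sub, dvd_neg]; exact hℓ1728)
      simpa using this
    · have := key 1728 0 (by rw [sub_zero]; exact hℓ1728)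
      simpa using this
    · exact absurd rfl hcc
  have hS01 : ∀ c ∈ S, algebraMap (nfSub A K₀) K₀ c = 0 ∨
      algebraMap (nfSub A K₀) K₀ c = 1728 := by
    intro c hc
    rw [hSdef, Finset.mem_insert, Finset.mem_singleton] at hc
    rcases hc with rfl | rfl
    · left; exact map_zero _
    · right; rw [map_ofNat]
  have hS0 : ∃ c ∈ S, algebraMap (nfSub A K₀) K₀ c = 0 :=
    ⟨0, by rw [hSdef]; simp, map_zero _⟩
  have hS1728 : ∃ c ∈ S, algebraMap (nfSub A K₀) K₀ c = 1728 :=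
    ⟨1728, by rw [hSdef]; simp, by rw [map_ofNat]⟩
  have hunit : IsUnit (((6 * L : ℕ) : ℕ) : nfSub A K₀) :=
    ls_isUnit_natCast A K₀ hℓ hA (6 * L) hℓ6L
  -- the conjugate family and the key data for `fieldC`
  have hM0 : M ≠ 0 := fun h => hL (by rw [h] at hML; exact Nat.eq_zero_of_zero_dvd hML)
  obtain ⟨m, a, ha⟩ := exists_isRepFam hM0 H
  haveI : Algebra.IsAlgebraic ℚ K₀ := by
    have h : @Algebra.IsAlgebraic ℚ K₀ _ _ K₀.algebra' := Algebra.IsAlgebraic.of_finite ℚ K₀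
    convert h
    · exact Subsingleton.elim _ _
  have hSc : ConjFamily (nfRes A K₀) (modularFunctionFieldFullC K₀ L) (fieldC K₀ L M H)
      (fun i => sS (nfSub A K₀) M H (a i)) :=
    conjFamily_of_diamond stmtDiamondH (nfRes A K₀) L M H a hL hML ha
  have hfin₀ : FiniteDimensional
      K₀⟮(⟨coeffMap (algebraMap (nfSub A K₀) K₀) (jqModC (nfSub A K₀)), kd₀.t_mem⟩ :
        modularFunctionFieldFullC K₀ L)⟯ (modularFunctionFieldFullC K₀ L) := by
    have h0 := bgFin_finiteDimensional_full K₀ L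
    have heq : (⟨coeffMap (algebraMap (nfSub A K₀) K₀) (jqModC (nfSub A K₀)), kd₀.t_mem⟩ :
        modularFunctionFieldFullC K₀ L) = ⟨jqModC K₀, jqModC_mem_full K₀ L⟩ :=
      Subtype.ext hEt
    rw [heq]
    exact h0
  have hfinF : FiniteDimensional
      K₀⟮(⟨coeffMap (algebraMap (nfSub A K₀) K₀) (jqModC (nfSub A K₀)),
        hSc.le kd₀.t_mem⟩ : fieldC K₀ L M H)⟯ (fieldC K₀ L M H) := by
    obtain ⟨P, hPm, -, hP0⟩ := hSc.poly
    exact injH1_fin_of_gen (modularFunctionFieldFullC K₀ L) (fieldC K₀ L M H) hSc.le _ hSc.gen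
      (injH1_isIntegral_of_eval₂ _ _ ⟨P, hPm, hP0⟩) _ kd₀.t_mem hfin₀
  have hjeq : (⟨coeffMap (algebraMap (nfSub A K₀) K₀) (jqModC (nfSub A K₀)),
      hSc.le kd₀.t_mem⟩ : fieldC K₀ L M H) = jCH K₀ L M H := Subtype.ext hEt
  obtain ⟨n, x, kd, hx⟩ := k7frf_kdlift (A₀ := nfSub A K₀) (E := K₀)
    (k := IsLocalRing.ResidueField A)
    (nfRes A K₀) (modularFunctionFieldFullC K₀ L) (fieldC K₀ L M H) hπ hrπ hr kd₀ hord
    (fun i => sS (nfSub A K₀) M H (a i)) hSc
    (fun {_ _} => kd₀.tsGoodBasis hπ.ne_zero hπ.not_isUnit hr hrπ ℓ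
      (by rw [hkt]; exact thetaFun_jqModC_ne_zero _))
    hfinF S hdist (6 * L) hunit hroot
    (fun {_ _} => by
      rw [hjeq]
      exact nfH_ram_jline_self K₀ L M H hR S hS01 hS0 hS1728 (6 * L)
        (Dvd.intro _ rfl) (Dvd.intro_left _ rfl))
  -- conclusion
  refine k7frf_of_kd kd hπ.ne_zero hπ.not_isUnit hr (fieldC (IsLocalRing.ResidueField A) L M H)
    ?_ (k7frf_family_mem (nfRes A K₀) L M H hML (a 0) x₀ x hx₀ hx) Z hZ
  rw [hkt]
  have h := jd_mem_fieldC (IsLocalRing.ResidueField A) L M H (one_dvd L)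
  rwa [qExpand_one_apply] at h

/-- **(RedF_H), number-field form, `ℓ = 3`, `2 ∣ L`.** -/
theorem k7frf_nf_h2 {L M : ℕ} {H : Subgroup (ZMod M)ˣ} (hL : L ≠ 0) (hML : M ∣ L)
    (h2 : 2 ∣ L) (h3 : ¬ 3 ∣ L)
    (A : ValuationSubring NfQb) (hA : A.LiesOverPrime 3)
    (K₀ : IntermediateField ℚ NfQb) (hfin : FiniteDimensional ℚ K₀)
    (hζ6L : ∃ ζ : K₀, IsPrimitiveRoot ζ (6 * L))
    (Z : LaurentSeries (nfSub A K₀))
    (hZ : coeffMap (algebraMap (nfSub A K₀) K₀) Z ∈ fieldC K₀ L M H) :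
    coeffMap (nfRes A K₀) Z ∈ fieldC (IsLocalRing.ResidueField A) L M H := by
  classical
  haveI : NeZero L := ⟨hL⟩
  haveI : FiniteDimensional ℚ K₀ := hfin
  have hR : RamJH L M H := stmtRamJH L M H hML
  have hℓ : (3 : ℕ).Prime := Nat.prime_three
  haveI hdvr : IsDiscreteValuationRing (nfSub A K₀) := ls_isDVR A K₀ hℓ hA
  obtain ⟨π, hπ⟩ := IsDiscreteValuationRing.exists_irreducible (nfSub A K₀)
  have hrπ : nfRes A K₀ π = 0 := ls_res_irreducible A K₀ hπ
  have hr : ∀ a, nfRes A K₀ a = 0 → π ∣ a := fun a => ls_dvd_of_res_eq_zero A K₀ hπ a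
  haveI : Fact (3 : ℕ).Prime := ⟨hℓ⟩
  haveI : CharP (IsLocalRing.ResidueField A) 3 := ls_charP_residueField A hℓ hA
  haveI : PerfectRing (IsLocalRing.ResidueField A) 3 := nf_perfectRing_residueField A 3
  have hLE : ((L : ℕ) : K₀) ≠ 0 := Nat.cast_ne_zero.mpr hL
  have hLk : ((L : ℕ) : IsLocalRing.ResidueField A) ≠ 0 :=
    ls_natCast_residue_ne_zero A hℓ hA L h3
  have h2E : ((2 : ℕ) : K₀) ≠ 0 := Nat.cast_ne_zero.mpr (by norm_num)
  have h2k : ((2 : ℕ) : IsLocalRing.ResidueField A) ≠ 0 :=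
    ls_natCast_residue_ne_zero A hℓ hA 2 (by norm_num)
  -- key data over the `hm2`-line for the `Γ₀(L)`-field
  have hkeq := adjoin_hm2_eq (IsLocalRing.ResidueField A) h2k
  have hjk : jqModC (IsLocalRing.ResidueField A) ∈
      (IsLocalRing.ResidueField A)⟮hm2 (IsLocalRing.ResidueField A)⟯ := by
    rw [hkeq]; exact jqModC_mem_full _ 2
  obtain ⟨n₀, x₀, kd₀, hx₀⟩ := exists_gaussKD_of_adjoin_eq (E := K₀) (nfRes A K₀) π hπ.ne_zero
    hπ.not_isUnit hr (N₀ := 2) (M := L) h2 hLE hLk hm2Z (adjoin_hm2_eq K₀ h2E) hkeq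
    (transcendental_of_jqModC_mem _ hjk)
  have hkt : coeffMap (nfRes A K₀) (coeffMap (Int.castRingHom (nfSub A K₀)) hm2Z)
      = hm2 (IsLocalRing.ResidueField A) := by
    rw [coeffMap_coeffMap]
    exact coeffMap_congr (RingHom.ext_int _ _) _
  have hEt : coeffMap (algebraMap (nfSub A K₀) K₀) (coeffMap (Int.castRingHom (nfSub A K₀)) hm2Z)
      = hm2 K₀ := by
    rw [coeffMap_coeffMap]
    exact coeffMap_congr (RingHom.ext_int _ _) _
  have hord : (coeffMap (algebraMap (nfSub A K₀) K₀)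
      (coeffMap (Int.castRingHom (nfSub A K₀)) hm2Z)).order = -1 := by
    rw [hEt]
    exact injH_order_hm2 K₀
  have hrootL : ∃ ζ : nfSub A K₀, IsPrimitiveRoot ζ L := by
    refine ls_exists_primitiveRoot A K₀ hL ?_
    obtain ⟨ζ₀, hζ₀⟩ := hζ6L
    exact ⟨ζ₀ ^ 6, hζ₀.pow (by positivity) rfl⟩
  -- the set `Σ = {0, -64}`
  set S : Finset (nfSub A K₀) := {0, -64} with hSdef
  have hdist : ∀ c ∈ S, ∀ c' ∈ S, c ≠ c' → ¬ π ∣ c - c' := by
    intro c hc c' hc' hcc
    rw [hSdef, Finset.mem_insert, Finset.mem_singleton] at hc hc'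
    have key : ∀ a b : ℤ, ¬ (3 : ℤ) ∣ a - b →
        ¬ π ∣ ((a : nfSub A K₀) - (b : nfSub A K₀)) := fun a b hab =>
      ls_not_dvd_intCast_sub A K₀ hℓ hA hπ.not_isUnit a b (by exact_mod_cast hab)
    rcases hc with rfl | rfl <;> rcases hc' with rfl | rfl
    · exact absurd rfl hcc
    · have := key 0 (-64) (by norm_num)
      simpa using this
    · have := key (-64) 0 (by norm_num)
      simpa using this
    · exact absurd rfl hcc
  have hS01 : ∀ c ∈ S, algebraMap (nfSub A K₀) K₀ c = 0 ∨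
      algebraMap (nfSub A K₀) K₀ c = -64 := by
    intro c hc
    rw [hSdef, Finset.mem_insert, Finset.mem_singleton] at hc
    rcases hc with rfl | rfl
    · left; exact map_zero _
    · right; rw [map_neg, map_ofNat]
  have hS0 : ∃ c ∈ S, algebraMap (nfSub A K₀) K₀ c = 0 :=
    ⟨0, by rw [hSdef]; simp, map_zero _⟩
  have hS64 : ∃ c ∈ S, algebraMap (nfSub A K₀) K₀ c = -64 :=
    ⟨-64, by rw [hSdef]; simp, by rw [map_neg, map_ofNat]⟩
  have hunit : IsUnit ((L : ℕ) : nfSub A K₀) := ls_isUnit_natCast A K₀ hℓ hA L h3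
  -- the conjugate family and the key data for `fieldC`
  have hM0 : M ≠ 0 := fun h => hL (by rw [h] at hML; exact Nat.eq_zero_of_zero_dvd hML)
  obtain ⟨m, a, ha⟩ := exists_isRepFam hM0 H
  haveI : Algebra.IsAlgebraic ℚ K₀ := by
    have h : @Algebra.IsAlgebraic ℚ K₀ _ _ K₀.algebra' := Algebra.IsAlgebraic.of_finite ℚ K₀
    convert h
    · exact Subsingleton.elim _ _
  have hSc : ConjFamily (nfRes A K₀) (modularFunctionFieldFullC K₀ L) (fieldC K₀ L M H)
      (fun i => sS (nfSub A K₀) M H (a i)) :=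
    conjFamily_of_diamond stmtDiamondH (nfRes A K₀) L M H a hL hML ha
  have hfin₀ : FiniteDimensional
      K₀⟮(⟨coeffMap (algebraMap (nfSub A K₀) K₀)
        (coeffMap (Int.castRingHom (nfSub A K₀)) hm2Z), kd₀.t_mem⟩ :
        modularFunctionFieldFullC K₀ L)⟯ (modularFunctionFieldFullC K₀ L) :=
    bgFinH_finiteDimensional_full_hm2 K₀ L _ hEt
  have hfinF : FiniteDimensional
      K₀⟮(⟨coeffMap (algebraMap (nfSub A K₀) K₀)
        (coeffMap (Int.castRingHom (nfSub A K₀)) hm2Z),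
        hSc.le kd₀.t_mem⟩ : fieldC K₀ L M H)⟯ (fieldC K₀ L M H) := by
    obtain ⟨P, hPm, -, hP0⟩ := hSc.poly
    exact injH1_fin_of_gen (modularFunctionFieldFullC K₀ L) (fieldC K₀ L M H) hSc.le _ hSc.gen
      (injH1_isIntegral_of_eval₂ _ _ ⟨P, hPm, hP0⟩) _ kd₀.t_mem hfin₀
  have hteq : (⟨coeffMap (algebraMap (nfSub A K₀) K₀)
      (coeffMap (Int.castRingHom (nfSub A K₀)) hm2Z),
      hSc.le kd₀.t_mem⟩ : fieldC K₀ L M H) = hm2CH K₀ L M H h2 := Subtype.ext hEt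
  obtain ⟨n, x, kd, hx⟩ := k7frf_kdlift (A₀ := nfSub A K₀) (E := K₀)
    (k := IsLocalRing.ResidueField A)
    (nfRes A K₀) (modularFunctionFieldFullC K₀ L) (fieldC K₀ L M H) hπ hrπ hr kd₀ hord
    (fun i => sS (nfSub A K₀) M H (a i)) hSc
    (fun {_ _} => kd₀.tsGoodBasis hπ.ne_zero hπ.not_isUnit hr hrπ 3
      (by rw [hkt]; exact thetaFun_hm2_ne_zero _))
    hfinF S hdist L hunit hrootL
    (fun {_ _} => by
      rw [hteq]
      exact nfH_ram_h2line_self K₀ L M H hR h2 S hS01 hS0 hS64 L dvd_rfl)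
  -- conclusion
  refine k7frf_of_kd kd hπ.ne_zero hπ.not_isUnit hr (fieldC (IsLocalRing.ResidueField A) L M H)
    ?_ (k7frf_family_mem (nfRes A K₀) L M H hML (a 0) x₀ x hx₀ hx) Z hZ
  rw [hkt]
  have hle : (IsLocalRing.ResidueField A)⟮hm2 (IsLocalRing.ResidueField A)⟯ ≤
      fieldC (IsLocalRing.ResidueField A) L M H := by
    rw [hkeq]
    exact le_trans (UB.full_mono (IsLocalRing.ResidueField A) h2)
      (full_le_fieldC (IsLocalRing.ResidueField A) L M H)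
  exact hle (IntermediateField.mem_adjoin_simple_self _ _)

end Fermat.Agent.RT.K7F
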