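/-
K7F, FL-GAUSS, input (RedF_H), FINAL (helper65): `k7frf_redFHAll : StmtRedFHAll`.

`A ⊂ ℚ̄` a valuation ring over `p`, `(L, M, H, p)` a level of K7-FLAT.  If `Y ∈ A((q))` has image in
`F_H = fieldBar L M H`, its reduction `Ȳ ∈ k((q))` lies in `F̄_H = fieldC k L M H`.

Proof: `Y` is defined over a number field `K₀ ∋ ζ_{6L}` (`ES1.injdh_exists_descent_finset`), its
coefficients lie in the DVR `A ∩ K₀`, and the number-field form (`k7frf_nf_j` for `p ≥ 5`,
`k7frf_nf_h2` for `p = 3`, `2 ∣ L`) applies.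
-/
import Fermat.Agent.RT.K7F.RedFNF
import Fermat.Agent.RT.K7F.GaussH
import Fermat.Agent.RT.K7F.Plan
import Fermat.Agent.ES1.InjDescentH

set_option autoImplicit false
set_option linter.style.haveILetI false
set_option linter.unusedSectionVars false

noncomputable section

namespace Fermat.Agent.RT.K7F

open ModularCurve AlgebraicCurve Fermat.Agent.S24 Fermat.Agent.INJ Fermat.Agent.ES1
  Fermat.Agent.ES Fermat.Agent.ES.M

/-- **descent of (RedF_H)** to the number-field form. -/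
theorem k7frf_descent {L M : ℕ} {H : Subgroup (ZMod M)ˣ} (hL : L ≠ 0)
    (A : ValuationSubring NfQb)
    (hNF : ∀ (K₀ : IntermediateField ℚ NfQb), FiniteDimensional ℚ K₀ →
      (∃ ζ : K₀, IsPrimitiveRoot ζ (6 * L)) →
      ∀ Z : LaurentSeries (nfSub A K₀),
        coeffMap (algebraMap (nfSub A K₀) K₀) Z ∈ fieldC K₀ L M H →
        coeffMap (nfRes A K₀) Z ∈ fieldC (IsLocalRing.ResidueField A) L M H)
    (Y : LaurentSeries A) (hY : coeffMap A.subtype Y ∈ fieldBar L M H) :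
    coeffMap (IsLocalRing.residue A) Y ∈ fieldC (IsLocalRing.ResidueField A) L M H := by
  classical
  set y : LaurentSeries NfQb := coeffMap A.subtype Y with hy
  haveI : NeZero ((6 * L : ℕ) : ℚ) := ⟨by
    have : 6 * L ≠ 0 := by omega
    exact_mod_cast this⟩
  obtain ⟨ζN, hζN⟩ := HasEnoughRootsOfUnity.exists_primitiveRoot NfQb (6 * L)
  obtain ⟨K₀, hK₀, hS, hK⟩ := injdh_exists_descent_finset (L := L) (M := M) (H := H)
    ({ζN} : Finset NfQb) ({y} : Finset (LaurentSeries NfQb)) (by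
      intro y' hy'
      rw [Finset.mem_singleton] at hy'
      rw [hy']
      exact hY)
  have hζNK : ζN ∈ K₀ := hS ζN (by simp)
  obtain ⟨z, hz, hzy⟩ := hK K₀ le_rfl y (by simp)
  have hginj : Function.Injective (algebraMap K₀ NfQb) := (algebraMap K₀ NfQb).injective
  have hfinj : Function.Injective (algebraMap (nfSub A K₀) K₀) := Subtype.val_injective
  -- integrality of the coefficients
  have hmem : ∀ n, z.coeff n ∈ nfSub A K₀ := by
    intro n
    have h := congrArg (fun w => w.coeff n) hzy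
    simp only [coeffMap_coeff] at h
    show algebraMap K₀ NfQb (z.coeff n) ∈ A
    rw [h]
    exact (Y.coeff n).2
  obtain ⟨Z, hZ⟩ := injDesc_exists_coeffMap (algebraMap (nfSub A K₀) K₀) hfinj z
    (fun n => ⟨⟨z.coeff n, hmem n⟩, rfl⟩)
  have hZr : coeffMap (nfRes A K₀) Z = coeffMap (IsLocalRing.residue A) Y := by
    ext n
    rw [coeffMap_coeff, coeffMap_coeff, nfRes_apply]
    congr 1
    apply Subtype.ext
    rw [coe_nfSubIncl]
    have h1 := congrArg (fun w => w.coeff n) hZ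
    have h2 := congrArg (fun w => w.coeff n) hzy
    simp only [coeffMap_coeff] at h1 h2
    have h3 : ((Z.coeff n : nfSub A K₀) : K₀) = z.coeff n := h1
    rw [h3, h2]
    rfl
  rw [← hZr]
  refine hNF K₀ hK₀ ⟨⟨ζN, hζNK⟩, ?_⟩ Z (by rw [hZ]; exact hz)
  exact IsPrimitiveRoot.of_map_of_injective (f := algebraMap K₀ NfQb) hζN hginj

/-- **(RedF_H)** for `ℓ ∤ 6 L`. -/
theorem k7frf_ge5 {L M ℓ : ℕ} (H : Subgroup (ZMod M)ˣ) (hL : L ≠ 0) (hML : M ∣ L)
    (hℓ : ℓ.Prime) (hℓ6L : ¬ ℓ ∣ 6 * L) (A : ValuationSubring Kb) (hA : A.LiesOverPrime ℓ) :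
    K7fRedF L M H A := fun Y hY =>
  k7frf_descent hL A (fun K₀ hfin hζ Z hZ => k7frf_nf_j hL hML hℓ hℓ6L A hA K₀ hfin hζ Z hZ) Y hY

/-- **(RedF_H)** for `ℓ = 3`, `2 ∣ L`, `3 ∤ L`. -/
theorem k7frf_three {L M : ℕ} (H : Subgroup (ZMod M)ˣ) (hL : L ≠ 0) (hML : M ∣ L)
    (h2 : 2 ∣ L) (h3 : ¬ 3 ∣ L) (A : ValuationSubring Kb) (hA : A.LiesOverPrime 3) :
    K7fRedF L M H A := fun Y hY =>
  k7frf_descent hL A (fun K₀ hfin hζ Z hZ => k7frf_nf_h2 hL hML h2 h3 A hA K₀ hfin hζ Z hZ) Y hY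

/-- **(RedF_H)** for every odd prime `p ∤ L` with `p ≥ 5` or `2 ∣ L`. -/
theorem k7frf_main {L M p : ℕ} (H : Subgroup (ZMod M)ˣ) (hL : L ≠ 0) (hML : M ∣ L)
    (hp : p.Prime) (hp2 : p ≠ 2) (hpL : ¬ p ∣ L) (h5 : 5 ≤ p ∨ 2 ∣ L)
    (A : ValuationSubring Kb) (hA : A.LiesOverPrime p) : K7fRedF L M H A := by
  by_cases hp3 : p = 3
  · subst hp3
    rcases h5 with h5 | h5
    · omega
    · exact k7frf_three H hL hML h5 hpL A hA
  · refine k7frf_ge5 H hL hML hp ?_ A hA
    intro hd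
    rcases (Nat.Prime.dvd_mul hp).mp hd with h6 | hL'
    · have h6' : (6 : ℕ) = 2 * 3 := by norm_num
      rw [h6'] at h6
      rcases (Nat.Prime.dvd_mul hp).mp h6 with h | h
      · exact hp2 ((Nat.prime_dvd_prime_iff_eq hp Nat.prime_two).mp h)
      · exact hp3 ((Nat.prime_dvd_prime_iff_eq hp Nat.prime_three).mp h)
    · exact hpL hL'

/-- **FL-GAUSS / RedF_H** at all levels of K7-FLAT. -/
theorem k7frf_redFHAll : StmtRedFHAll := by
  intro L M H p hlev A hA
  have hL : L ≠ 0 := by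
    have := hlev.hL
    omega
  refine k7frf_main H hL hlev.hML hlev.hp hlev.hp2 hlev.hpL ?_ A hA
  rcases hlev.h5 with h | h
  · exact Or.inl h
  · by_cases h5 : 5 ≤ p
    · exact Or.inl h5
    · right
      have hp2 := hlev.hp.two_le
      have hp3 : p = 3 ∨ p = 4 := by
        have : p ≠ 2 := hlev.hp2
        omega
      rcases hp3 with rfl | rfl
      · simpa using h
      · exact absurd hlev.hp (by norm_num)

end Fermat.Agent.RT.K7F
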