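import Fermat.Agent.RT.K7F.ResSide
import Fermat.Agent.DEU.Ram
import Fermat.Agent.RED.ResField
import Fermat.Agent.ES.Kronecker
import Fermat.Agent.ES.M.Plan

/-!
# K7F / FL-RES, part 4: ramification of `j̄` on `F̄_H`, and the instances at `k = kA A`

* `k7fres_finite_ram` : `j̄` is unramified outside a finite set of places of `F̄_H`
  (fork of `DEU.deuRamInst_finite_resSideJ`; the residue half of FL-GOOD);
* `k7fres_kA_hresk`, `k7fres_kA_hpdk`, `k7fres_kA_finiteDimensionalJ`, `k7fres_kA_isSeparable`,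
  `k7fres_kA_finite_ram` : the statements for `k = kA A`, `A ⊂ ℚ̄` a valuation ring over `p`.
-/

set_option autoImplicit false
set_option linter.unusedSectionVars false
set_option linter.style.haveILetI false
set_option synthInstance.maxHeartbeats 400000
set_option maxHeartbeats 1600000

open ModularCurve AlgebraicCurve HahnSeries IntermediateField

namespace Fermat.Agent.RT.K7F

open Fermat.Agent.DEU Fermat.Agent.ES1 Fermat.Agent.ES Fermat.Agent.ES.M Fermat.Agent.S24

/-- **the residue half of FL-GOOD**: `j̄` is unramified outside a finite set of places of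
`F̄_H` (`k` algebraically closed of characteristic `p`). -/
theorem k7fres_finite_ram (k : Type*) [Field k] [IsAlgClosed k] (p : ℕ) [Fact p.Prime]
    [CharP k p] (L M : ℕ) (H : Subgroup (ZMod M)ˣ) (hL : L ≠ 0) (hML : M ∣ L) :
    {Q : Place k ↥(fieldC k L M H) |
      ¬ ∃ c : k, Q.ord (k7fresJ k L M H - algebraMap k ↥(fieldC k L M H) c) = 1}.Finite := by
  haveI : PerfectRing k p := inferInstance
  haveI := k7fres_finiteDimensionalJ k p L M H hL hML
  haveI := k7fres_isSeparable k p L M H hL hML
  haveI := k7fres_hasPrincipalDivisors k p L M H hL hML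
  exact deuRam_finite_of_separable
    (fun Q => (k7fres_residue_bijective k p L M H hL hML Q).2) (k7fresJ k L M H)

section KA

variable (L M : ℕ) (H : Subgroup (ZMod M)ˣ) (A : ValuationSubring Kb)

/-- the places of `F̄_H` over `kA A` have residue field `kA A` -/
theorem k7fres_kA_hresk {p : ℕ} (hp : p.Prime) (hA : A.LiesOverPrime p) (hL : L ≠ 0)
    (hML : M ∣ L) (v : Place (kA A) ↥(fieldC (kA A) L M H)) :
    Function.Bijective (algebraMap (kA A) v.ResidueField) :=
  haveI : IsAlgClosed (kA A) := Fermat.Agent.RED.isAlgClosed_residueField A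
  haveI : Fact p.Prime := ⟨hp⟩
  haveI : CharP (kA A) p := kron_charP_residueField hp hA
  k7fres_residue_bijective (kA A) p L M H hL hML v

/-- `F̄_H` over `kA A` has principal divisors -/
theorem k7fres_kA_hpdk {p : ℕ} (hp : p.Prime) (hA : A.LiesOverPrime p) (hL : L ≠ 0)
    (hML : M ∣ L) : HasPrincipalDivisors (kA A) ↥(fieldC (kA A) L M H) :=
  haveI : IsAlgClosed (kA A) := Fermat.Agent.RED.isAlgClosed_residueField A
  haveI : Fact p.Prime := ⟨hp⟩
  haveI : CharP (kA A) p := kron_charP_residueField hp hA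
  k7fres_hasPrincipalDivisors (kA A) p L M H hL hML

/-- `F̄_H / kA(j̄)` is finite -/
theorem k7fres_kA_finiteDimensionalJ {p : ℕ} (hp : p.Prime) (hA : A.LiesOverPrime p)
    (hL : L ≠ 0) (hML : M ∣ L) :
    FiniteDimensional (kA A)⟮k7fresJ (kA A) L M H⟯ ↥(fieldC (kA A) L M H) :=
  haveI : Fact p.Prime := ⟨hp⟩
  haveI : CharP (kA A) p := kron_charP_residueField hp hA
  k7fres_finiteDimensionalJ (kA A) p L M H hL hML

/-- `F̄_H / kA(j̄)` is separable -/
theorem k7fres_kA_isSeparable {p : ℕ} (hp : p.Prime) (hA : A.LiesOverPrime p)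
    (hL : L ≠ 0) (hML : M ∣ L) :
    Algebra.IsSeparable (kA A)⟮k7fresJ (kA A) L M H⟯ ↥(fieldC (kA A) L M H) :=
  haveI : IsAlgClosed (kA A) := Fermat.Agent.RED.isAlgClosed_residueField A
  haveI : Fact p.Prime := ⟨hp⟩
  haveI : CharP (kA A) p := kron_charP_residueField hp hA
  haveI : PerfectRing (kA A) p := inferInstance
  k7fres_isSeparable (kA A) p L M H hL hML

/-- every transcendental element of `F̄_H` over `kA A` is a `p`-power of a separating element -/
theorem k7fres_kA_hroot {p : ℕ} (hp : p.Prime) (hA : A.LiesOverPrime p)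
    (hL : L ≠ 0) (hML : M ∣ L) (y : ↥(fieldC (kA A) L M H)) (hy : Transcendental (kA A) y) :
    ∃ (e : ℕ) (z : ↥(fieldC (kA A) L M H)), z ^ (p ^ e) = y ∧
      ∀ w : LaurentSeries (kA A), w ^ p ≠ (z : LaurentSeries (kA A)) :=
  haveI : IsAlgClosed (kA A) := Fermat.Agent.RED.isAlgClosed_residueField A
  haveI : Fact p.Prime := ⟨hp⟩
  haveI : CharP (kA A) p := kron_charP_residueField hp hA
  haveI : PerfectRing (kA A) p := inferInstance
  k7fres_hroot (kA A) p L M H hL hML y hy

/-- `j̄` is unramified outside a finite set of places of `F̄_H` over `kA A` -/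
theorem k7fres_kA_finite_ram {p : ℕ} (hp : p.Prime) (hA : A.LiesOverPrime p)
    (hL : L ≠ 0) (hML : M ∣ L) :
    {Q : Place (kA A) ↥(fieldC (kA A) L M H) |
      ¬ ∃ c : kA A, Q.ord (k7fresJ (kA A) L M H -
        algebraMap (kA A) ↥(fieldC (kA A) L M H) c) = 1}.Finite :=
  haveI : IsAlgClosed (kA A) := Fermat.Agent.RED.isAlgClosed_residueField A
  haveI : Fact p.Prime := ⟨hp⟩
  haveI : CharP (kA A) p := kron_charP_residueField hp hA
  k7fres_finite_ram (kA A) p L M H hL hML

end KA

end Fermat.Agent.RT.K7F
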