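/-
RT-K7F / FL-NICE (helper86), concrete wiring: the inputs FL-RES (helper11), FL-GOOD (helper49) and
(RedF_H) (helper65) of `stmtModPRH_of` are on main.

* `k7fnice_res`  : `K7fniceRes L M H A`                    (FL-RES, `k7fres_kA_hresk/_hpdk`);
* `k7fnice_ram`  : `K7fniceRam L M H A hRedF`              (FL-GOOD, unconditional);
* `k7fnice_good` : `K7fniceGood L M H A hRedF`             (FL-GOOD + DEG, unconditional);
* `StmtAnchH`    : the anchor at all levels of K7-FLAT (FL-ANCH);
* `stmtModPRH_of_anch` : `StmtRiemannH → StmtBoundE → StmtDiamInt → StmtAnchH → StmtModPRH`;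
* `stmtModPRH_of_three` : `StmtRiemannH → StmtBoundE → StmtAnchH → StmtModPRH`
  (FL-DIAM `k7fd_diamInt`, helper40, is on main).
-/
import Fermat.Agent.RT.K7F.Nice
import Fermat.Agent.RT.K7F.GoodDeg
import Fermat.Agent.RT.K7F.ResRam
import Fermat.Agent.RT.K7F.RedFH
import Fermat.Agent.RT.K7F.DiamInt

set_option autoImplicit false
set_option linter.unusedSectionVars false
set_option linter.style.haveILetI false
set_option synthInstance.maxHeartbeats 400000
set_option maxHeartbeats 1600000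

open ModularCurve AlgebraicCurve HahnSeries Module

namespace Fermat.Agent.RT.K7F

open Fermat.Agent.ES Fermat.Agent.S24 Fermat.Agent.ES.M Fermat.Agent.W1 Fermat.Agent.PR
  Fermat.Agent.DEU Fermat.Agent.ES1 Fermat.Agent.ES1.G2 Fermat.Agent.ES.R

variable {L M : ℕ} {H : Subgroup (ZMod M)ˣ} {A : ValuationSubring Kb} {p : ℕ}

theorem k7fnice_level_ne_zero (hlev : K7FLevel L M H p) : L ≠ 0 :=
  fun h => by have := hlev.hL; omega

/-- **FL-RES** (helper11) in the form of the assembly -/
theorem k7fnice_res (hlev : K7FLevel L M H p) (hA : A.LiesOverPrime p) : K7fniceRes L M H A :=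
  ⟨fun v => k7fres_kA_hresk L M H A hlev.hp hA (k7fnice_level_ne_zero hlev) hlev.hML v,
    k7fres_kA_hpdk L M H A hlev.hp hA (k7fnice_level_ne_zero hlev) hlev.hML⟩

/-- the Gauss package is `IsPR` for every `r` with `r_* (div u) = div ū` -/
theorem k7fnice_isPR_of_div (hRedF : StmtRedFH L M H A)
    (r : Place Kb (fieldBar L M H) → Place (kA A) ↥(fieldC (kA A) L M H))
    (hdiv : ∀ u : k7fO L M H A, k7fRed L M H A hRedF u ≠ 0 →
      ∀ D : Divisor Kb (fieldBar L M H),
        (∀ P : Place Kb (fieldBar L M H), D P = P.ord (u : fieldBar L M H)) →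
        ∀ Q : Place (kA A) ↥(fieldC (kA A) L M H),
          Finsupp.mapDomain r D Q = Q.ord (k7fRed L M H A hRedF u)) :
    (k7fnicePRH L M H A hRedF r).IsPR where
  res_surjective := k7f_res_surjective A
  res_eq_zero_iff := k7f_res_eq_zero_iff A
  algebraMap_mem_iff := k7f_algebraMap_mem_iff L M H A
  red_surjective := k7f_red_surjective L M H A hRedF
  red_eq_zero_iff := k7f_red_eq_zero_iff L M H A hRedF
  red_algebraMap := k7f_red_algebraMap L M H A hRedF
  prim := k7f_prim L M H A hRedF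
  r_div := hdiv

/-- **FL-GOOD** (helper49), the field `good`, in the form of the assembly (unconditional) -/
theorem k7fnice_good (hlev : K7FLevel L M H p) (hA : A.LiesOverPrime p)
    (hRedF : StmtRedFH L M H A) : K7fniceGood L M H A hRedF := by
  intro r hdiv
  exact (k7fgdeg_good_ram_k7f L M H p A hlev hA hRedF (k7fnicePRH L M H A hRedF r)
    (k7fnice_isPR_of_div hRedF r hdiv) (fun _ => Iff.rfl) (fun _ _ => rfl)
    (es1hJ L M H) rfl).1

/-- **FL-GOOD** (helper49), the field `ram`, in the form of the assembly (unconditional) -/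
theorem k7fnice_ram (hlev : K7FLevel L M H p) (hA : A.LiesOverPrime p)
    (hRedF : StmtRedFH L M H A) : K7fniceRam L M H A hRedF := by
  intro ht
  haveI : NeZero L := ⟨k7fnice_level_ne_zero hlev⟩
  have hLk : ((L : ℕ) : kA A) ≠ 0 := redF_natCast_ne_zero L A p hlev.hp hlev.hpL hA
  haveI : IsAlgClosed (kA A) := Fermat.Agent.RED.isAlgClosed_residueField A
  haveI : Fact p.Prime := ⟨hlev.hp⟩
  haveI : CharP (kA A) p := kron_charP_residueField hlev.hp hA
  exact k7fgood_ram_of_ne (kA A) L M H p hLk (k7fRed L M H A hRedF ⟨es1hJ L M H, ht⟩)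
    (k7fgood_k7fRed A L M H hRedF (es1hJ L M H) rfl ht) (k7fgood_hfin_level L M H p A hlev hA)

/-- **FL-ANCH at all levels of K7-FLAT**: the cusps `∞` of `F_H`, `F̄_H` and the anchor
`red (L_H(m·P_∞)) ⊆ L̄_H(m·Q_∞)`. -/
def StmtAnchH : Prop :=
  ∀ (L M : ℕ) (H : Subgroup (ZMod M)ˣ) (p : ℕ) (hlev : K7FLevel L M H p)
    (A : ValuationSubring Kb) (hA : A.LiesOverPrime p),
    K7fniceAnch L M H A (k7frf_redFHAll L M H p hlev A hA)

/-- **FL-NICE**: `StmtModPRH` from FL-RH0, FL-RHp-A, FL-DIAM and FL-ANCH. -/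
theorem stmtModPRH_of_anch (hRH0 : StmtRiemannH) (hBE : StmtBoundE) (hDI : StmtDiamInt)
    (hAnch : StmtAnchH) : StmtModPRH :=
  stmtModPRH_of k7frf_redFHAll hRH0 hBE hDI (fun L M H p hlev A hA =>
    ⟨k7fnice_res hlev hA, hAnch L M H p hlev A hA, k7fnice_good hlev hA _,
      k7fnice_ram hlev hA _⟩)

/-- **FL-NICE**: `StmtModPRH` from FL-RH0, FL-RHp-A and FL-ANCH. -/
theorem stmtModPRH_of_three (hRH0 : StmtRiemannH) (hBE : StmtBoundE) (hAnch : StmtAnchH) :
    StmtModPRH :=
  stmtModPRH_of_anch hRH0 hBE k7fd_diamInt hAnch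

end Fermat.Agent.RT.K7F
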