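import Fermat.Agent.RT.K7F.AnchH
import Fermat.Agent.RT.K7F.AnchCusp
import Fermat.Agent.RT.K7F.DiamInt
import Fermat.Agent.RT.K7F.NiceFinal
import Fermat.Agent.ES.I2.Final
import Fermat.Agent.ES.I2aux.Glue
import Fermat.Agent.ES.M.RedF

/-!
# RT-K7F, piece FL-ANCH — the final statement

`k7fanch_niceAnch` : `K7fniceAnch L M H A hRedF` (the input of FL-NICE, `RT/K7F/Nice.lean`) at
every level of K7-FLAT, from Riemann's inequality for `F_H` (`StmtRiemannH`, FL-RH0) only:
the diamonds are Gauss-integral by `k7fd_diamInt` (FL-DIAM), `StmtI2 L A` is `ES.I2.stmtI2All`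
(`p ≥ 5`) resp. `stmtI2AuxAll` (`p = 3`, `2 ∣ L`).
-/

set_option autoImplicit false
set_option linter.unusedSectionVars false
set_option linter.style.haveILetI false
set_option synthInstance.maxHeartbeats 400000
set_option maxHeartbeats 1600000

noncomputable section

namespace Fermat.Agent.RT.K7F

open AlgebraicCurve ModularCurve
open Fermat.Agent.ES Fermat.Agent.ES.M Fermat.Agent.S24 Fermat.Agent.DEU Fermat.Agent.ES1
  Fermat.Agent.ES1.G2

/-- `StmtI2 L A` at the levels of K7-FLAT -/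
theorem k7fanch_stmtI2 {L M : ℕ} {H : Subgroup (ZMod M)ˣ} {p : ℕ} (hlev : K7FLevel L M H p)
    (A : ValuationSubring Kb) (hA : A.LiesOverPrime p) :
    haveI : NeZero L := ⟨by have := hlev.hL; omega⟩
    StmtI2 L A := by
  haveI : NeZero L := ⟨by have := hlev.hL; omega⟩
  rcases le_or_gt 5 p with h5 | h5
  · exact Fermat.Agent.ES.I2.stmtI2All L p hlev.hp h5 hlev.hpL A hA
  · exact Fermat.Agent.ES.I2aux.stmtI2AuxAll L p hlev.hp h5 hlev.hpL (hlev.h5.resolve_left (not_le.mpr h5)) A hA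

/-- **FL-ANCH at `(L, M, H, A)`**, from Riemann's inequality for `F_H` with any constant. -/
theorem k7fanch_niceAnch_of_riemann {L M : ℕ} {H : Subgroup (ZMod M)ˣ} {p : ℕ}
    (hlev : K7FLevel L M H p) (A : ValuationSubring Kb) (hA : A.LiesOverPrime p)
    (hRedF : StmtRedFH L M H A) (g : ℕ)
    (hriem : ∀ 𝔞 : Divisor Kb (fieldBar L M H),
      Divisor.degree 𝔞 + 1 - g ≤ (Module.finrank Kb ↥(riemannRochSpace 𝔞) : ℤ)) :
    K7fniceAnch L M H A hRedF := by
  have hL : L ≠ 0 := by have := hlev.hL; omega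
  haveI : NeZero L := ⟨hL⟩
  obtain ⟨Pinf, hinf, -⟩ := k7fanchc_exists_cuspH L M H
  obtain ⟨Qinf, hQ, -⟩ := k7fanchc_exists_cuspHk L M H A
  refine ⟨Pinf, Qinf, hinf, hQ, fun m => ?_⟩
  exact k7fanch_anchor hL hlev.hML hlev.hp hA (k7f_primAt L M H A) hRedF
    (stmtRedF L A p hlev.hp hlev.hpL hA) (k7feq_diamRed_of_stmt L M H A k7fd_diamInt hlev hA)
    (k7fanch_stmtI2 hlev A hA) g hriem
    (fun V hV => by
      haveI := hV
      exact (k7f_finrank_redSpace L M H A hRedF V).ge)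
    Pinf hinf Qinf hQ m

/-- **FL-ANCH**: the input `K7fniceAnch` of FL-NICE at every level of K7-FLAT. -/
theorem k7fanch_niceAnch (hRH : StmtRiemannH) {L M : ℕ} {H : Subgroup (ZMod M)ˣ} {p : ℕ}
    (hlev : K7FLevel L M H p) (A : ValuationSubring Kb) (hA : A.LiesOverPrime p)
    (hRedF : StmtRedFH L M H A) : K7fniceAnch L M H A hRedF := by
  have hL : L ≠ 0 := by have := hlev.hL; omega
  have hM : M ≠ 0 := fun h => hL (by
    have := hlev.hML
    rw [h] at this
    exact Nat.eq_zero_of_zero_dvd this)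
  obtain ⟨m, a, ha⟩ := exists_isRepFam hM H
  exact k7fanch_niceAnch_of_riemann hlev A hA hRedF (k7fGenus L (m + 1))
    (hRH L M H p hlev m a ha).2

/-- **FL-ANCH at all levels of K7-FLAT**, modulo FL-RH0. -/
theorem k7fanch_stmtAnchH (hRH : StmtRiemannH) : StmtAnchH :=
  fun _ _ _ _ hlev A hA => k7fanch_niceAnch hRH hlev A hA _

/-- **FL-NICE**: `StmtModPRH` from FL-RH0 and FL-RHp-A only. -/
theorem k7fanch_stmtModPRH_of_two (hRH0 : StmtRiemannH) (hBE : StmtBoundE) : StmtModPRH :=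
  stmtModPRH_of_three hRH0 hBE (k7fanch_stmtAnchH hRH0)

end Fermat.Agent.RT.K7F
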