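import Fermat.Agent.RT.K7F.AnchCore
import Fermat.Agent.DEU.Main1
import Fermat.Agent.S24.PrincipalDegree
import Fermat.Agent.S24.Transc

/-!
# RT-K7F, piece FL-ANCH — the generic anchor

`F ⊂ K((q))`, `Fb ⊂ k((q))` fields, `R : RedData K F k Fb` a constant reduction, `Pinf`, `Qinf`
places of `F`, `Fb`, the order function of `Qinf` being the `q`-order.

`k7fanchG R Pinf` : the reductions of the functions of `R.O` which are regular outside `Pinf`.

`k7fanch_anchor_gen` : if
* (h0) the elements of `Fb` integral over `k[k7fanchG]` of `q`-order `≥ 0` are constants,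
* (ord) the reduction of `f ∈ L(m·Pinf) ∩ O` has no coefficient below `-m`,
* some element of `k7fanchG` is not constant, and `Fb` has transcendence degree one,
then `R.redSpace (L(m·Pinf)) ≤ L(m·Qinf)`.
-/

set_option autoImplicit false
set_option synthInstance.maxHeartbeats 400000
set_option maxHeartbeats 1000000

noncomputable section

namespace Fermat.Agent.RT.K7F

open AlgebraicCurve Polynomial IntermediateField Fermat.Agent.DEU Fermat.Agent.S24

section Gen

variable {K k : Type*} [Field K] [Field k]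
  {F : IntermediateField K (LaurentSeries K)} {Fb : IntermediateField k (LaurentSeries k)}
  (R : RedData K F k Fb) (Pinf : Place K F) (Qinf : Place k Fb)

/-- the reductions of the functions of `R.O` which are regular outside `Pinf` -/
def k7fanchG : Set (LaurentSeries k) :=
  {w | ∃ f : R.O, (∀ P : Place K F, P ≠ Pinf → 0 ≤ P.ord (f : F)) ∧
    ((R.red f : Fb) : LaurentSeries k) = w}

theorem k7fanchG_le {w : LaurentSeries k} (hw : w ∈ k7fanchG R Pinf) : w ∈ Fb := by
  obtain ⟨f, -, rfl⟩ := hw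
  exact (R.red f).2

/-- a function of `L(m·Pinf)` is regular outside `Pinf` -/
theorem k7fanch_regular_of_mem {m : ℤ} {f : F}
    (hf : f ∈ riemannRochSpace (mulPlace Pinf m)) (P : Place K F) (hP : P ≠ Pinf) :
    0 ≤ P.ord f := by
  classical
  rw [mem_riemannRochSpace_iff] at hf
  rcases hf P with h | h
  · rw [h, Place.ord_zero]
  · rw [mulPlace, Finsupp.single_apply, if_neg (Ne.symm hP)] at h
    simpa using h

/-- `Fb` is algebraic over `k(w₀)` for every nonconstant `w₀`, if it is algebraic over `k(t)` for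
one `t` and the algebraic elements are constants -/
theorem k7fanch_halg (t : Fb) [Algebra.IsAlgebraic k⟮t⟯ Fb]
    (halgc : ∀ x : Fb, IsAlgebraic k x →
      (x : LaurentSeries k) ∈ Set.range (algebraMap k (LaurentSeries k)))
    (w₀ : LaurentSeries k) (hw₀E : w₀ ∈ Fb)
    (hw₀c : w₀ ∉ Set.range (algebraMap k (LaurentSeries k))) :
    Algebra.IsAlgebraic (IntermediateField.adjoin k {(⟨w₀, hw₀E⟩ : Fb)}) Fb := by
  have hw : Transcendental k (⟨w₀, hw₀E⟩ : Fb) := fun halg => hw₀c (halgc _ halg)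
  have ht : Transcendental k t := by
    intro halg
    -- then `Fb` is algebraic over `k`, so `w₀` is algebraic
    apply hw
    haveI : Algebra.IsAlgebraic k k⟮t⟯ :=
      (IntermediateField.isAlgebraic_adjoin_simple halg.isIntegral)
    exact (Algebra.IsAlgebraic.trans k k⟮t⟯ Fb).isAlgebraic _
  exact pd_isAlgebraic_adjoin_of_transcendental t ht _ hw

/-- **FL-ANCH, generic.** -/
theorem k7fanch_anchor_gen
    (hQ : ∀ x : Fb, x ≠ 0 → Qinf.ord x = (x : LaurentSeries k).order)
    (h0 : ∀ x ∈ Fb, IsIntegral (Algebra.adjoin k (k7fanchG R Pinf)) x → 0 ≤ x.order →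
      x ∈ Set.range (algebraMap k (LaurentSeries k)))
    (hord : ∀ (m : ℕ) (f : R.O), (f : F) ∈ riemannRochSpace (mulPlace Pinf (m : ℤ)) →
      ∀ j : ℤ, j < -(m : ℤ) → ((R.red f : Fb) : LaurentSeries k).coeff j = 0)
    (w₀ : LaurentSeries k) (hw₀ : w₀ ∈ k7fanchG R Pinf)
    (hw₀c : w₀ ∉ Set.range (algebraMap k (LaurentSeries k)))
    (t : Fb) [Algebra.IsAlgebraic k⟮t⟯ Fb]
    (halgc : ∀ x : Fb, IsAlgebraic k x →
      (x : LaurentSeries k) ∈ Set.range (algebraMap k (LaurentSeries k)))
    (m : ℕ) :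
    R.redSpace (riemannRochSpace (mulPlace Pinf (m : ℤ))) ≤
      riemannRochSpace (mulPlace Qinf (m : ℤ)) := by
  classical
  rintro _ ⟨f, hfV, rfl⟩
  have hw₀E : w₀ ∈ Fb := k7fanchG_le R Pinf hw₀
  have hmem : ((R.red f : Fb) : LaurentSeries k) ∈ k7fanchG R Pinf :=
    ⟨f, fun P hP => k7fanch_regular_of_mem Pinf hfV P hP, rfl⟩
  rw [mem_riemannRochSpace_iff]
  intro v
  by_cases h0' : R.red f = 0
  · exact Or.inl h0'
  right
  by_cases hv : v = Qinf
  · rw [hv, mulPlace, Finsupp.single_apply, if_pos rfl, hQ _ h0']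
    by_contra hlt
    push Not at hlt
    have h0'' : ((R.red f : Fb) : LaurentSeries k) ≠ 0 := fun h => h0' (Subtype.ext h)
    exact h0'' (HahnSeries.coeff_order_eq_zero.1 (hord m f hfV _ hlt))
  · rw [mulPlace, Finsupp.single_apply, if_neg (Ne.symm hv), neg_zero]
    have hint : IsIntegral (Algebra.adjoin k (k7fanchG R Pinf))
        ((R.red f : Fb) : LaurentSeries k) :=
      isIntegral_algebraMap (R := Algebra.adjoin k (k7fanchG R Pinf))
        (x := ⟨_, Algebra.subset_adjoin hmem⟩)
    exact deuAnchor_regular Qinf hQ (Algebra.adjoin k (k7fanchG R Pinf)) h0 w₀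
      (Algebra.subset_adjoin hw₀) hw₀E (k7fanch_halg t halgc w₀ hw₀E hw₀c) _ (R.red f).2 hint v hv

/-- **a nonconstant element of `k7fanchG`** (Riemann + Q2) -/
theorem k7fanch_exists_w0
    (hresF : ∀ v : Place K F, Function.Bijective (algebraMap K v.ResidueField))
    (g : ℕ)
    (hriem : ∀ 𝔞 : Divisor K F,
      Divisor.degree 𝔞 + 1 - g ≤ (Module.finrank K ↥(riemannRochSpace 𝔞) : ℤ))
    (hfin : ∀ 𝔞 : Divisor K F, Module.Finite K ↥(riemannRochSpace 𝔞))
    (hq2 : ∀ V : Submodule K F, Module.Finite K V →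
      Module.finrank K V ≤ Module.finrank k ↥(R.redSpace V)) :
    ∃ w₀ ∈ k7fanchG R Pinf, w₀ ∉ Set.range (algebraMap k (LaurentSeries k)) := by
  classical
  set D : Divisor K F := mulPlace Pinf ((g + 1 : ℕ) : ℤ) with hD
  have hDdeg : Divisor.degree D = (g : ℤ) + 1 := by
    rw [hD, degree_mulPlace hresF]
    push_cast
    ring
  have h2 : 2 ≤ Module.finrank K ↥(riemannRochSpace D) := by
    have := hriem D
    rw [hDdeg] at this
    have h3 : (2 : ℤ) ≤ (Module.finrank K ↥(riemannRochSpace D) : ℤ) := by linarith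
    exact_mod_cast h3
  have h3 : 2 ≤ Module.finrank k ↥(R.redSpace (riemannRochSpace D)) :=
    h2.trans (hq2 _ (hfin D))
  by_contra hno
  push Not at hno
  -- then `redSpace ≤ span {1}`
  have hle : R.redSpace (riemannRochSpace D) ≤ Submodule.span k {(1 : Fb)} := by
    rintro _ ⟨f, hfV, rfl⟩
    have hmem : ((R.red f : Fb) : LaurentSeries k) ∈ k7fanchG R Pinf :=
      ⟨f, fun P hP => k7fanch_regular_of_mem Pinf hfV P hP, rfl⟩
    obtain ⟨c, hc⟩ := hno _ hmem
    rw [Submodule.mem_span_singleton]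
    refine ⟨c, ?_⟩
    apply Subtype.ext
    rw [← hc, Algebra.smul_def, mul_one]
    rfl
  have h4 : Module.finrank k ↥(R.redSpace (riemannRochSpace D)) ≤ 1 := by
    refine (Submodule.finrank_mono hle).trans ?_
    exact (finrank_span_le_card ({(1 : Fb)} : Set Fb)).trans (by simp)
  omega

end Gen

end Fermat.Agent.RT.K7F
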