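/-
K7F, FL-ANCH, sub-piece AnchRed0 (helper65, for helper8): the Gauss reduction of `F_H`
restricted to `F₀ = FF L` lands in `F̄₀ = modularFunctionFieldFullC k L`.

* `k7fanchr_rel_mem` : GENERIC: `F₀ ≤ F ⊂ ℚ̄((q))`, (PRIM) for `F₀` and `F`, (RedF) for
  `(F₀, Fk₀)`; if `x ∈ F` lies in `F₀` and `k7fgRel A F x v`, then `v ∈ Fk₀`.
* `k7fanchr_red_mem_full` : the statement for `(k7fgData A F_H F̄_H hprim hRedF).red`.
* `k7fanchr_red_mem_full'` : the same for `k7fRed` (`RT/K7F/GaussH.lean`).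
-/
import Fermat.Agent.RT.K7F.GaussH
import Fermat.Agent.RT.K7F.Plan
import Fermat.Agent.DEU.Inst
import Fermat.Agent.ES1.DescentLevelH

set_option autoImplicit false
set_option linter.unusedSectionVars false
set_option synthInstance.maxHeartbeats 400000
set_option maxHeartbeats 1000000

noncomputable section

namespace Fermat.Agent.RT.K7F

open ModularCurve AlgebraicCurve HahnSeries Fermat.Agent.ES Fermat.Agent.S24 Fermat.Agent.ES.M
  Fermat.Agent.DEU Fermat.Agent.ES1 Fermat.Agent.ES1.G2 Fermat.Agent.ES.G2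

section Generic

variable (A : ValuationSubring Kb) (F₀ F : IntermediateField Kb (LaurentSeries Kb))
  (Fk₀ : IntermediateField (kA A) (LaurentSeries (kA A)))

/-- **the Gauss reduction of `F` restricted to `F₀` lands in `Fk₀`** -/
theorem k7fanchr_rel_mem (hle : F₀ ≤ F) (hprim₀ : PrimAt A F₀) (hprim : PrimAt A F)
    (hRedF₀ : ∀ Y : LaurentSeries A, kronIncl A Y ∈ F₀ → kronRed A Y ∈ Fk₀)
    {x : F} (hx : (x : LaurentSeries Kb) ∈ F₀) {v : LaurentSeries (kA A)}
    (h : k7fgRel A F x v) : v ∈ Fk₀ := by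
  rcases eq_or_ne x 0 with rfl | hx0
  · rw [k7fgRel_unique A F h (k7fgRel_zero A F)]
    exact zero_mem _
  have hx₀ : (⟨(x : LaurentSeries Kb), hx⟩ : F₀) ≠ 0 := by
    intro h0
    apply hx0
    apply Subtype.ext
    have h1 := congrArg (Subtype.val : ↥F₀ → LaurentSeries Kb) h0
    exact h1
  obtain ⟨c, hc, w, hw0, hcw⟩ := k7fg_exists_scale A F₀ hprim₀ ⟨(x : LaurentSeries Kb), hx⟩ hx₀
  have hwk : w ∈ Fk₀ := k7fgRel_mem A F₀ Fk₀ hRedF₀ hcw
  -- the relation in `F`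
  have hcw' : k7fgRel A F (algebraMap Kb F c * x) w := by
    obtain ⟨Y₁, Y₂, hY₁m, hY₂m, hY₂, hxY, hwY⟩ := hcw
    refine ⟨Y₁, Y₂, hle hY₁m, hle hY₂m, hY₂, ?_, hwY⟩
    have e1 : ((algebraMap Kb F c * x : F) : LaurentSeries Kb)
        = algebraMap Kb (LaurentSeries Kb) c * (x : LaurentSeries Kb) := rfl
    have e2 : ((algebraMap Kb F₀ c * ⟨(x : LaurentSeries Kb), hx⟩ : F₀) : LaurentSeries Kb)
        = algebraMap Kb (LaurentSeries Kb) c * (x : LaurentSeries Kb) := rfl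
    rw [e1, ← e2]
    exact hxY
  -- `c⁻¹` is Gauss-integral
  have hinv := k7fgRel_inv A F hcw' hw0
  have hmul := k7fgRel_mul A F h hinv
  have hconst : x * (algebraMap Kb F c * x)⁻¹ = algebraMap Kb F c⁻¹ := by
    have hcF : algebraMap Kb F c ≠ 0 := by
      rw [Ne, map_eq_zero_iff _ (algebraMap Kb F).injective]
      exact hc
    rw [map_inv₀]
    field_simp
  rw [hconst] at hmul
  have hcA : c⁻¹ ∈ A := (k7fg_algebraMap_mem_iff A F hprim c⁻¹).1 ⟨_, hmul⟩
  have hconst' := k7fgRel_const A F (⟨c⁻¹, hcA⟩ : A)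
  have huniq := k7fgRel_unique A F hmul hconst'
  have hv : v = HahnSeries.C (IsLocalRing.residue A (⟨c⁻¹, hcA⟩ : A)) * w := by
    rw [← huniq, mul_assoc, inv_mul_cancel₀ hw0, mul_one]
  rw [hv]
  refine mul_mem ?_ hwk
  rw [← algebraMap_eq_hahnC]
  exact Fk₀.algebraMap_mem _

end Generic

section Concrete

variable (L M : ℕ) [NeZero L] (H : Subgroup (ZMod M)ˣ) (A : ValuationSubring Kb)

/-- **`red (O_H ∩ F₀) ⊂ F̄₀`**, relation form. -/
theorem k7fanchr_rel_mem_full (hRedF₀ : ES.M.StmtRedF L A)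
    {x : fieldBar L M H} (hx : (x : LaurentSeries Kb) ∈ modularFunctionFieldBar L)
    {v : LaurentSeries (kA A)} (h : k7fgRel A (fieldBar L M H) x v) :
    v ∈ modularFunctionFieldFullC (kA A) L :=
  k7fanchr_rel_mem A (modularFunctionFieldBar L) (fieldBar L M H)
    (modularFunctionFieldFullC (kA A) L) (dlh_bar_le_fieldBar L M H) (deuInst_prim L A)
    (k7f_primAt L M H A) hRedF₀ hx h

/-- **`red (O_H ∩ F₀) ⊂ F̄₀`** for the reduction data `k7fgData`. -/
theorem k7fanchr_red_mem_full (hprim : PrimAt A (fieldBar L M H)) (hRedF : StmtRedFH L M H A)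
    (hRedF₀ : ES.M.StmtRedF L A)
    (f : (k7fgData A (fieldBar L M H) (fieldC (kA A) L M H) hprim hRedF).O)
    (hf : ((f : fieldBar L M H) : LaurentSeries Kb) ∈ modularFunctionFieldBar L) :
    (((k7fgData A (fieldBar L M H) (fieldC (kA A) L M H) hprim hRedF).red f :
      fieldC (kA A) L M H) : LaurentSeries (kA A)) ∈ modularFunctionFieldFullC (kA A) L := by
  refine k7fanchr_rel_mem_full L M H A hRedF₀ hf
    ((k7fgRed_iff A (fieldBar L M H) (fieldC (kA A) L M H) hRedF (f : fieldBar L M H) _).2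
      ⟨f.2, rfl⟩)

/-- **`red (O_H ∩ F₀) ⊂ F̄₀`** for `k7fRed`. -/
theorem k7fanchr_red_mem_full' (hRedF : K7fRedF L M H A) (hRedF₀ : ES.M.StmtRedF L A)
    (f : k7fO L M H A)
    (hf : ((f : fieldBar L M H) : LaurentSeries Kb) ∈ modularFunctionFieldBar L) :
    ((k7fRed L M H A hRedF f : fieldC (kA A) L M H) : LaurentSeries (kA A))
      ∈ modularFunctionFieldFullC (kA A) L := by
  refine k7fanchr_rel_mem_full L M H A hRedF₀ hf
    ((k7fRed_iff L M H A hRedF (f : fieldBar L M H) _).2 ⟨f.2, rfl⟩)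

end Concrete

end Fermat.Agent.RT.K7F
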