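import Fermat.Agent.RT.K7F.LR
import Fermat.Agent.RT.K7F.Plan

/-!
# RT / K7-FLAT, piece FL-LR (helper71): Lemma R for `F_H` in the language of `Plan.lean`

`k7flr_of_gaussIntH` : `x ∈ F_H` regular wherever `j` is, with `GaussIntH L M H A x`, has an
`A`-integral `q`-expansion.
-/

set_option autoImplicit false
set_option linter.unusedSectionVars false

noncomputable section

namespace Fermat.Agent.RT.K7F

open Fermat.Agent.ES Fermat.Agent.ES.M Fermat.Agent.S24 Fermat.Agent.ES1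
open ModularCurve AlgebraicCurve

variable {L M : ℕ} [NeZero L] {H : Subgroup (ZMod M)ˣ}

theorem k7flr_gaussInt_of_H {A : ValuationSubring Kb} {x : fieldBar L M H}
    (hG : GaussIntH L M H A x) : k7flrGaussInt L M H A x := by
  obtain ⟨w, Y₁, Y₂, -, -, hY₂, hfrac, -⟩ := hG
  exact ⟨Y₁, Y₂, hY₂, hfrac⟩

/-- **FL-LR**, with the Gauss norm of `Plan.lean`. -/
theorem k7flr_of_gaussIntH (hML : M ∣ L) {ℓ : ℕ} (hℓ : ℓ.Prime) (A : ValuationSubring Kb)
    (hA : A.LiesOverPrime ℓ) (x : fieldBar L M H)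
    (hx : ∀ P : Place Kb (fieldBar L M H), 0 ≤ P.ord (jFH L M H) → 0 ≤ P.ord x)
    (hG : GaussIntH L M H A x) : KronInt A (x : LaurentSeries Kb) :=
  stmtK7FLR L M H hML ℓ hℓ A hA x hx (k7flr_gaussInt_of_H hG)

/-- an `A`-integral `q`-expansion has Gauss norm `≤ 1` (converse direction, trivial) -/
theorem k7flr_gaussIntH_of_kronInt {A : ValuationSubring Kb} {x : fieldBar L M H}
    (hx : KronInt A (x : LaurentSeries Kb)) : k7flrGaussInt L M H A x := by
  obtain ⟨Y, hY⟩ := hx.exists_lift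
  refine ⟨Y, 1, ?_, ?_⟩
  · rw [map_one]
    exact one_ne_zero
  · rw [map_one, mul_one, hY]

end Fermat.Agent.RT.K7F
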