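import Fermat.Agent.RT.K7F.AnchConj
import Fermat.Agent.RT.K7F.LRPlan
import Fermat.Agent.RT.K7F.PlaceUp
import Fermat.Agent.RT.K7F.ResSide
import Fermat.Agent.RT.K7F.GaussH
import Fermat.Agent.RT.K7F.EqH
import Fermat.Agent.DEU.Anchor
import Fermat.Agent.ES1.DescentLevelH
import Fermat.Agent.ES1.ConjDeg
import Fermat.Agent.ES1.HFinal
import Fermat.Agent.RT.K7F.AnchRed0
import Fermat.Agent.RED.ResField

/-!
# RT-K7F, piece FL-ANCH — the anchor for `F_H = fieldBar L M H`

`k7fanch_anchor` : `R.redSpace (L_H(m·P_∞)) ≤ L̄_H(m·Q_∞)` for the Gauss reduction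
`R = k7fData L M H A hRedF`, from

* `hDR : K7feqDiamRed L M H A` (clause 3 of `StmtDiamInt`: the diamonds are Gauss-integral),
* `hI2 : StmtI2 L A` (good reduction of `X₀(L)`),
* `hred₀` : the Gauss reduction of `F_H` maps `F₀ = FF L` into `F̄₀`,
* Riemann's inequality for `F_H` (any constant `g`).
-/

set_option autoImplicit false
set_option linter.unusedSectionVars false
set_option linter.style.haveILetI false
set_option synthInstance.maxHeartbeats 400000
set_option maxHeartbeats 1600000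

noncomputable section

namespace Fermat.Agent.RT.K7F

open AlgebraicCurve Polynomial ModularCurve IntermediateField
open Fermat.Agent.ES Fermat.Agent.ES.M Fermat.Agent.S24 Fermat.Agent.DEU Fermat.Agent.ES1
  Fermat.Agent.ES1.G2

/-! ## 1. going up along an inclusion of intermediate fields -/

section Up

theorem k7fanch_place_over {k Ω : Type*} [Field k] [Field Ω] [Algebra k Ω] [CharZero k]
    {F₀ F : IntermediateField k Ω} (hle : F₀ ≤ F) (hfin : F₀.relfinrank F ≠ 0)
    (P : Place k F₀) :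
    ∃ (w : Place k F) (e : ℤ), 0 < e ∧
      ∀ (y : Ω) (hy : y ∈ F₀), w.ord (⟨y, hle hy⟩ : F) = e * P.ord (⟨y, hy⟩ : F₀) := by
  letI alg : Algebra F₀ F := (IntermediateField.inclusion hle).toRingHom.toAlgebra
  haveI htower : IsScalarTower k F₀ F := IsScalarTower.of_algebraMap_eq (fun _ => rfl)
  haveI hfd : FiniteDimensional F₀ F := Fermat.Agent.ES.G2.hdeg_finite_inclusion hle hfin
  haveI : CharZero F₀ := charZero_of_injective_algebraMap (algebraMap k F₀).injective
  haveI : Algebra.IsSeparable F₀ F := inferInstance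
  obtain ⟨w, hw⟩ := k7fpu_exists_place_over (F' := F) P
  refine ⟨w, (Place.ramificationIndex (F := F₀) w : ℤ), ?_, fun y hy => ?_⟩
  · exact_mod_cast Place.ramificationIndex_pos (F := F₀) w
  · have h := Place.ord_restrict (F := F₀) w ⟨y, hy⟩
    rw [hw] at h
    exact h

end Up

/-! ## 2. `A`-integrality of the conjugates -/

section Kron

variable {L M : ℕ} [NeZero L] {H : Subgroup (ZMod M)ˣ}

theorem k7fanch_order_jFH :
    ((jFH L M H : fieldBar L M H) : LaurentSeries Kb).order = -1 := order_jBar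

/-- a conjugate of a function regular outside `Pinf` is regular wherever `j` is -/
theorem k7fanch_polesAtCusps (Pinf : Place Kb (fieldBar L M H)) (hinf : IsCuspInftyH L M H Pinf)
    (σ : fieldBar L M H ≃ₐ[Kb] fieldBar L M H) (hσj : σ (jFH L M H) = jFH L M H)
    (Y : fieldBar L M H) (hY : ∀ P : Place Kb (fieldBar L M H), P ≠ Pinf → 0 ≤ P.ord Y)
    (P : Place Kb (fieldBar L M H)) (hP : 0 ≤ P.ord (jFH L M H)) : 0 ≤ P.ord (σ Y) := by
  refine k7fanch_regular_apply σ Pinf Y hY P (fun hPinf => ?_)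
  have h1 : P.ord (σ (jFH L M H)) = Pinf.ord (jFH L M H) := by
    rw [k7fanch_ord_apply, hPinf]
  have hj0 : jFH L M H ≠ 0 := by
    intro h
    have h2 := k7fanch_order_jFH (L := L) (M := M) (H := H)
    rw [h] at h2
    have h3 : ((0 : fieldBar L M H) : LaurentSeries Kb) = 0 := rfl
    rw [h3, HahnSeries.order_zero] at h2
    omega
  rw [hσj, hinf _ hj0, k7fanch_order_jFH] at h1
  omega

/-- **the conjugates have `A`-integral `q`-expansions** (FL-LR) -/
theorem k7fanch_kronInt (hML : M ∣ L) {ℓ : ℕ} (hℓ : ℓ.Prime) {A : ValuationSubring Kb}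
    (hA : A.LiesOverPrime ℓ) (Pinf : Place Kb (fieldBar L M H))
    (hinf : IsCuspInftyH L M H Pinf)
    (σ : fieldBar L M H ≃ₐ[Kb] fieldBar L M H) (hσj : σ (jFH L M H) = jFH L M H)
    (Y : fieldBar L M H) (hY : ∀ P : Place Kb (fieldBar L M H), P ≠ Pinf → 0 ≤ P.ord Y)
    (hG : k7fgInt A (fieldBar L M H) (σ Y)) :
    KronInt A ((σ Y : fieldBar L M H) : LaurentSeries Kb) :=
  k7flr_of_gaussIntH hML hℓ A hA (σ Y) (k7fanch_polesAtCusps Pinf hinf σ hσj Y hY) hG

end Kron

/-! ## 3. the symmetric functions are regular outside the cusp `∞` of `X₀(L)` -/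

section RegOut

variable {L M : ℕ} [NeZero L] [NeZero M] {H : Subgroup (ZMod M)ˣ}
  (δ : (ZMod M)ˣ → (fieldBar L M H ≃ₐ[Kb] fieldBar L M H))
  (hδ : ∀ c, IsDiamondH L M H c (δ c))

include hδ in
theorem k7fanch_regOut (hL : L ≠ 0) (hML : M ∣ L) (Pinf : Place Kb (fieldBar L M H))
    (hinf : IsCuspInftyH L M H Pinf)
    (Y : fieldBar L M H) (hY : ∀ P : Place Kb (fieldBar L M H), P ≠ Pinf → 0 ≤ P.ord Y)
    (n : ℕ) (a : LaurentSeries Kb) (ha : a ∈ modularFunctionFieldBar L)
    (haeq : a = (((∏ c, (X - C (δ c Y))).coeff n : fieldBar L M H) : LaurentSeries Kb)) :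
    RegOut L ⟨a, ha⟩ := by
  classical
  intro P hP
  have hle := dlh_bar_le_fieldBar L M H
  obtain ⟨d, hd0, hd⟩ := stmtRelDegH_of_diamond stmtDiamondH M H
  have hfin : (modularFunctionFieldBar L).relfinrank (fieldBar L M H) ≠ 0 := by
    rw [hd L hL hML]; exact hd0
  obtain ⟨w, e, he, hw⟩ := k7fanch_place_over hle hfin P
  have h1 := hw a ha
  have h2 : 0 ≤ w.ord (⟨a, hle ha⟩ : fieldBar L M H) := by
    have h3 : (⟨a, hle ha⟩ : fieldBar L M H) = (∏ c, (X - C (δ c Y))).coeff n :=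
      Subtype.ext haeq
    rw [h3, deuAnchor_ord_nonneg_iff_mem]
    refine k7fanch_prod_coeff_mem w.toValuationSubring.toSubring _ (fun c => ?_) n
    show δ c Y ∈ w.toValuationSubring
    rw [← deuAnchor_ord_nonneg_iff_mem]
    refine k7fanch_regular_apply (δ c) Pinf Y hY w (fun hwP => hP ?_)
    -- `w = δ_c Pinf` lies over the cusp `∞` of `X₀(L)`
    have hgen : ∀ f : FF L, f ≠ 0 → e * P.ord f = (f : LaurentSeries Kb).order := by
      intro f hf
      have hf' : (⟨(f : LaurentSeries Kb), hle f.2⟩ : fieldBar L M H) ≠ 0 := by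
        intro h0
        have h00 : (f : LaurentSeries Kb) = 0 :=
          congrArg (fun z : fieldBar L M H => (z : LaurentSeries Kb)) h0
        exact hf (Subtype.ext h00)
      have h4 : w.ord (⟨(f : LaurentSeries Kb), hle f.2⟩ : fieldBar L M H) = e * P.ord f :=
        hw (f : LaurentSeries Kb) f.2
      have h5 := k7fanch_ord_apply (δ c) w (⟨(f : LaurentSeries Kb), hle f.2⟩ : fieldBar L M H)
      rw [k7fanch_diam_fix hL hML δ hδ c _ f.2, hwP, hinf _ hf'] at h5
      rw [← h4, h5]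
    have hj := hgen (jF L) (jF_ne_zero L)
    have hjo : ((jF L : FF L) : LaurentSeries Kb).order = -1 := order_jBar
    rw [hjo] at hj
    have he1 : e = 1 := by
      have hdvd : e ∣ 1 := ⟨-P.ord (jF L), by linarith⟩
      exact Int.eq_one_of_dvd_one he.le hdvd
    intro f hf
    have := hgen f hf
    rw [he1, one_mul] at this
    exact this
  rw [h1] at h2
  exact (mul_nonneg_iff_of_pos_left he).mp h2

end RegOut

/-! ## 4. the conjugates of the reductions -/

section Red

variable {L M : ℕ} [NeZero L] [NeZero M] {H : Subgroup (ZMod M)ˣ} {A : ValuationSubring Kb}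
  (hprim : PrimAt A (fieldBar L M H)) (hRedF : StmtRedFH L M H A)

/-- the Gauss reduction of `F_H` -/
abbrev k7fanchR : RedData Kb ↥(fieldBar L M H) (kA A) ↥(fieldC (kA A) L M H) :=
  k7fgData A (fieldBar L M H) (fieldC (kA A) L M H) hprim hRedF

/-- the reduction of a function with `A`-integral `q`-expansion: vanishing coefficients -/
theorem k7fanch_red_coeff (f : (k7fanchR hprim hRedF).O)
    (hK : KronInt A ((f : fieldBar L M H) : LaurentSeries Kb)) (n₀ : ℤ)
    (h0 : ∀ j : ℤ, j < n₀ → ((f : fieldBar L M H) : LaurentSeries Kb).coeff j = 0)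
    (j : ℤ) (hj : j < n₀) :
    (((k7fanchR hprim hRedF).red f : fieldC (kA A) L M H) : LaurentSeries (kA A)).coeff j
      = 0 := by
  obtain ⟨Z, hZ⟩ := hK.exists_lift
  rw [k7fanch_red_of_lift hprim hRedF f Z hZ]
  have h1 : Z.coeff j = 0 := by
    apply Subtype.ext
    have := h0 j hj
    rw [← hZ] at this
    exact this
  show IsLocalRing.residue A (Z.coeff j) = 0
  rw [h1, map_zero]

variable (Pinf : Place Kb (fieldBar L M H)) (hinf : IsCuspInftyH L M H Pinf)
  (hML : M ∣ L) {ℓ : ℕ} (hℓ : ℓ.Prime) (hA : A.LiesOverPrime ℓ)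

include hinf hML hℓ hA in
/-- **(ord)**: the reduction of `f ∈ L(m·Pinf) ∩ O` has no coefficient below `-m` -/
theorem k7fanch_hord (m : ℕ) (f : (k7fanchR hprim hRedF).O)
    (hf : (f : fieldBar L M H) ∈ riemannRochSpace (mulPlace Pinf (m : ℤ)))
    (j : ℤ) (hj : j < -(m : ℤ)) :
    (((k7fanchR hprim hRedF).red f : fieldC (kA A) L M H) : LaurentSeries (kA A)).coeff j
      = 0 := by
  classical
  have hreg := fun P hP => k7fanch_regular_of_mem Pinf hf P hP
  have hK : KronInt A ((f : fieldBar L M H) : LaurentSeries Kb) :=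
    k7fanch_kronInt hML hℓ hA Pinf hinf 1 rfl (f : fieldBar L M H) hreg f.2
  refine k7fanch_red_coeff hprim hRedF f hK (-(m : ℤ)) (fun i hi => ?_) j hj
  rcases eq_or_ne (f : fieldBar L M H) 0 with h0 | h0
  · rw [h0]; rfl
  · rw [mem_riemannRochSpace_iff] at hf
    rcases hf Pinf with h | h
    · exact absurd h h0
    · rw [mulPlace, Finsupp.single_apply, if_pos rfl, hinf _ h0] at h
      exact HahnSeries.coeff_eq_zero_of_lt_order (by omega)

variable (δ : (ZMod M)ˣ → (fieldBar L M H ≃ₐ[Kb] fieldBar L M H))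
  (hδ : ∀ c, IsDiamondH L M H c (δ c))
  (δb : (ZMod M)ˣ → (fieldC (kA A) L M H ≃ₐ[kA A] fieldC (kA A) L M H))
  (hcompat : ∀ c, K7feqCompat A (δ c) (δb c))

include hinf hML hℓ hA hδ hcompat in
/-- **(ps)**: if `δ_c` moves the cusp, the conjugates `δb_c (red Y)` are power series -/
theorem k7fanch_conj_ps (c : (ZMod M)ˣ) (hc : (δ c)⁻¹ • Pinf ≠ Pinf)
    (Y : (k7fanchR hprim hRedF).O)
    (hY : ∀ P : Place Kb (fieldBar L M H), P ≠ Pinf → 0 ≤ P.ord (Y : fieldBar L M H)) :
    k7fanchSigma δb c ((k7fanchR hprim hRedF).red Y) ∈ k7fanch_ps (kA A) := by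
  obtain ⟨h', h2⟩ := k7fanch_compat_mem hprim hRedF δ δb hcompat c Y
  have hK : KronInt A ((δ c (Y : fieldBar L M H) : fieldBar L M H) : LaurentSeries Kb) :=
    k7fanch_kronInt hML hℓ hA Pinf hinf (δ c) (k7fanch_diam_j δ hδ c) (Y : fieldBar L M H) hY h'
  rw [k7fanchSigma_apply, ← h2, k7fanch_mem_ps]
  refine k7fanch_red_coeff hprim hRedF ⟨δ c (Y : fieldBar L M H), h'⟩ hK 0 (fun j hj => ?_)
  rcases eq_or_ne (δ c (Y : fieldBar L M H)) 0 with h0 | h0
  · show ((δ c (Y : fieldBar L M H) : fieldBar L M H) : LaurentSeries Kb).coeff j = 0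
    rw [h0]; rfl
  · have h3 : 0 ≤ Pinf.ord (δ c (Y : fieldBar L M H)) :=
      k7fanch_regular_apply (δ c) Pinf (Y : fieldBar L M H) hY Pinf hc
    rw [hinf _ h0] at h3
    exact HahnSeries.coeff_eq_zero_of_lt_order (lt_of_lt_of_le hj h3)

include hinf hML hℓ hA hδ hcompat in
/-- **(int)**: the conjugates `δb_c (red Y)` are integral over `k[redR L A]` -/
theorem k7fanch_hG_int (hL : L ≠ 0) (Y : (k7fanchR hprim hRedF).O)
    (hY : ∀ P : Place Kb (fieldBar L M H), P ≠ Pinf → 0 ≤ P.ord (Y : fieldBar L M H))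
    (c : (ZMod M)ˣ) :
    IsIntegral (deuAnchorR0 L A) (k7fanchSigma δb c ((k7fanchR hprim hRedF).red Y)) := by
  classical
  have hK : ∀ c, KronInt A ((δ c (Y : fieldBar L M H) : fieldBar L M H) : LaurentSeries Kb) :=
    fun c => k7fanch_kronInt hML hℓ hA Pinf hinf (δ c) (k7fanch_diam_j δ hδ c)
      (Y : fieldBar L M H) hY (k7fanch_compat_mem hprim hRedF δ δb hcompat c Y).1
  choose Z hZ using fun c => (hK c).exists_lift
  refine k7fanch_conj_isIntegral hprim hRedF δ δb hcompat Y Z hZ (deuAnchorR0 L A)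
    (fun n => ?_) c
  apply Algebra.subset_adjoin
  have hcoe : kronIncl A ((∏ c, (X - C (Z c))).coeff n)
      = (((∏ c, (X - C (δ c (Y : fieldBar L M H)))).coeff n : fieldBar L M H) :
          LaurentSeries Kb) := by
    have h1 : (∏ c, (X - C (Z c))).map (kronIncl A)
        = (∏ c, (X - C (δ c (Y : fieldBar L M H)))).map
            (algebraMap (fieldBar L M H) (LaurentSeries Kb)) := by
      rw [Polynomial.map_prod, Polynomial.map_prod]
      refine Finset.prod_congr rfl fun c _ => ?_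
      rw [Polynomial.map_sub, Polynomial.map_X, Polynomial.map_C, Polynomial.map_sub,
        Polynomial.map_X, Polynomial.map_C, hZ c]
      rfl
    have h2 := congrArg (fun p => p.coeff n) h1
    simp only [Polynomial.coeff_map] at h2
    exact h2
  have hmemFF : kronIncl A ((∏ c, (X - C (Z c))).coeff n) ∈ modularFunctionFieldBar L := by
    rw [hcoe]
    exact k7fanch_mem_bar_of_fixed hL hML δ hδ _
      (fun c => k7fanch_coeff_fixed δ (k7fanch_diam_mul δ hδ) (Y : fieldBar L M H) c n)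
  exact ⟨_, hmemFF, k7fanch_regOut δ hδ hL hML Pinf hinf (Y : fieldBar L M H) hY n _ hmemFF hcoe,
    rfl⟩

end Red

/-! ## 5. the anchor -/

section Anchor

variable {L M : ℕ} [NeZero L] {H : Subgroup (ZMod M)ˣ} {A : ValuationSubring Kb}

/-- **FL-ANCH.**  `R.redSpace (L_H(m·P_∞)) ≤ L̄_H(m·Q_∞)`. -/
theorem k7fanch_anchor (hL : L ≠ 0) (hML : M ∣ L) {ℓ : ℕ} (hℓ : ℓ.Prime)
    (hA : A.LiesOverPrime ℓ) (hprim : PrimAt A (fieldBar L M H))
    (hRedF : StmtRedFH L M H A) (hRedF₀ : StmtRedF L A) (hDR : K7feqDiamRed L M H A)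
    (hI2 : StmtI2 L A) (g : ℕ)
    (hriem : ∀ 𝔞 : Divisor Kb (fieldBar L M H),
      Divisor.degree 𝔞 + 1 - g ≤ (Module.finrank Kb ↥(riemannRochSpace 𝔞) : ℤ))
    (hq2 : ∀ V : Submodule Kb (fieldBar L M H), Module.Finite Kb V →
      Module.finrank Kb V ≤ Module.finrank (kA A) ↥((k7fanchR hprim hRedF).redSpace V))
    (Pinf : Place Kb (fieldBar L M H)) (hinf : IsCuspInftyH L M H Pinf)
    (Qinf : Place (kA A) ↥(fieldC (kA A) L M H)) (hQ : IsCuspInftyHk L M H A Qinf) (m : ℕ) :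
    (k7fanchR hprim hRedF).redSpace (riemannRochSpace (mulPlace Pinf (m : ℤ))) ≤
      riemannRochSpace (mulPlace Qinf (m : ℤ)) := by
  classical
  haveI : NeZero M := ⟨fun h => hL (by rw [h] at hML; exact Nat.eq_zero_of_zero_dvd hML)⟩
  choose δ hδ using fun c => k7f_diamondBar L M H hL hML c
  choose δb hδb using fun c => hDR c (δ c) (hδ c)
  have hcompat : ∀ c, K7feqCompat A (δ c) (δb c) := fun c x y hxy =>
    hδb c x (y : LaurentSeries (kA A)) y.2 hxy
  have hsurj : Function.Surjective (k7fanchR hprim hRedF).red :=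
    k7fgRed_surjective A (fieldBar L M H) (fieldC (kA A) L M H) hRedF
      (divisorExpansionsC (kA A) L ∪ diamondExpansionsC (kA A) L M H) rfl
      (fun _ hw => k7f_gen_rel L M H A hw)
  have hid : ∀ c, δ c = 1 → ∀ x : fieldC (kA A) L M H,
      k7fanchSigma δb c x = (x : LaurentSeries (kA A)) := fun c hc x => by
    rw [k7fanchSigma_apply, k7fanch_db_eq_self hprim hRedF δ δb hcompat hsurj hc]
  haveI : IsAlgClosed (kA A) := Fermat.Agent.RED.isAlgClosed_residueField A
  have halgc : ∀ x : fieldC (kA A) L M H, IsAlgebraic (kA A) x →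
      (x : LaurentSeries (kA A)) ∈ Set.range (algebraMap (kA A) (LaurentSeries (kA A))) := by
    intro x hx
    obtain ⟨c, hc⟩ := mem_range_algebraMap_of_isAlgebraic hx
    exact ⟨c, congrArg Subtype.val hc⟩
  have hG_int : ∀ y (hy : y ∈ k7fanchG (k7fanchR hprim hRedF) Pinf) (i : (ZMod M)ˣ),
      IsIntegral (deuAnchorR0 L A)
        (k7fanchSigma δb i ⟨y, k7fanchG_le (k7fanchR hprim hRedF) Pinf hy⟩) := by
    rintro y ⟨Y, hY, rfl⟩ i
    exact k7fanch_hG_int hprim hRedF Pinf hinf hML hℓ hA δ hδ δb hcompat hL Y hY i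
  have hG_ps : ∀ i : (ZMod M)ˣ,
      (∀ x : fieldC (kA A) L M H, k7fanchSigma δb i x = (x : LaurentSeries (kA A))) ∨
      ∀ y (hy : y ∈ k7fanchG (k7fanchR hprim hRedF) Pinf),
        k7fanchSigma δb i ⟨y, k7fanchG_le (k7fanchR hprim hRedF) Pinf hy⟩
          ∈ k7fanch_ps (kA A) := by
    intro i
    by_cases hi : InPM H 1 (i : ZMod M)
    · left
      exact hid i (k7fanch_diam_eq_one δ hδ hi)
    · right
      rintro y ⟨Y, hY, rfl⟩
      exact k7fanch_conj_ps hprim hRedF Pinf hinf hML hℓ hA δ hδ δb hcompat i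
        (k7fanch_diam_moves δ hδ hL hML Pinf hinf i hi) Y hY
  have h0 := k7fanch_h0 (fieldC (kA A) L M H) (modularFunctionFieldFullC (kA A) L)
    (k7fanchSigma δb) 1 (hid 1 (k7fanch_diam_one δ hδ))
    (k7fanch_hsym hprim hRedF δ δb hcompat (k7fanch_diam_mul δ hδ) (modularFunctionFieldBar L)
      (k7fanch_mem_bar_of_fixed hL hML δ hδ) (modularFunctionFieldFullC (kA A) L)
      (k7fanchr_red_mem_full L M H A hprim hRedF hRedF₀) hsurj)
    (deuAnchorR0 L A) (deuAnchor_h0 hI2) (k7fanchG (k7fanchR hprim hRedF) Pinf)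
    (fun y hy => k7fanchG_le (k7fanchR hprim hRedF) Pinf hy) hG_int hG_ps halgc
  have hresF := es1h_residue_bijective_all (H := H) hL hML
  haveI := es1h_hasPrincipalDivisors_all (H := H) hL hML
  obtain ⟨w₀, hw₀, hw₀c⟩ := k7fanch_exists_w0 (k7fanchR hprim hRedF) Pinf hresF g hriem
    (fun 𝔞 => Fermat.Agent.ES.R.rr_finite Pinf hresF 𝔞) hq2
  haveI : Fact ℓ.Prime := ⟨hℓ⟩
  haveI : CharP (kA A) ℓ := kron_charP_residueField hℓ hA
  haveI := k7fres_finiteDimensionalJ (kA A) ℓ L M H hL hML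
  haveI : Algebra.IsAlgebraic (kA A)⟮k7fresJ (kA A) L M H⟯ ↥(fieldC (kA A) L M H) :=
    Algebra.IsAlgebraic.of_finite _ _
  exact k7fanch_anchor_gen (k7fanchR hprim hRedF) Pinf Qinf hQ h0
    (fun m f hf j hj => k7fanch_hord hprim hRedF Pinf hinf hML hℓ hA m f hf j hj)
    w₀ hw₀ hw₀c (k7fresJ (kA A) L M H) halgc m

end Anchor

end Fermat.Agent.RT.K7F
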