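import Fermat.Agent.RT.K7F.BoundAbs
import Fermat.Agent.RT.K7F.DiamGrpP
import Fermat.Agent.RT.K7F.PlaceEquiv
import Fermat.Agent.RT.K7F.AnchCusp
import Fermat.Agent.RT.K7F.ResRam
import Fermat.Agent.DEU.Anchor
import Fermat.Agent.DEU.ModHyp
import Fermat.Agent.ES.I2.Final
import Fermat.Agent.ES.I2aux.Glue
import Fermat.Agent.ES.LR.Final
import Fermat.Agent.ES.Riemann

/-!
# RT / K7-FLAT, FL-RHp-A: the instance `StmtBoundE`

`k = kA A`, `F̄_H = fieldC k L M H`, `F̄₀ = k7fdgF0 k L M H ≅ modularFunctionFieldFullC k L`,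
`P = k7fdgP` the `p`-group of reduced diamonds, `Q` the cusp `∞` of `F̄_H`, `E = Σ_{g ∈ P} g • Q`.

* `k7fbeIso`  : `↥(modularFunctionFieldFullC K L) ≃ₐ[K] ↥(k7fdgF0 K L M H)`;
* `k7fbe_stmtBoundE : StmtBoundE`.
-/

set_option autoImplicit false
set_option linter.style.haveILetI false
set_option linter.unusedSectionVars false
set_option synthInstance.maxHeartbeats 400000
set_option maxHeartbeats 1600000

noncomputable section

namespace Fermat.Agent.RT.K7F

open Polynomial ModularCurve IntermediateField AlgebraicCurve HahnSeries Module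
open Fermat.Agent.S24 Fermat.Agent.S28 Fermat.Agent.INJ Fermat.Agent.ES Fermat.Agent.ES1
  Fermat.Agent.ES.M Fermat.Agent.ES1.G2 Fermat.Agent.DEU

theorem k7fbe_restrict_eq (K : Type) [Field K] (L M : ℕ) (H : Subgroup (ZMod M)ˣ) :
    IntermediateField.restrict (full_le_fieldC K L M H) = k7fdgF0 K L M H := by
  ext x
  rw [IntermediateField.mem_restrict]
  exact mem_k7fdgF0.symm

/-- `F̄₀` as a subfield of `k((q))` and as a subfield of `F̄_H` -/
def k7fbeIso (K : Type) [Field K] (L M : ℕ) (H : Subgroup (ZMod M)ˣ) :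
    ↥(modularFunctionFieldFullC K L) ≃ₐ[K] ↥(k7fdgF0 K L M H) :=
  (IntermediateField.restrictAlgEquiv (full_le_fieldC K L M H)).trans
    (IntermediateField.equivOfEq (k7fbe_restrict_eq K L M H))

theorem k7fbeIso_coe (K : Type) [Field K] (L M : ℕ) (H : Subgroup (ZMod M)ˣ)
    (x : ↥(modularFunctionFieldFullC K L)) :
    (((k7fbeIso K L M H x : ↥(k7fdgF0 K L M H)) : fieldC K L M H) : LaurentSeries K) = x := by
  unfold k7fbeIso
  rw [AlgEquiv.trans_apply, IntermediateField.equivOfEq_apply]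
  rfl

theorem k7fbeIso_symm_coe (K : Type) [Field K] (L M : ℕ) (H : Subgroup (ZMod M)ˣ)
    (y : ↥(k7fdgF0 K L M H)) :
    (((k7fbeIso K L M H).symm y : ↥(modularFunctionFieldFullC K L)) : LaurentSeries K)
      = ((y : fieldC K L M H) : LaurentSeries K) := by
  have h := k7fbeIso_coe K L M H ((k7fbeIso K L M H).symm y)
  rw [AlgEquiv.apply_symm_apply] at h
  exact h.symm

/-- (I2) at level `Γ₀(L)` under `K7FLevel` -/
theorem k7fbe_stmtI2 {L M : ℕ} {H : Subgroup (ZMod M)ˣ} {p : ℕ} (hlev : K7FLevel L M H p)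
    (A : ValuationSubring Kb) (hA : A.LiesOverPrime p) [NeZero L] : StmtI2 L A := by
  by_cases h5 : 5 ≤ p
  · exact Fermat.Agent.ES.I2.stmtI2All L p hlev.hp h5 hlev.hpL A hA
  · exact Fermat.Agent.ES.I2aux.stmtI2AuxAll L p hlev.hp (not_le.mp h5) hlev.hpL (hlev.h5.resolve_left h5) A hA

/-- **FL-RHp-A (bound_E)**. -/
theorem k7fbe_stmtBoundE : StmtBoundE := by
  classical
  intro L M H p hlev A hA m a ha
  have hL := k7fd_level_L_ne_zero hlev
  haveI : NeZero L := ⟨hL⟩
  haveI : Fact p.Prime := ⟨hlev.hp⟩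
  haveI : CharP (kA A) p := kron_charP_residueField hlev.hp hA
  -- level `L`
  have hRedF0 : StmtRedF L A := stmtRedF L A p hlev.hp hlev.hpL hA
  haveI hpd0 : HasPrincipalDivisors (kA A) ↥(modularFunctionFieldFullC (kA A) L) :=
    modHyp_hpdk L A hlev.hp hA
  obtain ⟨-, Qinf, n₀, -, -, hQ, -, -, hbound⟩ := deuAnchor_main L A hRedF0
    (Fermat.Agent.ES.LR.stmtLRa L p hlev.hp A hA) (k7fbe_stmtI2 hlev A hA)
    (Fermat.Agent.ES.R.stmtR L)
  -- `F̄_H` and `F̄₀ ⊂ F̄_H`
  haveI hpd : HasPrincipalDivisors (kA A) ↥(fieldC (kA A) L M H) :=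
    k7fres_kA_hpdk L M H A hlev.hp hA hL hlev.hML
  have hres := k7fres_kA_hresk L M H A hlev.hp hA hL hlev.hML
  haveI hpdF0 : HasPrincipalDivisors (kA A) ↥(k7fdgF0 (kA A) L M H) :=
    k7fpe_hasPrincipalDivisors (k7fbeIso (kA A) L M H) hpd0
  have hres0 := k7fpe_res_all (k7fbeIso (kA A) L M H) (modHyp_hresk L A)
  obtain ⟨Q, hQc, -⟩ := k7fanchc_exists_cuspC L M H (kA A)
  -- the group
  haveI := k7fdgP_finite A hA hlev
  letI : Fintype (k7fdgP A hA hlev) := Fintype.ofFinite _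
  have hcard : Fintype.card (k7fdgP A hA hlev) = m + 1 := by
    rw [← Nat.card_eq_fintype_card]
    exact k7fdgP_card A hA hlev a ha
  -- the cusp is unramified
  have hunr : ∀ x : ↥(k7fdgF0 (kA A) L M H),
      Q.ord (x : fieldC (kA A) L M H) = (k7fpeMap (k7fbeIso (kA A) L M H) Qinf).ord x := by
    intro x
    by_cases hx : x = 0
    · subst hx
      simp
    · have hx1 : (x : fieldC (kA A) L M H) ≠ 0 := fun h => hx (Subtype.ext h)
      have hx2 : (k7fbeIso (kA A) L M H).symm x ≠ 0 := by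
        intro h
        apply hx
        have := congrArg (k7fbeIso (kA A) L M H) h
        rwa [AlgEquiv.apply_symm_apply, map_zero] at this
      rw [k7fpe_ord', hQ _ hx2, hQc _ hx1, k7fbeIso_symm_coe]
  have hRR : ∀ n : ℕ, n₀ ≤ n →
      (finrank (kA A) ↥(riemannRochSpace
        (Finsupp.single (k7fpeMap (k7fbeIso (kA A) L M H) Qinf) (n : ℤ))) : ℤ)
        ≤ n + 1 - (gN L : ℕ) := by
    intro n hn
    rw [k7fpe_finrank]
    have h := hbound n hn
    unfold mulPlace at h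
    linarith
  refine ⟨k7fbaE (k7fdgP A hA hlev).subtype Q, k7fba_E_nonneg _ Q, ?_, n₀, fun n hn => ?_⟩
  · rw [k7fba_degree_E _ Q (hres Q), hcard]
  · have h := k7fba_bound_genus p (k7fdgP_isPGroup A hA hlev) (k7fdgP A hA hlev).subtype
      Subtype.val_injective (k7fdgF0 (kA A) L M H)
      (fun f hf => k7fdgP_fixed A hA hlev f hf)
      (fun g x hx => k7fdgP_fix A hA hlev g x hx) hres hres0 Q
      (k7fpeMap (k7fbeIso (kA A) L M H) Qinf) hunr (gN L) n₀ hRR n hn
    rw [hcard] at h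
    exact h

end Fermat.Agent.RT.K7F
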