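import Fermat.Agent.RT.K7F.DiamNF
import Fermat.Agent.RT.K7F.Plan
import Fermat.Agent.ES1.InjDescentH
import Fermat.Agent.INJ.NFEmb

/-!
# RT / K7-FLAT, piece FL-DIAM, part 4: the integral representation over `ℚ̄`

`A ⊂ ℚ̄` a valuation ring over `p`, `K7FLevel L M H p`.
`k7fd_rep_bar` : every `Y ∈ A((q))` with image in `F_H = fieldBar L M H` satisfies
`D · Y = ∑_{i,l} C_{i,l} · X i · S^l`, `S = S_{M,H,1}`, with `D, C_{i,l}, X i ∈ A((q))` in
`F₀ = modularFunctionFieldBar L`, `D̄ ≠ 0`, and `Ȳ = 0 → C̄_{i,l} = 0`.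
(Descent to a number field containing the `6 L`-th roots of unity, then `k7fd_rep_field`.)
-/

set_option autoImplicit false
set_option linter.style.haveILetI false
set_option linter.unusedSectionVars false
set_option synthInstance.maxHeartbeats 400000
set_option maxHeartbeats 1600000

noncomputable section

namespace Fermat.Agent.RT.K7F

open Polynomial ModularCurve IntermediateField AlgebraicCurve HahnSeries
open Fermat.Agent.S24 Fermat.Agent.S28 Fermat.Agent.INJ Fermat.Agent.ES Fermat.Agent.ES1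
  Fermat.Agent.ES.M

/-- the conclusion of the representation theorem over `ℚ̄` -/
def K7fdRepBar (A : ValuationSubring Kb) (L M : ℕ) (H : Subgroup (ZMod M)ˣ) (m : ℕ)
    (Y : LaurentSeries A) : Prop :=
  ∃ (n : ℕ) (X : Fin n → LaurentSeries A) (D : LaurentSeries A)
    (C : Fin n × Fin (m + 1) → LaurentSeries A),
    (∀ i, kronIncl A (X i) ∈ modularFunctionFieldBar L) ∧
    kronIncl A D ∈ modularFunctionFieldBar L ∧
    (∀ j, kronIncl A (C j) ∈ modularFunctionFieldBar L) ∧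
    kronRed A D ≠ 0 ∧
    D * Y = ∑ j, C j * (X j.1 * sS A M H 1 ^ (j.2 : ℕ)) ∧
    (kronRed A Y = 0 → ∀ j, kronRed A (C j) = 0)

/-- descent of an `A`-integral series with coefficients in `K₀` -/
theorem k7fd_descend_int (A : ValuationSubring Kb) (K₀ : IntermediateField ℚ NfQb)
    (Y : LaurentSeries A) (z : LaurentSeries K₀)
    (hz : coeffMap (algebraMap K₀ NfQb) z = coeffMap A.subtype Y) :
    ∃ Z : LaurentSeries (nfSub A K₀), coeffMap (algebraMap (nfSub A K₀) K₀) Z = z ∧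
      coeffMap (nfSubIncl A K₀) Z = Y := by
  have hfinj : Function.Injective (algebraMap (nfSub A K₀) K₀) := Subtype.val_injective
  have hmem : ∀ n, z.coeff n ∈ nfSub A K₀ := by
    intro n
    have h := congrArg (fun w => w.coeff n) hz
    simp only [coeffMap_coeff] at h
    show algebraMap K₀ NfQb (z.coeff n) ∈ A
    rw [h]
    exact (Y.coeff n).2
  obtain ⟨Z, hZ⟩ := injDesc_exists_coeffMap (algebraMap (nfSub A K₀) K₀) hfinj z
    (fun n => ⟨⟨z.coeff n, hmem n⟩, rfl⟩)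
  refine ⟨Z, hZ, ?_⟩
  ext n
  rw [coeffMap_coeff, coe_nfSubIncl]
  have h1 := congrArg (fun w => w.coeff n) hZ
  have h2 := congrArg (fun w => w.coeff n) hz
  simp only [coeffMap_coeff] at h1 h2
  have h3 : ((Z.coeff n : nfSub A K₀) : K₀) = z.coeff n := h1
  rw [h3, h2]
  rfl

theorem k7fd_kronIncl_incl (A : ValuationSubring Kb) (K₀ : IntermediateField ℚ NfQb)
    (x : LaurentSeries (nfSub A K₀)) :
    kronIncl A (coeffMap (nfSubIncl A K₀) x) =
      coeffMap (algebraMap K₀ NfQb) (coeffMap (algebraMap (nfSub A K₀) K₀) x) := by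
  show coeffMap A.subtype (coeffMap (nfSubIncl A K₀) x) = _
  rw [coeffMap_coeffMap, coeffMap_coeffMap]
  rfl

theorem k7fd_kronRed_incl (A : ValuationSubring Kb) (K₀ : IntermediateField ℚ NfQb)
    (x : LaurentSeries (nfSub A K₀)) :
    kronRed A (coeffMap (nfSubIncl A K₀) x) = coeffMap (nfRes A K₀) x := by
  show coeffMap (IsLocalRing.residue A) (coeffMap (nfSubIncl A K₀) x) = _
  rw [coeffMap_coeffMap]
  rfl

/-- **The integral representation over `ℚ̄`.** -/
theorem k7fd_rep_bar (A : ValuationSubring Kb) {p : ℕ} (hA : A.LiesOverPrime p) {L M : ℕ}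
    (H : Subgroup (ZMod M)ˣ) (hlev : K7FLevel L M H p)
    {m : ℕ} (a : Fin (m + 1) → (ZMod M)ˣ) (ha : IsRepFam H a)
    (Y : LaurentSeries A) (hY : kronIncl A Y ∈ fieldBar L M H) :
    K7fdRepBar A L M H m Y := by
  classical
  have hL : L ≠ 0 := by have := hlev.hL; omega
  haveI : NeZero ((6 * L : ℕ) : ℚ) := ⟨by
    have : 6 * L ≠ 0 := by omega
    exact_mod_cast this⟩
  obtain ⟨ζN, hζN⟩ := HasEnoughRootsOfUnity.exists_primitiveRoot NfQb (6 * L)
  obtain ⟨K₀, hfin, hS, hK⟩ := injdh_exists_descent_finset (L := L) (M := M) (H := H)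
    ({ζN} : Finset NfQb) ({kronIncl A Y} : Finset (LaurentSeries NfQb)) (by
      intro y hy
      rw [Finset.mem_singleton] at hy
      rw [hy]
      exact hY)
  have hζNK : ζN ∈ K₀ := hS ζN (by simp)
  have hginj : Function.Injective (algebraMap K₀ NfQb) := (algebraMap K₀ NfQb).injective
  have hζ6L : ∃ ζ : K₀, IsPrimitiveRoot ζ (6 * L) :=
    ⟨⟨ζN, hζNK⟩, IsPrimitiveRoot.of_map_of_injective (f := algebraMap K₀ NfQb) hζN hginj⟩
  obtain ⟨z, hz, hzY⟩ := hK K₀ le_rfl (kronIncl A Y) (by simp)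
  obtain ⟨Z, hZ, hZY⟩ := k7fd_descend_int A K₀ Y z hzY
  obtain ⟨n, X, D, C, hX, hD, hC, hD0, hrel, hzero⟩ :=
    k7fd_rep_field A hlev.hp hA H hL hlev.hML hlev.hp2 hlev.hpL hlev.h5 a ha K₀ hfin hζ6L Z
      (by rw [hZ]; exact hz)
  refine ⟨n, fun i => coeffMap (nfSubIncl A K₀) (X i), coeffMap (nfSubIncl A K₀) D,
    fun j => coeffMap (nfSubIncl A K₀) (C j), ?_, ?_, ?_, ?_, ?_, ?_⟩
  · intro i
    rw [k7fd_kronIncl_incl]
    exact nf_coeffMap_mem_bar K₀ L (hX i)
  · rw [k7fd_kronIncl_incl]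
    exact nf_coeffMap_mem_bar K₀ L hD
  · intro j
    rw [k7fd_kronIncl_incl]
    exact nf_coeffMap_mem_bar K₀ L (hC j)
  · rw [k7fd_kronRed_incl]
    exact hD0
  · have h1 := congrArg (coeffMap (nfSubIncl A K₀)) hrel
    rw [map_mul, hZY, map_sum] at h1
    rw [h1]
    refine Finset.sum_congr rfl fun j _ => ?_
    rw [map_mul, map_mul, map_pow, es1f_coeffMap_sS]
  · intro hY0 j
    rw [k7fd_kronRed_incl]
    refine hzero ?_ j
    rw [← k7fd_kronRed_incl, hZY]
    exact hY0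

end Fermat.Agent.RT.K7F
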