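import Fermat.Agent.RT.K7F.DiamInt
import Fermat.Agent.ES1.ConjUse

/-!
# RT / K7-FLAT, piece FL-DIAM, part 7: the group of reduced diamonds

`k = kA A`, `F̄₀ = modularFunctionFieldFullC k L`, `F̄_H = fieldC k L M H`, `S̄ = sS k M H 1`.

* `k7fdg_red_rep` : the reduction of an integral series of `F_H` is `∑_{l ≤ m} γ_l S̄^l`,
  `γ_l ∈ F̄₀`;
* `k7fdg_poly`    : `S̄` is a root of a monic polynomial of degree `m + 1` over `F̄₀`;
* `k7fdg_gen`     : every element of `F̄_H` is `r(S̄)`, `r ∈ F̄₀[X]` of degree `≤ m`;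
* `k7fdgBar`, `k7fdgHom` : the reduced diamonds `δ̄_c`, a group homomorphism
  `(ℤ/M)ˣ →* Aut_k(F̄_H)`;
* `k7fdg_fixed`   : an element of `F̄_H` fixed by all `δ̄_c` lies in `F̄₀`;
* `k7fdg_diamInv : StmtDiamInv`;
* `k7fdg_package` : the `p`-group `P` of reduced diamonds with `φ : P →* Aut_k(F̄_H)`.
-/

set_option autoImplicit false
set_option linter.style.haveILetI false
set_option linter.unusedSectionVars false
set_option synthInstance.maxHeartbeats 400000
set_option maxHeartbeats 1600000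

noncomputable section

namespace Fermat.Agent.RT.K7F

open Polynomial ModularCurve IntermediateField AlgebraicCurve HahnSeries
open Fermat.Agent.S24 Fermat.Agent.S28 Fermat.Agent.INJ Fermat.Agent.ES Fermat.Agent.ES1
  Fermat.Agent.ES.M Fermat.Agent.ES1.G2

variable (A : ValuationSubring Kb) {p : ℕ} {L M : ℕ} {H : Subgroup (ZMod M)ˣ}

/-! ## Generation of `F̄_H` over `F̄₀` -/

/-- the reduction of an integral series of `F_H` is a combination of `1, S̄, …, S̄^m` with
coefficients in `F̄₀` -/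
theorem k7fdg_red_rep (hA : A.LiesOverPrime p) (hlev : K7FLevel L M H p) {m : ℕ}
    (a : Fin (m + 1) → (ZMod M)ˣ) (ha : IsRepFam H a) (Y : LaurentSeries A)
    (hY : kronIncl A Y ∈ fieldBar L M H) :
    ∃ γ : Fin (m + 1) → modularFunctionFieldFullC (kA A) L,
      kronRed A Y = ∑ l : Fin (m + 1), (γ l : LaurentSeries (kA A)) * sS (kA A) M H 1 ^ (l : ℕ) := by
  classical
  obtain ⟨n, X, D, C, hX, hD, hC, hD0, hrep, -⟩ := k7fd_rep_bar A hA H hlev a ha Y hY
  have hR := k7fd_redF0 A hA hlev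
  refine ⟨fun l => ⟨(kronRed A D)⁻¹ * ∑ i, kronRed A (C (i, l)) * kronRed A (X i),
    mul_mem (inv_mem (hR D hD)) (sum_mem fun i _ => mul_mem (hR _ (hC _)) (hR _ (hX i)))⟩, ?_⟩
  have h := congrArg (kronRed A) hrep
  rw [map_mul, map_sum, Fintype.sum_prod_type, Finset.sum_comm] at h
  have h2 : kronRed A Y = (kronRed A D)⁻¹ * (kronRed A D * kronRed A Y) := by
    rw [← mul_assoc, inv_mul_cancel₀ hD0, one_mul]
  rw [h2, h, Finset.mul_sum]
  refine Finset.sum_congr rfl fun l _ => ?_
  show _ = (kronRed A D)⁻¹ * (∑ i, kronRed A (C (i, l)) * kronRed A (X i)) *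
    sS (kA A) M H 1 ^ (l : ℕ)
  rw [Finset.mul_sum, Finset.mul_sum, Finset.sum_mul]
  refine Finset.sum_congr rfl fun i _ => ?_
  rw [map_mul, map_mul, map_pow, k7fd_red_S]
  ring

/-- `S̄` is a root of a monic polynomial of degree `m + 1` over `F̄₀` -/
theorem k7fdg_poly (hA : A.LiesOverPrime p) (hlev : K7FLevel L M H p) {m : ℕ}
    (a : Fin (m + 1) → (ZMod M)ˣ) (ha : IsRepFam H a) :
    ∃ P : Polynomial (modularFunctionFieldFullC (kA A) L), P.Monic ∧ P.natDegree = m + 1 ∧
      Polynomial.aeval (sS (kA A) M H 1) P = 0 := by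
  classical
  have hY : kronIncl A (sS A M H 1 ^ (m + 1)) ∈ fieldBar L M H := by
    rw [map_pow, k7fd_incl_S]
    exact pow_mem (k7fd_sS_mem_bar hlev.hML 1) _
  obtain ⟨γ, hγ⟩ := k7fdg_red_rep A hA hlev a ha _ hY
  rw [map_pow, k7fd_red_S] at hγ
  have hdeg : (∑ l : Fin (m + 1), Polynomial.C (γ l) * Polynomial.X ^ (l : ℕ)).degree
      < ((m + 1 : ℕ) : WithBot ℕ) := Polynomial.degree_sum_fin_lt γ
  refine ⟨Polynomial.X ^ (m + 1) - ∑ l : Fin (m + 1), Polynomial.C (γ l) * Polynomial.X ^ (l : ℕ),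
    Polynomial.monic_X_pow_sub hdeg, ?_, ?_⟩
  · apply Polynomial.natDegree_eq_of_degree_eq_some
    rw [Polynomial.degree_sub_eq_left_of_degree_lt, Polynomial.degree_X_pow]
    rw [Polynomial.degree_X_pow]
    exact hdeg
  · rw [map_sub, map_pow, Polynomial.aeval_X, map_sum, hγ, sub_eq_zero]
    refine Finset.sum_congr rfl fun l _ => ?_
    rw [map_mul, map_pow, Polynomial.aeval_X, Polynomial.aeval_C]
    rfl

/-- **generation**: every element of `F̄_H` is a polynomial of degree `≤ m` in `S̄` over `F̄₀` -/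
theorem k7fdg_gen (hA : A.LiesOverPrime p) (hlev : K7FLevel L M H p) {m : ℕ}
    (a : Fin (m + 1) → (ZMod M)ˣ) (ha : IsRepFam H a) (f : LaurentSeries (kA A))
    (hf : f ∈ fieldC (kA A) L M H) :
    ∃ r : Polynomial (modularFunctionFieldFullC (kA A) L), r.natDegree ≤ m ∧
      Polynomial.aeval (sS (kA A) M H 1) r = f := by
  classical
  obtain ⟨P, hPm, hPd, hP0⟩ := k7fdg_poly A hA hlev a ha
  have hint : IsIntegral (modularFunctionFieldFullC (kA A) L) (sS (kA A) M H 1) :=
    ⟨P, hPm, hP0⟩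
  set G : IntermediateField (modularFunctionFieldFullC (kA A) L) (LaurentSeries (kA A)) :=
    IntermediateField.adjoin (modularFunctionFieldFullC (kA A) L) {sS (kA A) M H 1} with hG
  have hsG : sS (kA A) M H 1 ∈ G :=
    IntermediateField.subset_adjoin _ _ (Set.mem_singleton _)
  have hFG : ∀ x : modularFunctionFieldFullC (kA A) L, (x : LaurentSeries (kA A)) ∈ G :=
    fun x => G.algebraMap_mem x
  have hle : fieldC (kA A) L M H ≤ G.restrictScalars (kA A) := by
    unfold fieldC
    rw [IntermediateField.adjoin_le_iff]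
    rintro w (⟨d, hd0, hd, rfl⟩ | ⟨e, he0, b, he, rfl⟩)
    · exact hFG ⟨_, jqModCd_mem_full (kA A) L hd⟩
    · have hYm : kronIncl A (k7fS M H A e b) ∈ fieldBar L M H := by
        rw [k7f_incl_S, es1f_fieldBar_eq]
        exact qExpand_sS_mem Kb L M H he b
      obtain ⟨γ, hγ⟩ := k7fdg_red_rep A hA hlev a ha _ hYm
      rw [k7f_red_S] at hγ
      show qExpand (kA A) e (sS (kA A) M H b) ∈ G
      rw [hγ]
      exact sum_mem fun l _ => mul_mem (hFG (γ l)) (pow_mem hsG _)
  have hfG : f ∈ G := hle hf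
  have hfA : f ∈ Algebra.adjoin (modularFunctionFieldFullC (kA A) L) {sS (kA A) M H 1} := by
    rw [← IntermediateField.adjoin_simple_toSubalgebra_of_isAlgebraic hint.isAlgebraic]
    exact hfG
  rw [Algebra.adjoin_singleton_eq_range_aeval] at hfA
  obtain ⟨g, hg⟩ := hfA
  refine ⟨g %ₘ P, ?_, ?_⟩
  · have hP1 : P ≠ 1 := by
      intro h
      rw [h, Polynomial.natDegree_one] at hPd
      omega
    have := Polynomial.natDegree_modByMonic_lt g hPm hP1
    omega
  · rw [Polynomial.aeval_modByMonic_eq_self_of_root hP0]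
    exact hg

/-! ## The reduced diamonds -/

/-- existence of the reduced diamond `δ̄_c` -/
theorem k7fdg_exists (hA : A.LiesOverPrime p) (hlev : K7FLevel L M H p) (c : (ZMod M)ˣ) :
    ∃ δb : fieldC (kA A) L M H ≃ₐ[kA A] fieldC (kA A) L M H,
      (∀ f : fieldC (kA A) L M H,
        (f : LaurentSeries (kA A)) ∈ modularFunctionFieldFullC (kA A) L → δb f = f) ∧
      (∀ (e : ℕ) [NeZero e] (b : (ZMod M)ˣ), e * M ∣ L → ∀ f : fieldC (kA A) L M H,
        (f : LaurentSeries (kA A)) = qExpand (kA A) e (sS (kA A) M H b) →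
          ((δb f : fieldC (kA A) L M H) : LaurentSeries (kA A))
            = qExpand (kA A) e (sS (kA A) M H (b * c))) := by
  obtain ⟨δ, hδ⟩ := k7f_diamondBar L M H (k7fd_level_L_ne_zero hlev) hlev.hML c
  obtain ⟨δb, h1, h2, -⟩ := k7fd_diamInt L M H p hlev A hA c δ hδ
  refine ⟨δb, h1, fun e _ b he f hf => ?_⟩
  have hfe : f = ⟨qExpand (kA A) e (sS (kA A) M H b), qExpand_sS_mem (kA A) L M H he b⟩ :=
    Subtype.ext hf
  rw [hfe]
  exact h2 e he b

/-- **the reduced diamond `δ̄_c`** -/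
def k7fdgBar (hA : A.LiesOverPrime p) (hlev : K7FLevel L M H p) (c : (ZMod M)ˣ) :
    fieldC (kA A) L M H ≃ₐ[kA A] fieldC (kA A) L M H :=
  Classical.choose (k7fdg_exists A hA hlev c)

theorem k7fdgBar_fix (hA : A.LiesOverPrime p) (hlev : K7FLevel L M H p) (c : (ZMod M)ˣ)
    (f : fieldC (kA A) L M H)
    (hf : (f : LaurentSeries (kA A)) ∈ modularFunctionFieldFullC (kA A) L) :
    k7fdgBar A hA hlev c f = f :=
  (Classical.choose_spec (k7fdg_exists A hA hlev c)).1 f hf

theorem k7fdgBar_act (hA : A.LiesOverPrime p) (hlev : K7FLevel L M H p) (c : (ZMod M)ˣ)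
    (e : ℕ) [NeZero e] (b : (ZMod M)ˣ) (he : e * M ∣ L) (f : fieldC (kA A) L M H)
    (hf : (f : LaurentSeries (kA A)) = qExpand (kA A) e (sS (kA A) M H b)) :
    ((k7fdgBar A hA hlev c f : fieldC (kA A) L M H) : LaurentSeries (kA A))
      = qExpand (kA A) e (sS (kA A) M H (b * c)) :=
  (Classical.choose_spec (k7fdg_exists A hA hlev c)).2 e b he f hf

/-- `δ̄_c S̄_1 = S̄_c` -/
theorem k7fdgBar_S (hA : A.LiesOverPrime p) (hlev : K7FLevel L M H p) (c : (ZMod M)ˣ) :
    ((k7fdgBar A hA hlev c ⟨sS (kA A) M H 1, k7fd_sS_mem_fieldC (kA A) hlev.hML 1⟩ :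
      fieldC (kA A) L M H) : LaurentSeries (kA A)) = sS (kA A) M H c := by
  have h := k7fdgBar_act A hA hlev c 1 1 (by rw [one_mul]; exact hlev.hML)
    ⟨sS (kA A) M H 1, k7fd_sS_mem_fieldC (kA A) hlev.hML 1⟩ (qExpand_one_apply _).symm
  rw [h, qExpand_one_apply, one_mul]

/-- a `K`-automorphism of `fieldC K L M H` is determined by its values on the generators -/
theorem k7fdg_algEquiv_ext (K : Type) [Field K] (σ τ : fieldC K L M H ≃ₐ[K] fieldC K L M H)
    (hj : ∀ f : fieldC K L M H, (f : LaurentSeries K) ∈ divisorExpansionsC K L → σ f = τ f)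
    (hs : ∀ f : fieldC K L M H, (f : LaurentSeries K) ∈ diamondExpansionsC K L M H →
      σ f = τ f) : σ = τ := by
  have key := diamb_ringHom_ext_adjoin (divisorExpansionsC K L ∪ diamondExpansionsC K L M H)
    (fieldC K L M H) rfl (σ : fieldC K L M H →+* fieldC K L M H)
    (τ : fieldC K L M H →+* fieldC K L M H)
    (fun a => (σ.commutes a).trans (τ.commutes a).symm)
    (fun x hx => hx.elim (hj x) (hs x))
  exact AlgEquiv.ext fun x => RingHom.congr_fun key x

/-- **the group homomorphism `c ↦ δ̄_c`** -/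
def k7fdgHom (hA : A.LiesOverPrime p) (hlev : K7FLevel L M H p) :
    (ZMod M)ˣ →* (fieldC (kA A) L M H ≃ₐ[kA A] fieldC (kA A) L M H) where
  toFun := k7fdgBar A hA hlev
  map_one' := by
    refine k7fdg_algEquiv_ext (kA A) _ _ (fun f hf => ?_) (fun f hf => ?_)
    · rw [AlgEquiv.one_apply]
      exact k7fdgBar_fix A hA hlev 1 f (IntermediateField.subset_adjoin _ _ hf)
    · obtain ⟨e, he0, b, he, hf⟩ := hf
      rw [AlgEquiv.one_apply]
      apply Subtype.ext
      rw [k7fdgBar_act A hA hlev 1 e b he f hf, mul_one]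
      exact hf.symm
  map_mul' := by
    intro c d
    refine k7fdg_algEquiv_ext (kA A) _ _ (fun f hf => ?_) (fun f hf => ?_)
    · have hf' : (f : LaurentSeries (kA A)) ∈ modularFunctionFieldFullC (kA A) L :=
        IntermediateField.subset_adjoin _ _ hf
      rw [AlgEquiv.mul_apply, k7fdgBar_fix A hA hlev d f hf', k7fdgBar_fix A hA hlev c f hf',
        k7fdgBar_fix A hA hlev (c * d) f hf']
    · obtain ⟨e, he0, b, he, hf⟩ := hf
      rw [AlgEquiv.mul_apply]
      apply Subtype.ext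
      rw [k7fdgBar_act A hA hlev (c * d) e b he f hf,
        k7fdgBar_act A hA hlev c e (b * d) he _ (k7fdgBar_act A hA hlev d e b he f hf),
        show b * d * c = b * (c * d) by rw [mul_assoc, mul_comm d c]]

theorem k7fdgHom_apply (hA : A.LiesOverPrime p) (hlev : K7FLevel L M H p) (c : (ZMod M)ˣ) :
    k7fdgHom A hA hlev c = k7fdgBar A hA hlev c := rfl

/-! ## The fixed field -/

/-- a ring homomorphism `ψ : F_H → E` which is the inclusion on `F₀` maps `r(s)` to `r(ψ s)` -/
theorem k7fdg_hom_aeval {K E : Type*} [Field K] [Field E] [Algebra K E]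
    (F₀ F : IntermediateField K E) (hle : F₀ ≤ F) (ψ : F →+* E)
    (hψ : ∀ x : F, (x : E) ∈ F₀ → ψ x = (x : E)) (s : F) (r : Polynomial F₀) (f : F)
    (hf : Polynomial.aeval (s : E) r = (f : E)) : ψ f = Polynomial.aeval (ψ s) r := by
  let ι : F₀ →+* F := (IntermediateField.inclusion hle).toRingHom
  have hval : F.val.toRingHom.comp ι = algebraMap F₀ E := RingHom.ext fun x => rfl
  have hf' : f = r.eval₂ ι s := by
    apply Subtype.ext
    have h := Polynomial.hom_eval₂ r ι F.val.toRingHom s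
    rw [hval] at h
    have h2 : ((r.eval₂ ι s : F) : E) = r.eval₂ (algebraMap F₀ E) (s : E) := h
    rw [h2, ← hf, Polynomial.aeval_def]
  have hψι : ψ.comp ι = algebraMap F₀ E := RingHom.ext fun x => hψ (ι x) x.2
  rw [hf', Polynomial.hom_eval₂, hψι, Polynomial.aeval_def]

/-- **the fixed field of the reduced diamonds is `F̄₀`** -/
theorem k7fdg_fixed (hA : A.LiesOverPrime p) (hlev : K7FLevel L M H p) {m : ℕ}
    (a : Fin (m + 1) → (ZMod M)ˣ) (ha : IsRepFam H a) (f : fieldC (kA A) L M H)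
    (hfix : ∀ i, k7fdgBar A hA hlev (a i) f = f) :
    (f : LaurentSeries (kA A)) ∈ modularFunctionFieldFullC (kA A) L := by
  classical
  obtain ⟨r, hrd, hr⟩ := k7fdg_gen A hA hlev a ha (f : LaurentSeries (kA A)) f.2
  have hev : ∀ i, Polynomial.aeval (sS (kA A) M H (a i)) r = (f : LaurentSeries (kA A)) := by
    intro i
    have h := k7fdg_hom_aeval (modularFunctionFieldFullC (kA A) L) (fieldC (kA A) L M H)
      (full_le_fieldC (kA A) L M H)
      ((fieldC (kA A) L M H).val.toRingHom.comp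
        (k7fdgBar A hA hlev (a i) : fieldC (kA A) L M H →+* fieldC (kA A) L M H))
      (fun x hx => congrArg Subtype.val (k7fdgBar_fix A hA hlev (a i) x hx))
      ⟨sS (kA A) M H 1, k7fd_sS_mem_fieldC (kA A) hlev.hML 1⟩ r f hr
    have h1 : ((fieldC (kA A) L M H).val.toRingHom.comp
        (k7fdgBar A hA hlev (a i) : fieldC (kA A) L M H →+* fieldC (kA A) L M H)) f
        = (f : LaurentSeries (kA A)) := congrArg Subtype.val (hfix i)
    have h2 : ((fieldC (kA A) L M H).val.toRingHom.comp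
        (k7fdgBar A hA hlev (a i) : fieldC (kA A) L M H →+* fieldC (kA A) L M H))
        ⟨sS (kA A) M H 1, k7fd_sS_mem_fieldC (kA A) hlev.hML 1⟩ = sS (kA A) M H (a i) :=
      k7fdgBar_S A hA hlev (a i)
    rw [h1, h2] at h
    exact h.symm
  set h : Polynomial (LaurentSeries (kA A)) :=
    r.map (algebraMap (modularFunctionFieldFullC (kA A) L) (LaurentSeries (kA A))) -
      Polynomial.C (f : LaurentSeries (kA A)) with hh
  have heval : ∀ i, h.eval (sS (kA A) M H (a i)) = 0 := by
    intro i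
    rw [hh, Polynomial.eval_sub, Polynomial.eval_map, Polynomial.eval_C, ← Polynomial.aeval_def,
      hev i, sub_self]
  have hdeg : h.natDegree < Fintype.card (Fin (m + 1)) := by
    rw [Fintype.card_fin]
    have h1 : h.natDegree ≤ max (r.map (algebraMap (modularFunctionFieldFullC (kA A) L)
        (LaurentSeries (kA A)))).natDegree (Polynomial.C (f : LaurentSeries (kA A))).natDegree :=
      Polynomial.natDegree_sub_le _ _
    have h2 := Polynomial.natDegree_map_le
      (f := algebraMap (modularFunctionFieldFullC (kA A) L) (LaurentSeries (kA A))) (p := r)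
    rw [Polynomial.natDegree_C] at h1
    omega
  have h0 : h = 0 := Polynomial.eq_zero_of_natDegree_lt_card_of_eval_eq_zero h
    (es1cu_sS_injective (kA A) (k7fd_level_M_ne_zero hlev) ha) heval hdeg
  have hc := congrArg (fun q : Polynomial (LaurentSeries (kA A)) => q.coeff 0) h0
  simp only [hh, Polynomial.coeff_sub, Polynomial.coeff_map, Polynomial.coeff_C_zero,
    Polynomial.coeff_zero] at hc
  have hfe : (f : LaurentSeries (kA A)) = ((r.coeff 0 : modularFunctionFieldFullC (kA A) L) :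
      LaurentSeries (kA A)) := (sub_eq_zero.mp hc).symm
  rw [hfe]
  exact (r.coeff 0).2

/-- **FL-DIAM, invariants**: an element of `F̄_H` fixed by all automorphisms over `F̄₀` lies in
`F̄₀`. -/
theorem k7fdg_diamInv : StmtDiamInv := by
  intro L M H p hlev A hA f hf
  obtain ⟨m, a, ha⟩ := exists_isRepFam (k7fd_level_M_ne_zero hlev) H
  exact k7fdg_fixed A hA hlev a ha f
    (fun i => hf _ (k7fdgBar_fix A hA hlev (a i)))

end Fermat.Agent.RT.K7F
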