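/-
K7F, FL-DIAM, invariants, GENERIC part (helper65): Galois theory for a field generated by the
roots of a separable polynomial.

`k7fdinv_generic` : `F₀ ≤ F` subfields of `K / k`, `F = F₀(s i)` with `s` injective, `s i ∈ F`,
and `∏ (X - s i) ∈ F₀[X]`.  Then an element of `F` fixed by every `k`-automorphism of `F` which is
the identity on `F₀` lies in `F₀`.
-/
import Mathlib

set_option autoImplicit false
set_option linter.unusedSectionVars false
set_option linter.style.haveILetI false

noncomputable section

namespace Fermat.Agent.RT.K7F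

open Polynomial IntermediateField

section Generic

variable {k K : Type*} [Field k] [Field K] [Algebra k K] (F₀ F : IntermediateField k K)

/-- **Galois invariants**: `F = F₀(s i)`, the `s i` pairwise different, `∏ (X - s i) ∈ F₀[X]`;
an element of `F` fixed by all `k`-automorphisms of `F` fixing `F₀` pointwise lies in `F₀`. -/
theorem k7fdinv_generic (hle : F₀ ≤ F) {ι : Type*} [Fintype ι] (s : ι → K)
    (hs : ∀ i, s i ∈ F) (hinj : Function.Injective s)
    (hcoef : ∀ n, (∏ i, (X - C (s i)) : K[X]).coeff n ∈ F₀)
    (hgen : F ≤ IntermediateField.adjoin k ((F₀ : Set K) ∪ Set.range s))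
    (f : F)
    (hfix : ∀ δ : F ≃ₐ[k] F, (∀ f₀ : F, (f₀ : K) ∈ F₀ → δ f₀ = f₀) → δ f = f) :
    (f : K) ∈ F₀ := by
  classical
  set Q : K[X] := ∏ i, (X - C (s i)) with hQ
  -- the polynomial over `F₀`
  have hlift : Q ∈ Polynomial.lifts (algebraMap F₀ K) :=
    (Polynomial.lifts_iff_coeff_lifts Q).2 fun n => ⟨⟨Q.coeff n, hcoef n⟩, rfl⟩
  obtain ⟨P, hP⟩ := (Polynomial.mem_lifts Q).1 hlift
  have hQ0 : Q ≠ 0 := Finset.prod_ne_zero_iff.mpr fun i _ => X_sub_C_ne_zero (s i)
  have hsplit : (P.map (algebraMap F₀ K)).Splits := by
    rw [hP, hQ]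
    exact Splits.prod fun i _ => Splits.X_sub_C (s i)
  have hsepQ : Q.Separable := separable_prod_X_sub_C_iff.2 hinj
  have hsep : P.Separable := by
    rw [← separable_map (algebraMap F₀ K), hP]
    exact hsepQ
  -- the roots
  have hroots : P.rootSet K = Set.range s := by
    ext x
    rw [mem_rootSet', hP, Set.mem_range]
    constructor
    · rintro ⟨-, hx⟩
      have h1 : Q.eval x = 0 := by
        rw [← hP, eval_map_algebraMap]
        exact hx
      rw [hQ, eval_prod, Finset.prod_eq_zero_iff] at h1
      obtain ⟨i, -, hi⟩ := h1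
      rw [eval_sub, eval_X, eval_C, sub_eq_zero] at hi
      exact ⟨i, hi.symm⟩
    · rintro ⟨i, rfl⟩
      refine ⟨hQ0, ?_⟩
      rw [← eval_map_algebraMap, hP, hQ, eval_prod]
      exact Finset.prod_eq_zero (Finset.mem_univ i) (by simp)
  -- the splitting field
  set E : IntermediateField F₀ K := IntermediateField.adjoin F₀ (P.rootSet K) with hE
  haveI hspl : P.IsSplittingField F₀ E := IntermediateField.adjoin_rootSet_isSplittingField hsplit
  haveI hgal : IsGalois F₀ E := IsGalois.of_separable_splitting_field hsep
  haveI hfd : FiniteDimensional F₀ E := Polynomial.IsSplittingField.finiteDimensional E P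
  -- `F` and `E` have the same elements
  have hcar : ∀ x : K, x ∈ F ↔ x ∈ E := by
    intro x
    have h1 : E.restrictScalars k = IntermediateField.adjoin k ((F₀ : Set K) ∪ Set.range s) := by
      rw [hE, IntermediateField.restrictScalars_adjoin, hroots]
    constructor
    · intro hx
      have h2 := hgen hx
      rw [← h1] at h2
      exact h2
    · intro hx
      have h2 : x ∈ E.restrictScalars k := hx
      rw [h1] at h2
      have h3 : IntermediateField.adjoin k ((F₀ : Set K) ∪ Set.range s) ≤ F := by
        rw [IntermediateField.adjoin_le_iff]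
        rintro y (hy | ⟨i, rfl⟩)
        · exact hle hy
        · exact hs i
      exact h3 h2
  -- the element
  have hfE : (f : K) ∈ E := (hcar _).1 f.2
  have hbot : (⟨(f : K), hfE⟩ : E) ∈ (⊥ : IntermediateField F₀ E) := by
    rw [IsGalois.mem_bot_iff_fixed]
    intro σ
    -- the automorphism of `F`
    let toF : E → F := fun y => ⟨(y : K), (hcar _).2 y.2⟩
    let toE : F → E := fun y => ⟨(y : K), (hcar _).1 y.2⟩
    have htoE_mul : ∀ x y : F, toE (x * y) = toE x * toE y := fun x y => rfl
    have htoE_add : ∀ x y : F, toE (x + y) = toE x + toE y := fun x y => rfl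
    have hEF : ∀ y : E, toE (toF y) = y := fun y => rfl
    have hFE : ∀ y : F, toF (toE y) = y := fun y => rfl
    let δ : F ≃ₐ[k] F :=
      { toFun := fun x => toF (σ (toE x))
        invFun := fun x => toF (σ.symm (toE x))
        left_inv := fun x => by
          show toF (σ.symm (toE (toF (σ (toE x))))) = x
          rw [hEF, AlgEquiv.symm_apply_apply, hFE]
        right_inv := fun x => by
          show toF (σ (toE (toF (σ.symm (toE x))))) = x
          rw [hEF, AlgEquiv.apply_symm_apply, hFE]
        map_mul' := fun x y => by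
          show toF (σ (toE (x * y))) = toF (σ (toE x)) * toF (σ (toE y))
          rw [htoE_mul, map_mul]
          rfl
        map_add' := fun x y => by
          show toF (σ (toE (x + y))) = toF (σ (toE x)) + toF (σ (toE y))
          rw [htoE_add, map_add]
          rfl
        commutes' := fun c => by
          show toF (σ (toE (algebraMap k F c))) = algebraMap k F c
          have h1 : toE (algebraMap k F c) = algebraMap F₀ E (algebraMap k F₀ c) := rfl
          rw [h1, σ.commutes]
          rfl }
    have hδ : ∀ f₀ : F, (f₀ : K) ∈ F₀ → δ f₀ = f₀ := by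
      intro f₀ hf₀
      show toF (σ (toE f₀)) = f₀
      have h1 : toE f₀ = algebraMap F₀ E ⟨(f₀ : K), hf₀⟩ := rfl
      rw [h1, σ.commutes]
      rfl
    have h2 := hfix δ hδ
    have h3 : toF (σ (toE f)) = f := h2
    have h4 := congrArg toE h3
    rw [hEF] at h4
    exact h4
  obtain ⟨y, hy⟩ := IntermediateField.mem_bot.1 hbot
  have h5 : ((algebraMap F₀ E y : E) : K) = (f : K) := congrArg Subtype.val hy
  have h6 : ((algebraMap F₀ E y : E) : K) = (y : K) := rfl
  rw [← h5, h6]
  exact y.2

end Generic

end Fermat.Agent.RT.K7F
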