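import Fermat.Agent.RT.K7F.DiamAsc
import Fermat.Agent.RT.K7F.GaussH
import Fermat.Agent.ES1.ConjDeg
import Fermat.Agent.ES1.G2.DiamBar
import Fermat.Agent.ES1.DescentLevelH

/-!
# RT / K7-FLAT, piece FL-DIAM, part 5: `(RedF)_H` and the reduction of the diamonds

* `k7fd_redFH : StmtRedFHAll` — the reduction of an `A`-integral series of `F_H` lies in `F̄_H`
  (from the integral representation `k7fd_rep_bar` and `k7fg_redF_of_basis`).
-/

set_option autoImplicit false
set_option linter.style.haveILetI false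
set_option linter.unusedSectionVars false
set_option synthInstance.maxHeartbeats 400000
set_option maxHeartbeats 1600000

noncomputable section

namespace Fermat.Agent.RT.K7F

open Polynomial ModularCurve IntermediateField AlgebraicCurve HahnSeries
open Fermat.Agent.S24 Fermat.Agent.S28 Fermat.Agent.INJ Fermat.Agent.ES Fermat.Agent.ES1
  Fermat.Agent.ES.M Fermat.Agent.ES1.G2

variable (A : ValuationSubring Kb) {p : ℕ} {L M : ℕ} {H : Subgroup (ZMod M)ˣ}

theorem k7fd_level_L_ne_zero (hlev : K7FLevel L M H p) : L ≠ 0 := by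
  have := hlev.hL; omega

theorem k7fd_level_M_ne_zero (hlev : K7FLevel L M H p) : M ≠ 0 := by
  intro h
  have h1 := hlev.hML
  rw [h] at h1
  exact k7fd_level_L_ne_zero hlev (Nat.eq_zero_of_zero_dvd h1)

/-- (RedF) at level `Γ₀(L)` -/
theorem k7fd_redF0 (hA : A.LiesOverPrime p) (hlev : K7FLevel L M H p) :
    ∀ Y : LaurentSeries A, kronIncl A Y ∈ modularFunctionFieldBar L →
      kronRed A Y ∈ modularFunctionFieldFullC (kA A) L := by
  haveI : NeZero L := ⟨k7fd_level_L_ne_zero hlev⟩
  exact stmtRedF L A p hlev.hp hlev.hpL hA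

theorem k7fd_incl_S (c : (ZMod M)ˣ) : kronIncl A (sS A M H c) = sS Kb M H c :=
  es1f_coeffMap_sS _ _ _ _

theorem k7fd_red_S (c : (ZMod M)ˣ) : kronRed A (sS A M H c) = sS (kA A) M H c :=
  es1f_coeffMap_sS _ _ _ _

theorem k7fd_sS_mem_fieldC (K : Type) [Field K] (hML : M ∣ L) (c : (ZMod M)ˣ) :
    sS K M H c ∈ fieldC K L M H := by
  have h := qExpand_sS_mem K L M H (e := 1) (by rwa [one_mul]) c
  rwa [qExpand_one_apply] at h

theorem k7fd_sS_mem_bar (hML : M ∣ L) (c : (ZMod M)ˣ) : sS Kb M H c ∈ fieldBar L M H := by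
  rw [es1f_fieldBar_eq]
  exact k7fd_sS_mem_fieldC Kb hML c

/-- **(RedF)_H** for all levels. -/
theorem k7fd_redFH : StmtRedFHAll := by
  classical
  intro L M H p hlev A hA
  obtain ⟨m, a, ha⟩ := exists_isRepFam (k7fd_level_M_ne_zero hlev) H
  refine k7fg_redF_of_basis A (fieldBar L M H) (modularFunctionFieldBar L)
    (modularFunctionFieldFullC (kA A) L) (fieldC (kA A) L M H)
    (dlh_bar_le_fieldBar L M H) (full_le_fieldC (kA A) L M H) (k7fd_redF0 A hA hlev)
    (fun l : Fin (m + 1) => sS A M H 1 ^ (l : ℕ)) ?_ ?_ ?_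
  · intro l
    rw [map_pow, k7fd_incl_S]
    exact pow_mem (k7fd_sS_mem_bar hlev.hML 1) _
  · intro l
    rw [map_pow, k7fd_red_S]
    exact pow_mem (k7fd_sS_mem_fieldC (kA A) hlev.hML 1) _
  · intro Y hY
    obtain ⟨n, X, D, C, hX, hD, hC, hD0, hrep, -⟩ := k7fd_rep_bar A hA H hlev a ha Y hY
    have hDne : kronIncl A D ≠ 0 := by
      intro h0
      apply hD0
      have : D = 0 := kronIncl_injective (by rw [h0, map_zero])
      rw [this, map_zero]
    have hnum : ∀ l : Fin (m + 1),
        kronIncl A (∑ i, C (i, l) * X i) ∈ modularFunctionFieldBar L := by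
      intro l
      rw [map_sum]
      refine sum_mem fun i _ => ?_
      rw [map_mul]
      exact mul_mem (hC _) (hX i)
    refine ⟨fun l => ⟨kronIncl A (∑ i, C (i, l) * X i) * (kronIncl A D)⁻¹,
      mul_mem (hnum l) (inv_mem hD)⟩, fun l => ?_, ?_⟩
    · refine ⟨kronRed A (∑ i, C (i, l) * X i) * (kronRed A D)⁻¹, ∑ i, C (i, l) * X i, D,
        hnum l, hD, hD0, ?_, ?_⟩
      · show kronIncl A (∑ i, C (i, l) * X i) * (kronIncl A D)⁻¹ * kronIncl A D = _
        rw [mul_assoc, inv_mul_cancel₀ hDne, mul_one]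
      · rw [mul_assoc, inv_mul_cancel₀ hD0, mul_one]
    · have h := congrArg (kronIncl A) hrep
      rw [map_mul, map_sum, Fintype.sum_prod_type, Finset.sum_comm] at h
      have h2 : kronIncl A Y = (kronIncl A D)⁻¹ * (kronIncl A D * kronIncl A Y) := by
        rw [← mul_assoc, inv_mul_cancel₀ hDne, one_mul]
      rw [h2, h, Finset.mul_sum]
      refine Finset.sum_congr rfl fun l _ => ?_
      show _ = kronIncl A (∑ i, C (i, l) * X i) * (kronIncl A D)⁻¹ *
        kronIncl A (sS A M H 1 ^ (l : ℕ))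
      rw [map_sum, Finset.sum_mul, Finset.sum_mul, Finset.mul_sum]
      refine Finset.sum_congr rfl fun i _ => ?_
      rw [map_mul, map_mul, map_mul]
      ring

end Fermat.Agent.RT.K7F
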