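/-
K7F, FL-DIAM, invariants (helper65): `stmtDiamInv : StmtDiamInv`.

`F̄_H = fieldC k L M H` is generated over `F̄₀ = modularFunctionFieldFullC k L` by the pairwise
different series `S̄_{a i}` (`a` a system of representatives of `(ℤ/M)ˣ / ±H`), and
`∏ (X - S̄_{a i}) ∈ F̄₀[X]`; hence `F̄_H / F̄₀` is Galois and an element of `F̄_H` fixed by all
`k`-automorphisms of `F̄_H` which are the identity on `F̄₀` lies in `F̄₀` (`k7fdinv_generic`).

* `k7fdinv_coeff_bar` : the coefficients of `∏ (X - S_{a i})` lie in `F₀` (over `ℚ̄`);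
* `k7fdinv_coeff_res` : the coefficients of `∏ (X - S̄_{a i})` lie in `F̄₀`;
* `k7fdinv_gen`       : `F̄_H ≤ k(F̄₀ ∪ {S̄_{a i}})` (from the integral representation
  `k7fd_rep_bar` of helper40);
* `k7fdinv_main`, `stmtDiamInv`.
-/
import Fermat.Agent.RT.K7F.DiamInvGen
import Fermat.Agent.RT.K7F.DiamRed
import Fermat.Agent.RT.K7F.GaussH
import Fermat.Agent.ES1.ConjK
import Fermat.Agent.ES1.Conj
import Fermat.Agent.ES1.ConjUse

set_option autoImplicit false
set_option linter.unusedSectionVars false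
set_option linter.style.haveILetI false
set_option synthInstance.maxHeartbeats 400000
set_option maxHeartbeats 1000000

noncomputable section

namespace Fermat.Agent.RT.K7F

open Polynomial ModularCurve IntermediateField AlgebraicCurve
open Fermat.Agent.S24 Fermat.Agent.S28 Fermat.Agent.INJ Fermat.Agent.ES Fermat.Agent.ES1
  Fermat.Agent.ES.M

section Coeff

variable {L M : ℕ} [NeZero L] (hML : M ∣ L) (H : Subgroup (ZMod M)ˣ) {m : ℕ}
  {a : Fin (m + 1) → (ZMod M)ˣ} (hrep : IsRepFam H a)

include hML hrep in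
/-- the coefficients of `∏ (X - S_{a i})` lie in `F₀`, over `ℚ̄` -/
theorem k7fdinv_coeff_bar (j : ℕ) :
    (es1cjProd (fun i => sS Kb M H (a i))).coeff j ∈ modularFunctionFieldBar L := by
  haveI : Algebra.IsAlgebraic ℚ Kb := by
    have h1 : @Algebra.IsAlgebraic ℚ (AlgebraicClosure ℚ) _ _ (AlgebraicClosure.instAlgebra ℚ) :=
      inferInstance
    convert h1
    exact Subsingleton.elim _ _
  rw [nf_bar_eq_fullC]
  apply es1cj_full_descent (es1cjIota Kb)
  rw [← Polynomial.coeff_map, es1cjProd_map]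
  have h1 : (fun i => coeffMap (es1cjIota Kb) (sS Kb M H (a i))) = fun i => sS ℂ M H (a i) :=
    funext fun i => es1f_coeffMap_sS (es1cjIota Kb) M H (a i)
  rw [h1]
  exact es1cj_poly_C hML H hrep j

variable (A : ValuationSubring Kb)

include hML hrep in
/-- the coefficients of `∏ (X - S̄_{a i})` lie in `F̄₀` -/
theorem k7fdinv_coeff_res
    (hRedF₀ : ∀ Y : LaurentSeries A, kronIncl A Y ∈ modularFunctionFieldBar L →
      kronRed A Y ∈ modularFunctionFieldFullC (kA A) L) (j : ℕ) :
    (∏ i, (Polynomial.X - Polynomial.C (sS (kA A) M H (a i))) :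
      (LaurentSeries (kA A))[X]).coeff j
      ∈ modularFunctionFieldFullC (kA A) L := by
  have h1 : kronIncl A ((es1cjProd (fun i => sS A M H (a i))).coeff j)
      = (es1cjProd (fun i => sS Kb M H (a i))).coeff j := by
    rw [← Polynomial.coeff_map, es1cjProd_map]
    have : (fun i => kronIncl A (sS A M H (a i))) = fun i => sS Kb M H (a i) :=
      funext fun i => es1f_coeffMap_sS _ M H (a i)
    rw [this]
  have h2 : kronRed A ((es1cjProd (fun i => sS A M H (a i))).coeff j)
      = (es1cjProd (fun i => sS (kA A) M H (a i))).coeff j := by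
    rw [← Polynomial.coeff_map, es1cjProd_map]
    have : (fun i => kronRed A (sS A M H (a i))) = fun i => sS (kA A) M H (a i) :=
      funext fun i => es1f_coeffMap_sS _ M H (a i)
    rw [this]
  have h3 := hRedF₀ _ (by rw [h1]; exact k7fdinv_coeff_bar hML H hrep j)
  rw [h2] at h3
  exact h3

end Coeff

section Gen

variable {L M p : ℕ} (H : Subgroup (ZMod M)ˣ) (A : ValuationSubring Kb)

/-- **generation**: `F̄_H = F̄₀(S̄_1)`. -/
theorem k7fdinv_gen_one (hA : A.LiesOverPrime p) (hlev : K7FLevel L M H p) :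
    fieldC (kA A) L M H ≤ IntermediateField.adjoin (kA A)
      ((modularFunctionFieldFullC (kA A) L : Set (LaurentSeries (kA A))) ∪
        {sS (kA A) M H 1}) := by
  classical
  obtain ⟨m, a, ha⟩ := exists_isRepFam (k7fd_level_M_ne_zero hlev) H
  set T := IntermediateField.adjoin (kA A)
      ((modularFunctionFieldFullC (kA A) L : Set (LaurentSeries (kA A))) ∪
        {sS (kA A) M H 1}) with hT
  have hF₀ : ∀ Y : LaurentSeries A, kronIncl A Y ∈ modularFunctionFieldBar L →
      kronRed A Y ∈ T := fun Y hY =>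
    IntermediateField.subset_adjoin _ _ (Or.inl (k7fd_redF0 A hA hlev Y hY))
  have hS : sS (kA A) M H 1 ∈ T := IntermediateField.subset_adjoin _ _ (Or.inr rfl)
  rw [fieldC, IntermediateField.adjoin_le_iff]
  intro w hw
  obtain ⟨Y, hY, rfl⟩ := k7f_gen_int L M H A hw
  obtain ⟨n, X, D, C, hX, hD, hC, hD0, hrel, -⟩ := k7fd_rep_bar A hA H hlev a ha Y hY
  have h1 := congrArg (kronRed A) hrel
  rw [map_mul, map_sum] at h1
  have h2 : kronRed A Y = (kronRed A D)⁻¹ * (kronRed A D * kronRed A Y) := by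
    rw [← mul_assoc, inv_mul_cancel₀ hD0, one_mul]
  show kronRed A Y ∈ T
  rw [h2, h1]
  refine mul_mem (inv_mem (hF₀ D hD)) (sum_mem fun j _ => ?_)
  rw [map_mul, map_mul, map_pow, k7fd_red_S]
  exact mul_mem (hF₀ _ (hC j)) (mul_mem (hF₀ _ (hX j.1)) (pow_mem hS _))

/-- **generation**: `F̄_H ≤ k(F̄₀ ∪ {S̄_{a i}})`. -/
theorem k7fdinv_gen (hA : A.LiesOverPrime p) (hlev : K7FLevel L M H p)
    {m : ℕ} {a : Fin (m + 1) → (ZMod M)ˣ} (ha : IsRepFam H a) :
    fieldC (kA A) L M H ≤ IntermediateField.adjoin (kA A)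
      ((modularFunctionFieldFullC (kA A) L : Set (LaurentSeries (kA A))) ∪
        Set.range fun i => sS (kA A) M H (a i)) := by
  refine le_trans (k7fdinv_gen_one H A hA hlev) (IntermediateField.adjoin.mono _ _ _ ?_)
  rintro x (hx | hx)
  · exact Or.inl hx
  · rw [Set.mem_singleton_iff] at hx
    refine Or.inr ⟨0, ?_⟩
    show sS (kA A) M H (a 0) = x
    rw [ha.zero, hx]

end Gen

/-- **FL-DIAM, invariants**, at one level. -/
theorem k7fdinv_main {L M p : ℕ} (H : Subgroup (ZMod M)ˣ) (hlev : K7FLevel L M H p)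
    (A : ValuationSubring Kb) (hA : A.LiesOverPrime p)
    (f : fieldC (kA A) L M H)
    (hfix : ∀ δb : fieldC (kA A) L M H ≃ₐ[kA A] fieldC (kA A) L M H,
      (∀ f₀ : fieldC (kA A) L M H,
        (f₀ : LaurentSeries (kA A)) ∈ modularFunctionFieldFullC (kA A) L → δb f₀ = f₀) →
      δb f = f) :
    (f : LaurentSeries (kA A)) ∈ modularFunctionFieldFullC (kA A) L := by
  classical
  have hM0 := k7fd_level_M_ne_zero hlev
  haveI : NeZero L := ⟨k7fd_level_L_ne_zero hlev⟩
  obtain ⟨m, a, ha⟩ := exists_isRepFam hM0 H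
  exact k7fdinv_generic (modularFunctionFieldFullC (kA A) L) (fieldC (kA A) L M H)
    (full_le_fieldC (kA A) L M H) (fun i => sS (kA A) M H (a i))
    (fun i => k7fd_sS_mem_fieldC (kA A) hlev.hML (a i))
    (es1cu_sS_injective (kA A) hM0 ha)
    (k7fdinv_coeff_res hlev.hML H ha A (k7fd_redF0 A hA hlev))
    (k7fdinv_gen H A hA hlev ha) f hfix

/-- **FL-DIAM, invariants**: an element of `F̄_H` fixed by all reduced diamonds lies in `F̄₀`. -/
theorem stmtDiamInv : StmtDiamInv := by
  intro L M H p hlev A hA f hfix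
  exact k7fdinv_main H hlev A hA f hfix

end Fermat.Agent.RT.K7F
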