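import Fermat.Agent.ES1.KDLift

/-!
# RT / K7-FLAT, piece FL-DIAM, part 1: the key data lift with its explicit family

`k7fd_kdLift_indep` : in the situation of `ES1.StmtKDLift` (Gauss key data `x` for `F₀`, a
conjugate family `S` with `F = F₀(S 0)`, the hypotheses of the tame specialization theorem for
`F`), the reductions of the products `x i * S 0 ^ j` are linearly independent over `k(t̄)`.
(This is the proof of `ES1.stmtKDLift` without the final packaging, which forgets the family.)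
-/

set_option autoImplicit false
set_option linter.style.haveILetI false
set_option linter.unusedSectionVars false

noncomputable section

namespace Fermat.Agent.RT.K7F

open Polynomial ModularCurve IntermediateField Fermat.Agent.S28 Fermat.Agent.INJ Fermat.Agent.ES1

/-- **Explicit key data lift**: the reductions of `x i * S 0 ^ j` are linearly independent over
`k(t̄)`. -/
theorem k7fd_kdLift_indep
    {A₀ E k : Type} [CommRing A₀] [IsDomain A₀] [IsDiscreteValuationRing A₀]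
    [Field E] [Algebra A₀ E] [IsFractionRing A₀ E] [CharZero E]
    [Field k] (r : A₀ →+* k) (F₀ F : IntermediateField E (LaurentSeries E))
    {π : A₀} (hπ : Irreducible π) (hrπ : r π = 0) (hr : ∀ a, r a = 0 → π ∣ a)
    {t₀ : LaurentSeries A₀} {n : ℕ} {x : Fin n → LaurentSeries A₀}
    (kd : GaussKD r F₀ t₀ x)
    (ht₀ : (coeffMap (algebraMap A₀ E) t₀).order = -1)
    {m : ℕ} (S : Fin (m + 1) → LaurentSeries A₀) (hS : ConjFamily r F₀ F S)
    (hgoodF₀ : ∀ [Algebra A₀ F₀] [IsScalarTower A₀ E F₀],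
      TSGoodBasis (A₀ := A₀) (E := E) (Lf := F₀) π
        ⟨coeffMap (algebraMap A₀ E) t₀, kd.t_mem⟩)
    (hfin : FiniteDimensional
      E⟮(⟨coeffMap (algebraMap A₀ E) t₀, hS.le kd.t_mem⟩ : F)⟯ F)
    (Sg : Finset A₀) (hSg : ∀ c ∈ Sg, ∀ c' ∈ Sg, c ≠ c' → ¬ π ∣ c - c')
    (e : ℕ) (he : IsUnit (e : A₀)) (hζe : ∃ ζ : A₀, IsPrimitiveRoot ζ e)
    (hram : ∀ [Algebra A₀ F] [IsScalarTower A₀ E F],
      TSUnramified (A₀ := A₀) (E := E) (Lf := F)
        ⟨coeffMap (algebraMap A₀ E) t₀, hS.le kd.t_mem⟩ Sg ∧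
      TSTame (A₀ := A₀) (E := E) (Lf := F)
        ⟨coeffMap (algebraMap A₀ E) t₀, hS.le kd.t_mem⟩ Sg e) :
    (∀ f ∈ F, ∃ c : Fin n × Fin (m + 1) → LaurentSeries E,
      (∀ j, c j ∈ adjoin E {coeffMap (algebraMap A₀ E) t₀}) ∧
        f = ∑ j, c j * coeffMap (algebraMap A₀ E) (x j.1 * S 0 ^ (j.2 : ℕ))) ∧
    ∀ c : Fin n × Fin (m + 1) → LaurentSeries k, (∀ j, c j ∈ adjoin k {coeffMap r t₀}) →
      ∑ j, c j * coeffMap r (x j.1 * S 0 ^ (j.2 : ℕ)) = 0 → ∀ j, c j = 0 := by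
  classical
  -- instances
  letI algF₀ : Algebra A₀ F₀ := coreAlg A₀ F₀
  haveI towF₀ : IsScalarTower A₀ E F₀ := coreAlg_isScalarTower A₀ F₀
  letI algF : Algebra A₀ F := coreAlg A₀ F
  haveI towF : IsScalarTower A₀ E F := coreAlg_isScalarTower A₀ F
  letI algFF : Algebra F₀ F := kdlAlg hS.le
  haveI towEFF : IsScalarTower E F₀ F := kdlAlg_isScalarTower hS.le
  haveI towAFF : IsScalarTower A₀ F₀ F := IsScalarTower.of_algebraMap_eq (fun a => by
    apply Subtype.ext
    rfl)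
  have hcoe : ∀ x : F₀, ((algebraMap F₀ F x : F) : LaurentSeries E) = (x : LaurentSeries E) :=
    fun _ => rfl
  obtain ⟨s, hs, hθint, hgoodF⟩ := kdl_goodBasis hcoe hπ hrπ hr kd ht₀ hS hgoodF₀
  -- the tame specialization theorem
  have htrF : Transcendental E (⟨coeffMap (algebraMap A₀ E) t₀, hS.le kd.t_mem⟩ : F) :=
    bgConst_transcendental F _ (by
      show (coeffMap (algebraMap A₀ E) t₀).order ≠ 0
      rw [ht₀]; norm_num)
  obtain ⟨P₀, -, hP₀, -⟩ := bgConst_exists_place F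
    (⟨coeffMap (algebraMap A₀ E) t₀, hS.le kd.t_mem⟩ : F) ht₀
  haveI := hfin
  have hprime : Prime (algebraMap A₀ (integralClosure
      (Algebra.adjoin A₀ {(⟨coeffMap (algebraMap A₀ E) t₀, hS.le kd.t_mem⟩ : F)}) F) π) :=
    tameSpecStmt.{0} A₀ E F π hπ _ htrF (bgConst_mem_range_of_isAlgebraic F) hgoodF Sg hSg
      hram.1 e he hζe hram.2 ⟨P₀, hP₀⟩
  -- span and bounded denominators
  have hspan := kdl_span hcoe kd hS
  have hbdd : ∀ f ∈ F, ∃ e : ℕ, (HahnSeries.C (algebraMap A₀ E π) : LaurentSeries E) ^ e * f ∈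
      gaussRing (algebraMap A₀ E) r := by
    intro f hf
    obtain ⟨c, hc, hfc⟩ := hspan f hf
    obtain ⟨e, he⟩ := kdl_bdd r hπ.prime hr t₀ kd.transc
      (fun j : Fin n × Fin (m + 1) => x j.1 * S 0 ^ (j.2 : ℕ)) c hc
    exact ⟨e, by rw [hfc]; exact he⟩
  -- independence
  have hint := kdl_int_indep hcoe hπ hrπ hr kd hS s hs hθint hbdd hprime
  have hmax : (Ideal.span {π}).IsMaximal := by
    rw [← hπ.maximalIdeal_eq]
    exact IsLocalRing.maximalIdeal.isMaximal A₀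
  exact ⟨hspan, kdl_indep_of_int' r hmax hrπ hr t₀
    (fun j : Fin n × Fin (m + 1) => x j.1 * S 0 ^ (j.2 : ℕ)) hint⟩

end Fermat.Agent.RT.K7F
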