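import Fermat.Agent.RT.K7F.DiamRep
import Fermat.Agent.ES1.InjInstJ
import Fermat.Agent.ES1.InjInstH2
import Fermat.Agent.ES1.ConjUse
import Fermat.Agent.ES1.Conj
import Fermat.Agent.ES1.RealFinal

/-!
# RT / K7-FLAT, piece FL-DIAM, part 3: the integral representation for `fieldC K₀ L M H`

`K₀ ⊂ ℚ̄` a number field containing the `6 L`-th roots of unity, `A ⊂ ℚ̄` a valuation ring over
`p ∤ L`, `p` odd, and `2 ∣ L` if `p = 3`; `A₀ = A ∩ K₀`.
`k7fd_rep_field` : every `Y ∈ A₀((q))` with image in `fieldC K₀ L M H` satisfies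
`D · Y = ∑_{i,l} C_{i,l} · X i · S^l`, `S = S_{M,H,1}`, with `D, C_{i,l}, X i ∈ A₀((q))` in the
`Γ₀(L)`-field, `D̄ ≠ 0`, and `Ȳ = 0 → C̄_{i,l} = 0`.

Proof: `k7fd_rep_series` over the `j`-line (`p ≥ 5`, as `ES1/InjInstJ.lean`) and over the
Hauptmodul line of `X₀(2)` (`p = 3`, as `ES1/InjInstH2.lean`).
-/

set_option autoImplicit false
set_option linter.style.haveILetI false
set_option linter.unusedSectionVars false
set_option synthInstance.maxHeartbeats 400000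
set_option maxHeartbeats 4000000

noncomputable section

namespace Fermat.Agent.RT.K7F

open Polynomial ModularCurve IntermediateField AlgebraicCurve Fermat.Agent.S24 Fermat.Agent.S28
  Fermat.Agent.INJ Fermat.Agent.ES1

/-- the conclusion of the representation theorem -/
def K7fdRep (A : ValuationSubring NfQb) (K₀ : IntermediateField ℚ NfQb) (L M : ℕ)
    (H : Subgroup (ZMod M)ˣ) (m : ℕ) (Y : LaurentSeries (nfSub A K₀)) : Prop :=
  ∃ (n : ℕ) (X : Fin n → LaurentSeries (nfSub A K₀)) (D : LaurentSeries (nfSub A K₀))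
    (C : Fin n × Fin (m + 1) → LaurentSeries (nfSub A K₀)),
    (∀ i, coeffMap (algebraMap (nfSub A K₀) K₀) (X i) ∈ modularFunctionFieldFullC K₀ L) ∧
    coeffMap (algebraMap (nfSub A K₀) K₀) D ∈ modularFunctionFieldFullC K₀ L ∧
    (∀ j, coeffMap (algebraMap (nfSub A K₀) K₀) (C j) ∈ modularFunctionFieldFullC K₀ L) ∧
    coeffMap (nfRes A K₀) D ≠ 0 ∧
    D * Y = ∑ j, C j * (X j.1 * sS (nfSub A K₀) M H 1 ^ (j.2 : ℕ)) ∧
    (coeffMap (nfRes A K₀) Y = 0 → ∀ j, coeffMap (nfRes A K₀) (C j) = 0)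

/-- **the `j`-line**, `p ∤ 6 L`. -/
theorem k7fd_rep_field_j (A : ValuationSubring NfQb) {p : ℕ} (hp : p.Prime)
    (hA : A.LiesOverPrime p) {L M : ℕ} (H : Subgroup (ZMod M)ˣ) (hL : L ≠ 0) (hML : M ∣ L)
    (hp6L : ¬ p ∣ 6 * L) {m : ℕ} (a : Fin (m + 1) → (ZMod M)ˣ) (ha : IsRepFam H a)
    (K₀ : IntermediateField ℚ NfQb) (hfin : FiniteDimensional ℚ K₀)
    (hζ6L : ∃ ζ : K₀, IsPrimitiveRoot ζ (6 * L))
    (Y : LaurentSeries (nfSub A K₀))
    (hY : coeffMap (algebraMap (nfSub A K₀) K₀) Y ∈ fieldC K₀ L M H) :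
    K7fdRep A K₀ L M H m Y := by
  classical
  haveI : NeZero L := ⟨hL⟩
  haveI : FiniteDimensional ℚ K₀ := hfin
  have hpL : ¬ p ∣ L := fun hd => hp6L (hd.mul_left 6)
  have hp6 : ¬ p ∣ 6 := fun hd => hp6L (hd.mul_right L)
  have hp1728 : ¬ (p : ℤ) ∣ 1728 := by
    intro hd
    have h1 : p ∣ 1728 := by exact_mod_cast hd
    have h2 : (1728 : ℕ) = 6 ^ 3 * 8 := by norm_num
    rw [h2] at h1
    rcases (Nat.Prime.dvd_mul hp).mp h1 with h3 | h3
    · exact hp6 (hp.dvd_of_dvd_pow h3)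
    · have h4 : (8 : ℕ) = 2 ^ 3 := by norm_num
      rw [h4] at h3
      have h5 := hp.dvd_of_dvd_pow h3
      exact hp6 (h5.trans (by norm_num))
  haveI : Algebra.IsAlgebraic ℚ K₀ := by
    have h : @Algebra.IsAlgebraic ℚ K₀ _ _ K₀.algebra' := Algebra.IsAlgebraic.of_finite ℚ K₀
    convert h
    · exact Subsingleton.elim _ _
  haveI hdvr : IsDiscreteValuationRing (nfSub A K₀) := ls_isDVR A K₀ hp hA
  obtain ⟨π, hπ⟩ := IsDiscreteValuationRing.exists_irreducible (nfSub A K₀)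
  have hrπ : nfRes A K₀ π = 0 := ls_res_irreducible A K₀ hπ
  have hr : ∀ a, nfRes A K₀ a = 0 → π ∣ a := fun a => ls_dvd_of_res_eq_zero A K₀ hπ a
  haveI : Fact p.Prime := ⟨hp⟩
  haveI : CharP (IsLocalRing.ResidueField A) p := ls_charP_residueField A hp hA
  haveI : PerfectRing (IsLocalRing.ResidueField A) p := nf_perfectRing_residueField A p
  have hLk : ((L : ℕ) : IsLocalRing.ResidueField A) ≠ 0 :=
    ls_natCast_residue_ne_zero A hp hA L hpL
  -- key data over the `j`-line for the `Γ₀(L)`-field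
  obtain ⟨x₀, kd₀⟩ := exists_gaussKD_j (E := K₀) (nfRes A K₀) π hπ.ne_zero hπ.not_isUnit hr L hLk
  have hkt : coeffMap (nfRes A K₀) (jqModC (nfSub A K₀)) = jqModC (IsLocalRing.ResidueField A) :=
    coeffMap_jqModC _
  have hEt : coeffMap (algebraMap (nfSub A K₀) K₀) (jqModC (nfSub A K₀)) = jqModC K₀ :=
    coeffMap_jqModC _
  have hord : (coeffMap (algebraMap (nfSub A K₀) K₀) (jqModC (nfSub A K₀))).order = -1 := by
    rw [hEt]
    exact bgConst_order_jqModC K₀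
  have h6L : 6 * L ≠ 0 := mul_ne_zero (by norm_num) hL
  have hroot : ∃ ζ : nfSub A K₀, IsPrimitiveRoot ζ (6 * L) :=
    ls_exists_primitiveRoot A K₀ h6L hζ6L
  -- the set `Σ = {0, 1728}`
  set S : Finset (nfSub A K₀) := {0, 1728} with hSdef
  have hdist : ∀ c ∈ S, ∀ c' ∈ S, c ≠ c' → ¬ π ∣ c - c' := by
    intro c hc c' hc' hcc
    rw [hSdef, Finset.mem_insert, Finset.mem_singleton] at hc hc'
    have key : ∀ a b : ℤ, ¬ (p : ℤ) ∣ a - b →
        ¬ π ∣ ((a : nfSub A K₀) - (b : nfSub A K₀)) := fun a b hab =>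
      ls_not_dvd_intCast_sub A K₀ hp hA hπ.not_isUnit a b hab
    rcases hc with rfl | rfl <;> rcases hc' with rfl | rfl
    · exact absurd rfl hcc
    · have := key 0 1728 (by rw [zero_sub, dvd_neg]; exact hp1728)
      simpa using this
    · have := key 1728 0 (by rw [sub_zero]; exact hp1728)
      simpa using this
    · exact absurd rfl hcc
  have hS01 : ∀ c ∈ S, algebraMap (nfSub A K₀) K₀ c = 0 ∨
      algebraMap (nfSub A K₀) K₀ c = 1728 := by
    intro c hc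
    rw [hSdef, Finset.mem_insert, Finset.mem_singleton] at hc
    rcases hc with rfl | rfl
    · left; exact map_zero _
    · right; rw [map_ofNat]
  have hS0 : ∃ c ∈ S, algebraMap (nfSub A K₀) K₀ c = 0 :=
    ⟨0, by rw [hSdef]; simp, map_zero _⟩
  have hS1728 : ∃ c ∈ S, algebraMap (nfSub A K₀) K₀ c = 1728 :=
    ⟨1728, by rw [hSdef]; simp, by rw [map_ofNat]⟩
  have hunit : IsUnit (((6 * L : ℕ) : ℕ) : nfSub A K₀) :=
    ls_isUnit_natCast A K₀ hp hA (6 * L) hp6L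
  -- the conjugate family
  have hSc : ConjFamily (nfRes A K₀) (modularFunctionFieldFullC K₀ L) (fieldC K₀ L M H)
      (fun i => sS (nfSub A K₀) M H (a i)) :=
    conjFamily_of_diamond stmtDiamondH (nfRes A K₀) L M H a hL hML ha
  have hR : RamJH L M H := stmtRamJH L M H hML
  have hfin₀ : FiniteDimensional
      K₀⟮(⟨coeffMap (algebraMap (nfSub A K₀) K₀) (jqModC (nfSub A K₀)), kd₀.t_mem⟩ :
        modularFunctionFieldFullC K₀ L)⟯ (modularFunctionFieldFullC K₀ L) := by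
    have h0 := bgFin_finiteDimensional_full K₀ L
    have heq : (⟨coeffMap (algebraMap (nfSub A K₀) K₀) (jqModC (nfSub A K₀)), kd₀.t_mem⟩ :
        modularFunctionFieldFullC K₀ L) = ⟨jqModC K₀, jqModC_mem_full K₀ L⟩ :=
      Subtype.ext hEt
    rw [heq]
    exact h0
  have hfinF : FiniteDimensional
      K₀⟮(⟨coeffMap (algebraMap (nfSub A K₀) K₀) (jqModC (nfSub A K₀)),
        hSc.le kd₀.t_mem⟩ : fieldC K₀ L M H)⟯ (fieldC K₀ L M H) := by
    obtain ⟨P, hPm, -, hP0⟩ := hSc.poly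
    exact injH1_fin_of_gen (modularFunctionFieldFullC K₀ L) (fieldC K₀ L M H) hSc.le _ hSc.gen
      (injH1_isIntegral_of_eval₂ _ _ ⟨P, hPm, hP0⟩) _ kd₀.t_mem hfin₀
  have hjeq : (⟨coeffMap (algebraMap (nfSub A K₀) K₀) (jqModC (nfSub A K₀)),
      hSc.le kd₀.t_mem⟩ : fieldC K₀ L M H) = jCH K₀ L M H := Subtype.ext hEt
  obtain ⟨D, C, hD, hC, hD0, hrel, hzero⟩ := k7fd_rep_series (A₀ := nfSub A K₀) (E := K₀)
    (k := IsLocalRing.ResidueField A)
    (nfRes A K₀) (modularFunctionFieldFullC K₀ L) (fieldC K₀ L M H) hπ hrπ hr kd₀ hord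
    (fun i => sS (nfSub A K₀) M H (a i)) hSc
    (fun {_ _} => kd₀.tsGoodBasis hπ.ne_zero hπ.not_isUnit hr hrπ p
      (by rw [hkt]; exact thetaFun_jqModC_ne_zero _))
    hfinF S hdist (6 * L) hunit hroot
    (fun {_ _} => by
      rw [hjeq]
      exact nfH_ram_jline_self K₀ L M H hR S hS01 hS0 hS1728 (6 * L)
        (Dvd.intro _ rfl) (Dvd.intro_left _ rfl)) Y hY
  refine ⟨_, x₀, D, C, kd₀.mem, hD, hC, hD0, ?_, hzero⟩
  rw [hrel]
  refine Finset.sum_congr rfl fun j _ => ?_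
  show C j * (x₀ j.1 * sS (nfSub A K₀) M H (a 0) ^ (j.2 : ℕ)) = _
  rw [ha.zero]

/-- **the Hauptmodul line of `X₀(2)`**, `p = 3`, `2 ∣ L`, `3 ∤ L`. -/
theorem k7fd_rep_field_h2 (A : ValuationSubring NfQb)
    (hA : A.LiesOverPrime 3) {L M : ℕ} (H : Subgroup (ZMod M)ˣ) (hL : L ≠ 0) (hML : M ∣ L)
    (h2 : 2 ∣ L) (h3 : ¬ 3 ∣ L) {m : ℕ} (a : Fin (m + 1) → (ZMod M)ˣ) (ha : IsRepFam H a)
    (K₀ : IntermediateField ℚ NfQb) (hfin : FiniteDimensional ℚ K₀)
    (hζ6L : ∃ ζ : K₀, IsPrimitiveRoot ζ (6 * L))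
    (Y : LaurentSeries (nfSub A K₀))
    (hY : coeffMap (algebraMap (nfSub A K₀) K₀) Y ∈ fieldC K₀ L M H) :
    K7fdRep A K₀ L M H m Y := by
  classical
  haveI : NeZero L := ⟨hL⟩
  haveI : FiniteDimensional ℚ K₀ := hfin
  have hℓ : (3 : ℕ).Prime := Nat.prime_three
  haveI : Algebra.IsAlgebraic ℚ K₀ := by
    have h : @Algebra.IsAlgebraic ℚ K₀ _ _ K₀.algebra' := Algebra.IsAlgebraic.of_finite ℚ K₀
    convert h
    · exact Subsingleton.elim _ _
  haveI hdvr : IsDiscreteValuationRing (nfSub A K₀) := ls_isDVR A K₀ hℓ hA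
  obtain ⟨π, hπ⟩ := IsDiscreteValuationRing.exists_irreducible (nfSub A K₀)
  have hrπ : nfRes A K₀ π = 0 := ls_res_irreducible A K₀ hπ
  have hr : ∀ a, nfRes A K₀ a = 0 → π ∣ a := fun a => ls_dvd_of_res_eq_zero A K₀ hπ a
  haveI : Fact (3 : ℕ).Prime := ⟨hℓ⟩
  haveI : CharP (IsLocalRing.ResidueField A) 3 := ls_charP_residueField A hℓ hA
  haveI : PerfectRing (IsLocalRing.ResidueField A) 3 := nf_perfectRing_residueField A 3
  have hLE : ((L : ℕ) : K₀) ≠ 0 := Nat.cast_ne_zero.mpr hL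
  have hLk : ((L : ℕ) : IsLocalRing.ResidueField A) ≠ 0 :=
    ls_natCast_residue_ne_zero A hℓ hA L h3
  have h2E : ((2 : ℕ) : K₀) ≠ 0 := Nat.cast_ne_zero.mpr (by norm_num)
  have h2k : ((2 : ℕ) : IsLocalRing.ResidueField A) ≠ 0 :=
    ls_natCast_residue_ne_zero A hℓ hA 2 (by norm_num)
  -- key data over the `hm2`-line for the `Γ₀(L)`-field
  have hkeq := adjoin_hm2_eq (IsLocalRing.ResidueField A) h2k
  have hjk : jqModC (IsLocalRing.ResidueField A) ∈
      (IsLocalRing.ResidueField A)⟮hm2 (IsLocalRing.ResidueField A)⟯ := by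
    rw [hkeq]; exact jqModC_mem_full _ 2
  obtain ⟨n₀, x₀, kd₀, -⟩ := exists_gaussKD_of_adjoin_eq (E := K₀) (nfRes A K₀) π hπ.ne_zero
    hπ.not_isUnit hr (N₀ := 2) (M := L) h2 hLE hLk hm2Z (adjoin_hm2_eq K₀ h2E) hkeq
    (transcendental_of_jqModC_mem _ hjk)
  have hkt : coeffMap (nfRes A K₀) (coeffMap (Int.castRingHom (nfSub A K₀)) hm2Z)
      = hm2 (IsLocalRing.ResidueField A) := by
    rw [coeffMap_coeffMap]
    exact coeffMap_congr (RingHom.ext_int _ _) _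
  have hEt : coeffMap (algebraMap (nfSub A K₀) K₀) (coeffMap (Int.castRingHom (nfSub A K₀)) hm2Z)
      = hm2 K₀ := by
    rw [coeffMap_coeffMap]
    exact coeffMap_congr (RingHom.ext_int _ _) _
  have hord : (coeffMap (algebraMap (nfSub A K₀) K₀)
      (coeffMap (Int.castRingHom (nfSub A K₀)) hm2Z)).order = -1 := by
    rw [hEt]
    exact injH_order_hm2 K₀
  have hrootL : ∃ ζ : nfSub A K₀, IsPrimitiveRoot ζ L := by
    refine ls_exists_primitiveRoot A K₀ hL ?_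
    obtain ⟨ζ₀, hζ₀⟩ := hζ6L
    exact ⟨ζ₀ ^ 6, hζ₀.pow (by positivity) rfl⟩
  -- the set `Σ = {0, -64}`
  set S : Finset (nfSub A K₀) := {0, -64} with hSdef
  have hdist : ∀ c ∈ S, ∀ c' ∈ S, c ≠ c' → ¬ π ∣ c - c' := by
    intro c hc c' hc' hcc
    rw [hSdef, Finset.mem_insert, Finset.mem_singleton] at hc hc'
    have key : ∀ a b : ℤ, ¬ (3 : ℤ) ∣ a - b →
        ¬ π ∣ ((a : nfSub A K₀) - (b : nfSub A K₀)) := fun a b hab =>
      ls_not_dvd_intCast_sub A K₀ hℓ hA hπ.not_isUnit a b (by exact_mod_cast hab)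
    rcases hc with rfl | rfl <;> rcases hc' with rfl | rfl
    · exact absurd rfl hcc
    · have := key 0 (-64) (by norm_num)
      simpa using this
    · have := key (-64) 0 (by norm_num)
      simpa using this
    · exact absurd rfl hcc
  have hS01 : ∀ c ∈ S, algebraMap (nfSub A K₀) K₀ c = 0 ∨
      algebraMap (nfSub A K₀) K₀ c = -64 := by
    intro c hc
    rw [hSdef, Finset.mem_insert, Finset.mem_singleton] at hc
    rcases hc with rfl | rfl
    · left; exact map_zero _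
    · right; rw [map_neg, map_ofNat]
  have hS0 : ∃ c ∈ S, algebraMap (nfSub A K₀) K₀ c = 0 :=
    ⟨0, by rw [hSdef]; simp, map_zero _⟩
  have hS64 : ∃ c ∈ S, algebraMap (nfSub A K₀) K₀ c = -64 :=
    ⟨-64, by rw [hSdef]; simp, by rw [map_neg, map_ofNat]⟩
  have hunit : IsUnit ((L : ℕ) : nfSub A K₀) := ls_isUnit_natCast A K₀ hℓ hA L h3
  -- the conjugate family
  have hSc : ConjFamily (nfRes A K₀) (modularFunctionFieldFullC K₀ L) (fieldC K₀ L M H)
      (fun i => sS (nfSub A K₀) M H (a i)) :=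
    conjFamily_of_diamond stmtDiamondH (nfRes A K₀) L M H a hL hML ha
  have hR : RamJH L M H := stmtRamJH L M H hML
  have hfin₀ : FiniteDimensional
      K₀⟮(⟨coeffMap (algebraMap (nfSub A K₀) K₀)
        (coeffMap (Int.castRingHom (nfSub A K₀)) hm2Z), kd₀.t_mem⟩ :
        modularFunctionFieldFullC K₀ L)⟯ (modularFunctionFieldFullC K₀ L) :=
    bgFinH_finiteDimensional_full_hm2 K₀ L _ hEt
  have hfinF : FiniteDimensional
      K₀⟮(⟨coeffMap (algebraMap (nfSub A K₀) K₀)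
        (coeffMap (Int.castRingHom (nfSub A K₀)) hm2Z),
        hSc.le kd₀.t_mem⟩ : fieldC K₀ L M H)⟯ (fieldC K₀ L M H) := by
    obtain ⟨P, hPm, -, hP0⟩ := hSc.poly
    exact injH1_fin_of_gen (modularFunctionFieldFullC K₀ L) (fieldC K₀ L M H) hSc.le _ hSc.gen
      (injH1_isIntegral_of_eval₂ _ _ ⟨P, hPm, hP0⟩) _ kd₀.t_mem hfin₀
  have hteq : (⟨coeffMap (algebraMap (nfSub A K₀) K₀)
      (coeffMap (Int.castRingHom (nfSub A K₀)) hm2Z),
      hSc.le kd₀.t_mem⟩ : fieldC K₀ L M H) = hm2CH K₀ L M H h2 := Subtype.ext hEt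
  obtain ⟨D, C, hD, hC, hD0, hrel, hzero⟩ := k7fd_rep_series (A₀ := nfSub A K₀) (E := K₀)
    (k := IsLocalRing.ResidueField A)
    (nfRes A K₀) (modularFunctionFieldFullC K₀ L) (fieldC K₀ L M H) hπ hrπ hr kd₀ hord
    (fun i => sS (nfSub A K₀) M H (a i)) hSc
    (fun {_ _} => kd₀.tsGoodBasis hπ.ne_zero hπ.not_isUnit hr hrπ 3
      (by rw [hkt]; exact thetaFun_hm2_ne_zero _))
    hfinF S hdist L hunit hrootL
    (fun {_ _} => by
      rw [hteq]
      exact nfH_ram_h2line_self K₀ L M H hR h2 S hS01 hS0 hS64 L dvd_rfl) Y hY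
  refine ⟨_, x₀, D, C, kd₀.mem, hD, hC, hD0, ?_, hzero⟩
  rw [hrel]
  refine Finset.sum_congr rfl fun j _ => ?_
  show C j * (x₀ j.1 * sS (nfSub A K₀) M H (a 0) ^ (j.2 : ℕ)) = _
  rw [ha.zero]

/-- **The integral representation for `fieldC K₀ L M H`**, `p ∤ L` odd, `2 ∣ L` if `p = 3`. -/
theorem k7fd_rep_field (A : ValuationSubring NfQb) {p : ℕ} (hp : p.Prime)
    (hA : A.LiesOverPrime p) {L M : ℕ} (H : Subgroup (ZMod M)ˣ) (hL : L ≠ 0) (hML : M ∣ L)
    (hp2 : p ≠ 2) (hpL : ¬ p ∣ L) (h5 : 5 ≤ p ∨ (5 - p) ∣ L)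
    {m : ℕ} (a : Fin (m + 1) → (ZMod M)ˣ) (ha : IsRepFam H a)
    (K₀ : IntermediateField ℚ NfQb) (hfin : FiniteDimensional ℚ K₀)
    (hζ6L : ∃ ζ : K₀, IsPrimitiveRoot ζ (6 * L))
    (Y : LaurentSeries (nfSub A K₀))
    (hY : coeffMap (algebraMap (nfSub A K₀) K₀) Y ∈ fieldC K₀ L M H) :
    K7fdRep A K₀ L M H m Y := by
  by_cases hp3 : p = 3
  · subst hp3
    have h2 : 2 ∣ L := by
      rcases h5 with h | h
      · omega
      · simpa using h
    exact k7fd_rep_field_h2 A hA H hL hML h2 hpL a ha K₀ hfin hζ6L Y hY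
  · refine k7fd_rep_field_j A hp hA H hL hML ?_ a ha K₀ hfin hζ6L Y hY
    intro hd
    rcases (Nat.Prime.dvd_mul hp).mp hd with h6 | hL'
    · have h6' : (6 : ℕ) = 2 * 3 := by norm_num
      rw [h6'] at h6
      rcases (Nat.Prime.dvd_mul hp).mp h6 with h | h
      · exact hp2 ((Nat.prime_dvd_prime_iff_eq hp Nat.prime_two).mp h)
      · exact hp3 ((Nat.prime_dvd_prime_iff_eq hp Nat.prime_three).mp h)
    · exact hpL hL'

end Fermat.Agent.RT.K7F
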