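import Fermat.Agent.RT.K7F.DiamKD
import Fermat.Agent.INJ.GaussRep

/-!
# RT / K7-FLAT, piece FL-DIAM, part 2: integral representation along a conjugate family

Setting of `ES1.StmtKDLift` (`A₀` a discrete valuation ring, `F = F₀(S 0)`).
`k7fd_rep_nf` : every `Y ∈ A₀((q))` with image in `F` satisfies
`Q(t) · Y = ∑_{i,l} P_{i,l}(t) · x i · (S 0)^l` with `Q, P_{i,l} ∈ A₀[X]`, `Q̄ ≠ 0`; and if `Ȳ = 0`
then all `P̄_{i,l} = 0`.
-/

set_option autoImplicit false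
set_option linter.style.haveILetI false
set_option linter.unusedSectionVars false

noncomputable section

namespace Fermat.Agent.RT.K7F

open Polynomial ModularCurve IntermediateField Fermat.Agent.S28 Fermat.Agent.INJ Fermat.Agent.ES1

/-- **Integral representation** in the basis `x i * S 0 ^ l`. -/
theorem k7fd_rep_nf
    {A₀ E k : Type} [CommRing A₀] [IsDomain A₀] [IsDiscreteValuationRing A₀]
    [Field E] [Algebra A₀ E] [IsFractionRing A₀ E] [CharZero E]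
    [Field k] (r : A₀ →+* k) (F₀ F : IntermediateField E (LaurentSeries E))
    {π : A₀} (hπ : Irreducible π) (hrπ : r π = 0) (hr : ∀ a, r a = 0 → π ∣ a)
    {t₀ : LaurentSeries A₀} {n : ℕ} {x : Fin n → LaurentSeries A₀}
    (kd : GaussKD r F₀ t₀ x)
    (ht₀ : (coeffMap (algebraMap A₀ E) t₀).order = -1)
    {m : ℕ} (S : Fin (m + 1) → LaurentSeries A₀) (hS : ConjFamily r F₀ F S)
    (hgoodF₀ : ∀ [Algebra A₀ F₀] [IsScalarTower A₀ E F₀],
      TSGoodBasis (A₀ := A₀) (E := E) (Lf := F₀) π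
        ⟨coeffMap (algebraMap A₀ E) t₀, kd.t_mem⟩)
    (hfin : FiniteDimensional
      E⟮(⟨coeffMap (algebraMap A₀ E) t₀, hS.le kd.t_mem⟩ : F)⟯ F)
    (Sg : Finset A₀) (hSg : ∀ c ∈ Sg, ∀ c' ∈ Sg, c ≠ c' → ¬ π ∣ c - c')
    (e : ℕ) (he : IsUnit (e : A₀)) (hζe : ∃ ζ : A₀, IsPrimitiveRoot ζ e)
    (hram : ∀ [Algebra A₀ F] [IsScalarTower A₀ E F],
      TSUnramified (A₀ := A₀) (E := E) (Lf := F)
        ⟨coeffMap (algebraMap A₀ E) t₀, hS.le kd.t_mem⟩ Sg ∧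
      TSTame (A₀ := A₀) (E := E) (Lf := F)
        ⟨coeffMap (algebraMap A₀ E) t₀, hS.le kd.t_mem⟩ Sg e)
    (Y : LaurentSeries A₀) (hY : coeffMap (algebraMap A₀ E) Y ∈ F) :
    ∃ (Q : A₀[X]) (P : Fin n × Fin (m + 1) → A₀[X]), Q.map r ≠ 0 ∧
      aeval t₀ Q * Y = ∑ j, aeval t₀ (P j) * (x j.1 * S 0 ^ (j.2 : ℕ)) ∧
      (coeffMap r Y = 0 → ∀ j, (P j).map r = 0) := by
  classical
  obtain ⟨hspan, hind⟩ := k7fd_kdLift_indep r F₀ F hπ hrπ hr kd ht₀ S hS hgoodF₀ hfin Sg hSg e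
    he hζe hram
  -- reindexing
  let ε : Fin n × Fin (m + 1) ≃ Fin (Fintype.card (Fin n × Fin (m + 1))) :=
    Fintype.equivFin (Fin n × Fin (m + 1))
  have kdF : GaussKD r F t₀ (fun i => x (ε.symm i).1 * S 0 ^ ((ε.symm i).2 : ℕ)) := by
    refine ⟨hS.le kd.t_mem, fun i => ?_, ?_, ?_, kd.transc⟩
    · rw [map_mul, map_pow]
      exact mul_mem (hS.le (kd.mem _)) (pow_mem (hS.mem 0) _)
    · intro f hf
      obtain ⟨c, hc, hfc⟩ := hspan f hf
      refine ⟨fun i => c (ε.symm i), fun i => hc _, ?_⟩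
      rw [hfc]
      exact (Equiv.sum_comp ε.symm
        (fun j => c j * coeffMap (algebraMap A₀ E) (x j.1 * S 0 ^ (j.2 : ℕ)))).symm
    · intro c hc hrel i
      have h1 : ∑ j, c (ε j) * coeffMap r (x j.1 * S 0 ^ (j.2 : ℕ)) = 0 := by
        rw [← hrel]
        rw [← Equiv.sum_comp ε
          (fun i => c i * coeffMap r (x (ε.symm i).1 * S 0 ^ ((ε.symm i).2 : ℕ)))]
        refine Finset.sum_congr rfl fun j _ => ?_
        rw [Equiv.symm_apply_apply]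
      have h2 := hind (fun j => c (ε j)) (fun j => hc _) h1 (ε.symm i)
      simpa using h2
  obtain ⟨Q, P, hQ, hrel⟩ := kdF.exists_rep_aux hπ.ne_zero hπ.not_isUnit hr hY
    (T := Y) (b := 1) (by rw [map_one]; exact one_ne_zero) (by rw [map_one, one_mul])
  rw [one_mul] at hrel
  have hrel' : aeval t₀ Q * Y = ∑ j, aeval t₀ (P (ε j)) * (x j.1 * S 0 ^ (j.2 : ℕ)) := by
    rw [hrel, ← Equiv.sum_comp ε
      (fun i => aeval t₀ (P i) * (x (ε.symm i).1 * S 0 ^ ((ε.symm i).2 : ℕ)))]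
    refine Finset.sum_congr rfl fun j _ => ?_
    rw [Equiv.symm_apply_apply]
  refine ⟨Q, fun j => P (ε j), hQ, hrel', ?_⟩
  intro hY0 j
  have h1 := congrArg (coeffMap r) hrel'
  rw [map_mul, hY0, mul_zero, map_sum] at h1
  have h2 : ∑ j, aeval (coeffMap r t₀) ((P (ε j)).map r) *
      coeffMap r (x j.1 * S 0 ^ (j.2 : ℕ)) = 0 := by
    refine Eq.trans ?_ h1.symm
    refine Finset.sum_congr rfl fun j _ => ?_
    rw [map_mul (coeffMap r) (aeval t₀ (P (ε j))), redDVR_coeffMap_aeval]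
  have h3 := hind (fun j => aeval (coeffMap r t₀) ((P (ε j)).map r))
    (fun j => IntermediateField.algebra_adjoin_le_adjoin _ _
      (Polynomial.aeval_mem_adjoin_singleton _ _)) h2 j
  exact transcendental_iff.mp kd.transc _ h3

/-- polynomials in an element of an intermediate field lie in the field -/
theorem k7fd_aeval_mem {A₀ E : Type} [CommRing A₀] [Field E] [Algebra A₀ E]
    (F₀ : IntermediateField E (LaurentSeries E)) {t₀ : LaurentSeries A₀}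
    (ht : coeffMap (algebraMap A₀ E) t₀ ∈ F₀) (Q : A₀[X]) :
    coeffMap (algebraMap A₀ E) (aeval t₀ Q) ∈ F₀ := by
  rw [redDVR_coeffMap_aeval]
  have h1 : aeval (coeffMap (algebraMap A₀ E) t₀) (Q.map (algebraMap A₀ E)) ∈
      Algebra.adjoin E {coeffMap (algebraMap A₀ E) t₀} :=
    Polynomial.aeval_mem_adjoin_singleton _ _
  have h2 : Algebra.adjoin E {coeffMap (algebraMap A₀ E) t₀} ≤ F₀.toSubalgebra :=
    Algebra.adjoin_le (Set.singleton_subset_iff.mpr ht)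
  exact h2 h1

/-- **Integral representation**, series form: `D · Y = ∑_{i,l} C_{i,l} · x i · (S 0)^l` with
`D, C_{i,l} ∈ A₀((q))` in `F₀`, `D̄ ≠ 0`, and `Ȳ = 0 → C̄_{i,l} = 0`. -/
theorem k7fd_rep_series
    {A₀ E k : Type} [CommRing A₀] [IsDomain A₀] [IsDiscreteValuationRing A₀]
    [Field E] [Algebra A₀ E] [IsFractionRing A₀ E] [CharZero E]
    [Field k] (r : A₀ →+* k) (F₀ F : IntermediateField E (LaurentSeries E))
    {π : A₀} (hπ : Irreducible π) (hrπ : r π = 0) (hr : ∀ a, r a = 0 → π ∣ a)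
    {t₀ : LaurentSeries A₀} {n : ℕ} {x : Fin n → LaurentSeries A₀}
    (kd : GaussKD r F₀ t₀ x)
    (ht₀ : (coeffMap (algebraMap A₀ E) t₀).order = -1)
    {m : ℕ} (S : Fin (m + 1) → LaurentSeries A₀) (hS : ConjFamily r F₀ F S)
    (hgoodF₀ : ∀ [Algebra A₀ F₀] [IsScalarTower A₀ E F₀],
      TSGoodBasis (A₀ := A₀) (E := E) (Lf := F₀) π
        ⟨coeffMap (algebraMap A₀ E) t₀, kd.t_mem⟩)
    (hfin : FiniteDimensional
      E⟮(⟨coeffMap (algebraMap A₀ E) t₀, hS.le kd.t_mem⟩ : F)⟯ F)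
    (Sg : Finset A₀) (hSg : ∀ c ∈ Sg, ∀ c' ∈ Sg, c ≠ c' → ¬ π ∣ c - c')
    (e : ℕ) (he : IsUnit (e : A₀)) (hζe : ∃ ζ : A₀, IsPrimitiveRoot ζ e)
    (hram : ∀ [Algebra A₀ F] [IsScalarTower A₀ E F],
      TSUnramified (A₀ := A₀) (E := E) (Lf := F)
        ⟨coeffMap (algebraMap A₀ E) t₀, hS.le kd.t_mem⟩ Sg ∧
      TSTame (A₀ := A₀) (E := E) (Lf := F)
        ⟨coeffMap (algebraMap A₀ E) t₀, hS.le kd.t_mem⟩ Sg e)
    (Y : LaurentSeries A₀) (hY : coeffMap (algebraMap A₀ E) Y ∈ F) :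
    ∃ (D : LaurentSeries A₀) (C : Fin n × Fin (m + 1) → LaurentSeries A₀),
      coeffMap (algebraMap A₀ E) D ∈ F₀ ∧ (∀ j, coeffMap (algebraMap A₀ E) (C j) ∈ F₀) ∧
      coeffMap r D ≠ 0 ∧
      D * Y = ∑ j, C j * (x j.1 * S 0 ^ (j.2 : ℕ)) ∧
      (coeffMap r Y = 0 → ∀ j, coeffMap r (C j) = 0) := by
  obtain ⟨Q, P, hQ, hrel, hzero⟩ := k7fd_rep_nf r F₀ F hπ hrπ hr kd ht₀ S hS hgoodF₀ hfin Sg hSg
    e he hζe hram Y hY
  refine ⟨aeval t₀ Q, fun j => aeval t₀ (P j), k7fd_aeval_mem F₀ kd.t_mem Q,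
    fun j => k7fd_aeval_mem F₀ kd.t_mem (P j), ?_, hrel, ?_⟩
  · rw [redDVR_coeffMap_aeval]
    exact fun h0 => hQ (transcendental_iff.mp kd.transc _ h0)
  · intro hY0 j
    rw [redDVR_coeffMap_aeval, hzero hY0 j, map_zero]

end Fermat.Agent.RT.K7F
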