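import Mathlib

/-!
# RT / K7-FLAT, piece RH0-EIG (helper71): Kummer eigenbasis of an abelian extension

`F/F₀` finite, `G ≤ Aut_{F₀}(F)` abelian with `|G| = [F : F₀] = d`, `K ⊂ F₀` algebraically closed
of characteristic `0`.  Then `F` has an `F₀`-basis of simultaneous eigenvectors `y_χ` of `G`
(`χ : G → Kˣ` the characters), and `y_χ^d ∈ F₀ˣ`.

* `k7feigProj G χ = Σ_g χ(g)⁻¹ • g` : the projector onto the `χ`-eigenspace (up to the factor `d`);
* `k7feig_proj_smul` : `h (e_χ x) = χ(h) • e_χ x`;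
* `k7feig_proj_ne_zero` : `e_χ ≠ 0` (Dedekind);
* `k7feig_fixed` : `F^G = F₀`;
* `k7feig_linearIndependent` : eigenvectors for the characters are linearly independent;
* `k7feig_exists` : the statement;
* `k7feig_exists_char` : the same with the characters and the eigenvector property.
-/

set_option autoImplicit false
set_option linter.unusedSectionVars false
set_option linter.style.longLine false
set_option linter.style.haveILetI false

noncomputable section

namespace Fermat.Agent.RT.K7F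

open Module IntermediateField

variable {K F₀ F : Type*} [Field K] [Field F₀] [Field F]
  [Algebra K F₀] [Algebra K F] [Algebra F₀ F] [IsScalarTower K F₀ F]

/-- the value of the character `χ` at `g`, in `F₀` -/
def k7feigVal (G : Subgroup (F ≃ₐ[F₀] F)) (χ : G →* Kˣ) (g : G) : F₀ :=
  algebraMap K F₀ ((χ g : Kˣ) : K)

theorem k7feigVal_mul (G : Subgroup (F ≃ₐ[F₀] F)) (χ : G →* Kˣ) (g h : G) :
    k7feigVal G χ (g * h) = k7feigVal G χ g * k7feigVal G χ h := by
  simp only [k7feigVal, map_mul, Units.val_mul]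

theorem k7feigVal_one (G : Subgroup (F ≃ₐ[F₀] F)) (χ : G →* Kˣ) :
    k7feigVal G χ 1 = 1 := by
  simp only [k7feigVal, map_one, Units.val_one]

theorem k7feigVal_ne_zero (G : Subgroup (F ≃ₐ[F₀] F)) (χ : G →* Kˣ) (g : G) :
    k7feigVal G χ g ≠ 0 := by
  rw [k7feigVal]
  exact (map_ne_zero (algebraMap K F₀)).2 (Units.ne_zero _)

theorem k7feigVal_inv_mul (G : Subgroup (F ≃ₐ[F₀] F)) (χ : G →* Kˣ) (g : G) :
    k7feigVal G χ g⁻¹ * k7feigVal G χ g = 1 := by
  rw [← k7feigVal_mul, inv_mul_cancel, k7feigVal_one]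

/-- `Σ_g χ(g)⁻¹ • g`, an `F₀`-linear endomorphism of `F` -/
def k7feigProj (G : Subgroup (F ≃ₐ[F₀] F)) [Fintype G] (χ : G →* Kˣ) : F →ₗ[F₀] F :=
  ∑ g : G, k7feigVal G χ g⁻¹ • ((g : F ≃ₐ[F₀] F).toLinearMap)

theorem k7feigProj_apply (G : Subgroup (F ≃ₐ[F₀] F)) [Fintype G] (χ : G →* Kˣ) (x : F) :
    k7feigProj G χ x = ∑ g : G, k7feigVal G χ g⁻¹ • (g : F ≃ₐ[F₀] F) x := by
  simp only [k7feigProj, LinearMap.sum_apply, LinearMap.smul_apply, AlgEquiv.toLinearMap_apply]

/-- `h (e_χ x) = χ(h) • e_χ x` -/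
theorem k7feig_proj_smul (G : Subgroup (F ≃ₐ[F₀] F)) [Fintype G] (χ : G →* Kˣ) (h : G) (x : F) :
    (h : F ≃ₐ[F₀] F) (k7feigProj G χ x) = k7feigVal G χ h • k7feigProj G χ x := by
  rw [k7feigProj_apply, map_sum, Finset.smul_sum]
  refine Fintype.sum_equiv (Equiv.mulLeft h) _ _ fun g => ?_
  rw [map_smul, Equiv.coe_mulLeft, smul_smul, mul_inv_rev, k7feigVal_mul, ← mul_assoc,
    mul_comm (k7feigVal G χ h), mul_assoc, mul_comm (k7feigVal G χ h), k7feigVal_inv_mul, mul_one]
  rfl

/-- the projector of an eigenvector -/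
theorem k7feig_proj_eigen (G : Subgroup (F ≃ₐ[F₀] F)) [Fintype G] (χ ψ : G →* Kˣ) (y : F)
    (hy : ∀ g : G, (g : F ≃ₐ[F₀] F) y = k7feigVal G χ g • y) :
    k7feigProj G ψ y = (∑ g : G, k7feigVal G ψ g⁻¹ * k7feigVal G χ g) • y := by
  rw [k7feigProj_apply, Finset.sum_smul]
  refine Finset.sum_congr rfl fun g _ => ?_
  rw [hy g, smul_smul]

/-- orthogonality of characters -/
theorem k7feig_orth (G : Subgroup (F ≃ₐ[F₀] F)) [Fintype G] (χ ψ : G →* Kˣ) (hne : χ ≠ ψ) :
    ∑ g : G, k7feigVal G ψ g⁻¹ * k7feigVal G χ g = 0 := by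
  classical
  set φ : G →* K := (Units.coeHom K).comp (ψ⁻¹ * χ) with hφ
  have hφ1 : φ ≠ 1 := by
    intro h
    apply hne
    ext g
    have h1 := DFunLike.congr_fun h g
    simp only [hφ, MonoidHom.coe_comp, Function.comp_apply, MonoidHom.mul_apply,
      MonoidHom.inv_apply, Units.coeHom_apply, MonoidHom.one_apply, Units.val_eq_one] at h1
    have h2 : χ g = ψ g := by
      rw [inv_mul_eq_one] at h1
      exact h1.symm
    rw [h2]
  have h0 := sum_hom_units_eq_zero φ hφ1
  have e : ∑ g : G, k7feigVal G ψ g⁻¹ * k7feigVal G χ g = algebraMap K F₀ (∑ g : G, φ g) := by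
    rw [map_sum]
    refine Finset.sum_congr rfl fun g _ => ?_
    simp only [k7feigVal, hφ, MonoidHom.coe_comp, Function.comp_apply, MonoidHom.mul_apply,
      MonoidHom.inv_apply, Units.coeHom_apply, map_mul, map_inv, Units.val_inv_eq_inv_val]
  rw [e, h0, map_zero]

theorem k7feig_orth_self (G : Subgroup (F ≃ₐ[F₀] F)) [Fintype G] (χ : G →* Kˣ) :
    ∑ g : G, k7feigVal G χ g⁻¹ * k7feigVal G χ g = (Fintype.card G : F₀) := by
  simp only [k7feigVal_inv_mul, Finset.sum_const, Finset.card_univ, nsmul_eq_mul, mul_one]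

/-- Dedekind: the projector is not zero -/
theorem k7feig_proj_ne_zero (G : Subgroup (F ≃ₐ[F₀] F)) [Fintype G] (χ : G →* Kˣ) :
    ∃ x : F, k7feigProj G χ x ≠ 0 := by
  classical
  by_contra hcon
  push Not at hcon
  have hli := linearIndependent_monoidHom F F
  have hinj : Function.Injective
      (fun g : G => (((g : F ≃ₐ[F₀] F) : F →+* F) : F →* F)) := by
    intro g h hgh
    apply Subtype.ext
    apply AlgEquiv.ext
    intro x
    exact DFunLike.congr_fun hgh x
  have hli2 := hli.comp _ hinj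
  rw [Fintype.linearIndependent_iff] at hli2
  have h0 := hli2 (fun g => algebraMap F₀ F (k7feigVal G χ g⁻¹)) (by
    funext x
    have hx := hcon x
    rw [k7feigProj_apply] at hx
    simp only [Function.comp_apply, Finset.sum_apply, Pi.smul_apply, smul_eq_mul, Pi.zero_apply]
    rw [← hx]
    refine Finset.sum_congr rfl fun g _ => ?_
    rw [Algebra.smul_def]
    rfl) 1
  have h1 : algebraMap F₀ F (k7feigVal G χ (1 : G)⁻¹) ≠ 0 :=
    (map_ne_zero (algebraMap F₀ F)).2 (k7feigVal_ne_zero G χ _)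
  exact h1 h0

/-- `F^G = F₀` if `|G| = [F : F₀]` -/
theorem k7feig_fixed [FiniteDimensional F₀ F] (G : Subgroup (F ≃ₐ[F₀] F)) [Finite G]
    (hcard : Nat.card G = finrank F₀ F) (z : F) (hz : ∀ g ∈ G, g z = z) :
    ∃ u : F₀, algebraMap F₀ F u = z := by
  have h1 : finrank (fixedField G) F = finrank F₀ F := by
    rw [finrank_fixedField_eq_card, hcard]
  have h2 := finrank_mul_finrank F₀ (fixedField G) F
  have hpos : 0 < finrank F₀ F := finrank_pos
  have h3 : finrank F₀ (fixedField G) = 1 := by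
    rw [h1] at h2
    have := Nat.eq_of_mul_eq_mul_right hpos (h2.trans (one_mul _).symm)
    exact this
  have h4 : fixedField G = ⊥ := IntermediateField.finrank_eq_one_iff.1 h3
  have h5 : z ∈ fixedField G := by
    rw [IntermediateField.mem_fixedField_iff]
    exact hz
  rw [h4, IntermediateField.mem_bot] at h5
  exact h5

/-- eigenvectors for the characters are linearly independent -/
theorem k7feig_linearIndependent [CharZero F₀] (G : Subgroup (F ≃ₐ[F₀] F)) [Fintype G]
    {ι : Type*} (c : ι → (G →* Kˣ)) (hc : Function.Injective c) (y : ι → F)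
    (hy0 : ∀ i, y i ≠ 0)
    (hy : ∀ i, ∀ g : G, (g : F ≃ₐ[F₀] F) (y i) = k7feigVal G (c i) g • y i) :
    LinearIndependent F₀ y := by
  classical
  rw [linearIndependent_iff']
  intro s a hsum i hi
  have h1 := congrArg (k7feigProj G (c i)) hsum
  rw [map_sum, map_zero] at h1
  have h2 : ∀ j ∈ s, k7feigProj G (c i) (a j • y j) =
      if j = i then (a i * (Fintype.card G : F₀)) • y i else 0 := by
    intro j _
    rw [map_smul, k7feig_proj_eigen G (c j) (c i) (y j) (hy j)]
    split_ifs with hji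
    · subst hji
      rw [k7feig_orth_self, smul_smul]
    · rw [k7feig_orth G (c j) (c i) (fun h => hji (hc h)), zero_smul, smul_zero]
  rw [Finset.sum_congr rfl h2, Finset.sum_ite_eq' s i, if_pos hi] at h1
  rcases smul_eq_zero.1 h1 with h3 | h3
  · rcases mul_eq_zero.1 h3 with h4 | h4
    · exact h4
    · exfalso
      have : (Fintype.card G : F₀) ≠ 0 := Nat.cast_ne_zero.2 Fintype.card_ne_zero
      exact this h4
  · exact absurd h3 (hy0 i)

/-! ### The statement -/

/-- **RH0-EIG**, with the characters: an `F₀`-basis of simultaneous eigenvectors of `G`,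
indexed by the characters `G → Kˣ`; the `d`-th powers lie in `F₀`. -/
theorem k7feig_exists_char [IsAlgClosed K] [CharZero K] [FiniteDimensional F₀ F]
    (G : Subgroup (F ≃ₐ[F₀] F)) [Finite G] (hcomm : ∀ a ∈ G, ∀ b ∈ G, a * b = b * a)
    (hcard : Nat.card G = Module.finrank F₀ F) :
    ∃ (c : Fin (Module.finrank F₀ F) → (G →* Kˣ)) (y : Fin (Module.finrank F₀ F) → F)
      (u : Fin (Module.finrank F₀ F) → F₀),
      Function.Bijective c ∧ (∀ i, u i ≠ 0) ∧ (∀ i, y i ≠ 0) ∧
      (∀ i, y i ^ (Module.finrank F₀ F) = algebraMap F₀ F (u i)) ∧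
      (∀ i, ∀ g : G, (g : F ≃ₐ[F₀] F) (y i) = algebraMap K F ((c i g : Kˣ) : K) * y i) ∧
      LinearIndependent F₀ y := by
  classical
  haveI : Fintype G := Fintype.ofFinite G
  letI : CommGroup G :=
    { (inferInstance : Group G) with
      mul_comm := fun a b => Subtype.ext (hcomm a a.2 b b.2) }
  haveI : CharZero F₀ := charZero_of_injective_algebraMap (algebraMap K F₀).injective
  have hd : 0 < Module.finrank F₀ F := Module.finrank_pos
  -- the characters
  haveI : NeZero ((Monoid.exponent G : ℕ) : K) :=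
    ⟨Nat.cast_ne_zero.2 Monoid.exponent_ne_zero_of_finite⟩
  have hX : Nat.card (G →* Kˣ) = Module.finrank F₀ F := by
    rw [CommGroup.card_monoidHom_of_hasEnoughRootsOfUnity G K, hcard]
  haveI : Finite (G →* Kˣ) := Nat.finite_of_card_ne_zero (by rw [hX]; exact hd.ne')
  let e : Fin (Module.finrank F₀ F) ≃ (G →* Kˣ) := (Finite.equivFinOfCardEq hX).symm
  -- the eigenvectors
  choose x hx using fun χ : G →* Kˣ => k7feig_proj_ne_zero G χ
  set y : (G →* Kˣ) → F := fun χ => k7feigProj G χ (x χ) with hy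
  have hy0 : ∀ χ, y χ ≠ 0 := hx
  have hyg : ∀ χ, ∀ g : G, (g : F ≃ₐ[F₀] F) (y χ) = k7feigVal G χ g • y χ :=
    fun χ g => k7feig_proj_smul G χ g (x χ)
  -- the powers
  have hpow : ∀ χ, ∃ u : F₀, algebraMap F₀ F u = y χ ^ (Module.finrank F₀ F) := by
    intro χ
    refine k7feig_fixed G hcard _ fun g hg => ?_
    have h1 := hyg χ ⟨g, hg⟩
    have h2 : k7feigVal G χ ⟨g, hg⟩ ^ (Module.finrank F₀ F) = 1 := by
      rw [k7feigVal, ← map_pow, ← Units.val_pow_eq_pow_val, ← map_pow, ← hcard, pow_card_eq_one',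
        map_one, Units.val_one, map_one]
    rw [map_pow]
    show ((⟨g, hg⟩ : G) : F ≃ₐ[F₀] F) (y χ) ^ _ = _
    rw [h1, smul_pow, h2, one_smul]
  choose u hu using hpow
  have hu0 : ∀ χ, u χ ≠ 0 := by
    intro χ h0
    have h1 := hu χ
    rw [h0, map_zero] at h1
    exact pow_ne_zero _ (hy0 χ) h1.symm
  refine ⟨e, fun i => y (e i), fun i => u (e i), e.bijective, fun i => hu0 _, fun i => hy0 _,
    fun i => (hu _).symm, fun i g => ?_, ?_⟩
  · rw [hyg (e i) g, Algebra.smul_def, k7feigVal, ← IsScalarTower.algebraMap_apply]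
  · exact k7feig_linearIndependent G (fun i => e i) e.injective (fun i => y (e i))
      (fun i => hy0 _) (fun i g => hyg (e i) g)

/-- **RH0-EIG** (Kummer eigenbasis): `F/F₀` finite, `G ≤ Aut_{F₀}(F)` abelian of order
`d = [F : F₀]`, `K ⊂ F₀` algebraically closed of characteristic `0` ⟹ there is a linearly
independent family `y_1, …, y_d` of `F` over `F₀` with `y_i^d ∈ F₀ˣ`. -/
theorem k7feig_exists {K F₀ F : Type*} [Field K] [Field F₀] [Field F]
    [Algebra K F₀] [Algebra K F] [Algebra F₀ F] [IsScalarTower K F₀ F]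
    [IsAlgClosed K] [CharZero K] [FiniteDimensional F₀ F]
    (G : Subgroup (F ≃ₐ[F₀] F)) [Finite G] (hcomm : ∀ a ∈ G, ∀ b ∈ G, a * b = b * a)
    (hcard : Nat.card G = Module.finrank F₀ F) :
    ∃ (y : Fin (Module.finrank F₀ F) → F) (u : Fin (Module.finrank F₀ F) → F₀),
      (∀ i, u i ≠ 0) ∧ (∀ i, y i ^ (Module.finrank F₀ F) = algebraMap F₀ F (u i)) ∧
      LinearIndependent F₀ y := by
  obtain ⟨-, y, u, -, hu, -, hpow, -, hli⟩ := k7feig_exists_char (K := K) G hcomm hcard
  exact ⟨y, u, hu, hpow, hli⟩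

end Fermat.Agent.RT.K7F
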