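import Mathlib
import Fermat.Agent.S05.Inertia
import Fermat.Agent.W1.GeoAll

/-!
# K7-FLAT, piece FL-KC: the kernel chart, generic in the function field and in the action
(helper51; fork of `W1/GeoKC.lean` on top of the generic `W1/GeoKCAbs.lean`)

`F` a function field over `ℚ̄`, `Fk` a function field over the residue field of `A`,
`R : PRData ℚ̄ F k Fk A` a reduction package, `γ σ` (`σ ∈ G_ℚ`) semilinear automorphisms of `F`
over `σ`, `J` a `G_ℚ`-module with an isomorphism `e : J ≃+ Pic⁰(F)` such that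
`e (σ • x) = γ σ • e x`.

* `KCHyp A g R t γ` : the hypotheses (`W1.ModPR` for a general function field and a general
  family `γ`; `t` has to be fixed by `γ σ` only for `σ` in the inertia group);
* `k7fkc_kernelChart` : `KCHyp` gives a kernel chart `W1.KernelChart A J J1 g z` on `J`, with
  `J1 = e⁻¹(R.J1)`.

For the twisted action `act_tw σ x = δ_{c(σ)}^e (σ • x)` on `J_H`: take `J` = a type synonym of
`J_H` with this action, `e` = the identity and `γ σ = δ_{c(σ)}^e ∘ (coefficientwise σ)`.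
-/

set_option autoImplicit false

open AlgebraicCurve Module ModularCurve

namespace Fermat.Agent.RT.K7F

open Fermat.Agent.W1

/-- `ℚ̄` -/
local notation "Qb" => AlgebraicClosure ℚ

variable {F Fk : Type} [Field F] [Algebra Qb F] [Field Fk] {A : ValuationSubring Qb}
  [Algebra (IsLocalRing.ResidueField A) Fk]

/-- The hypotheses of the kernel chart: a reduction package of `F` at `A` with its compatibility
with a family `γ σ` of semilinear automorphisms of `F` over `σ ∈ G_ℚ`. -/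
structure KCHyp (A : ValuationSubring Qb) {Fk : Type} [Field Fk]
    [Algebra (IsLocalRing.ResidueField A) Fk] (g : ℕ)
    (R : PRData Qb F (IsLocalRing.ResidueField A) Fk A) (t : F)
    (γ : (Qb ≃ₐ[ℚ] Qb) → SemilinearAut Qb F) : Prop where
  isPR : R.IsPR
  res_eq : R.res = IsLocalRing.residue A
  orth : R.Orth
  nice : IsNiceCurve Qb F g
  nice_k : IsNiceCurve (IsLocalRing.ResidueField A) Fk g
  good : R.GoodFn t
  ram : ∀ ht : t ∈ R.O,
    {Q : Place (IsLocalRing.ResidueField A) Fk |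
      ¬ ∃ c : IsLocalRing.ResidueField A, Q.ord (R.red ⟨t, ht⟩ - algebraMap _ _ c) = 1}.Finite
  base : ∀ (σ : Qb ≃ₐ[ℚ] Qb) (a : Qb), SemilinearAut.baseAut (γ σ) a = σ a
  t_fixed : ∀ σ ∈ A.inertiaSubgroupIn ℚ, γ σ • t = t
  decomp : ∀ σ ∈ A.decompositionSubgroup ℚ,
    ∃ σb : Place (IsLocalRing.ResidueField A) Fk → Place (IsLocalRing.ResidueField A) Fk,
      (∀ P, R.r (γ σ • P) = σb (R.r P)) ∧
      ∀ E ∈ Divisor.principal (K := IsLocalRing.ResidueField A) (F := Fk),
        Finsupp.mapDomain σb E ∈ Divisor.principal (K := IsLocalRing.ResidueField A) (F := Fk)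
  inertia : ∀ σ ∈ A.inertiaSubgroupIn ℚ, ∀ P, R.r (γ σ • P) = R.r P

variable {g : ℕ} {R : PRData Qb F (IsLocalRing.ResidueField A) Fk A} {t : F}
  {γ : (Qb ≃ₐ[ℚ] Qb) → SemilinearAut Qb F}

/-- elements of the inertia group act like inertia -/
theorem k7fkc_inertiaLike (hM : KCHyp A g R t γ) {S : Set A} (hS : IsTeich A S)
    {σ : Qb ≃ₐ[ℚ] Qb} (hσ : σ ∈ A.inertiaSubgroupIn ℚ) : InertiaLike R t S (γ σ) where
  r_smul := hM.inertia σ hσ
  t_fixed := hM.t_fixed σ hσ
  base_fixed := fun s hs => by rw [hM.base]; exact hS.fixed σ hσ s hs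
  base_nonunits := fun a ha => by
    rw [hM.base]
    exact (Fermat.Agent.S05.inertia_apply_mem_nonunits_iff hσ a).mpr ha

/-- **FL-KC, generic form.** -/
theorem k7fkc_kernelChart {p : ℕ} (hp : p.Prime) (hA : A.LiesOverPrime p)
    (hM : KCHyp A g R t γ) (J : Type) [AddCommGroup J] [DistribMulAction (Qb ≃ₐ[ℚ] Qb) J]
    (e : J ≃+ Pic0 Qb F) (he : ∀ (σ : Qb ≃ₐ[ℚ] Qb) (x : J), e (σ • x) = γ σ • e x) :
    ∃ (J1 : AddSubgroup J) (z : J → Fin g → Qb), KernelChart A J J1 g z := by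
  have hDisc := stmtDisc
  have hC1 := stmtC1
  have hLift := stmtLift
  have hAdd := stmtAddApprox
  obtain ⟨S, hS⟩ := stmtTeich p hp A hA
  have hSsurj : ∀ c : IsLocalRing.ResidueField A, ∃ s ∈ S, R.res s = c := by
    rw [hM.res_eq]; exact hS.surj
  have hSinj : ∀ s ∈ S, ∀ s' ∈ S, R.res s = R.res s' → s = s' := by
    rw [hM.res_eq]; exact hS.inj
  have ht : t ∈ R.O := hM.good.1
  obtain ⟨C, hC, hRep, hCt, hcS⟩ := kc_exists_chart hDisc hM.isPR hM.nice hM.nice_k t ht hM.good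
    (hM.ram ht) S hSsurj hSinj
  subst hCt
  have hspec : ∀ x : Pic0 Qb F, x ∈ R.J1 → C.IsCoord x (kcCoord C x) := fun x hx =>
    kcCoord_spec (isCoord_exists hDisc hC1 hM.isPR hM.nice hM.nice_k hM.orth hC hx)
  have hdecomp : ∀ σ ∈ A.decompositionSubgroup ℚ, ∀ x ∈ R.J1, γ σ • x ∈ R.J1 := by
    intro σ hσ x hx
    obtain ⟨σb, h1, h2⟩ := hM.decomp σ hσ
    exact kc_smul_mem_J1 (γ σ) σb h1 h2 hx
  refine ⟨R.J1.comap e.toAddMonoidHom, fun x => kcCoord C (e x), ⟨?_, ?_, ?_, ?_, ?_, ?_⟩⟩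
  · -- decomp_stable
    intro σ hσ x hx
    show e (σ • x) ∈ R.J1
    rw [he]
    exact hdecomp σ hσ _ hx
  · -- mem_nonunits
    intro x hx i
    obtain ⟨P, -, hPd⟩ := hspec (e x) hx
    exact (hPd i).2.1
  · -- injOn
    intro x hx y hy hxy
    have h1 := hspec (e x) hx
    have h2 := hspec (e y) hy
    rw [← hxy] at h2
    exact e.injective (isCoord_inj hDisc hM.isPR hM.nice hM.nice_k hC h1 h2)
  · -- inertia_equivariant
    intro σ hσ x hx i
    have hσx : γ σ • e x ∈ R.J1 :=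
      hdecomp σ (Fermat.Agent.S05.mem_decomposition_of_mem_inertiaIn hσ) _ hx
    have h1 := isCoord_smul hDisc hM.isPR hM.nice hM.nice_k hC hcS (k7fkc_inertiaLike hM hS hσ)
      (hspec (e x) hx)
    have h2 := kcCoord_eq hC1 hM.isPR hM.nice hM.nice_k hM.orth hC hσx h1
    show kcCoord C (e (σ • x)) i = σ (kcCoord C (e x) i)
    rw [he, h2]
    exact hM.base σ _
  · -- add_approx
    intro ϖ hϖ hϖ0 n
    obtain ⟨Φ, hΦ, h⟩ := kc_add_approx hAdd hM.isPR hM.nice hM.nice_k hM.orth hC hRep n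
    refine ⟨Φ, hΦ, fun x hx y hy hzx hzy => ?_⟩
    have hxy : C.IsCoord (e x + e y) (kcCoord C (e (x + y))) := by
      rw [map_add]
      exact hspec (e x + e y) (R.J1.add_mem hx hy)
    exact h ϖ hϖ hϖ0 (e x) (e y) _ _ _ (hspec (e x) hx) (hspec (e y) hy) hxy hzx hzy
  · -- lift
    intro x _
    obtain ⟨b, hb1, hb2⟩ := kc_lift hDisc hLift hM.isPR hM.nice hM.nice_k ht hM.good (hM.ram ht)
      hSsurj (e x)
    refine ⟨e.symm b, fun σ hσ => ?_, ?_⟩
    · apply e.injective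
      rw [he, e.apply_symm_apply]
      exact hb2 _ (k7fkc_inertiaLike hM hS hσ)
    · show e (x - e.symm b) ∈ R.J1
      rw [map_sub, e.apply_symm_apply]
      exact hb1

end Fermat.Agent.RT.K7F
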