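import Fermat.Agent.RT.K7F.Plan
import Fermat.Agent.RT.K7F.KC

/-!
# K7-FLAT, piece FL-KC: `StmtKCH` (helper51)

The reduction package `ModPRH` of `X_H(L; M)` at `A` gives a kernel chart on `J_H` for the
`χ`-twisted Galois action: apply the generic `k7fkc_kernelChart` (`RT/K7F/KC.lean`) to the family
`γ σ = δ_{χ σ} ∘ (coefficientwise σ)` of semilinear automorphisms of `F_H`.

* `k7fkc_stmtKCH : StmtKCH`.
-/

set_option autoImplicit false
set_option linter.unusedSectionVars false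
set_option synthInstance.maxHeartbeats 400000
set_option maxHeartbeats 1600000

noncomputable section

namespace Fermat.Agent.RT.K7F

open AlgebraicCurve Module ModularCurve
open Fermat.Agent.ES Fermat.Agent.ES.M Fermat.Agent.ES1 Fermat.Agent.ES1.G2 Fermat.Agent.W1
  Fermat.Agent.S24

/-- the family `γ σ = δ_σ ∘ (coefficientwise σ)` -/
def k7fkcGamma (L M : ℕ) (H : Subgroup (ZMod M)ˣ)
    (δ : K7GQ → (fieldBar L M H ≃ₐ[Kb] fieldBar L M H)) (σ : K7GQ) :
    SemilinearAut Kb ↥(fieldBar L M H) :=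
  SemilinearAut.ofAlgAut (δ σ) * arithmeticGalois (fieldQ L M H) σ

theorem k7fkcGamma_of_one {L M : ℕ} {H : Subgroup (ZMod M)ˣ}
    {δ : K7GQ → (fieldBar L M H ≃ₐ[Kb] fieldBar L M H)} {σ : K7GQ} (h : δ σ = 1) :
    k7fkcGamma L M H δ σ = arithmeticGalois (fieldQ L M H) σ := by
  rw [k7fkcGamma, h, map_one, one_mul]

/-- the hypotheses of the generic kernel chart, from the package `ModPRH` -/
theorem k7fkc_hyp {L M : ℕ} {H : Subgroup (ZMod M)ˣ} {A : ValuationSubring Kb} {g : ℕ}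
    {R : PRData Kb ↥(fieldBar L M H) (kA A) ↥(fieldC (kA A) L M H) A} {t : ↥(fieldBar L M H)}
    (hM : ModPRH L M H A g R t) {χ : K7GQ →* (ZMod M)ˣ} (hχ : IsTwistChar A χ)
    (δ : K7GQ → (fieldBar L M H ≃ₐ[Kb] fieldBar L M H))
    (hδ : ∀ σ, IsDiamondH L M H (χ σ) (δ σ)) :
    KCHyp A g R t (k7fkcGamma L M H δ) := by
  have hδ1 : ∀ σ ∈ A.inertiaSubgroupIn ℚ, δ σ = 1 := fun σ hσ => by
    have h := hδ σ
    rw [hχ.inertia σ hσ] at h
    exact h.unique isDiamondH_one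
  refine
    { isPR := hM.isPR
      res_eq := hM.res_eq
      orth := hM.orth
      nice := hM.nice
      nice_k := hM.nice_k
      good := hM.good
      ram := hM.ram
      base := fun σ a => ?_
      t_fixed := fun σ hσ => ?_
      decomp := fun σ hσ => ?_
      inertia := fun σ hσ P => ?_ }
  · show SemilinearAut.baseAut
      (SemilinearAut.ofAlgAut (δ σ) * arithmeticGalois (fieldQ L M H) σ) a = σ a
    rw [SemilinearAut.baseAut_mul, SemilinearAut.baseAut_ofAlgAut, one_mul,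
      baseAut_arithmeticGalois]
    rfl
  · rw [k7fkcGamma_of_one (hδ1 σ hσ)]
    exact hM.t_fixed σ
  · obtain ⟨σb, h1, h2⟩ := hM.decomp σ hσ
    obtain ⟨δb, h3, h4⟩ := hM.diam (χ σ) (δ σ) (hδ σ)
    refine ⟨δb ∘ σb, fun P => ?_, fun E hE => ?_⟩
    · show R.r ((SemilinearAut.ofAlgAut (δ σ) * arithmeticGalois (fieldQ L M H) σ) • P) = _
      rw [mul_smul, h3, h1]
      rfl
    · rw [Finsupp.mapDomain_comp]
      exact h4 _ (h2 E hE)
  · rw [k7fkcGamma_of_one (hδ1 σ hσ)]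
    exact hM.inertia σ hσ P

/-- **FL-KC**: the package gives a kernel chart on `J_H` for the twisted action. -/
theorem k7fkc_stmtKCH : StmtKCH := by
  intro L M H p hLv A hA χ hχ hPR
  obtain ⟨g, R, t, hM⟩ := hPR
  have hL : L ≠ 0 := by have := hLv.hL; omega
  have hML : M ∣ L := hLv.hML
  have hex : ∀ σ : K7GQ, ∃ δ : fieldBar L M H ≃ₐ[Kb] fieldBar L M H,
      IsDiamondH L M H (χ σ) δ := fun σ => k7f_diamondBar L M H hL hML (χ σ)
  choose δ hδ using hex
  have hK := k7fkc_hyp hM hχ δ hδ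
  have he : ∀ (σ : K7GQ) (x : JHtw L M H χ),
      ofTw L M H χ (σ • x) = k7fkcGamma L M H δ σ • ofTw L M H χ x := by
    intro σ x
    rw [tw_smul_eq L M H χ hL hML, es1Diamond_eq (hδ σ), diamondJ_apply,
      galois_smul_pic0_def, ← mul_smul]
    rfl
  obtain ⟨J1, z, h⟩ := k7fkc_kernelChart hLv.hp hA hK (JHtw L M H χ) (ofTw L M H χ) he
  exact ⟨J1, g, z, h⟩

end Fermat.Agent.RT.K7F
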