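import Fermat.Agent.RT.K7F.RH0Final
import Fermat.Agent.RT.K7F.AnchFinal
import Fermat.Agent.RT.K7F.KCH
import Fermat.Agent.RT.K7F.Fin

/-!
# RT-K7F: the final wiring of K7-FLAT, conditional on the ONLY open Prop `StmtBoundE`

* `stmtModPRH_of_boundE : StmtBoundE → StmtModPRH`
* `stmtFlatH_of_boundE  : StmtBoundE → StmtFlatH`

(FL-RH0 `stmtRiemannH`, FL-ANCH `k7fanch_stmtModPRH_of_two`, FL-KC `k7fkc_stmtKCH`,
FL-FIN `stmtFlatH_of_kc` are theorems.)
-/

set_option autoImplicit false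

namespace Fermat.Agent.RT.K7F

/-- GEO-PR for `X_H(L; M)` from the bound at `Ē`. -/
theorem stmtModPRH_of_boundE (hBE : StmtBoundE) : StmtModPRH :=
  k7fanch_stmtModPRH_of_two stmtRiemannH hBE

/-- **K7-FLAT** from the bound at `Ē`. -/
theorem stmtFlatH_of_boundE (hBE : StmtBoundE) : StmtFlatH :=
  stmtFlatH_of_kc k7fkc_stmtKCH (stmtModPRH_of_boundE hBE)

end Fermat.Agent.RT.K7F
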