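import Fermat.Agent.RT.K7F.Plan
import Fermat.Agent.RT.K7F.GaussH
import Fermat.Agent.DEU.Good
import Fermat.Agent.DEU.RamInst
import Fermat.Agent.ES1.HMaps
import Fermat.Agent.ES1.ConjDeg
import Fermat.Agent.ES1.DescentLevelH

/-!
# RT-K7F / FL-GOOD — `j` is a good function on `F_H`; `j̄` is unramified outside a finite set

`F_H = ES1.fieldBar L M H ⊃ F₀ = modularFunctionFieldBar L`, `F̄_H = ES1.fieldC k L M H ⊃
F̄₀ = modularFunctionFieldFullC k L`, `k = kA A`, `A ⊂ ℚ̄` over `p ∤ L`.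
`R : W1.PRData ℚ̄ F_H k F̄_H A` ANY reduction package whose reduction map sends `j` to `j̄`
(hypothesis `hred`, or: `R.red` is the Gauss reduction `k7fgRel`, see `k7fgood_red_of_rel`) and
with `r_* (div u) = div ū` (`W1.PRData.IsPR.r_div`).

* `k7fgood_finrank_eq_relfinrank`, `k7fgood_finrank_tower` : the tower law for `K(t) ⊂ F₀ ⊂ F`
  inside an ambient field (generic);
* `k7fgood_le_relfinrank` : `m + 1 ≤ [F : F₀]` from `m + 1` conjugates (generic);
* `k7fgood_finrank_bar` : `[F_H : ℚ̄(j)] = ψ(L) · [F_H : F₀]`;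
* `k7fgood_finrank_fieldC` : `[F̄_H : k(j̄)] = ψ(L) · [F̄_H : F̄₀]` (Igusa at level `L`);
* `k7fgood_good_of_le` : **`R.GoodFn j`**, from `[F_H : F₀] ≤ [F̄_H : F̄₀]` (the input of FL-DIAM);
* `k7fgood_ram_of_ne` : **the field `ram` of `ModPRH`**, from `[F̄_H : F̄₀] ≠ 0` (finiteness);
* `k7fgood_deg_of_diam` : the degree inequality from the reduced diamonds (the conclusion of
  `StmtDiamInt`) and the finiteness of `F̄_H / F̄₀`;
* `k7fgood_good`, `k7fgood_ram` : the two fields for `K7FLevel`, `R.IsPR`.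
-/

set_option autoImplicit false
set_option synthInstance.maxHeartbeats 400000
set_option maxHeartbeats 1600000
set_option linter.style.haveILetI false
set_option linter.unusedSectionVars false

noncomputable section

namespace Fermat.Agent.RT.K7F

open AlgebraicCurve Module IntermediateField ModularCurve
open Fermat.Agent.ES Fermat.Agent.ES.M Fermat.Agent.ES1 Fermat.Agent.W1 Fermat.Agent.S24
  Fermat.Agent.DEU

/-! ## Generic: degrees over `K(t)` inside an ambient field -/

section Tower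

variable {K Ω : Type*} [Field K] [Field Ω] [Algebra K Ω]

/-- `[F : K(t)]`, computed inside `F`, is the relative degree inside the ambient field -/
theorem k7fgood_finrank_eq_relfinrank (F : IntermediateField K Ω) (t : Ω) (ht : t ∈ F) :
    Module.finrank K⟮(⟨t, ht⟩ : F)⟯ F =
      (adjoin K {t} : IntermediateField K Ω).relfinrank F := by
  have h1 := IntermediateField.finrank_comap
    (A := (adjoin K {t} : IntermediateField K Ω)) F.val
  rw [IntermediateField.fieldRange_val] at h1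
  have hcomap : (adjoin K {t} : IntermediateField K Ω).comap F.val = K⟮(⟨t, ht⟩ : F)⟯ := by
    have hlift : IntermediateField.lift (K⟮(⟨t, ht⟩ : F)⟯ : IntermediateField K F) =
        (adjoin K {t} : IntermediateField K Ω) := by
      rw [IntermediateField.lift_adjoin_simple]
    ext x
    have h2 : x ∈ (adjoin K {t} : IntermediateField K Ω).comap F.val ↔
        (x : Ω) ∈ (adjoin K {t} : IntermediateField K Ω) := Iff.rfl
    rw [h2, ← hlift]
    exact IntermediateField.mem_lift x
  rw [hcomap] at h1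
  exact h1

/-- the tower law for `K(t) ⊂ F₀ ⊂ F` -/
theorem k7fgood_finrank_tower (F₀ F : IntermediateField K Ω) (hle : F₀ ≤ F) (t : Ω)
    (ht : t ∈ F₀) :
    Module.finrank K⟮(⟨t, hle ht⟩ : F)⟯ F =
      (adjoin K {t} : IntermediateField K Ω).relfinrank F₀ * F₀.relfinrank F := by
  rw [k7fgood_finrank_eq_relfinrank]
  exact (IntermediateField.relfinrank_mul_relfinrank
    (adjoin_simple_le_iff.mpr ht) hle).symm

/-- `m + 1 ≤ [F : F₀]` if `F / F₀` is finite and an element `s ∈ F` has `m + 1` pairwise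
different conjugates under automorphisms of `F` over `F₀` -/
theorem k7fgood_le_relfinrank {F₀ F : IntermediateField K Ω} (hle : F₀ ≤ F)
    (hfin : F₀.relfinrank F ≠ 0) (s : Ω) (hs : s ∈ F)
    {m : ℕ} (S : Fin (m + 1) → Ω) (hSinj : Function.Injective S)
    (haut : ∀ i, ∃ σ : F ≃ₐ[K] F, (∀ f : F, (f : Ω) ∈ F₀ → σ f = f) ∧
      ((σ ⟨s, hs⟩ : F) : Ω) = S i) :
    m + 1 ≤ F₀.relfinrank F := by
  classical
  have hF₀G : F₀ ≤ (F₀⟮s⟯).restrictScalars K := by
    intro x hx
    show x ∈ F₀⟮s⟯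
    exact IntermediateField.algebraMap_mem F₀⟮s⟯ (⟨x, hx⟩ : F₀)
  have hGF : (F₀⟮s⟯).restrictScalars K ≤ F := by
    rw [IntermediateField.restrictScalars_adjoin, IntermediateField.adjoin_le_iff]
    rintro x (hx | hx)
    · exact hle hx
    · rw [Set.mem_singleton_iff] at hx
      rw [hx]; exact hs
  have hmul := IntermediateField.relfinrank_mul_relfinrank hF₀G hGF
  have hG0 : F₀.relfinrank ((F₀⟮s⟯).restrictScalars K) ≠ 0 :=
    fun h0 => hfin (by rw [← hmul, h0, zero_mul])
  have hext : IntermediateField.extendScalars hF₀G = F₀⟮s⟯ := by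
    apply IntermediateField.restrictScalars_injective K
    rw [IntermediateField.extendScalars_restrictScalars]
  have hfr : F₀.relfinrank ((F₀⟮s⟯).restrictScalars K) = Module.finrank F₀ F₀⟮s⟯ := by
    rw [IntermediateField.relfinrank_eq_finrank_of_le hF₀G, hext]
  have hint : IsIntegral F₀ s := by
    haveI : FiniteDimensional F₀ F₀⟮s⟯ :=
      FiniteDimensional.of_finrank_pos (by rw [← hfr]; exact Nat.pos_of_ne_zero hG0)
    have h1 : IsIntegral F₀ (⟨s, mem_adjoin_simple_self F₀ s⟩ : F₀⟮s⟯) :=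
      IsIntegral.of_finite F₀ _
    exact h1.map (F₀⟮s⟯).val
  have hle1 : F₀.relfinrank ((F₀⟮s⟯).restrictScalars K) ≤ F₀.relfinrank F :=
    Nat.le_of_dvd (Nat.pos_of_ne_zero hfin) ⟨_, hmul.symm⟩
  refine le_trans ?_ hle1
  rw [hfr, IntermediateField.adjoin.finrank hint]
  set Z : Finset Ω := Finset.univ.image S with hZ
  have hZcard : Z.card = m + 1 := by
    rw [hZ, Finset.card_image_of_injective _ hSinj]
    simp
  have hne : (minpoly F₀ s).map (algebraMap F₀ Ω) ≠ 0 :=
    Polynomial.map_ne_zero (minpoly.ne_zero hint)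
  have hsub : Z.val ⊆ ((minpoly F₀ s).map (algebraMap F₀ Ω)).roots := by
    intro x hx
    rw [Finset.mem_val, hZ, Finset.mem_image] at hx
    obtain ⟨i, -, rfl⟩ := hx
    rw [Polynomial.mem_roots hne, Polynomial.IsRoot, Polynomial.eval_map]
    obtain ⟨σ, hσ, hσS⟩ := haut i
    rw [← hσS]
    exact es1cu_root_conj σ hσ hle (minpoly F₀ s) ⟨s, hs⟩ (minpoly.aeval F₀ s)
  have := Polynomial.card_le_degree_of_subset_roots hsub
  rw [hZcard, Polynomial.natDegree_map] at this
  exact this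

end Tower

/-! ## The degrees over `K(j)` -/

section Bar

variable (L M : ℕ) [NeZero L] (H : Subgroup (ZMod M)ˣ)

/-- `[F₀ : ℚ̄(j)] = ψ(L)`, relative form -/
theorem k7fgood_relfinrank_bar_full :
    (adjoin Kb {jBar} : IntermediateField Kb (LaurentSeries Kb)).relfinrank
      (modularFunctionFieldBar L) = dedekindPsi L := by
  have hN : ((L : ℕ) : Kb) ≠ 0 := Nat.cast_ne_zero.2 (NeZero.ne L)
  have h0 := Fermat.Agent.S28.relfinrank_full_eq_dedekindPsi Kb L hN
  rw [← Fermat.Agent.INJ.nf_bar_eq_fullC L] at h0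
  rw [Fermat.Agent.ES.I2.i2e_jBar_eq]
  exact h0

/-- `[F_H : ℚ̄(j)] = ψ(L) · [F_H : F₀]` -/
theorem k7fgood_finrank_bar (t : ↥(fieldBar L M H)) (ht : (t : LaurentSeries Kb) = jBar) :
    Module.finrank Kb⟮t⟯ ↥(fieldBar L M H) =
      dedekindPsi L * (modularFunctionFieldBar L).relfinrank (fieldBar L M H) := by
  have h := k7fgood_finrank_tower (modularFunctionFieldBar L) (fieldBar L M H)
    (dlh_bar_le_fieldBar L M H) jBar (jBar_mem L)
  have ht' : t = ⟨jBar, dlh_bar_le_fieldBar L M H (jBar_mem L)⟩ := Subtype.ext ht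
  rw [ht', h, k7fgood_relfinrank_bar_full]

theorem k7fgood_transcendental_bar (t : ↥(fieldBar L M H))
    (ht : (t : LaurentSeries Kb) = jBar) : Transcendental Kb t := by
  intro halg
  apply transcendental_jBar
  have := (isAlgebraic_algHom_iff (fieldBar L M H).val (Subtype.val_injective)).mpr halg
  rw [← ht]
  exact this

end Bar

section FieldC

variable (K : Type*) [Field K] (L M : ℕ) [NeZero L] (H : Subgroup (ZMod M)ˣ)

/-- `[F̄_H : k(j̄)] = ψ(L) · [F̄_H : F̄₀]` (Igusa's degree theorem at level `L`) -/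
theorem k7fgood_finrank_fieldC (hL : (L : K) ≠ 0) (z : ↥(fieldC K L M H))
    (hz : (z : LaurentSeries K) = jqModC K) :
    Module.finrank K⟮z⟯ ↥(fieldC K L M H) =
      dedekindPsi L * (modularFunctionFieldFullC K L).relfinrank (fieldC K L M H) := by
  have h := k7fgood_finrank_tower (modularFunctionFieldFullC K L) (fieldC K L M H)
    (full_le_fieldC K L M H) (jqModC K) (jqModC_mem_full K L)
  have hz' : z = ⟨jqModC K, full_le_fieldC K L M H (jqModC_mem_full K L)⟩ := Subtype.ext hz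
  rw [hz', h, Fermat.Agent.S28.relfinrank_full_eq_dedekindPsi K L hL]

theorem k7fgood_transcendental_fieldC (z : ↥(fieldC K L M H))
    (hz : (z : LaurentSeries K) = jqModC K) : Transcendental K z := by
  intro halg
  apply Fermat.Agent.S28.kdj_transcendental_jqModC K
  have := (isAlgebraic_algHom_iff (fieldC K L M H).val (Subtype.val_injective)).mpr halg
  rw [← hz]
  exact this

/-- `F̄_H / k(j̄)` is finite as soon as `F̄_H / F̄₀` is -/
theorem k7fgood_finiteDimensional_fieldC (hL : (L : K) ≠ 0) (z : ↥(fieldC K L M H))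
    (hz : (z : LaurentSeries K) = jqModC K)
    (hfin : (modularFunctionFieldFullC K L).relfinrank (fieldC K L M H) ≠ 0) :
    FiniteDimensional K⟮z⟯ ↥(fieldC K L M H) :=
  FiniteDimensional.of_finrank_pos (by
    rw [k7fgood_finrank_fieldC K L M H hL z hz]
    exact Nat.pos_of_ne_zero (Nat.mul_ne_zero (Fermat.Agent.ES.I2.i2e_dedekindPsi_ne_zero L) hfin))

/-- `F̄_H / k(j̄)` is separable (MacLane: `j̄ = q⁻¹ + …` is not a `p`-th power) -/
theorem k7fgood_isSeparable_fieldC (p : ℕ) [Fact p.Prime] [CharP K p] [PerfectRing K p]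
    (hL : (L : K) ≠ 0) (z : ↥(fieldC K L M H)) (hz : (z : LaurentSeries K) = jqModC K)
    (hfin : (modularFunctionFieldFullC K L).relfinrank (fieldC K L M H) ≠ 0) :
    Algebra.IsSeparable K⟮z⟯ ↥(fieldC K L M H) := by
  haveI := k7fgood_finiteDimensional_fieldC K L M H hL z hz hfin
  haveI : Algebra.IsAlgebraic K⟮z⟯ ↥(fieldC K L M H) := Algebra.IsAlgebraic.of_finite _ _
  exact resSep_isSeparable p (fieldC K L M H) z
    (fun w => by rw [hz]; exact deuGood_jqModC_ne_pow K p Fact.out w)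

/-- finiteness of `F̄_H / k(j̄)` gives `[F̄_H : F̄₀] ≠ 0` -/
theorem k7fgood_relfinrank_ne_zero_of_finite (hL : (L : K) ≠ 0) (z : ↥(fieldC K L M H))
    (hz : (z : LaurentSeries K) = jqModC K) [FiniteDimensional K⟮z⟯ ↥(fieldC K L M H)] :
    (modularFunctionFieldFullC K L).relfinrank (fieldC K L M H) ≠ 0 := by
  intro h0
  have h1 := k7fgood_finrank_fieldC K L M H hL z hz
  rw [h0, mul_zero] at h1
  exact (Module.finrank_pos (R := K⟮z⟯) (M := ↥(fieldC K L M H))).ne' h1

end FieldC

/-! ## `GoodFn j` -/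

section Good

variable (L M : ℕ) [NeZero L] (H : Subgroup (ZMod M)ˣ) (A : ValuationSubring Kb)

/-- `[F_H : F₀] ≠ 0` -/
theorem k7fgood_relfinrank_bar_ne_zero (hML : M ∣ L) :
    (modularFunctionFieldBar L).relfinrank (fieldBar L M H) ≠ 0 := by
  obtain ⟨d, hd0, hd⟩ := stmtRelDegH_of_diamond stmtDiamondH M H
  rw [hd L (NeZero.ne L) hML]
  exact hd0

/-- **FL-GOOD, core.**  If `red j = j̄`, `r_* (div u) = div ū` and
`[F_H : F₀] ≤ [F̄_H : F̄₀]`, then every pole of `j` reduces to a pole of `j̄`. -/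
theorem k7fgood_good_of_le (p : ℕ) (hp : p.Prime) (hpL : ¬ p ∣ L) (hA : A.LiesOverPrime p)
    (hML : M ∣ L)
    (R : PRData Kb ↥(fieldBar L M H) (kA A) ↥(fieldC (kA A) L M H) A)
    (hrdiv : ∀ u : R.O, R.red u ≠ 0 → ∀ D : Divisor Kb ↥(fieldBar L M H),
      (∀ P, D P = P.ord (u : ↥(fieldBar L M H))) →
        ∀ Q : Place (kA A) ↥(fieldC (kA A) L M H), Finsupp.mapDomain R.r D Q = Q.ord (R.red u))
    (t : ↥(fieldBar L M H)) (htj : (t : LaurentSeries Kb) = jBar) (ht : t ∈ R.O)
    (hred : ((R.red ⟨t, ht⟩ : ↥(fieldC (kA A) L M H)) : LaurentSeries (kA A)) = jqModC (kA A))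
    (hdeg : (modularFunctionFieldBar L).relfinrank (fieldBar L M H) ≤
      (modularFunctionFieldFullC (kA A) L).relfinrank (fieldC (kA A) L M H)) :
    R.GoodFn t := by
  refine ⟨ht, fun P hP => ?_⟩
  have hLk : ((L : ℕ) : kA A) ≠ 0 := redF_natCast_ne_zero L A p hp hpL hA
  have hd0 := k7fgood_relfinrank_bar_ne_zero L M H hML
  have hfin : (modularFunctionFieldFullC (kA A) L).relfinrank (fieldC (kA A) L M H) ≠ 0 := by
    intro h0
    rw [h0] at hdeg
    exact hd0 (Nat.le_zero.mp hdeg)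
  haveI : IsAlgClosed (kA A) := Fermat.Agent.RED.isAlgClosed_residueField A
  haveI : Fact p.Prime := ⟨hp⟩
  haveI : CharP (kA A) p := kron_charP_residueField hp hA
  haveI := k7fgood_finiteDimensional_fieldC (kA A) L M H hLk (R.red ⟨t, ht⟩) hred hfin
  haveI := k7fgood_isSeparable_fieldC (kA A) L M H p hLk (R.red ⟨t, ht⟩) hred hfin
  haveI : FiniteDimensional Kb⟮t⟯ ↥(fieldBar L M H) :=
    FiniteDimensional.of_finrank_pos (by
      rw [k7fgood_finrank_bar L M H t htj]
      exact Nat.pos_of_ne_zero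
        (Nat.mul_ne_zero (Fermat.Agent.ES.I2.i2e_dedekindPsi_ne_zero L) hd0))
  have hne : R.red ⟨t, ht⟩ ≠ 0 := by
    intro h0
    exact k7fgood_transcendental_fieldC (kA A) L M H (R.red ⟨t, ht⟩) hred
      (h0 ▸ isAlgebraic_zero)
  refine deuGood_of_finrank_le R.r t (R.red ⟨t, ht⟩) ?_
    (k7fgood_transcendental_bar L M H t htj)
    (k7fgood_transcendental_fieldC (kA A) L M H (R.red ⟨t, ht⟩) hred) ?_ P hP
  · intro D hD Q
    exact hrdiv ⟨t, ht⟩ hne D hD Q
  · rw [k7fgood_finrank_bar L M H t htj, k7fgood_finrank_fieldC (kA A) L M H hLk _ hred]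
    exact Nat.mul_le_mul_left _ hdeg

end Good

/-! ## The ramification of `j̄` -/

section Ram

variable (k : Type) [Field k] [IsAlgClosed k] (p : ℕ) [Fact p.Prime] [CharP k p]
  (L M : ℕ) [NeZero L] (H : Subgroup (ZMod M)ˣ)

include p

/-- **FL-GOOD, ram, with the residue side as hypothesis** (`HasPrincipalDivisors`, residue
fields `= k`: FL-RES). -/
theorem k7fgood_ram_of_pd (hL : (L : k) ≠ 0) [HasPrincipalDivisors k ↥(fieldC k L M H)]
    (hres : ∀ Q : Place k ↥(fieldC k L M H), Function.Surjective (algebraMap k Q.ResidueField))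
    (z : ↥(fieldC k L M H)) (hz : (z : LaurentSeries k) = jqModC k)
    (hfin : (modularFunctionFieldFullC k L).relfinrank (fieldC k L M H) ≠ 0) :
    {Q : Place k ↥(fieldC k L M H) |
      ¬ ∃ c : k, Q.ord (z - algebraMap k ↥(fieldC k L M H) c) = 1}.Finite := by
  haveI : PerfectRing k p := inferInstance
  haveI := k7fgood_finiteDimensional_fieldC k L M H hL z hz hfin
  haveI := k7fgood_isSeparable_fieldC k L M H p hL z hz hfin
  exact deuRam_finite_of_separable hres z

end Ram

section ResGen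

variable {k : Type*} [Field k] (F : IntermediateField k (LaurentSeries k))

/-- a transcendental element of a subfield of `k((q))` is not constant as a Laurent series -/
theorem k7fgood_exists_coeff_ne_zero (y : F) (hy : Transcendental k y) :
    ∃ n : ℤ, n ≠ 0 ∧ (y : LaurentSeries k).coeff n ≠ 0 := by
  by_contra hcon
  push Not at hcon
  apply hy
  have h1 : (y : LaurentSeries k) = HahnSeries.C ((y : LaurentSeries k).coeff 0) := by
    ext n
    by_cases hn : n = 0
    · subst hn; simp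
    · rw [hcon n hn]
      simp [HahnSeries.C_apply, HahnSeries.coeff_single_of_ne hn]
  have h2 : y = algebraMap k ↥F ((y : LaurentSeries k).coeff 0) := by
    apply Subtype.ext
    have h3 : ((algebraMap k ↥F ((y : LaurentSeries k).coeff 0) : ↥F) : LaurentSeries k) =
          algebraMap k (LaurentSeries k) ((y : LaurentSeries k).coeff 0) := rfl
    rw [h3, LaurentSeries.algebraMap_apply]
    exact h1
  rw [h2]
  exact isAlgebraic_algebraMap _

variable (p : ℕ) [Fact p.Prime] [CharP k p] [PerfectRing k p]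

include p

/-- a subfield of `k((q))` that is separable over `k(x)`, `x` not a `p`-th power, is closed
under `p ^ e`-th roots -/
theorem k7fgood_root_mem (x : F) (hx : ∀ w : LaurentSeries k, w ^ p ≠ (x : LaurentSeries k))
    [Algebra.IsSeparable k⟮x⟯ F] (e : ℕ) (w : LaurentSeries k) (hw : w ^ (p ^ e) ∈ F) :
    w ∈ F := by
  induction e generalizing w with
  | zero => simpa using hw
  | succ e ih =>
    refine ih w ?_
    refine resRoot_mem p F x hx (w ^ (p ^ e)) ?_
    rw [← pow_mul, ← pow_succ]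
    exact hw

/-- every transcendental element is a `p`-power of a separating element -/
theorem k7fgood_hroot (x : F) (hx : ∀ w : LaurentSeries k, w ^ p ≠ (x : LaurentSeries k))
    [Algebra.IsSeparable k⟮x⟯ F] (y : F) (hy : Transcendental k y) :
    ∃ (e : ℕ) (z : F), z ^ (p ^ e) = y ∧
      ∀ w : LaurentSeries k, w ^ p ≠ (z : LaurentSeries k) := by
  obtain ⟨e, w, hw, hwp⟩ := resLaurent_exists_root p (y : LaurentSeries k)
    (k7fgood_exists_coeff_ne_zero F y hy)
  have hwF : w ∈ F := k7fgood_root_mem F p x hx e w (by rw [hw]; exact y.2)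
  exact ⟨e, ⟨w, hwF⟩, Subtype.ext hw, hwp⟩

/-- principal divisors for a subfield of `k((q))`, finite over `k(x)`, `x` not a `p`-th power -/
theorem k7fgood_hasPrincipalDivisors_gen [IsAlgClosed k] (x : F)
    (hx : ∀ w : LaurentSeries k, w ^ p ≠ (x : LaurentSeries k)) (hxt : Transcendental k x)
    [FiniteDimensional k⟮x⟯ F] : HasPrincipalDivisors k F := by
  haveI : Algebra.IsAlgebraic k⟮x⟯ F := Algebra.IsAlgebraic.of_finite _ _
  haveI : Algebra.IsSeparable k⟮x⟯ F := resSep_isSeparable p F x hx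
  exact resPD_hasPrincipalDivisors p F x hxt (k7fgood_hroot F p x hx)

end ResGen

section Ram2

variable (k : Type) [Field k] [IsAlgClosed k] (L M : ℕ) [NeZero L] (H : Subgroup (ZMod M)ˣ)

/-- the places of the residue side have residue field `k` as soon as `F̄_H / F̄₀` is finite -/
theorem k7fgood_residue_bijective (hL : (L : k) ≠ 0)
    (hfin : (modularFunctionFieldFullC k L).relfinrank (fieldC k L M H) ≠ 0)
    (v : Place k ↥(fieldC k L M H)) : Function.Bijective (algebraMap k v.ResidueField) := by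
  have hz : ((⟨jqModC k, full_le_fieldC k L M H (jqModC_mem_full k L)⟩ :
      ↥(fieldC k L M H)) : LaurentSeries k) = jqModC k := rfl
  haveI := k7fgood_finiteDimensional_fieldC k L M H hL _ hz hfin
  exact Fermat.Agent.S24.algebraMap_residueField_bijective _
    (k7fgood_transcendental_fieldC k L M H _ hz) (Algebra.IsAlgebraic.of_finite _ _) v

variable (p : ℕ) [Fact p.Prime] [CharP k p]

include p

/-- the residue side has principal divisors as soon as `F̄_H / F̄₀` is finite -/
theorem k7fgood_hasPrincipalDivisors (hL : (L : k) ≠ 0)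
    (hfin : (modularFunctionFieldFullC k L).relfinrank (fieldC k L M H) ≠ 0) :
    HasPrincipalDivisors k ↥(fieldC k L M H) := by
  haveI : PerfectRing k p := inferInstance
  have hz : ((⟨jqModC k, full_le_fieldC k L M H (jqModC_mem_full k L)⟩ :
      ↥(fieldC k L M H)) : LaurentSeries k) = jqModC k := rfl
  haveI := k7fgood_finiteDimensional_fieldC k L M H hL _ hz hfin
  exact k7fgood_hasPrincipalDivisors_gen (fieldC k L M H) p _
    (fun w => by rw [hz]; exact deuGood_jqModC_ne_pow k p Fact.out w)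
    (k7fgood_transcendental_fieldC k L M H _ hz)

/-- **FL-GOOD, ram.**  `j̄` is unramified outside a finite set of places of `F̄_H`, as soon as
`F̄_H / F̄₀` is finite. -/
theorem k7fgood_ram_of_ne (hL : (L : k) ≠ 0)
    (z : ↥(fieldC k L M H)) (hz : (z : LaurentSeries k) = jqModC k)
    (hfin : (modularFunctionFieldFullC k L).relfinrank (fieldC k L M H) ≠ 0) :
    {Q : Place k ↥(fieldC k L M H) |
      ¬ ∃ c : k, Q.ord (z - algebraMap k ↥(fieldC k L M H) c) = 1}.Finite := by
  haveI := k7fgood_hasPrincipalDivisors k L M H p hL hfin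
  exact k7fgood_ram_of_pd k p L M H hL
    (fun Q => (k7fgood_residue_bijective k L M H hL hfin Q).2) z hz hfin

end Ram2

/-! ## The degree inequality from the reduced diamonds -/

section Deg

variable (L M : ℕ) (H : Subgroup (ZMod M)ˣ)

/-- `[F_H : F₀] = #((ℤ/M)ˣ/±H)` -/
theorem k7fgood_relfinrank_bar_eq {m : ℕ} (a : Fin (m + 1) → (ZMod M)ˣ) (hL : L ≠ 0)
    (hML : M ∣ L) (ha : IsRepFam H a) :
    (modularFunctionFieldBar L).relfinrank (fieldBar L M H) = m + 1 := by
  rw [Fermat.Agent.INJ.nf_bar_eq_fullC, es1f_fieldBar_eq]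
  haveI : Algebra.IsAlgebraic ℚ Fermat.Agent.INJ.NfQb := by
    have h := AlgebraicClosure.isAlgebraic ℚ
    convert h
    · rfl
    · exact Subsingleton.elim _ _
  exact es1cu_relfinrank stmtDiamondH Fermat.Agent.INJ.NfQb L M H a hL hML ha

/-- `#((ℤ/M)ˣ/±H) ≤ [F̄_H : F̄₀]` over any field, from diamond automorphisms of `F̄_H / F̄₀` and
the finiteness of `F̄_H / F̄₀` -/
theorem k7fgood_le_relfinrank_fieldC (k : Type*) [Field k] {m : ℕ}
    (a : Fin (m + 1) → (ZMod M)ˣ) (hL : L ≠ 0) (hML : M ∣ L) (ha : IsRepFam H a)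
    (hfin : (modularFunctionFieldFullC k L).relfinrank (fieldC k L M H) ≠ 0)
    (haut : ∀ c : (ZMod M)ˣ, ∃ δb : fieldC k L M H ≃ₐ[k] fieldC k L M H,
      (∀ f : fieldC k L M H,
        (f : LaurentSeries k) ∈ modularFunctionFieldFullC k L → δb f = f) ∧
      (∀ (e : ℕ) [NeZero e] (he : e * M ∣ L) (b : (ZMod M)ˣ),
        ((δb ⟨qExpand k e (sS k M H b), qExpand_sS_mem k L M H he b⟩ :
          fieldC k L M H) : LaurentSeries k) = qExpand k e (sS k M H (b * c)))) :
    m + 1 ≤ (modularFunctionFieldFullC k L).relfinrank (fieldC k L M H) := by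
  have hM0 : M ≠ 0 := fun h => hL (by rw [h] at hML; exact Nat.eq_zero_of_zero_dvd hML)
  have h1 : (1 : ℕ) * M ∣ L := by rwa [one_mul]
  have hq1 : ∀ c : (ZMod M)ˣ, qExpand k 1 (sS k M H c) = sS k M H c :=
    fun c => qExpand_one_apply _
  have hmem : ∀ c : (ZMod M)ˣ, sS k M H c ∈ fieldC k L M H := by
    intro c
    have := qExpand_sS_mem k L M H (e := 1) h1 c
    rwa [qExpand_one_apply] at this
  refine k7fgood_le_relfinrank (full_le_fieldC k L M H) hfin (sS k M H 1) (hmem 1)
    (fun i => sS k M H (a i)) (es1cu_sS_injective k hM0 ha) fun i => ?_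
  obtain ⟨σ, hσ, hσS⟩ := haut (a i)
  refine ⟨σ, hσ, ?_⟩
  have h2 := hσS 1 h1 1
  have h3 : (⟨sS k M H 1, hmem 1⟩ : fieldC k L M H)
      = ⟨qExpand k 1 (sS k M H 1), qExpand_sS_mem k L M H h1 1⟩ := by
    apply Subtype.ext
    show sS k M H 1 = qExpand k 1 (sS k M H 1)
    rw [hq1]
  rw [h3, h2, hq1, one_mul]

/-- **the degree inequality** `[F_H : F₀] ≤ [F̄_H : F̄₀]` from FL-DIAM (`StmtDiamInt`) and the
finiteness of `F̄_H / F̄₀`. -/
theorem k7fgood_deg_of_diamInt (hDI : StmtDiamInt) (p : ℕ) (hlev : K7FLevel L M H p)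
    (A : ValuationSubring Kb) (hA : A.LiesOverPrime p)
    (hfin : (modularFunctionFieldFullC (kA A) L).relfinrank (fieldC (kA A) L M H) ≠ 0) :
    (modularFunctionFieldBar L).relfinrank (fieldBar L M H) ≤
      (modularFunctionFieldFullC (kA A) L).relfinrank (fieldC (kA A) L M H) := by
  have hL : L ≠ 0 := by have := hlev.hL; omega
  have hML := hlev.hML
  have hM0 : M ≠ 0 := fun h => hL (by rw [h] at hML; exact Nat.eq_zero_of_zero_dvd hML)
  obtain ⟨m, a, ha⟩ := exists_isRepFam hM0 H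
  rw [k7fgood_relfinrank_bar_eq L M H a hL hML ha]
  refine k7fgood_le_relfinrank_fieldC L M H (kA A) a hL hML ha hfin fun c => ?_
  obtain ⟨δ, hδ⟩ := k7f_diamondBar L M H hL hML c
  obtain ⟨δb, h1, h2, -⟩ := hDI L M H p hlev A hA c δ hδ
  exact ⟨δb, h1, h2⟩

end Deg

/-! ## The Gauss reduction of `j` -/

section GaussJ

variable (A : ValuationSubring Kb)

/-- the Gauss reduction of `j` is `j̄`, in any subfield of `ℚ̄((q))` containing `j` -/
theorem k7fgood_rel_j (F : IntermediateField Kb (LaurentSeries Kb)) (t : F)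
    (htj : (t : LaurentSeries Kb) = jBar) : k7fgRel A F t (jqModC (kA A)) := by
  have hY : kronIncl A (deuRamInstJ A) ∈ F := by
    rw [deuRamInst_kronIncl_J, ← htj]
    exact t.2
  have h := k7fgRel_of_int A F (deuRamInstJ A) hY
  rw [deuRamInst_kronRed_J] at h
  have ht : t = ⟨kronIncl A (deuRamInstJ A), hY⟩ :=
    Subtype.ext (htj.trans (deuRamInst_kronIncl_J A).symm)
  rw [ht]
  exact h

variable (L M : ℕ) (H : Subgroup (ZMod M)ˣ)

/-- `j` lies in the Gauss valuation ring of `F_H` -/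
theorem k7fgood_mem_k7fO (t : ↥(fieldBar L M H)) (htj : (t : LaurentSeries Kb) = jBar) :
    t ∈ k7fO L M H A :=
  (mem_k7fO L M H A).mpr ⟨_, k7fgood_rel_j A (fieldBar L M H) t htj⟩

/-- `red j = j̄` for the Gauss reduction of `F_H` -/
theorem k7fgood_k7fRed (hRedF : K7fRedF L M H A) (t : ↥(fieldBar L M H))
    (htj : (t : LaurentSeries Kb) = jBar) (ht : t ∈ k7fO L M H A) :
    ((k7fRed L M H A hRedF ⟨t, ht⟩ : ↥(fieldC (kA A) L M H)) : LaurentSeries (kA A)) =
      jqModC (kA A) := by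
  obtain ⟨h, hh⟩ := (k7fRed_iff L M H A hRedF t _).mp (k7fgood_rel_j A (fieldBar L M H) t htj)
  exact hh

/-- `red j = j̄` for every reduction map whose graph is contained in the Gauss relation -/
theorem k7fgood_red_of_rel
    (R : PRData Kb ↥(fieldBar L M H) (kA A) ↥(fieldC (kA A) L M H) A)
    (hR : ∀ (x : ↥(fieldBar L M H)) (hx : x ∈ R.O), k7fgRel A (fieldBar L M H) x
      ((R.red ⟨x, hx⟩ : ↥(fieldC (kA A) L M H)) : LaurentSeries (kA A)))
    (t : ↥(fieldBar L M H)) (htj : (t : LaurentSeries Kb) = jBar) (ht : t ∈ R.O) :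
    ((R.red ⟨t, ht⟩ : ↥(fieldC (kA A) L M H)) : LaurentSeries (kA A)) = jqModC (kA A) :=
  k7fgRel_unique A (fieldBar L M H) (hR t ht) (k7fgood_rel_j A (fieldBar L M H) t htj)

end GaussJ

/-! ## The two fields of `ModPRH` -/

section Final

variable (L M : ℕ) (H : Subgroup (ZMod M)ˣ) (p : ℕ) (A : ValuationSubring Kb)

/-- **FL-GOOD: the field `good` of `ModPRH`.** -/
theorem k7fgood_good (hlev : K7FLevel L M H p) (hA : A.LiesOverPrime p)
    (R : PRData Kb ↥(fieldBar L M H) (kA A) ↥(fieldC (kA A) L M H) A) (hR : R.IsPR)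
    (t : ↥(fieldBar L M H)) (htj : (t : LaurentSeries Kb) = jBar) (ht : t ∈ R.O)
    (hred : ((R.red ⟨t, ht⟩ : ↥(fieldC (kA A) L M H)) : LaurentSeries (kA A)) = jqModC (kA A))
    (hdeg : (modularFunctionFieldBar L).relfinrank (fieldBar L M H) ≤
      (modularFunctionFieldFullC (kA A) L).relfinrank (fieldC (kA A) L M H)) :
    R.GoodFn t := by
  haveI : NeZero L := ⟨by have := hlev.hL; omega⟩
  exact k7fgood_good_of_le L M H A p hlev.hp hlev.hpL hA hlev.hML R hR.r_div t htj ht hred hdeg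

/-- **FL-GOOD: the field `ram` of `ModPRH`.** -/
theorem k7fgood_ram (hlev : K7FLevel L M H p) (hA : A.LiesOverPrime p)
    (R : PRData Kb ↥(fieldBar L M H) (kA A) ↥(fieldC (kA A) L M H) A)
    (t : ↥(fieldBar L M H))
    (hred : ∀ ht : t ∈ R.O,
      ((R.red ⟨t, ht⟩ : ↥(fieldC (kA A) L M H)) : LaurentSeries (kA A)) = jqModC (kA A))
    (hfin : (modularFunctionFieldFullC (kA A) L).relfinrank (fieldC (kA A) L M H) ≠ 0) :
    ∀ ht : t ∈ R.O,
      {Q : Place (kA A) ↥(fieldC (kA A) L M H) |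
        ¬ ∃ c : kA A, Q.ord (R.red ⟨t, ht⟩ - algebraMap _ _ c) = 1}.Finite := by
  intro ht
  haveI : NeZero L := ⟨by have := hlev.hL; omega⟩
  have hLk : ((L : ℕ) : kA A) ≠ 0 := redF_natCast_ne_zero L A p hlev.hp hlev.hpL hA
  haveI : IsAlgClosed (kA A) := Fermat.Agent.RED.isAlgClosed_residueField A
  haveI : Fact p.Prime := ⟨hlev.hp⟩
  haveI : CharP (kA A) p := kron_charP_residueField hlev.hp hA
  exact k7fgood_ram_of_ne (kA A) L M H p hLk (R.red ⟨t, ht⟩) (hred ht) hfin

/-- the degree inequality implies the finiteness of `F̄_H / F̄₀` -/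
theorem k7fgood_ne_zero_of_deg (hL : L ≠ 0) (hML : M ∣ L)
    (hdeg : (modularFunctionFieldBar L).relfinrank (fieldBar L M H) ≤
      (modularFunctionFieldFullC (kA A) L).relfinrank (fieldC (kA A) L M H)) :
    (modularFunctionFieldFullC (kA A) L).relfinrank (fieldC (kA A) L M H) ≠ 0 := by
  haveI : NeZero L := ⟨hL⟩
  intro h0
  rw [h0] at hdeg
  exact k7fgood_relfinrank_bar_ne_zero L M H hML (Nat.le_zero.mp hdeg)

/-- **FL-GOOD, both fields**, for a reduction package whose reduction map is the Gauss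
reduction, from FL-DIAM (`StmtDiamInt`) and the finiteness of `F̄_H / F̄₀`. -/
theorem k7fgood_good_ram (hDI : StmtDiamInt) (hlev : K7FLevel L M H p)
    (hA : A.LiesOverPrime p)
    (R : PRData Kb ↥(fieldBar L M H) (kA A) ↥(fieldC (kA A) L M H) A) (hR : R.IsPR)
    (hRrel : ∀ (x : ↥(fieldBar L M H)) (hx : x ∈ R.O), k7fgRel A (fieldBar L M H) x
      ((R.red ⟨x, hx⟩ : ↥(fieldC (kA A) L M H)) : LaurentSeries (kA A)))
    (t : ↥(fieldBar L M H)) (htj : (t : LaurentSeries Kb) = jBar) (ht : t ∈ R.O)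
    (hfin : (modularFunctionFieldFullC (kA A) L).relfinrank (fieldC (kA A) L M H) ≠ 0) :
    R.GoodFn t ∧ ∀ ht : t ∈ R.O,
      {Q : Place (kA A) ↥(fieldC (kA A) L M H) |
        ¬ ∃ c : kA A, Q.ord (R.red ⟨t, ht⟩ - algebraMap _ _ c) = 1}.Finite :=
  ⟨k7fgood_good L M H p A hlev hA R hR t htj ht
      (k7fgood_red_of_rel A L M H R hRrel t htj ht)
      (k7fgood_deg_of_diamInt L M H hDI p hlev A hA hfin),
    k7fgood_ram L M H p A hlev hA R t
      (fun ht' => k7fgood_red_of_rel A L M H R hRrel t htj ht') hfin⟩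

end Final

end Fermat.Agent.RT.K7F
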