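import Fermat.Agent.RT.K7F.Plan
import Fermat.Agent.RT.K7F.HypE

/-!
# RT-K7F, piece FL-RHp-B: `stmtHypOfE : StmtHypOfE`

The Prop of `RT/K7F/Plan.lean`, from the generic core `RT/K7F/HypE.lean`
(`k7fhe_Hyp0.exists_hyp`, applied to the divisor `n₁ • E`).
-/

set_option autoImplicit false

open AlgebraicCurve Module

namespace Fermat.Agent.RT.K7F

/-- **FL-RHp-B (HYP-of-E)** -/
theorem stmtHypOfE : StmtHypOfE := by
  intro K F k Fb _ _ _ _ _ _ R Pinf Qinf g hresF hresk hpdF hpdk hriem hq2 hanch E _ _ hE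
  obtain ⟨n₁, hn₁⟩ := hE
  have H : k7fhe_Hyp0 R Pinf Qinf g := ⟨hresF, hresk, hpdF, hpdk, hriem, hq2, hanch⟩
  refine H.exists_hyp (n₁ • E) ?_
  have h := hn₁ n₁ le_rfl
  rw [map_nsmul, nsmul_eq_mul]
  exact h

end Fermat.Agent.RT.K7F
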