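import Fermat.Agent.ES.LR.Final
import Fermat.Agent.ES1.HFinal

/-!
# RT / K7-FLAT, piece FL-LR (helper71): Lemma R for the function fields `F_H`

`x ∈ F_H = fieldBar L M H` with poles only at the cusps (regular at every place where `j` is) and
Gauss norm `≤ 1` (fraction form: `x · Y₂ = Y₁` with `Y₁, Y₂ ∈ A((q))`, `Ȳ₂ ≠ 0`) has an
`A`-integral `q`-expansion.

The proof of `ES.LR.stmtLRa_of_arch` is generic in the function field:
* `k7flr_isIntegral` : for an intermediate field `j ∈ F ⊂ ℚ̄((q))`, finite over `ℚ̄(j)`, an element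
  which is regular wherever `j` is, is integral over `ℚ̄[j]`;
* `k7flr_generic` : Lemma R for such an `F`;
* `k7flr_main`, `k7flr_main'` : the instance `F = fieldBar L M H` (`M ∣ L`).
No hypothesis on the prime `ℓ` below `A` is used.
-/

set_option autoImplicit false
set_option linter.style.haveILetI false
set_option linter.unusedSectionVars false

noncomputable section

namespace Fermat.Agent.RT.K7F

open Fermat.Agent.ES Fermat.Agent.ES.M Fermat.Agent.ES.LR Fermat.Agent.S24 Fermat.Agent.ES1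
open ModularCurve AlgebraicCurve Polynomial IsDedekindDomain IntermediateField

section Generic

variable (F : IntermediateField Kb (LaurentSeries Kb)) (hj : jBar ∈ F)

/-- `x` has poles only over `j = ∞`: it is regular wherever `j` is. -/
def k7flrPoles (x : F) : Prop :=
  ∀ P : Place Kb F, 0 ≤ P.ord (⟨jBar, hj⟩ : F) → 0 ≤ P.ord x

theorem k7flr_transcendental : Transcendental Kb (⟨jBar, hj⟩ : F) := by
  intro halg
  apply transcendental_jBar
  have := (isAlgebraic_algHom_iff F.val Subtype.val_injective).mpr halg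
  exact this

/-- poles only over `j = ∞` ⟹ integral over `ℚ̄[j]` -/
theorem k7flr_isIntegral [FiniteDimensional Kb⟮(⟨jBar, hj⟩ : F)⟯ F] (x : F)
    (hx : k7flrPoles F hj x) :
    letI := polyAlgebra (K := Kb) (⟨jBar, hj⟩ : F)
    IsIntegral Kb[X] x := by
  set J : F := ⟨jBar, hj⟩ with hJ
  letI := polyAlgebra (K := Kb) J
  have htr : Transcendental Kb J := k7flr_transcendental F hj
  obtain ⟨hDed, hFrac, -⟩ := intClosure_facts (K := Kb) J htr
  have hj0 : J ≠ 0 := fun h => htr (h ▸ isAlgebraic_zero)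
  have hall : ∀ w : HeightOneSpectrum (intClosure (K := Kb) J),
      w.valuation F x ≤ 1 := by
    intro w
    set P : Place Kb F := placeOfPrime (PlacesAux.hK (K := Kb) J) w with hP
    have hjmem : J ∈ P.toValuationSubring := by
      rw [hP, placeOfPrime_toValuationSubring, Valuation.mem_valuationSubring_iff]
      have h1 := w.valuation_le_one (K := F)
        (algebraMap Kb[X] (intClosure (K := Kb) J) X)
      have h2 : algebraMap (intClosure (K := Kb) J) F
          (algebraMap Kb[X] (intClosure (K := Kb) J) X) = J :=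
        PlacesAux.algebraMap_X (K := Kb) J
      exact le_of_eq_of_le (congrArg (w.valuation F) h2).symm h1
    have hj' : 0 ≤ P.ord J := (PlaceAux.ord_nonneg_iff P hj0).2 hjmem
    have hxmem := PlaceAux.mem_of_ord_nonneg P (hx P hj')
    rwa [hP, placeOfPrime_toValuationSubring, Valuation.mem_valuationSubring_iff] at hxmem
  obtain ⟨r, hr⟩ := HeightOneSpectrum.mem_integers_of_valuation_le_one F x hall
  rw [← hr]
  exact r.2

/-- **Lemma R** for an intermediate field `j ∈ F ⊂ ℚ̄((q))` finite over `ℚ̄(j)`. -/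
theorem k7flr_generic [FiniteDimensional Kb⟮(⟨jBar, hj⟩ : F)⟯ F] (A : ValuationSubring Kb)
    (hA : Arch A) (x : F) (hx : k7flrPoles F hj x) (Y₁ Y₂ : LaurentSeries A)
    (hY₂ : kronRed A Y₂ ≠ 0)
    (hfrac : (x : LaurentSeries Kb) * kronIncl A Y₂ = kronIncl A Y₁) :
    KronInt A (x : LaurentSeries Kb) := by
  set J : F := ⟨jBar, hj⟩ with hJ
  letI := polyAlgebra (K := Kb) J
  obtain ⟨p, hp, hpz⟩ := k7flr_isIntegral F hj x hx
  have hY₂0 : kronIncl A Y₂ ≠ 0 := by
    intro h0
    apply hY₂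
    have h1 : Y₂ = 0 := kronIncl_injective (A := A) (h0.trans (map_zero _).symm)
    rw [h1, map_zero]
  have hcomp : F.val.toRingHom.comp (algebraMap Kb[X] F) =
      (Polynomial.aeval jBar).toRingHom := by
    have h1 : (Polynomial.aeval (R := Kb) jBar) = F.val.comp (Polynomial.aeval J) :=
      Polynomial.aeval_algHom F.val J
    rw [h1]
    rfl
  have hz : Polynomial.eval₂ (Polynomial.aeval jBar).toRingHom (x : LaurentSeries Kb) p = 0 := by
    have h1 := Polynomial.hom_eval₂ p (algebraMap Kb[X] F) F.val.toRingHom x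
    rw [hpz, map_zero, hcomp] at h1
    exact h1.symm
  obtain ⟨c, hc0, hcx⟩ := exists_kronInt_C_mul hA (kronInt_jBar A) (kronInt_kronIncl Y₁)
    (kronInt_kronIncl Y₂) hY₂0 hfrac p hp hz
  exact kronInt_of_bounded hA hc0 hcx (kronInt_kronIncl Y₁) ((kronPrim_kronIncl_iff Y₂).2 hY₂)
    hfrac

end Generic

/-! ### The instance `F_H` -/

variable (L M : ℕ) [NeZero L] (H : Subgroup (ZMod M)ˣ)

/-- `x ∈ F_H` has poles only at the cusps: it is regular wherever `j` is. -/
def k7flrPolesAtCusps (x : fieldBar L M H) : Prop :=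
  ∀ P : Place Kb (fieldBar L M H), 0 ≤ P.ord (jFH L M H) → 0 ≤ P.ord x

/-- Gauss norm `≤ 1`, fraction form (no condition on the membership of `Y₁`, `Y₂` in `F_H`). -/
def k7flrGaussInt (A : ValuationSubring Kb) (x : fieldBar L M H) : Prop :=
  ∃ Y₁ Y₂ : LaurentSeries A, kronRed A Y₂ ≠ 0 ∧
    (x : LaurentSeries Kb) * kronIncl A Y₂ = kronIncl A Y₁

/-- **FL-LR** (Lemma R for `F_H`). -/
def StmtK7FLR : Prop :=
  ∀ (L M : ℕ) [NeZero L] (H : Subgroup (ZMod M)ˣ), M ∣ L → ∀ (ℓ : ℕ), ℓ.Prime →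
    ∀ A : ValuationSubring Kb, A.LiesOverPrime ℓ → ∀ x : fieldBar L M H,
      k7flrPolesAtCusps L M H x → k7flrGaussInt L M H A x → KronInt A (x : LaurentSeries Kb)

variable {L M H}

/-- Lemma R for `F_H`, for a rank one valuation ring `A`. -/
theorem k7flr_main' (hML : M ∣ L) (A : ValuationSubring Kb) (hA : Arch A) (x : fieldBar L M H)
    (hx : k7flrPolesAtCusps L M H x) (hG : k7flrGaussInt L M H A x) :
    KronInt A (x : LaurentSeries Kb) := by
  obtain ⟨Y₁, Y₂, hY₂, hfrac⟩ := hG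
  haveI : FiniteDimensional Kb⟮(⟨jBar, jBar_mem_fieldBar L M H⟩ : fieldBar L M H)⟯
      (fieldBar L M H) := es1hFin_all (H := H) (NeZero.ne L) hML
  exact k7flr_generic (fieldBar L M H) (jBar_mem_fieldBar L M H) A hA x hx Y₁ Y₂ hY₂ hfrac

/-- **FL-LR.** -/
theorem stmtK7FLR : StmtK7FLR :=
  fun _ _ _ _ hML _ hℓ A hA x hx hG => k7flr_main' hML A (arch_Qbar A hℓ hA) x hx hG

/-- the Gauss-integral elements in the sense of ES/M (`Y₁, Y₂ ∈ F_H`) -/
theorem k7flr_main (hML : M ∣ L) {ℓ : ℕ} (hℓ : ℓ.Prime) (A : ValuationSubring Kb)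
    (hA : A.LiesOverPrime ℓ) (x : fieldBar L M H) (hx : k7flrPolesAtCusps L M H x)
    (Y₁ Y₂ : LaurentSeries A) (hY₂ : kronRed A Y₂ ≠ 0)
    (hfrac : (x : LaurentSeries Kb) * kronIncl A Y₂ = kronIncl A Y₁) :
    KronInt A (x : LaurentSeries Kb) :=
  stmtK7FLR L M H hML ℓ hℓ A hA x hx ⟨Y₁, Y₂, hY₂, hfrac⟩

end Fermat.Agent.RT.K7F
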