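import Fermat.Agent.ES1.DescentLevelH
import Fermat.Agent.ES1.ConjDeg
import Fermat.Agent.ES1.Conj
import Fermat.Agent.S24.Defs

/-!
# RT-K7F / FL-RH0: `F_H = fieldBar L M H` as an algebra over `F₀ = FF L`

* `rh0Incl`, `rh0Algebra` (use `attribute [local instance] rh0Algebra`), `rh0_algebraMap_coe`
  (NEVER prove such equalities by `rfl`: the kernel explodes; rewrite with `rh0_algebraMap_coe`);
* `rh0_isScalarTower : IsScalarTower Kb (FF L) (fieldBar L M H)`;
* `rh0_finrank : finrank (FF L) (fieldBar L M H) = m + 1` for a system `a : Fin (m + 1) → (ℤ/M)ˣ`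
  of representatives of `(ℤ/M)ˣ/±H`.
-/

set_option autoImplicit false
set_option linter.unusedSectionVars false

noncomputable section

namespace Fermat.Agent.RT.K7F

open AlgebraicCurve Module ModularCurve HahnSeries IntermediateField
open Fermat.Agent.ES1 Fermat.Agent.S24

variable (L M : ℕ) (H : Subgroup (ZMod M)ˣ)

/-- the inclusion `F₀ = ℚ̄(X₀(L)) → F_H` -/
def rh0Incl : FF L →ₐ[Kb] fieldBar L M H :=
  IntermediateField.inclusion (dlh_bar_le_fieldBar L M H)

theorem rh0Incl_coe (f : FF L) : ((rh0Incl L M H f : fieldBar L M H) : LaurentSeries Kb) = f :=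
  IntermediateField.coe_inclusion _ f

/-- `F_H` as an algebra over `F₀` -/
@[reducible] def rh0Algebra : Algebra (FF L) (fieldBar L M H) :=
  (rh0Incl L M H).toRingHom.toAlgebra

attribute [local instance] rh0Algebra

theorem rh0_algebraMap_eq : algebraMap (FF L) (fieldBar L M H) = (rh0Incl L M H).toRingHom :=
  RingHom.algebraMap_toAlgebra _

theorem rh0_algebraMap_coe (f : FF L) :
    ((algebraMap (FF L) (fieldBar L M H) f : fieldBar L M H) : LaurentSeries Kb)
      = (f : LaurentSeries Kb) := by
  rw [rh0_algebraMap_eq]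
  exact rh0Incl_coe L M H f

theorem rh0_smul_coe (f : FF L) (x : fieldBar L M H) :
    ((f • x : fieldBar L M H) : LaurentSeries Kb) = (f : LaurentSeries Kb) * x := by
  rw [Algebra.smul_def, MulMemClass.coe_mul, rh0_algebraMap_coe]

theorem rh0_isScalarTower : IsScalarTower Kb (FF L) (fieldBar L M H) := by
  refine IsScalarTower.of_algebraMap_eq fun x => ?_
  apply Subtype.ext
  rw [rh0_algebraMap_coe, IntermediateField.coe_algebraMap_apply,
    IntermediateField.coe_algebraMap_apply]

/-- `[F_H : F₀] = m + 1` -/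
theorem rh0_finrank {m : ℕ} (a : Fin (m + 1) → (ZMod M)ˣ) (hL : L ≠ 0) (hML : M ∣ L)
    (ha : IsRepFam H a) : finrank (FF L) (fieldBar L M H) = m + 1 := by
  have h1 : (modularFunctionFieldBar L).relfinrank (fieldBar L M H) = m + 1 := by
    rw [Fermat.Agent.INJ.nf_bar_eq_fullC, es1f_fieldBar_eq]
    have : Algebra.IsAlgebraic ℚ Fermat.Agent.INJ.NfQb := by
      have h := AlgebraicClosure.isAlgebraic ℚ
      convert h
      · rfl
      · exact Subsingleton.elim _ _
    exact es1cu_relfinrank stmtDiamondH Fermat.Agent.INJ.NfQb L M H a hL hML ha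
  rw [IntermediateField.relfinrank_eq_finrank_of_le (dlh_bar_le_fieldBar L M H)] at h1
  rw [← h1]
  -- the identity is an `F₀`-linear equivalence
  let e₀ : fieldBar L M H ≃+
      ↥(IntermediateField.extendScalars (dlh_bar_le_fieldBar L M H)) :=
    { toFun := fun x => ⟨x.1, x.2⟩
      invFun := fun x => ⟨x.1, x.2⟩
      left_inv := fun _ => rfl
      right_inv := fun _ => rfl
      map_add' := fun _ _ => rfl }
  let e : fieldBar L M H ≃ₗ[FF L]
      ↥(IntermediateField.extendScalars (dlh_bar_le_fieldBar L M H)) :=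
    { e₀ with
      map_smul' := by
        intro f x
        apply Subtype.ext
        show ((f • x : fieldBar L M H) : LaurentSeries Kb) = _
        rw [rh0_smul_coe]
        rfl }
  exact e.finrank_eq

end Fermat.Agent.RT.K7F
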