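import Fermat.Agent.ES.RiemannGeneric
import Fermat.Agent.INJ.AbhyankarPlace

/-!
# RT-K7F / FL-RH0, generic half: Riemann's inequality passes to a Kummer-type extension

`F / F₀` an algebraic extension of function fields over `K` (prelude's places, all residue fields
`K`, principal divisors of degree `0`).  Suppose

* Riemann's inequality holds for `F₀` with the constant `g₀`;
* `t ∈ F₀` has zero divisor of degree `n₀` on `F₀` and of degree `n ≤ d · n₀` on `F`, `1 ≤ n`;
* `y : Fin d → F` is linearly independent over `F₀`, `(y i) ^ m = u i ∈ F₀ ∖ {0}` and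
  `m ∣ ord_P (u i)` at every place `P` of `F₀` (the extension `F₀(y i) / F₀` is unramified).

Then Riemann's inequality holds for `F` with the constant `g = d (g₀ - 1) + 1`
(`rh0_riemann`).  Proof: `L(N·T) ⊇ ⊕ᵢ yᵢ · L₀(N·T₀ + Eᵢ)`, `Eᵢ = div(uᵢ) / m` of degree `0`,
`T₀`, `T` the zero divisors of `t`; then `ES.R.riemann_transfer`.
-/

set_option autoImplicit false

open AlgebraicCurve Module

namespace Fermat.Agent.RT.K7F

open Fermat.Agent.ES.R Fermat.Agent.S24

section Gen

variable {K F : Type*} [Field K] [Field F] [Algebra K F]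

/-- the zero divisor of `t`: `v ↦ max (ord_v t) 0`, given the finite set `V` of its zeros -/
noncomputable def rh0Zero (t : F) (V : Finset (Place K F)) (hV : ∀ v, v ∈ V ↔ 0 < v.ord t) :
    Divisor K F :=
  Finsupp.onFinset V (fun v => max (v.ord t) 0) (fun v hv => by
    rw [hV]
    by_contra h
    exact hv (max_eq_right (not_lt.mp h)))

@[simp] theorem rh0Zero_apply (t : F) (V : Finset (Place K F)) (hV : ∀ v, v ∈ V ↔ 0 < v.ord t)
    (v : Place K F) : rh0Zero t V hV v = max (v.ord t) 0 := rfl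

theorem rh0Zero_nonneg (t : F) (V : Finset (Place K F)) (hV : ∀ v, v ∈ V ↔ 0 < v.ord t) :
    0 ≤ rh0Zero t V hV := by
  rw [Finsupp.le_def]
  intro v
  simp

theorem rh0Zero_degree (hres : ∀ v : Place K F, Function.Bijective (algebraMap K v.ResidueField))
    (t : F) (V : Finset (Place K F)) (hV : ∀ v, v ∈ V ↔ 0 < v.ord t) :
    Divisor.degree (rh0Zero t V hV) = ∑ v ∈ V, v.ord t := by
  rw [degree_eq_sum, rh0Zero, Finsupp.onFinset_sum _ (fun v => by simp)]
  refine Finset.sum_congr rfl fun v hv => ?_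
  rw [place_deg_eq_one v (hres v)]
  have := (hV v).mp hv
  rw [max_eq_left this.le]
  simp

end Gen

section Main

variable {K F₀ F : Type*} [Field K] [Field F₀] [Field F] [Algebra K F₀] [Algebra K F]
  [Algebra F₀ F] [IsScalarTower K F₀ F]

/-- the quotient `div(u) / m` of a divisor all of whose coefficients are divisible by `m` -/
noncomputable def rh0Quot (Z : Divisor K F₀) (m : ℕ) : Divisor K F₀ :=
  Finsupp.mapRange (fun n : ℤ => n / (m : ℤ)) (by simp) Z

theorem rh0Quot_apply (Z : Divisor K F₀) (m : ℕ) (P : Place K F₀) :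
    rh0Quot Z m P = Z P / (m : ℤ) := by
  simp [rh0Quot]

theorem rh0Quot_degree (Z : Divisor K F₀) (m : ℕ) (hm : 0 < m) (hZ : ∀ P, (m : ℤ) ∣ Z P)
    (hdeg : Divisor.degree Z = 0) : Divisor.degree (rh0Quot Z m) = 0 := by
  have h1 : (m : ℤ) • rh0Quot Z m = Z := by
    ext P
    rw [Finsupp.smul_apply, rh0Quot_apply, smul_eq_mul]
    exact Int.mul_ediv_cancel' (hZ P)
  have h2 : (m : ℤ) • Divisor.degree (rh0Quot Z m) = 0 := by
    rw [← map_zsmul, h1, hdeg]
  rw [smul_eq_mul] at h2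
  rcases mul_eq_zero.mp h2 with h | h
  · exact absurd h (by exact_mod_cast hm.ne')
  · exact h

/-- the key inclusion: `y · L₀(N·T₀ + E) ⊆ L(N·T)`. -/
theorem rh0_mul_mem [Algebra.IsAlgebraic F₀ F]
    (t : F₀) (V₀ : Finset (Place K F₀)) (hV₀ : ∀ v, v ∈ V₀ ↔ 0 < v.ord t)
    (V : Finset (Place K F)) (hV : ∀ v, v ∈ V ↔ 0 < v.ord (algebraMap F₀ F t))
    (ht : t ≠ 0)
    (m : ℕ) (hm : 0 < m) (y : F) (u : F₀) (hu : u ≠ 0) (hyu : y ^ m = algebraMap F₀ F u)
    (E : Divisor K F₀) (hE : ∀ P : Place K F₀, (m : ℤ) * E P = P.ord u)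
    (N : ℕ) (f : F₀) (hf : f ∈ riemannRochSpace (N • rh0Zero t V₀ hV₀ + E)) :
    y * algebraMap F₀ F f ∈ riemannRochSpace (N • rh0Zero (algebraMap F₀ F t) V hV) := by
  rw [mem_riemannRochSpace_iff]
  intro P'
  rcases eq_or_ne f 0 with rfl | hf0
  · left; simp
  right
  have hy0 : y ≠ 0 := by
    rintro rfl
    rw [zero_pow hm.ne'] at hyu
    exact hu ((map_eq_zero (algebraMap F₀ F)).mp hyu.symm)
  have hιf : algebraMap F₀ F f ≠ 0 := by simpa using hf0
  have hιu : algebraMap F₀ F u ≠ 0 := by simpa using hu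
  have hιt : algebraMap F₀ F t ≠ 0 := by simpa using ht
  obtain ⟨P, ε, hε, hres⟩ := Fermat.Agent.INJ.AbhP.exists_place_restrict (E := K) (L := F₀) P'
  rw [mem_riemannRochSpace_iff] at hf
  have hfP := (hf P).resolve_left hf0
  simp only [Finsupp.coe_add, Finsupp.coe_smul, Pi.add_apply, Pi.smul_apply, rh0Zero_apply,
    nsmul_eq_mul] at hfP ⊢
  -- `m · ord_{P'} y = ε · ord_P u`
  have h1 : (m : ℤ) * P'.ord y = ε * P.ord u := by
    have := congrArg P'.ord hyu
    rw [← zpow_natCast, P'.ord_zpow, hres u hu] at this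
    exact this
  have h2 : P'.ord (algebraMap F₀ F f) = ε * P.ord f := hres f hf0
  have h3 : P'.ord (algebraMap F₀ F t) = ε * P.ord t := hres t ht
  rw [P'.ord_mul hy0 hιf, h2, h3]
  -- `max (ε a) 0 = ε max a 0`
  have h4 : max (ε * P.ord t) 0 = ε * max (P.ord t) 0 := by
    rcases le_total (P.ord t) 0 with h | h
    · rw [max_eq_right h, max_eq_right (mul_nonpos_of_nonneg_of_nonpos hε.le h), mul_zero]
    · rw [max_eq_left h, max_eq_left (mul_nonneg hε.le h)]
  rw [h4]
  have hmpos : (0 : ℤ) < m := by exact_mod_cast hm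
  -- multiply by `m`
  have key : (m : ℤ) * (-((N : ℤ) * (ε * max (P.ord t) 0))) ≤
      (m : ℤ) * (P'.ord y + ε * P.ord f) := by
    rw [mul_add, h1, ← hE P]
    have h5 : ε * (-((N : ℤ) * max (P.ord t) 0 + E P)) ≤ ε * P.ord f :=
      mul_le_mul_of_nonneg_left hfP hε.le
    have h6 : (m : ℤ) * (ε * (-((N : ℤ) * max (P.ord t) 0 + E P))) ≤ (m : ℤ) * (ε * P.ord f) :=
      mul_le_mul_of_nonneg_left h5 hmpos.le
    nlinarith [h6]
  exact le_of_mul_le_mul_left key hmpos

/-- **Riemann's inequality for a Kummer-type extension.** -/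
theorem rh0_riemann [Algebra.IsAlgebraic F₀ F]
    [HasPrincipalDivisors K F₀] [HasPrincipalDivisors K F]
    (hres₀ : ∀ v : Place K F₀, Function.Bijective (algebraMap K v.ResidueField))
    (hres : ∀ v : Place K F, Function.Bijective (algebraMap K v.ResidueField))
    (g₀ : ℤ)
    (hR : ∀ D : Divisor K F₀,
      Divisor.degree D + 1 - g₀ ≤ (finrank K ↥(riemannRochSpace D) : ℤ))
    (t : F₀) (ht : t ≠ 0)
    (V₀ : Finset (Place K F₀)) (hV₀ : ∀ v, v ∈ V₀ ↔ 0 < v.ord t)
    (V : Finset (Place K F)) (hV : ∀ v, v ∈ V ↔ 0 < v.ord (algebraMap F₀ F t))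
    (d : ℕ)
    (hn : ∑ v ∈ V, v.ord (algebraMap F₀ F t) ≤ (d : ℤ) * ∑ v ∈ V₀, v.ord t)
    (hn1 : 1 ≤ ∑ v ∈ V, v.ord (algebraMap F₀ F t))
    (m : ℕ) (hm : 0 < m) (y : Fin d → F) (u : Fin d → F₀) (hu : ∀ i, u i ≠ 0)
    (hyu : ∀ i, y i ^ m = algebraMap F₀ F (u i))
    (hli : LinearIndependent F₀ y)
    (hdvd : ∀ (i : Fin d) (P : Place K F₀), (m : ℤ) ∣ P.ord (u i))
    (𝔞 : Divisor K F) :
    Divisor.degree 𝔞 + 1 - ((d : ℤ) * (g₀ - 1) + 1) ≤ (finrank K ↥(riemannRochSpace 𝔞) : ℤ) := by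
  classical
  -- places exist
  obtain ⟨w, hw⟩ : ∃ w, w ∈ V := by
    by_contra hcon
    have : V = ∅ := Finset.eq_empty_of_forall_notMem fun v hv => hcon ⟨v, hv⟩
    rw [this, Finset.sum_empty] at hn1
    omega
  obtain ⟨P₀, ε₀, -, -⟩ := Fermat.Agent.INJ.AbhP.exists_place_restrict (E := K) (L := F₀) w
  set T₀ : Divisor K F₀ := rh0Zero t V₀ hV₀ with hT₀
  set T : Divisor K F := rh0Zero (algebraMap F₀ F t) V hV with hT
  have hdegT₀ : Divisor.degree T₀ = ∑ v ∈ V₀, v.ord t := rh0Zero_degree hres₀ t V₀ hV₀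
  have hdegT : Divisor.degree T = ∑ v ∈ V, v.ord (algebraMap F₀ F t) :=
    rh0Zero_degree hres _ V hV
  -- the divisors `E i`
  choose Z hZ hZdeg using fun i => HasPrincipalDivisors.exists_divisor (K := K) (u i) (hu i)
  set E : Fin d → Divisor K F₀ := fun i => rh0Quot (Z i) m with hEdef
  have hEdeg : ∀ i, Divisor.degree (E i) = 0 := fun i =>
    rh0Quot_degree (Z i) m hm (fun P => by rw [hZ i P]; exact hdvd i P) (hZdeg i)
  have hE : ∀ i (P : Place K F₀), (m : ℤ) * E i P = P.ord (u i) := by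
    intro i P
    rw [hEdef, rh0Quot_apply, hZ i P]
    exact Int.mul_ediv_cancel' (hdvd i P)
  refine riemann_transfer hres _ (fun M => ?_) 𝔞
  set N : ℕ := M.toNat with hN
  refine ⟨N • T, ?_, ?_⟩
  · rw [map_nsmul, hdegT, nsmul_eq_mul]
    have h1 : M ≤ (N : ℤ) := Int.self_le_toNat M
    have h2 : (0 : ℤ) ≤ N := Int.natCast_nonneg N
    nlinarith
  · -- the dimension count
    have : ∀ i, Module.Finite K ↥(riemannRochSpace (N • T₀ + E i)) := fun i =>
      rr_finite P₀ hres₀ _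
    have : Module.Finite K ↥(riemannRochSpace (N • T)) := rr_finite w hres _
    -- the map
    let ψ : ((i : Fin d) → ↥(riemannRochSpace (N • T₀ + E i))) →ₗ[K] F :=
      { toFun := fun f => ∑ i, y i * algebraMap F₀ F (f i : F₀)
        map_add' := by
          intro f f'
          simp only [Pi.add_apply, Submodule.coe_add, map_add, mul_add, Finset.sum_add_distrib]
        map_smul' := by
          intro c f
          simp only [Pi.smul_apply, Submodule.coe_smul, RingHom.id_apply, Finset.smul_sum]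
          refine Finset.sum_congr rfl fun i _ => ?_
          rw [Algebra.smul_def, Algebra.smul_def, map_mul, ← IsScalarTower.algebraMap_apply]
          ring }
    have hψinj : Function.Injective ψ := by
      rw [← LinearMap.ker_eq_bot, LinearMap.ker_eq_bot']
      intro f hf
      have h0 : ∑ i, (f i : F₀) • y i = 0 := by
        have : ψ f = ∑ i, (f i : F₀) • y i := by
          show ∑ i, y i * algebraMap F₀ F (f i : F₀) = _
          refine Finset.sum_congr rfl fun i _ => ?_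
          rw [Algebra.smul_def, mul_comm]
        rw [← this, hf]
      have h1 := linearIndependent_iff'.mp hli Finset.univ (fun i => (f i : F₀)) h0
      funext i
      exact Subtype.ext (h1 i (Finset.mem_univ i))
    have hψrange : LinearMap.range ψ ≤ riemannRochSpace (N • T) := by
      rintro _ ⟨f, rfl⟩
      show ∑ i, y i * algebraMap F₀ F (f i : F₀) ∈ _
      refine Submodule.sum_mem _ fun i _ => ?_
      exact rh0_mul_mem t V₀ hV₀ V hV ht m hm (y i) (u i) (hu i) (hyu i) (E i) (hE i) N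
        (f i : F₀) (f i).2
    have hdim1 : finrank K ((i : Fin d) → ↥(riemannRochSpace (N • T₀ + E i)))
        = finrank K ↥(LinearMap.range ψ) :=
      (LinearMap.finrank_range_of_inj hψinj).symm
    have hdim2 : finrank K ↥(LinearMap.range ψ) ≤ finrank K ↥(riemannRochSpace (N • T)) :=
      Submodule.finrank_mono hψrange
    have hdim3 : finrank K ((i : Fin d) → ↥(riemannRochSpace (N • T₀ + E i)))
        = ∑ i, finrank K ↥(riemannRochSpace (N • T₀ + E i)) :=
      Module.finrank_pi_fintype K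
    have hlow : ∀ i, (N : ℤ) * (∑ v ∈ V₀, v.ord t) + 1 - g₀
        ≤ (finrank K ↥(riemannRochSpace (N • T₀ + E i)) : ℤ) := by
      intro i
      have := hR (N • T₀ + E i)
      rw [map_add, map_nsmul, hdegT₀, hEdeg i, nsmul_eq_mul, add_zero] at this
      exact this
    have hsum : (d : ℤ) * ((N : ℤ) * (∑ v ∈ V₀, v.ord t) + 1 - g₀)
        ≤ ((∑ i, finrank K ↥(riemannRochSpace (N • T₀ + E i)) : ℕ) : ℤ) := by
      push_cast
      calc (d : ℤ) * ((N : ℤ) * (∑ v ∈ V₀, v.ord t) + 1 - g₀)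
          = ∑ _i : Fin d, ((N : ℤ) * (∑ v ∈ V₀, v.ord t) + 1 - g₀) := by
            rw [Finset.sum_const, Finset.card_univ, Fintype.card_fin, nsmul_eq_mul]
        _ ≤ ∑ i, (finrank K ↥(riemannRochSpace (N • T₀ + E i)) : ℤ) :=
            Finset.sum_le_sum fun i _ => hlow i
    have hfin : ((∑ i, finrank K ↥(riemannRochSpace (N • T₀ + E i)) : ℕ) : ℤ)
        ≤ (finrank K ↥(riemannRochSpace (N • T)) : ℤ) := by
      rw [← hdim3, hdim1]
      exact_mod_cast hdim2
    rw [map_nsmul, hdegT, nsmul_eq_mul]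
    have h2 : (0 : ℤ) ≤ N := Int.natCast_nonneg N
    have h3 : (N : ℤ) * ∑ v ∈ V, v.ord (algebraMap F₀ F t)
        ≤ (N : ℤ) * ((d : ℤ) * ∑ v ∈ V₀, v.ord t) := mul_le_mul_of_nonneg_left hn h2
    nlinarith [hsum, hfin, h3]

end Main

end Fermat.Agent.RT.K7F
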