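import Fermat.Agent.RT.K7F.Plan
import Fermat.Agent.RT.K7F.RH0Gen
import Fermat.Agent.RT.K7F.RH0Deg
import Fermat.Agent.RT.K7F.RH0Alg
import Fermat.Agent.RT.K7F.Eig
import Fermat.Agent.ES.Riemann
import Fermat.Agent.ES.HModular
import Fermat.Agent.ES1.HFinal
import Fermat.Agent.S24.Places
import Fermat.Agent.S24.Transc
import Fermat.Agent.DEU.Main1

/-!
# RT-K7F / FL-RH0: Riemann's inequality for `F_H = fieldBar L M H` with `g = 1 + d (g₀ - 1)`

`stmtRiemannH_of : StmtGalH → StmtDvdH → StmtRiemannH`, where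

* `StmtGalH` (RH0-GAL): the diamonds form a finite abelian group `G` of automorphisms of `F_H` over
  `F₀ = FF L` with `|G| = [F_H : F₀]`;
* `StmtDvdH` (RH0-DVD): `y ∈ F_H`, `y ^ (p ^ k) = u ∈ F₀` ⟹ `p ^ k ∣ ord_P u` at every place `P`
  of `F₀` (the cover `X_H(L; M) → X₀(L)` is unramified).

Proof: Kummer eigenbasis (`k7feig_exists`) + `rh0_riemann` with `t = j`.
-/

set_option autoImplicit false
set_option linter.unusedSectionVars false
set_option linter.style.haveILetI false

noncomputable section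

namespace Fermat.Agent.RT.K7F

open AlgebraicCurve Module ModularCurve HahnSeries IntermediateField
open Fermat.Agent.ES Fermat.Agent.ES.M Fermat.Agent.ES1 Fermat.Agent.S24

attribute [local instance] rh0Algebra

/-- **RH0-GAL**: the diamond group. -/
def StmtGalH : Prop :=
  ∀ (L M : ℕ) (H : Subgroup (ZMod M)ˣ), L ≠ 0 → M ∣ L →
    ∃ G : Subgroup (fieldBar L M H ≃ₐ[FF L] fieldBar L M H), Finite G ∧
      (∀ a ∈ G, ∀ b ∈ G, a * b = b * a) ∧
      Nat.card G = Module.finrank (FF L) (fieldBar L M H)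

/-- **RH0-DVD**: the Kummer generators of `F_H / F₀` have divisors divisible by `p ^ k`. -/
def StmtDvdH : Prop :=
  ∀ (L M : ℕ) (H : Subgroup (ZMod M)ˣ) (p : ℕ), K7FLevel L M H p →
    ∀ (k : ℕ) (u : FF L) (y : LaurentSeries Kb), y ∈ fieldBar L M H →
      y ^ (p ^ k) = (u : LaurentSeries Kb) →
      ∀ P : Place Kb (FF L), ((p ^ k : ℕ) : ℤ) ∣ P.ord u

variable (L M : ℕ) (H : Subgroup (ZMod M)ˣ)

theorem rh0_algebraMap_injective :
    Function.Injective (algebraMap (FF L) (fieldBar L M H)) :=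
  (algebraMap (FF L) (fieldBar L M H)).injective

/-- `F_H` has a place. -/
theorem rh0_nonempty_place {m : ℕ} (a : Fin (m + 1) → (ZMod M)ˣ) (hL : L ≠ 0) (hML : M ∣ L)
    (ha : IsRepFam H a) : Nonempty (Place Kb ↥(fieldBar L M H)) := by
  haveI : NeZero L := ⟨hL⟩
  haveI := rh0_isScalarTower L M H
  have hfr := rh0_finrank L M H a hL hML ha
  haveI : FiniteDimensional (FF L) (fieldBar L M H) :=
    Module.finite_of_finrank_pos (by rw [hfr]; exact Nat.succ_pos m)
  have htr : Transcendental Kb (jF L) := transcendental_jF L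
  have htr' : Transcendental Kb (algebraMap (FF L) (fieldBar L M H) (jF L)) :=
    (transcendental_algebraMap_iff (rh0_algebraMap_injective L M H)).mpr htr
  haveI := Fermat.Agent.ES.H.finiteDimensional_adjoin_jF L
  haveI : FiniteDimensional Kb⟮algebraMap (FF L) (fieldBar L M H) (jF L)⟯ (fieldBar L M H) :=
    rh0_finite_adjoin (jF L)
  obtain ⟨V, hV, hsum⟩ := sum_ord_eq_finrank (algebraMap (FF L) (fieldBar L M H) (jF L)) htr'
  have hpos : 0 < finrank Kb⟮algebraMap (FF L) (fieldBar L M H) (jF L)⟯ (fieldBar L M H) :=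
    Module.finrank_pos
  by_contra hcon
  rw [not_nonempty_iff] at hcon
  have hVe : V = ∅ := Finset.eq_empty_of_forall_notMem fun v _ => hcon.false v
  rw [hVe, Finset.sum_empty] at hsum
  have h0 : (finrank Kb⟮algebraMap (FF L) (fieldBar L M H) (jF L)⟯ (fieldBar L M H) : ℤ) = 0 :=
    hsum.symm
  have h1 : finrank Kb⟮algebraMap (FF L) (fieldBar L M H) (jF L)⟯ (fieldBar L M H) = 0 := by
    exact_mod_cast h0
  omega

/-- **FL-RH0**, with the sharp constant in `ℤ`. -/
theorem rh0_riemannH_int (hGal : StmtGalH) (hDvd : StmtDvdH) (p : ℕ) (hlev : K7FLevel L M H p)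
    {m : ℕ} (a : Fin (m + 1) → (ZMod M)ˣ) (ha : IsRepFam H a)
    (𝔞 : Divisor Kb ↥(fieldBar L M H)) :
    Divisor.degree 𝔞 + 1 - (((m + 1 : ℕ) : ℤ) * ((gN L : ℤ) - 1) + 1)
      ≤ (finrank Kb ↥(riemannRochSpace 𝔞) : ℤ) := by
  have hL : L ≠ 0 := by have := hlev.hL; omega
  have hML := hlev.hML
  haveI : NeZero L := ⟨hL⟩
  haveI := rh0_isScalarTower L M H
  have hfr := rh0_finrank L M H a hL hML ha
  haveI : FiniteDimensional (FF L) (fieldBar L M H) :=
    Module.finite_of_finrank_pos (by rw [hfr]; exact Nat.succ_pos m)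
  haveI : Algebra.IsAlgebraic (FF L) (fieldBar L M H) := Algebra.IsAlgebraic.of_finite _ _
  haveI := Fermat.Agent.ES.H.hasPrincipalDivisors_FF L
  haveI := es1h_hasPrincipalDivisors_all (H := H) hL hML
  have hres₀ := Fermat.Agent.ES.H.residue_bijective_FF L
  have hres := es1h_residue_bijective_all (H := H) hL hML
  -- the function `j`
  have htr : Transcendental Kb (jF L) := transcendental_jF L
  have htr' : Transcendental Kb (algebraMap (FF L) (fieldBar L M H) (jF L)) :=
    (transcendental_algebraMap_iff (rh0_algebraMap_injective L M H)).mpr htr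
  haveI := Fermat.Agent.ES.H.finiteDimensional_adjoin_jF L
  haveI : FiniteDimensional Kb⟮algebraMap (FF L) (fieldBar L M H) (jF L)⟯ (fieldBar L M H) :=
    rh0_finite_adjoin (jF L)
  obtain ⟨V₀, hV₀, hsum₀⟩ := sum_ord_eq_finrank (jF L) htr
  obtain ⟨V, hV, hsum⟩ := sum_ord_eq_finrank (algebraMap (FF L) (fieldBar L M H) (jF L)) htr'
  have hdeg := rh0_finrank_adjoin (K := Kb) (F := fieldBar L M H) (jF L)
  -- the eigenbasis
  obtain ⟨G, hGfin, hGcomm, hGcard⟩ := hGal L M H hL hML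
  haveI := hGfin
  obtain ⟨y, u, hu, hyu, hli⟩ := k7feig_exists (K := Kb) G hGcomm hGcard
  obtain ⟨k, hk⟩ := hlev.pgroup m a ha
  have hd : finrank (FF L) (fieldBar L M H) = p ^ k := by rw [hfr, hk]
  have hpos : 0 < finrank (FF L) (fieldBar L M H) := by rw [hfr]; exact Nat.succ_pos m
  have hdvd : ∀ (i : Fin (finrank (FF L) (fieldBar L M H))) (P : Place Kb (FF L)),
      ((finrank (FF L) (fieldBar L M H) : ℕ) : ℤ) ∣ P.ord (u i) := by
    intro i P
    rw [hd]
    refine hDvd L M H p hlev k (u i) (y i : LaurentSeries Kb) (y i).2 ?_ P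
    have h1 := congrArg (Subtype.val) (hyu i)
    rw [rh0_algebraMap_coe, hd] at h1
    rw [← h1]
    rfl
  have key := rh0_riemann (K := Kb) (F₀ := FF L) (F := fieldBar L M H) hres₀ hres (gN L : ℤ)
    (fun D => Fermat.Agent.ES.R.riemann_inequality L D) (jF L) (jF_ne_zero L) V₀ hV₀ V hV
    (finrank (FF L) (fieldBar L M H))
    (by rw [hsum, hsum₀, hdeg]; push_cast; rw [mul_comm])
    (by
      rw [hsum]
      have : 0 < finrank Kb⟮algebraMap (FF L) (fieldBar L M H) (jF L)⟯ (fieldBar L M H) :=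
        Module.finrank_pos
      exact_mod_cast this)
    (finrank (FF L) (fieldBar L M H)) hpos y u hu hyu hli hdvd 𝔞
  rw [hfr] at key
  exact key

/-- **FL-RH0.** -/
theorem stmtRiemannH_of (hGal : StmtGalH) (hDvd : StmtDvdH) : StmtRiemannH := by
  intro L M H p hlev m a ha
  have hL : L ≠ 0 := by have := hlev.hL; omega
  have hML := hlev.hML
  have hint := rh0_riemannH_int L M H hGal hDvd p hlev a ha
  -- `g ≥ 0`
  have hnonneg : 0 ≤ ((m + 1 : ℕ) : ℤ) * ((gN L : ℤ) - 1) + 1 := by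
    haveI := es1h_hasPrincipalDivisors_all (H := H) hL hML
    have hres := es1h_residue_bijective_all (H := H) hL hML
    -- a place exists
    haveI : NeZero L := ⟨hL⟩
    have h0 := hint 0
    obtain ⟨P₀⟩ := rh0_nonempty_place L M H a hL hML ha
    have h1 := Fermat.Agent.DEU.rr_finrank_le_degree_add_one hres P₀
      (0 : Divisor Kb ↥(fieldBar L M H)) (by simp)
    rw [map_zero] at h0 h1
    linarith
  refine ⟨?_, fun 𝔞 => ?_⟩
  · rw [k7fGenus]
    exact Int.toNat_of_nonneg hnonneg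
  · have h1 : ((k7fGenus L (m + 1) : ℕ) : ℤ) = ((m + 1 : ℕ) : ℤ) * ((gN L : ℤ) - 1) + 1 := by
      rw [k7fGenus]
      exact Int.toNat_of_nonneg hnonneg
    rw [h1]
    exact hint 𝔞

end Fermat.Agent.RT.K7F
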