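import Fermat.Agent.RT.K7F.RH0DvdGen
import Fermat.Agent.ES.Riemann
import Fermat.Agent.ES1.HFinal
import Fermat.Agent.ES1.DescentLevelH
import Fermat.Agent.ES1.Conj
import Fermat.Agent.ES1.InjInstRamH
import Fermat.Agent.S18.CuspPlace

/-!
# RT-K7F / FL-RH0, piece RH0-DVD (helper51): the Kummer generators of `F_H / F₀` have divisor
divisible by `p ^ k`

`F₀ = FF L = modularFunctionFieldBar L ≤ F = fieldBar L M H` (both inside `ℚ̄((q))`), `M ∣ L`.

* `k7fdvd_nonempty_place` : `F` has a place (the cusp `∞`);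
* `k7fdvd_exists_over` : every place `P` of `F₀` is the restriction of a place `P'` of `F`, with
  ramification index `ε` such that `ε ∣ 6 L`; more precisely `ε` is prime to every prime `p ≠ 2`,
  `p ∤ L`, such that (`p ≠ 3` or `3 ∣ ord_P j` at all places `P` of `F₀` over `j = 0`);
* `k7fdvd_main_gen`, `k7fdvd_main` (`p ≥ 5`), `k7fdvd_main3` (`p = 3`, hypothesis `hE3`) :
  `y ∈ F`, `y ≠ 0`, `y ^ (p ^ k) = u ∈ F₀` ⟹ `p ^ k ∣ ord_P u` at every place `P` of `F₀`.
-/

set_option autoImplicit false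
set_option linter.unusedSectionVars false
set_option linter.style.haveILetI false
set_option synthInstance.maxHeartbeats 400000
set_option maxHeartbeats 1600000

noncomputable section

open AlgebraicCurve Module ModularCurve

namespace Fermat.Agent.RT.K7F

open Fermat.Agent.ES.R Fermat.Agent.S24 Fermat.Agent.DEU Fermat.Agent.ES1 Fermat.Agent.ES
  Fermat.Agent.ES.H
  Fermat.Agent.S18

variable (L M : ℕ) [NeZero L] (H : Subgroup (ZMod M)ˣ)

/-- `F_H` has a place (the cusp `∞`). -/
theorem k7fdvd_nonempty_place : Nonempty (Place Kb (fieldBar L M H)) := by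
  have hj0 : jFH L M H ≠ 0 := by
    intro h
    have := congrArg (fun z : fieldBar L M H => (z : LaurentSeries Kb)) h
    exact jBar_ne_zero this
  have hjv : ¬ qVal (fieldBar L M H) (jFH L M H) ≤ 1 := by
    rw [qVal_le_one_iff]
    intro h
    have h1 := h (-1) (by norm_num)
    rw [show ((jFH L M H : fieldBar L M H) : LaurentSeries Kb) = jBar from rfl,
      jBar_coeff_neg_one] at h1
    exact one_ne_zero h1
  obtain ⟨w, -⟩ := exists_place_of_valuation (K := Kb) (qVal (fieldBar L M H))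
    (qVal_algebraMap_le _) ⟨(jFH L M H)⁻¹, inv_ne_zero hj0, by
      rw [map_inv₀]
      exact inv_lt_one_of_one_lt₀ (not_le.mp hjv)⟩
  exact ⟨w⟩

/-- the hypothesis on `p`: `p ≠ 2`, `p ∤ L`, and if `p = 3` then `3 ∣ ord_P j` at every place `P`
of `F₀` over `j = 0` -/
def K7fdvdGood (p : ℕ) : Prop :=
  p ≠ 2 ∧ ¬ p ∣ L ∧
    (p = 3 → ∀ P : Place Kb (FF L), 0 < P.ord (jF L) → (3 : ℤ) ∣ P.ord (jF L))

variable {L M H}

/-- **Every place of `F₀` is the restriction of a place of `F_H`, with ramification index prime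
to `p`.** -/
theorem k7fdvd_exists_over (hML : M ∣ L) {p : ℕ} (hp : p.Prime) (hgood : K7fdvdGood L p)
    (P : Place Kb (FF L)) :
    ∃ (P' : Place Kb (fieldBar L M H)) (ε : ℤ), 0 < ε ∧ IsCoprime ε (p : ℤ) ∧
      ∀ (y : LaurentSeries Kb) (hy : y ∈ modularFunctionFieldBar L), y ≠ 0 →
        P'.ord (⟨y, dlh_bar_le_fieldBar L M H hy⟩ : fieldBar L M H)
          = ε * P.ord (⟨y, hy⟩ : FF L) := by
  classical
  have hL : L ≠ 0 := NeZero.ne L
  have hle : modularFunctionFieldBar L ≤ fieldBar L M H := dlh_bar_le_fieldBar L M H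
  have hfin : (modularFunctionFieldBar L).relfinrank (fieldBar L M H) ≠ 0 := by
    obtain ⟨d, hd0, hd⟩ := stmtRelDegH_of_diamond stmtDiamondH M H
    rw [hd L hL hML]
    exact hd0
  letI alg : Algebra (FF L) (fieldBar L M H) :=
    (IntermediateField.inclusion hle).toRingHom.toAlgebra
  haveI htower : IsScalarTower Kb (FF L) (fieldBar L M H) :=
    IsScalarTower.of_algebraMap_eq (fun _ => rfl)
  haveI hfd : FiniteDimensional (FF L) (fieldBar L M H) :=
    Fermat.Agent.ES.G2.hdeg_finite_inclusion hle hfin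
  haveI halg : Algebra.IsAlgebraic (FF L) (fieldBar L M H) := Algebra.IsAlgebraic.of_finite _ _
  haveI := hasPrincipalDivisors_FF L
  haveI := es1h_hasPrincipalDivisors_all (H := H) hL hML
  obtain ⟨v₀⟩ := k7fdvd_nonempty_place L M H
  obtain ⟨P', ε, hε, hord⟩ := k7fdvd_restrict_surjective (K := Kb) (F₀ := FF L)
    (F := fieldBar L M H) (residue_bijective_FF L)
    (es1h_residue_bijective_all (H := H) hL hML) _ (riemann_inequality L) v₀ P
  have hιj : algebraMap (FF L) (fieldBar L M H) (jF L) = jFH L M H := rfl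
  have hR := stmtRamJH L M H hML
  have hpZ : Prime (p : ℤ) := Nat.prime_iff_prime_int.mp hp
  -- `ε` is prime to `p`
  have hcop : IsCoprime ε (p : ℤ) := by
    rw [isCoprime_comm, Prime.coprime_iff_not_dvd hpZ]
    intro hpε
    have hjF0 : jF L ≠ 0 := by
      intro h
      have := congrArg (fun z : FF L => (z : LaurentSeries Kb)) h
      exact jBar_ne_zero this
    have hsub0 : ∀ c : Kb, jF L - algebraMap Kb (FF L) c ≠ 0 := by
      intro c h0
      have h1 : algebraMap (FF L) (fieldBar L M H) (jF L - algebraMap Kb (FF L) c) = 0 := by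
        rw [h0, map_zero]
      rw [map_sub, hιj, ← IsScalarTower.algebraMap_apply] at h1
      exact jFH_sub_ne_zero L M H c h1
    have hsub : ∀ c : Kb, P'.ord (jFH L M H - algebraMap Kb (fieldBar L M H) c)
        = ε * P.ord (jF L - algebraMap Kb (FF L) c) := by
      intro c
      have := hord _ (hsub0 c)
      rwa [map_sub, hιj, ← IsScalarTower.algebraMap_apply] at this
    have h2 : ¬ (p : ℤ) ∣ 2 := by
      intro h
      have h' : p ∣ 2 := by exact_mod_cast h
      exact hgood.1 ((Nat.prime_dvd_prime_iff_eq hp Nat.prime_two).mp h')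
    have h1 : ¬ (p : ℤ) ∣ 1 := fun h => hpZ.not_isUnit (isUnit_of_dvd_one h)
    rcases ramJH_cases L M H hR P' with ⟨c, hc⟩ | hinf
    · by_cases hc0 : c = 0
      · -- over `j = 0`
        subst hc0
        rw [map_zero, sub_zero] at hc
        have h3 := hR.zero P' hc
        have hj := hord (jF L) hjF0
        rw [hιj] at hj
        by_cases hp3 : p = 3
        · have hPpos : 0 < P.ord (jF L) := by
            rw [hj] at hc
            exact (mul_pos_iff_of_pos_left hε).mp hc
          obtain ⟨m, hm⟩ := hgood.2.2 hp3 P hPpos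
          rw [hj, hm] at h3
          -- `ε * (3 * m) ∣ 3`
          have hε1 : ε ∣ 1 := by
            have h4 : ε * m * 3 ∣ 1 * 3 := by
              rw [one_mul]
              have e : ε * m * 3 = ε * (3 * m) := by ring
              rw [e]
              exact h3
            exact (dvd_mul_right ε m).trans
              ((mul_dvd_mul_iff_right (by norm_num : (3 : ℤ) ≠ 0)).mp h4)
          exact h1 (hpε.trans hε1)
        · have hp3' : ¬ (p : ℤ) ∣ 3 := by
            intro h
            have h' : p ∣ 3 := by exact_mod_cast h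
            exact hp3 ((Nat.prime_dvd_prime_iff_eq hp Nat.prime_three).mp h')
          rw [hj] at h3
          exact hp3' (hpε.trans ((dvd_mul_right ε _).trans h3))
      · by_cases hc1 : c = 1728
        · subst hc1
          have h3 := hR.e1728 P' hc
          rw [hsub] at h3
          exact h2 (hpε.trans ((dvd_mul_right ε _).trans h3))
        · have h3 := hR.gen c hc0 hc1 P' hc
          rw [hsub] at h3
          exact h1 (hpε.trans ⟨_, h3.symm⟩)
    · have h3 := hR.inf P' hinf
      have hj := hord (jF L) hjF0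
      rw [hιj] at hj
      rw [Place.ord_inv, hj] at h3
      have h4 : ε ∣ (L : ℤ) := (Dvd.intro _ rfl : ε ∣ ε * -P.ord (jF L)).trans (by
        rwa [mul_neg])
      have h5 : (p : ℤ) ∣ (L : ℤ) := hpε.trans h4
      exact hgood.2.1 (by exact_mod_cast h5)
  refine ⟨P', ε, hε, hcop, fun y hy hy0 => ?_⟩
  exact hord ⟨y, hy⟩ (fun h0 => hy0 (congrArg Subtype.val h0))

/-- **RH0-DVD**, general form. -/
theorem k7fdvd_main_gen (hML : M ∣ L) {p : ℕ} (hp : p.Prime) (hgood : K7fdvdGood L p)
    (k : ℕ) (y : fieldBar L M H) (hy : y ≠ 0) (u : FF L)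
    (hyu : ((y : LaurentSeries Kb)) ^ (p ^ k) = (u : LaurentSeries Kb)) :
    ∀ P : Place Kb (FF L), ((p ^ k : ℕ) : ℤ) ∣ P.ord u := by
  intro P
  obtain ⟨P', ε, hε, hcop, hord⟩ := k7fdvd_exists_over (H := H) hML hp hgood P
  have hu : u ≠ 0 := by
    rintro rfl
    have h0 : ((y : LaurentSeries Kb)) ^ (p ^ k) = 0 := hyu
    exact hy (Subtype.ext (pow_eq_zero_iff (pow_ne_zero k hp.ne_zero) |>.mp h0))
  have hu' : (u : LaurentSeries Kb) ≠ 0 := fun h => hu (Subtype.ext h)
  have h1 : ((p ^ k : ℕ) : ℤ) * P'.ord y = ε * P.ord u := by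
    have e1 : y ^ (p ^ k) = (⟨(u : LaurentSeries Kb), dlh_bar_le_fieldBar L M H u.2⟩ :
        fieldBar L M H) := Subtype.ext hyu
    have := congrArg P'.ord e1
    rw [← zpow_natCast, P'.ord_zpow, hord _ u.2 hu'] at this
    exact this
  have hcop' : IsCoprime ε ((p ^ k : ℕ) : ℤ) := by
    push_cast
    exact hcop.pow_right
  exact hcop'.symm.dvd_of_dvd_mul_left ⟨P'.ord y, h1.symm⟩

/-- **RH0-DVD** for `p ≥ 5`. -/
theorem k7fdvd_main (L M : ℕ) [NeZero L] (H : Subgroup (ZMod M)ˣ) (hML : M ∣ L) (p : ℕ)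
    (hp : p.Prime) (hp5 : 5 ≤ p) (hpL : ¬ p ∣ L) (k : ℕ) (y : fieldBar L M H) (hy : y ≠ 0)
    (u : FF L) (hyu : ((y : LaurentSeries Kb)) ^ (p ^ k) = (u : LaurentSeries Kb)) :
    ∀ P : Place Kb (FF L), ((p ^ k : ℕ) : ℤ) ∣ P.ord u :=
  k7fdvd_main_gen hML hp ⟨by omega, hpL, fun h => by omega⟩ k y hy u hyu

/-- **RH0-DVD** for `p = 3`, under the hypothesis `hE3`: `ord_P j = 3` at every place `P` of `F₀`
over `j = 0`. -/
theorem k7fdvd_main3 (L M : ℕ) [NeZero L] (H : Subgroup (ZMod M)ˣ) (hML : M ∣ L)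
    (h3L : ¬ 3 ∣ L)
    (hE3 : ∀ P : Place Kb (FF L), 0 < P.ord (jF L) → P.ord (jF L) = 3)
    (k : ℕ) (y : fieldBar L M H) (hy : y ≠ 0)
    (u : FF L) (hyu : ((y : LaurentSeries Kb)) ^ (3 ^ k) = (u : LaurentSeries Kb)) :
    ∀ P : Place Kb (FF L), ((3 ^ k : ℕ) : ℤ) ∣ P.ord u :=
  k7fdvd_main_gen hML Nat.prime_three
    ⟨by norm_num, h3L, fun _ P hP => by rw [hE3 P hP]⟩ k y hy u hyu

end Fermat.Agent.RT.K7F
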