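import Fermat.Agent.INJ.AbhyankarPlace
import Fermat.Agent.DEU.Main1

/-!
# RT-K7F / FL-RH0, piece RH0-DVD, generic half (helper51)

`F / F₀` an algebraic extension of function fields over `K` (prelude's places, residue fields `K`,
principal divisors of degree `0`), Riemann's inequality for `F₀`, and `F` has at least one place.

* `k7fdvd_const_of_regular` : a function without poles is constant;
* `k7fdvd_restrict_surjective` : every place `P` of `F₀` is the restriction of a place `P'` of `F`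
  (`ord_{P'} (ι f) = ε · ord_P f`, `ε > 0`);
* `k7fdvd_dvd_of_pow` : if `y ^ m = ι u`, `ord_{P'} ∘ ι = ε · ord_P` and `gcd(ε, m) = 1` then
  `m ∣ ord_P u`.
-/

set_option autoImplicit false

open AlgebraicCurve Module

namespace Fermat.Agent.RT.K7F

open Fermat.Agent.ES.R Fermat.Agent.S24 Fermat.Agent.DEU

section Const

variable {K F : Type*} [Field K] [Field F] [Algebra K F]

/-- a function without poles is constant -/
theorem k7fdvd_const_of_regular [HasPrincipalDivisors K F]
    (hres : ∀ v : Place K F, Function.Bijective (algebraMap K v.ResidueField))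
    (v₀ : Place K F) {f : F} (hf : ∀ v : Place K F, 0 ≤ v.ord f) :
    ∃ c : K, f = algebraMap K F c := by
  have hfin : Module.Finite K ↥(riemannRochSpace (0 : Divisor K F)) := rr_finite v₀ hres 0
  have h1 : finrank K ↥(riemannRochSpace (0 : Divisor K F)) ≤ 1 := by
    have := rr_finrank_le_degree_add_one hres v₀ (0 : Divisor K F) (by simp)
    rw [map_zero, zero_add] at this
    exact_mod_cast this
  have hone : (1 : F) ∈ riemannRochSpace (0 : Divisor K F) := by
    rw [mem_riemannRochSpace_iff]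
    intro v
    right
    simp
  have hfm : f ∈ riemannRochSpace (0 : Divisor K F) := by
    rw [mem_riemannRochSpace_iff]
    intro v
    right
    simpa using hf v
  rw [finrank_le_one_iff] at h1
  obtain ⟨w, hw⟩ := h1
  obtain ⟨c₁, hc₁⟩ := hw ⟨1, hone⟩
  obtain ⟨c₂, hc₂⟩ := hw ⟨f, hfm⟩
  have hc₁0 : c₁ ≠ 0 := by
    rintro rfl
    rw [zero_smul] at hc₁
    exact one_ne_zero (congrArg Subtype.val hc₁).symm
  refine ⟨c₂ / c₁, ?_⟩
  have e1 : (1 : F) = c₁ • (w : F) := (congrArg Subtype.val hc₁).symm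
  have e2 : f = c₂ • (w : F) := (congrArg Subtype.val hc₂).symm
  have e3 : (w : F) = c₁⁻¹ • (1 : F) := by
    rw [e1, smul_smul, inv_mul_cancel₀ hc₁0, one_smul]
  rw [e2, e3, smul_smul, Algebra.algebraMap_eq_smul_one, div_eq_mul_inv]

end Const

section Restrict

variable {K F₀ F : Type*} [Field K] [Field F₀] [Field F] [Algebra K F₀] [Algebra K F]
  [Algebra F₀ F] [IsScalarTower K F₀ F]

/-- **Surjectivity of the restriction of places** along an algebraic extension of function
fields. -/
theorem k7fdvd_restrict_surjective [Algebra.IsAlgebraic F₀ F]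
    [HasPrincipalDivisors K F₀] [HasPrincipalDivisors K F]
    (hres₀ : ∀ v : Place K F₀, Function.Bijective (algebraMap K v.ResidueField))
    (hres : ∀ v : Place K F, Function.Bijective (algebraMap K v.ResidueField))
    (g₀ : ℤ)
    (hR : ∀ D : Divisor K F₀,
      Divisor.degree D + 1 - g₀ ≤ (finrank K ↥(riemannRochSpace D) : ℤ))
    (v₀ : Place K F) (P : Place K F₀) :
    ∃ (P' : Place K F) (ε : ℤ), 0 < ε ∧
      ∀ y : F₀, y ≠ 0 → P'.ord (algebraMap F₀ F y) = ε * P.ord y := by
  classical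
  by_contra hcon
  push Not at hcon
  -- every place of `F` restricts to a place different from `P`
  have hP1 : ∀ P' : Place K F, ∃ (P₁ : Place K F₀) (ε : ℤ), 0 < ε ∧ P₁ ≠ P ∧
      ∀ y : F₀, y ≠ 0 → P'.ord (algebraMap F₀ F y) = ε * P₁.ord y := by
    intro P'
    obtain ⟨P₁, ε, hε, h⟩ :=
      Fermat.Agent.INJ.AbhP.exists_place_restrict (E := K) (L := F₀) P'
    refine ⟨P₁, ε, hε, ?_, h⟩
    rintro rfl
    obtain ⟨y, hy0, hy⟩ := hcon P' ε hε
    exact hy (h y hy0)
  -- a non-constant function with poles only at `P`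
  obtain ⟨n, hn⟩ : ∃ n : ℤ, g₀ + 1 ≤ n := ⟨g₀ + 1, le_refl _⟩
  have hfinD : Module.Finite K ↥(riemannRochSpace (mulPlace P n)) := rr_finite P hres₀ _
  have hdim : 2 ≤ finrank K ↥(riemannRochSpace (mulPlace P n)) := by
    have h1 := hR (mulPlace P n)
    rw [degree_mulPlace hres₀] at h1
    have h2 : (2 : ℤ) ≤ (finrank K ↥(riemannRochSpace (mulPlace P n)) : ℤ) := by omega
    exact_mod_cast h2
  obtain ⟨h, hh, hhK⟩ : ∃ h : F₀, h ∈ riemannRochSpace (mulPlace P n) ∧
      ∀ c : K, h ≠ algebraMap K F₀ c := by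
    by_contra hno
    push Not at hno
    have hle : riemannRochSpace (mulPlace P n) ≤ Submodule.span K {(1 : F₀)} := by
      intro x hx
      obtain ⟨c, hc⟩ := hno x hx
      rw [Submodule.mem_span_singleton]
      exact ⟨c, by rw [hc, Algebra.algebraMap_eq_smul_one]⟩
    have h1 := Submodule.finrank_mono hle
    have h2 : finrank K ↥(Submodule.span K {(1 : F₀)}) = 1 :=
      finrank_span_singleton one_ne_zero
    omega
  have hh0 : h ≠ 0 := by
    rintro rfl
    exact hhK 0 (by simp)
  -- its image has no poles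
  have hreg : ∀ v : Place K F, 0 ≤ v.ord (algebraMap F₀ F h) := by
    intro P'
    obtain ⟨P₁, ε, hε, hne, hord⟩ := hP1 P'
    rw [hord h hh0]
    rw [mem_riemannRochSpace_iff] at hh
    have h1 := (hh P₁).resolve_left hh0
    have h2 : mulPlace P n P₁ = 0 := by
      rw [mulPlace, Finsupp.single_apply, if_neg (Ne.symm hne)]
    rw [h2, neg_zero] at h1
    exact mul_nonneg hε.le h1
  obtain ⟨c, hc⟩ := k7fdvd_const_of_regular hres v₀ hreg
  apply hhK c
  apply (algebraMap F₀ F).injective
  rw [hc, ← IsScalarTower.algebraMap_apply]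

omit [IsScalarTower K F₀ F] in
/-- the divisibility step: `y ^ m = ι u`, `ord_{P'} ∘ ι = ε · ord_P`, `gcd(ε, m) = 1` ⟹
`m ∣ ord_P u`. -/
theorem k7fdvd_dvd_of_pow (P' : Place K F) (P : Place K F₀) (ε : ℤ)
    (hord : ∀ y : F₀, y ≠ 0 → P'.ord (algebraMap F₀ F y) = ε * P.ord y)
    (m : ℕ) (hcop : IsCoprime ε (m : ℤ)) (y : F) (hy : y ≠ 0) (u : F₀)
    (hyu : y ^ m = algebraMap F₀ F u) : (m : ℤ) ∣ P.ord u := by
  have hu : u ≠ 0 := by
    rintro rfl
    rw [map_zero] at hyu
    exact pow_ne_zero m hy hyu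
  have h1 : (m : ℤ) * P'.ord y = ε * P.ord u := by
    have := congrArg P'.ord hyu
    rw [← zpow_natCast, P'.ord_zpow, hord u hu] at this
    exact this
  have h2 : (m : ℤ) ∣ ε * P.ord u := ⟨P'.ord y, h1.symm⟩
  exact hcop.symm.dvd_of_dvd_mul_left h2

end Restrict

end Fermat.Agent.RT.K7F
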