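import Fermat.Agent.RT.K7F.RH0Dvd
import Fermat.Agent.RT.K7F.RH0App
import Fermat.Agent.INJ.HMMem
import Fermat.Agent.INJ.Hauptmodul

/-!
# RT-K7F / FL-RH0, piece RH0-DVD, final form (helper51): `k7fdvd_stmtDvdH : StmtDvdH`

At all levels of K7-FLAT (`p` odd, `p ∤ L`, and `2 ∣ L` if `p = 3`): `y ∈ F_H`,
`y ^ (p ^ k) = u ∈ F₀ = FF L` ⟹ `p ^ k ∣ ord_P u` at every place `P` of `F₀`.

For `p = 3`: `2 ∣ L`, so the Hauptmodul `h = hm2` of `X₀(2)` lies in `F₀` and
`j h² = (h + 256)³`; at a zero `P` of `j` this gives `ord_P h = 0` and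
`ord_P j = 3 ord_P (h + 256)` (`k7fdvd_three_dvd`).
-/

set_option autoImplicit false
set_option linter.unusedSectionVars false
set_option linter.style.haveILetI false
set_option synthInstance.maxHeartbeats 400000
set_option maxHeartbeats 1600000

noncomputable section

open AlgebraicCurve Module ModularCurve

namespace Fermat.Agent.RT.K7F

open Fermat.Agent.S24 Fermat.Agent.ES1 Fermat.Agent.ES Fermat.Agent.INJ

/-- `3 ∣ ord_P j` at every zero `P` of `j` on `X₀(L)`, `2 ∣ L`. -/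
theorem k7fdvd_three_dvd (L : ℕ) [NeZero L] (h2 : 2 ∣ L) (P : Place Kb (FF L))
    (hP : 0 < P.ord (jF L)) : (3 : ℤ) ∣ P.ord (jF L) := by
  set h : FF L := ⟨hm2 Kb, hm2_mem L h2⟩ with hh
  set c : FF L := algebraMap Kb (FF L) 256 with hc
  have hrel : jF L * h ^ 2 = (h + c) ^ 3 := by
    apply Subtype.ext
    show jBar * hm2 Kb ^ 2 = (hm2 Kb + algebraMap Kb (LaurentSeries Kb) 256) ^ 3
    rw [hmMem_jBar_eq, hm2_j, map_ofNat]
  have hc0 : c ≠ 0 := by
    rw [hc]
    simp
  have hcord : P.ord c = 0 := PlaceAux.ord_algebraMap P 256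
  have hj0 : jF L ≠ 0 := by
    intro h0
    rw [h0] at hP
    simp at hP
  have hh0 : h ≠ 0 := by
    intro h0
    rw [h0] at hrel
    simp only [ne_eq, OfNat.ofNat_ne_zero, not_false_eq_true, zero_pow, mul_zero, zero_add] at hrel
    exact hc0 (pow_eq_zero_iff (by norm_num) |>.mp hrel.symm)
  have hhc0 : h + c ≠ 0 := by
    intro h0
    rw [h0] at hrel
    simp only [ne_eq, OfNat.ofNat_ne_zero, not_false_eq_true, zero_pow] at hrel
    rcases mul_eq_zero.mp hrel with h1 | h1
    · exact hj0 h1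
    · exact hh0 (pow_eq_zero_iff (by norm_num) |>.mp h1)
  have hord : P.ord (jF L) + 2 * P.ord h = 3 * P.ord (h + c) := by
    have := congrArg P.ord hrel
    rw [P.ord_mul hj0 (pow_ne_zero 2 hh0), ← zpow_natCast, ← zpow_natCast, P.ord_zpow,
      P.ord_zpow] at this
    push_cast at this
    exact this
  -- `ord_P h = 0`
  have hh_ord : P.ord h = 0 := by
    rcases lt_trichotomy (P.ord h) 0 with hlt | heq | hgt
    · have e := PlaceAux.ord_add_eq_of_lt P hh0 hc0 (by rw [hcord]; exact hlt)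
      rw [e] at hord
      omega
    · exact heq
    · have e := PlaceAux.ord_add_eq_of_lt P hc0 hh0 (by rw [hcord]; exact hgt)
      rw [add_comm c h, hcord] at e
      rw [e] at hord
      omega
  rw [hh_ord, mul_zero, add_zero] at hord
  exact ⟨_, hord⟩

/-- the hypothesis on `p` holds at all levels of K7-FLAT -/
theorem k7fdvd_good_of_level {L M : ℕ} {H : Subgroup (ZMod M)ˣ} {p : ℕ}
    (hLv : K7FLevel L M H p) [NeZero L] : K7fdvdGood L p := by
  refine ⟨hLv.hp2, hLv.hpL, fun hp3 P hP => ?_⟩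
  have h2 : 2 ∣ L := by
    rcases hLv.h5 with h | h
    · omega
    · rw [hp3] at h
      exact h
  exact k7fdvd_three_dvd L h2 P hP

/-- **RH0-DVD**: the Kummer generators of `F_H / F₀` have divisors divisible by `p ^ k`. -/
theorem k7fdvd_stmtDvdH : StmtDvdH := by
  intro L M H p hLv k u y hy hyu P
  have hL : L ≠ 0 := by have := hLv.hL; omega
  haveI : NeZero L := ⟨hL⟩
  have hy0 : (⟨y, hy⟩ : fieldBar L M H) ≠ 0 ∨ (⟨y, hy⟩ : fieldBar L M H) = 0 :=
    (em _).symm
  rcases hy0 with hy0 | hy0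
  · exact k7fdvd_main_gen hLv.hML hLv.hp (k7fdvd_good_of_level hLv) k ⟨y, hy⟩ hy0 u hyu P
  · -- `y = 0`, so `u = 0`
    have hy' : y = 0 := congrArg Subtype.val hy0
    have hu : u = 0 := by
      apply Subtype.ext
      rw [← hyu, hy', zero_pow (pow_ne_zero k hLv.hp.ne_zero)]
      rfl
    rw [hu, Place.ord_zero]
    exact dvd_zero _

end Fermat.Agent.RT.K7F
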