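import Fermat.Agent.RT.K7F.RH0App
import Fermat.Agent.RT.K7F.RH0Gal

/-!
# RT-K7F / FL-RH0: `stmtGalH : StmtGalH` (the diamond group, in the form consumed by
`stmtRiemannH_of` of `RT/K7F/RH0App.lean`)
-/

set_option autoImplicit false

namespace Fermat.Agent.RT.K7F

attribute [local instance] rh0Algebra

/-- **RH0-GAL.** -/
theorem stmtGalH : StmtGalH :=
  fun L M H hL hML => k7fgal_exists L M H hL hML

end Fermat.Agent.RT.K7F
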