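import Fermat.Agent.RT.K7F.RH0App
import Fermat.Agent.RT.K7F.RH0GalStmt
import Fermat.Agent.RT.K7F.RH0DvdH

/-!
# RT-K7F / FL-RH0, final form (helper51): Riemann's inequality for `F_H`, unconditionally

`k7fdvd_riemannH : StmtRiemannH`, from the assembly `stmtRiemannH_of` (helper34), `stmtGalH`
(RH0-GAL, helper11) and `k7fdvd_stmtDvdH` (RH0-DVD).  `stmtRiemannH` is the same theorem under
the name announced in NOTES/RT-K7F.md.
-/

set_option autoImplicit false

namespace Fermat.Agent.RT.K7F

/-- **FL-RH0**: Riemann's inequality for `F_H = fieldBar L M H` with the sharp constant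
`g = 1 + d (g₀ - 1)`, at all levels of K7-FLAT. -/
theorem k7fdvd_riemannH : StmtRiemannH :=
  stmtRiemannH_of stmtGalH k7fdvd_stmtDvdH

/-- **FL-RH0** (alias of `k7fdvd_riemannH`). -/
theorem stmtRiemannH : StmtRiemannH := k7fdvd_riemannH

end Fermat.Agent.RT.K7F
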