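import Fermat.Agent.S28.Red
import Fermat.Agent.INJ.BGFin

/-!
# K7F / FL-RES, part 1: reduction of algebraic relations over `ℚ(j)` to characteristic `p`

* `k7fres_rel_of_isAlgebraic`, `k7fres_isAlgebraic_of_rel` : algebraicity over an intermediate
  field in "relation form" `∑ i, c i * y ^ i = 0`.
* `k7fres_red_isAlgebraic` : for `x ∈ ℤ((q))`, if `x ⊗ ℚ` is algebraic over `ℚ(j)` then the
  reduction of `x` in `k((q))` is algebraic over `k(j̄)`, `k` any field of characteristic `p`.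
* `k7fres_isAlgebraic_subtype` : from the ambient field to an intermediate field.
* `k7fres_isAlgebraic_intJd` : `j(q^d)` is algebraic over `E(j)` (any field `E`).
-/

set_option autoImplicit false

noncomputable section

open IntermediateField Polynomial ModularCurve

namespace Fermat.Agent.RT.K7F

section Rel

variable {K Ω : Type*} [Field K] [Field Ω] [Algebra K Ω]

/-- relation form of algebraicity, `→` -/
theorem k7fres_rel_of_isAlgebraic (E : IntermediateField K Ω) (y : Ω) (h : IsAlgebraic E y) :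
    ∃ (n : ℕ) (c : Fin (n + 1) → Ω), (∀ i, c i ∈ E) ∧ (∃ i, c i ≠ 0) ∧
      ∑ i, c i * y ^ (i : ℕ) = 0 := by
  obtain ⟨g, hg0, hg⟩ := h
  refine ⟨g.natDegree, fun i => ((g.coeff i : E) : Ω), fun i => (g.coeff i).2,
    ⟨Fin.last _, ?_⟩, ?_⟩
  · have h1 : g.coeff g.natDegree ≠ 0 := by
      rw [Polynomial.coeff_natDegree]
      exact Polynomial.leadingCoeff_ne_zero.mpr hg0
    intro h2
    apply h1
    exact Subtype.ext (by simpa using h2)
  · rw [Polynomial.aeval_eq_sum_range] at hg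
    rw [Fin.sum_univ_eq_sum_range (fun i => ((g.coeff i : E) : Ω) * y ^ i) (g.natDegree + 1)]
    rw [← hg]
    refine Finset.sum_congr rfl fun i _ => ?_
    rw [IntermediateField.smul_def]
    rfl

/-- relation form of algebraicity, `←` -/
theorem k7fres_isAlgebraic_of_rel (E : IntermediateField K Ω) (y : Ω) {n : ℕ}
    (c : Fin (n + 1) → Ω) (hc : ∀ i, c i ∈ E) (hne : ∃ i, c i ≠ 0)
    (hrel : ∑ i, c i * y ^ (i : ℕ) = 0) : IsAlgebraic E y := by
  classical
  obtain ⟨i₀, hi₀⟩ := hne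
  refine ⟨∑ i : Fin (n + 1), Polynomial.C (⟨c i, hc i⟩ : E) * Polynomial.X ^ (i : ℕ), ?_, ?_⟩
  · intro h0
    have h1 := congrArg (fun g : Polynomial E => g.coeff (i₀ : ℕ)) h0
    simp only [Polynomial.finsetSum_coeff, Polynomial.coeff_C_mul, Polynomial.coeff_X_pow,
      Polynomial.coeff_zero] at h1
    rw [Finset.sum_eq_single i₀] at h1
    · simp only [if_true, mul_one] at h1
      exact hi₀ (congrArg Subtype.val h1)
    · intro b _ hb
      have : ¬ ((i₀ : ℕ) = (b : ℕ)) := fun h => hb (Fin.ext h.symm)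
      simp [this]
    · intro h; exact absurd (Finset.mem_univ _) h
  · rw [map_sum]
    rw [← hrel]
    refine Finset.sum_congr rfl fun i _ => ?_
    rw [map_mul, Polynomial.aeval_C, map_pow, Polynomial.aeval_X]
    rfl

/-- algebraicity over `K(t)` inside an intermediate field `F` from algebraicity in the ambient
field -/
theorem k7fres_isAlgebraic_subtype (F : IntermediateField K Ω) (t y : F)
    (h : IsAlgebraic K⟮(t : Ω)⟯ (y : Ω)) : IsAlgebraic K⟮t⟯ y := by
  obtain ⟨n, c, hc, ⟨i₀, hi₀⟩, hrel⟩ := k7fres_rel_of_isAlgebraic _ _ h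
  have htF : ({(t : Ω)} : Set Ω) ⊆ F := by
    intro x hx
    rw [Set.mem_singleton_iff] at hx
    rw [hx]; exact t.2
  have hcF : ∀ i, c i ∈ F := fun i =>
    (IntermediateField.adjoin_le_iff.mpr htF) (hc i)
  have hset : {x : F | (x : Ω) ∈ ({(t : Ω)} : Set Ω)} = {t} := by
    ext x
    simp only [Set.mem_ofPred_eq, Set.mem_singleton_iff]
    exact ⟨fun h => Subtype.ext h, fun h => by rw [h]⟩
  have hc' : ∀ i, (⟨c i, hcF i⟩ : F) ∈ K⟮t⟯ := by
    intro i
    have := Fermat.Agent.INJ.bgFin_mem_adjoin_subtype F {(t : Ω)} htF (c i) (hc i) (hcF i)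
    rwa [hset] at this
  refine k7fres_isAlgebraic_of_rel K⟮t⟯ y (fun i => (⟨c i, hcF i⟩ : F)) hc'
    ⟨i₀, fun h => hi₀ (congrArg Subtype.val h)⟩ ?_
  apply Subtype.ext
  rw [ZeroMemClass.coe_zero, ← hrel]
  push_cast
  rfl

end Rel

section Red

variable (p : ℕ) [Fact p.Prime]

/-- reduction of an algebraic relation over `ℚ(j)` to `𝔽_p(j̄)` -/
theorem k7fres_red_zmod (x : LaurentSeries ℤ)
    (h : IsAlgebraic (adjoin ℚ {jqModC ℚ}) (coeffMap (Int.castRingHom ℚ) x)) :
    IsAlgebraic (adjoin (ZMod p) {jqModC (ZMod p)})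
      (coeffMap (Int.castRingHom (ZMod p)) x) := by
  obtain ⟨n, c, hc, ⟨i₀, hi₀⟩, hrel⟩ := k7fres_rel_of_isAlgebraic _ _ h
  by_contra hna
  apply hi₀
  refine Fermat.Agent.S28.red_indep_jq p (fun i : Fin (n + 1) => x ^ (i : ℕ)) ?_ c hc ?_ i₀
  · intro c' hc' hrel' i
    by_contra hi
    apply hna
    refine k7fres_isAlgebraic_of_rel _ _ c' hc' ⟨i, hi⟩ ?_
    rw [← hrel']
    refine Finset.sum_congr rfl fun i _ => ?_
    rw [map_pow]
  · rw [← hrel]
    refine Finset.sum_congr rfl fun i _ => ?_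
    rw [map_pow]

variable (k : Type*) [Field k] [CharP k p]

include p

/-- `𝔽_p(j̄)` maps into `k(j̄)` -/
theorem k7fres_baseChange_mem (z : LaurentSeries (ZMod p))
    (hz : z ∈ adjoin (ZMod p) {jqModC (ZMod p)}) :
    coeffMap (ZMod.castHom (dvd_refl p) k) z ∈ adjoin k {jqModC k} := by
  induction hz using IntermediateField.adjoin_induction with
  | mem z hz =>
    rw [Set.mem_singleton_iff] at hz
    rw [hz, coeffMap_jqModC]
    exact IntermediateField.mem_adjoin_simple_self k _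
  | algebraMap c =>
    rw [algebraMap_laurentSeries_eq_single, coeffMap_single,
      ← algebraMap_laurentSeries_eq_single]
    exact IntermediateField.algebraMap_mem _ _
  | add a b ha hb iha ihb => rw [map_add]; exact add_mem iha ihb
  | inv a ha iha => rw [map_inv₀]; exact inv_mem iha
  | mul a b ha hb iha ihb => rw [map_mul]; exact mul_mem iha ihb

/-- **Reduction of algebraicity.**  If `x ∈ ℤ((q))` is algebraic over `ℚ(j)`, its reduction in
`k((q))` is algebraic over `k(j̄)`, for every field `k` of characteristic `p`. -/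
theorem k7fres_red_isAlgebraic (x : LaurentSeries ℤ)
    (h : IsAlgebraic (adjoin ℚ {jqModC ℚ}) (coeffMap (Int.castRingHom ℚ) x)) :
    IsAlgebraic (adjoin k {jqModC k}) (coeffMap (Int.castRingHom k) x) := by
  obtain ⟨n, c, hc, ⟨i₀, hi₀⟩, hrel⟩ :=
    k7fres_rel_of_isAlgebraic _ _ (k7fres_red_zmod p x h)
  have hx : coeffMap (ZMod.castHom (dvd_refl p) k) (coeffMap (Int.castRingHom (ZMod p)) x)
      = coeffMap (Int.castRingHom k) x := by
    rw [coeffMap_coeffMap]
    exact coeffMap_congr (RingHom.ext_int _ _) _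
  refine k7fres_isAlgebraic_of_rel _ _
    (fun i => coeffMap (ZMod.castHom (dvd_refl p) k) (c i))
    (fun i => k7fres_baseChange_mem p k _ (hc i)) ⟨i₀, ?_⟩ ?_
  · intro h0
    exact hi₀ ((map_eq_zero (coeffMap (ZMod.castHom (dvd_refl p) k))).mp h0)
  · have h1 := congrArg (coeffMap (ZMod.castHom (dvd_refl p) k)) hrel
    rw [map_sum, map_zero] at h1
    rw [← h1]
    refine Finset.sum_congr rfl fun i _ => ?_
    rw [map_mul, map_pow, hx]

end Red

section Jd

variable (E : Type*) [Field E]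

/-- `j(q^d)` is algebraic over `E(j)`, for every field `E` -/
theorem k7fres_isAlgebraic_intJd (N : ℕ) (hN : N ≠ 0) (d : ℕ) (hd : d ∣ N) :
    IsAlgebraic (adjoin E {jqModC E}) (Fermat.Agent.S28.intJd E d) := by
  have hrel : ∀ q : ℕ, q.Prime → ∀ a : ℕ, q * a ∣ N →
      ∃ Φ : Polynomial (Polynomial ℤ), Φ.Monic ∧
        Φ.eval₂ (Fermat.Agent.S28.evalInt (Fermat.Agent.S28.intJd E a))
          (Fermat.Agent.S28.intJd E (q * a)) = 0 := by
    intro q hq a hqa
    obtain ⟨Φ, hΦm, hΦ⟩ := Fermat.Agent.S28.intModEq q hq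
    refine ⟨Φ, hΦm, ?_⟩
    have ha : a ∣ N := (Dvd.intro_left q rfl).trans hqa
    have ha0 : a ≠ 0 := fun h0 => hN (Nat.eq_zero_of_zero_dvd (h0 ▸ ha))
    exact Fermat.Agent.S28.IntModEq.shift hΦ E ha0 hq.ne_zero
  have key := Fermat.Agent.INJ.bgFin_isAlgebraic_jd (K := E) (L := LaurentSeries E)
    (fun d => Fermat.Agent.S28.intJd E d) N hN hrel d hd
  rw [Fermat.Agent.S28.intJd_one] at key
  exact key

end Jd

end Fermat.Agent.RT.K7F
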