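import Fermat.Agent.RT.K7F.ResAlg
import Fermat.Agent.ES1.Conj
import Fermat.Agent.ES1.ConjDeg

/-!
# K7F / FL-RES, part 2: `F̄_H = fieldC k L M H` is finite over `k(j̄)` in characteristic `p`

* `k7fres_fieldC_rat_le` : every element of `fieldC ℚ L M H` is algebraic over `ℚ(j)`
  (from `ES1.stmtDiamondH`: `fieldC = F₀(S₁)`, `S₁` integral over `F₀`; `F₀ / ℚ(j)` by the
  integral modular equations).
* `k7fres_fieldC_le` : every element of `fieldC k L M H` is algebraic over `k(j̄)`
  (`char k = p`; reduction of the relations of the generators, `k7fres_red_isAlgebraic`).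
* `k7fres_finiteDimensional` : `[fieldC k L M H : k(j̄)] < ∞`.
-/

set_option autoImplicit false
set_option linter.style.haveILetI false
set_option synthInstance.maxHeartbeats 400000
set_option maxHeartbeats 1600000

noncomputable section

open IntermediateField Polynomial ModularCurve

namespace Fermat.Agent.RT.K7F

open Fermat.Agent.ES1 Fermat.Agent.S28

/-- `F₀ = E(j(q^d) : d ∣ L)` is algebraic over `E(j)` -/
theorem k7fres_full_le_algClosure (E : Type*) [Field E] (L : ℕ) (hL : L ≠ 0) :
    modularFunctionFieldFullC E L ≤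
      (algebraicClosure (adjoin E {jqModC E}) (LaurentSeries E)).restrictScalars E := by
  rw [modularFunctionFieldFullC, IntermediateField.adjoin_le_iff]
  intro x hx
  obtain ⟨d, hd, rfl⟩ := Fermat.Agent.INJ.bgFin_mem_divisorExpansionsC E L hx
  exact mem_algebraicClosure_iff.mpr (k7fres_isAlgebraic_intJd E L hL d hd)

/-- characteristic `0`: every element of `fieldC K L M H` is algebraic over `K(j)` -/
theorem k7fres_fieldC_char0_le (K : Type) [Field K] [CharZero K] [Algebra.IsAlgebraic ℚ K]
    (L M : ℕ) (H : Subgroup (ZMod M)ˣ) (hL : L ≠ 0) (hML : M ∣ L) :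
    fieldC K L M H ≤
      (algebraicClosure (adjoin K {jqModC K}) (LaurentSeries K)).restrictScalars K := by
  have hM0 : M ≠ 0 := fun h => hL (by rw [h] at hML; exact Nat.eq_zero_of_zero_dvd hML)
  obtain ⟨m, a, ha⟩ := exists_isRepFam hM0 H
  obtain ⟨hgen, ⟨P, hPm, hPd, hPr⟩, -⟩ := stmtDiamondH K L M H a hL hML ha
  have hF₀ := k7fres_full_le_algClosure K L hL
  refine hgen.trans ?_
  rw [IntermediateField.adjoin_le_iff]
  rintro x (hx | hx)
  · exact hF₀ hx
  · rw [Set.mem_singleton_iff] at hx
    subst hx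
    show sS K M H 1 ∈ algebraicClosure (adjoin K {jqModC K}) (LaurentSeries K)
    let ι : ↥(modularFunctionFieldFullC K L) →+*
        ↥(algebraicClosure (adjoin K {jqModC K}) (LaurentSeries K)) :=
      (modularFunctionFieldFullC K L).val.toRingHom.codRestrict
        (algebraicClosure (adjoin K {jqModC K}) (LaurentSeries K)) (fun z => hF₀ z.2)
    have hint : IsIntegral (algebraicClosure (adjoin K {jqModC K}) (LaurentSeries K))
        (sS K M H 1) := by
      refine ⟨P.map ι, hPm.map _, ?_⟩
      rw [Polynomial.eval₂_map]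
      have hcomp : (algebraMap (algebraicClosure (adjoin K {jqModC K}) (LaurentSeries K))
          (LaurentSeries K)).comp ι = (modularFunctionFieldFullC K L).val.toRingHom := by
        ext z; rfl
      rw [hcomp]
      exact hPr
    have h2 : IsIntegral (adjoin K {jqModC K}) (sS K M H 1) := isIntegral_trans _ hint
    exact mem_algebraicClosure_iff.mpr h2.isAlgebraic

/-- `ℚ` is algebraic over `ℚ` (for the `DivisionRing` algebra structure) -/
theorem k7fres_isAlgebraic_rat : Algebra.IsAlgebraic ℚ ℚ :=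
  ⟨fun x => ⟨Polynomial.X - Polynomial.C x, Polynomial.X_sub_C_ne_zero x, by simp⟩⟩

/-- characteristic `0`, `K = ℚ` -/
theorem k7fres_fieldC_rat_isAlgebraic (L M : ℕ) (H : Subgroup (ZMod M)ˣ) (hL : L ≠ 0)
    (hML : M ∣ L) (x : LaurentSeries ℚ) (hx : x ∈ fieldC ℚ L M H) :
    IsAlgebraic (adjoin ℚ {jqModC ℚ}) x := by
  haveI := k7fres_isAlgebraic_rat
  exact mem_algebraicClosure_iff.mp (k7fres_fieldC_char0_le ℚ L M H hL hML hx)

/-- the set of generators of `fieldC k L M H` is finite -/
theorem k7fres_gens_finite (k : Type*) [Field k] (L M : ℕ) (H : Subgroup (ZMod M)ˣ)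
    (hL : L ≠ 0) (hML : M ∣ L) :
    (divisorExpansionsC k L ∪ diamondExpansionsC k L M H).Finite := by
  classical
  have hM0 : M ≠ 0 := fun h => hL (by rw [h] at hML; exact Nat.eq_zero_of_zero_dvd hML)
  haveI : NeZero M := ⟨hM0⟩
  refine Set.Finite.union ?_ ?_
  · refine Set.Finite.subset ((Finset.finite_toSet L.divisors).image (fun d => intJd k d)) ?_
    intro x hx
    obtain ⟨d, hd, rfl⟩ := Fermat.Agent.INJ.bgFin_mem_divisorExpansionsC k L hx
    exact ⟨d, Finset.mem_coe.mpr (Nat.mem_divisors.mpr ⟨hd, hL⟩), rfl⟩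
  · refine Set.Finite.subset
      (((Finset.finite_toSet L.divisors).prod (Set.finite_univ (α := (ZMod M)ˣ))).image
        (fun ea : ℕ × (ZMod M)ˣ =>
          if h : ea.1 = 0 then (0 : LaurentSeries k)
          else @qExpand k _ ea.1 ⟨h⟩ (sS k M H ea.2))) ?_
    rintro x ⟨e, he, a, heL, rfl⟩
    refine ⟨(e, a), ⟨?_, Set.mem_univ _⟩, ?_⟩
    · exact Finset.mem_coe.mpr (Nat.mem_divisors.mpr ⟨(Dvd.intro _ rfl).trans heL, hL⟩)
    · simp only [dif_neg he.out]

section Fin

variable (k : Type*) [Field k] (p : ℕ) [Fact p.Prime] [CharP k p]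
variable (L M : ℕ) (H : Subgroup (ZMod M)ˣ)

include p

/-- characteristic `p`: every element of `fieldC k L M H` is algebraic over `k(j̄)` -/
theorem k7fres_fieldC_le (hL : L ≠ 0) (hML : M ∣ L) :
    fieldC k L M H ≤
      (algebraicClosure (adjoin k {jqModC k}) (LaurentSeries k)).restrictScalars k := by
  rw [fieldC, IntermediateField.adjoin_le_iff]
  rintro x (hx | ⟨e, he, a, heL, rfl⟩)
  · exact k7fres_full_le_algClosure k L hL (IntermediateField.subset_adjoin k _ hx)
  · show _ ∈ algebraicClosure (adjoin k {jqModC k}) (LaurentSeries k)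
    rw [mem_algebraicClosure_iff]
    have h1 : qExpand k e (sS k M H a) =
        coeffMap (Int.castRingHom k) (qExpand ℤ e (sS ℤ M H a)) :=
      (es1f_coeffMap_qExpand_sS (Int.castRingHom k) M H a e).symm
    rw [h1]
    apply k7fres_red_isAlgebraic p k
    rw [es1f_coeffMap_qExpand_sS]
    exact k7fres_fieldC_rat_isAlgebraic L M H hL hML _ (qExpand_sS_mem ℚ L M H heL a)

/-- **`F̄_H` is finite over `k(j̄)`.** -/
theorem k7fres_finiteDimensional (hL : L ≠ 0) (hML : M ∣ L) (J : ↥(fieldC k L M H))
    (hJ : (J : LaurentSeries k) = jqModC k) :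
    FiniteDimensional k⟮J⟯ ↥(fieldC k L M H) := by
  have hGF : divisorExpansionsC k L ∪ diamondExpansionsC k L M H ⊆
      ((fieldC k L M H : IntermediateField k (LaurentSeries k)) : Set (LaurentSeries k)) :=
    fun x hx => IntermediateField.subset_adjoin k _ hx
  refine Fermat.Agent.INJ.bgFin_of_generators J
    {x : ↥(fieldC k L M H) | (x : LaurentSeries k) ∈
      divisorExpansionsC k L ∪ diamondExpansionsC k L M H} ?_ ?_ ?_
  · exact (k7fres_gens_finite k L M H hL hML).preimage Subtype.val_injective.injOn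
  · intro y _
    apply k7fres_isAlgebraic_subtype
    rw [hJ]
    exact mem_algebraicClosure_iff.mp (k7fres_fieldC_le k p L M H hL hML y.2)
  · rw [eq_top_iff, ← Fermat.Agent.INJ.bgFin_adjoin_subtype_eq_top (fieldC k L M H) _ hGF le_rfl]
    exact IntermediateField.adjoin.mono k _ _ (Set.subset_insert _ _)

end Fin

end Fermat.Agent.RT.K7F
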